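/-
S52 (3–5 switch), chunk B1-spec (helper3), file 1: **the function field `ℚ̄(t)` and its rational places**.

* `regAt a` : the valuation subring of `RatFunc ℚ̄` of functions regular at `t = a` (`a : ℚ̄`);
* `evAt a : regAt a →+* ℚ̄` : evaluation at `a`; `evAt_div` : value of `p / q` when `q(a) ≠ 0`;
* `resEquiv a : κ(regAt a) ≃+* ℚ̄` with `resEquiv a (res x) = evAt a x`;
* `galL σ : RatFunc ℚ̄ ≃+* RatFunc ℚ̄` : the coefficientwise action of `σ ∈ G_ℚ`, it preserves `regAt a`
  for `σ a = a` and commutes with evaluation.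
Mathlib only.
-/
import Mathlib

set_option autoImplicit false

open Polynomial

namespace Fermat.Agent.S52x.Spec3

local notation "Qb" => AlgebraicClosure ℚ
local notation "GQ" => (AlgebraicClosure ℚ ≃ₐ[ℚ] AlgebraicClosure ℚ)

/-- The valuation subring of `ℚ̄(t)` of rational functions regular at `t = a`. -/
noncomputable def regAt (a : Qb) : ValuationSubring (RatFunc Qb) where
  carrier := {f | (RatFunc.denom f).eval a ≠ 0}
  mul_mem' := by
    intro x y hx hy
    simp only [Set.mem_ofPred_eq] at hx hy ⊢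
    intro h0
    have := Polynomial.eval_eq_zero_of_dvd_of_eval_eq_zero (RatFunc.denom_mul_dvd x y) h0
    rw [Polynomial.eval_mul] at this
    rcases mul_eq_zero.mp this with h | h
    · exact hx h
    · exact hy h
  one_mem' := by simp
  add_mem' := by
    intro x y hx hy
    simp only [Set.mem_ofPred_eq] at hx hy ⊢
    intro h0
    have := Polynomial.eval_eq_zero_of_dvd_of_eval_eq_zero (RatFunc.denom_add_dvd x y) h0
    rw [Polynomial.eval_mul] at this
    rcases mul_eq_zero.mp this with h | h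
    · exact hx h
    · exact hy h
  zero_mem' := by simp
  neg_mem' := by
    intro x hx
    simp only [Set.mem_ofPred_eq] at hx ⊢
    intro h0
    have h1 : -x = RatFunc.C (-1) * x := by simp
    have := Polynomial.eval_eq_zero_of_dvd_of_eval_eq_zero (RatFunc.denom_mul_dvd (RatFunc.C (-1)) x)
      (h1 ▸ h0)
    rw [Polynomial.eval_mul, RatFunc.denom_C] at this
    simp at this
    exact hx this
  mem_or_inv_mem' := by
    intro x
    by_cases hx : (RatFunc.denom x).eval a = 0
    · right
      have hx0 : x ≠ 0 := by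
        rintro rfl
        simp at hx
      simp only [Set.mem_ofPred_eq]
      intro h0
      have h1 := Polynomial.eval_eq_zero_of_dvd_of_eval_eq_zero (RatFunc.denom_inv_dvd hx0) h0
      obtain ⟨u, v, huv⟩ := RatFunc.isCoprime_num_denom x
      have := congrArg (Polynomial.eval a) huv
      simp [Polynomial.eval_add, Polynomial.eval_mul, h1, hx] at this
    · left
      exact hx

theorem mem_regAt {a : Qb} {f : RatFunc Qb} : f ∈ regAt a ↔ (RatFunc.denom f).eval a ≠ 0 :=
  Iff.rfl

theorem algebraMap_mem_regAt (a : Qb) (p : Qb[X]) : algebraMap Qb[X] (RatFunc Qb) p ∈ regAt a := by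
  rw [mem_regAt, RatFunc.denom_algebraMap]
  simp

theorem div_mem_regAt {a : Qb} (p : Qb[X]) {q : Qb[X]} (hq : q.eval a ≠ 0) :
    algebraMap Qb[X] (RatFunc Qb) p / algebraMap Qb[X] (RatFunc Qb) q ∈ regAt a := by
  rw [mem_regAt]
  intro h0
  exact hq (Polynomial.eval_eq_zero_of_dvd_of_eval_eq_zero (RatFunc.denom_div_dvd p q) h0)

/-- Evaluation at `a` on the functions regular at `a`. -/
noncomputable def evAt (a : Qb) : regAt a →+* Qb where
  toFun f := RatFunc.eval (RingHom.id Qb) a f.1
  map_one' := by simp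
  map_mul' x y := by
    have hx := x.2
    have hy := y.2
    rw [mem_regAt] at hx hy
    exact RatFunc.eval_mul (RingHom.id Qb) a (by simpa [Polynomial.eval₂_id] using hx)
      (by simpa [Polynomial.eval₂_id] using hy)
  map_zero' := by simp
  map_add' x y := by
    have hx := x.2
    have hy := y.2
    rw [mem_regAt] at hx hy
    exact RatFunc.eval_add (RingHom.id Qb) a (by simpa [Polynomial.eval₂_id] using hx)
      (by simpa [Polynomial.eval₂_id] using hy)

theorem evAt_apply (a : Qb) (f : regAt a) :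
    evAt a f = (RatFunc.num f.1).eval a / (RatFunc.denom f.1).eval a := by
  simp [evAt, RatFunc.eval, Polynomial.eval₂_id]

theorem evAt_algebraMap (a : Qb) (p : Qb[X]) :
    evAt a ⟨algebraMap Qb[X] (RatFunc Qb) p, algebraMap_mem_regAt a p⟩ = p.eval a := by
  simp [evAt_apply]

/-- The value at `a` of a quotient `p / q` with `q(a) ≠ 0`. -/
theorem evAt_div {a : Qb} (p : Qb[X]) {q : Qb[X]} (hq : q.eval a ≠ 0) :
    evAt a ⟨_, div_mem_regAt p hq⟩ = p.eval a / q.eval a := by
  have hq0 : q ≠ 0 := by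
    rintro rfl
    simp at hq
  have hq1 : algebraMap Qb[X] (RatFunc Qb) q ≠ 0 := by
    simpa using hq0
  have h1 : (⟨_, div_mem_regAt p hq⟩ : regAt a) * ⟨_, algebraMap_mem_regAt a q⟩ =
      ⟨_, algebraMap_mem_regAt a p⟩ := by
    apply Subtype.ext
    show algebraMap Qb[X] (RatFunc Qb) p / algebraMap Qb[X] (RatFunc Qb) q *
      algebraMap Qb[X] (RatFunc Qb) q = algebraMap Qb[X] (RatFunc Qb) p
    field_simp
  have h2 := congrArg (evAt a) h1
  rw [map_mul, evAt_algebraMap, evAt_algebraMap] at h2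
  rw [eq_div_iff hq]
  exact h2

theorem evAt_C (a c : Qb) :
    evAt a ⟨RatFunc.C c, by rw [← RatFunc.algebraMap_C]; exact algebraMap_mem_regAt a _⟩ = c := by
  simp [evAt]

/-- a regular function with nonzero value is a unit of `regAt a`. -/
theorem isUnit_of_evAt_ne_zero {a : Qb} {f : regAt a} (h : evAt a f ≠ 0) : IsUnit f := by
  have hf0 : (f : RatFunc Qb) ≠ 0 := by
    intro h0
    apply h
    have : f = 0 := Subtype.ext h0
    rw [this, map_zero]
  have hnum : (RatFunc.num f.1).eval a ≠ 0 := by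
    intro h0
    apply h
    rw [evAt_apply, h0, zero_div]
  have hinv : (f : RatFunc Qb)⁻¹ ∈ regAt a := by
    rw [mem_regAt]
    intro h0
    exact hnum (Polynomial.eval_eq_zero_of_dvd_of_eval_eq_zero (RatFunc.denom_inv_dvd hf0) h0)
  refine ⟨⟨f, ⟨_, hinv⟩, ?_, ?_⟩, rfl⟩
  · apply Subtype.ext
    show (f : RatFunc Qb) * (f : RatFunc Qb)⁻¹ = 1
    exact mul_inv_cancel₀ hf0
  · apply Subtype.ext
    show (f : RatFunc Qb)⁻¹ * (f : RatFunc Qb) = 1
    exact inv_mul_cancel₀ hf0

instance (a : Qb) : IsLocalHom (evAt a) :=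
  ⟨fun _ h => isUnit_of_evAt_ne_zero h.ne_zero⟩

/-- The residue field of `regAt a` is `ℚ̄`, via evaluation at `a`. -/
noncomputable def resHom (a : Qb) : IsLocalRing.ResidueField (regAt a) →+* Qb :=
  IsLocalRing.ResidueField.lift (evAt a)

theorem resHom_residue (a : Qb) (f : regAt a) :
    resHom a (IsLocalRing.residue (regAt a) f) = evAt a f :=
  IsLocalRing.ResidueField.lift_residue_apply _ _

theorem resHom_bijective (a : Qb) : Function.Bijective (resHom a) := by
  refine ⟨(resHom a).injective, fun c => ?_⟩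
  refine ⟨IsLocalRing.residue (regAt a) ⟨RatFunc.C c, ?_⟩, ?_⟩
  · rw [← RatFunc.algebraMap_C]; exact algebraMap_mem_regAt a _
  · rw [resHom_residue, evAt_C]

noncomputable instance instCharZeroResidue (a : Qb) :
    CharZero (IsLocalRing.ResidueField (regAt a)) :=
  (resHom a).charZero

/-- The residue field of `regAt a` as a `ℚ`-algebra is `ℚ̄`. -/
noncomputable def resEquiv (a : Qb) : IsLocalRing.ResidueField (regAt a) ≃ₐ[ℚ] Qb :=
  AlgEquiv.ofBijective (resHom a).toRatAlgHom (resHom_bijective a)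

theorem resEquiv_residue (a : Qb) (f : regAt a) :
    resEquiv a (IsLocalRing.residue (regAt a) f) = evAt a f :=
  resHom_residue a f

/-! ### The Galois action on the function field -/

/-- The coefficientwise action of `σ ∈ G_ℚ` on `ℚ̄(t)`. -/
noncomputable def galL (σ : GQ) : RatFunc Qb ≃+* RatFunc Qb :=
  IsFractionRing.ringEquivOfRingEquiv (Polynomial.mapEquiv σ.toRingEquiv)

theorem galL_algebraMap (σ : GQ) (p : Qb[X]) :
    galL σ (algebraMap Qb[X] (RatFunc Qb) p) =
      algebraMap Qb[X] (RatFunc Qb) (p.map (σ : Qb →+* Qb)) := by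
  unfold galL
  rw [IsFractionRing.ringEquivOfRingEquiv_algebraMap]
  rfl

theorem galL_div (σ : GQ) (p q : Qb[X]) :
    galL σ (algebraMap Qb[X] (RatFunc Qb) p / algebraMap Qb[X] (RatFunc Qb) q) =
      algebraMap Qb[X] (RatFunc Qb) (p.map (σ : Qb →+* Qb)) /
        algebraMap Qb[X] (RatFunc Qb) (q.map (σ : Qb →+* Qb)) := by
  rw [map_div₀, galL_algebraMap, galL_algebraMap]

/-- `galL σ` preserves regularity at a point fixed by `σ`, and commutes with evaluation. -/
theorem galL_mem_regAt {σ : GQ} {a : Qb} (ha : σ a = a) {f : RatFunc Qb} (hf : f ∈ regAt a) :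
    galL σ f ∈ regAt a := by
  rw [← RatFunc.num_div_denom f, galL_div]
  apply div_mem_regAt
  rw [mem_regAt] at hf
  have : ((RatFunc.denom f).map (σ : Qb →+* Qb)).eval a = σ ((RatFunc.denom f).eval a) := by
    conv_lhs => rw [← ha]
    rw [Polynomial.eval_map]
    exact Polynomial.eval₂_at_apply _ _
  rw [this]
  simpa using hf

theorem eval_map_gal (σ : GQ) {a : Qb} (ha : σ a = a) (p : Qb[X]) :
    (p.map (σ : Qb →+* Qb)).eval a = σ (p.eval a) := by
  conv_lhs => rw [← ha]
  rw [Polynomial.eval_map]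
  exact Polynomial.eval₂_at_apply _ _

theorem evAt_galL {σ : GQ} {a : Qb} (ha : σ a = a) {f : RatFunc Qb} (hf : f ∈ regAt a) :
    evAt a ⟨galL σ f, galL_mem_regAt ha hf⟩ = σ (evAt a ⟨f, hf⟩) := by
  have hd : (RatFunc.denom f).eval a ≠ 0 := hf
  have hd' : ((RatFunc.denom f).map (σ : Qb →+* Qb)).eval a ≠ 0 := by
    rw [eval_map_gal σ ha]
    simpa using hd
  have h1 : galL σ f = algebraMap Qb[X] (RatFunc Qb) ((RatFunc.num f).map (σ : Qb →+* Qb)) /
      algebraMap Qb[X] (RatFunc Qb) ((RatFunc.denom f).map (σ : Qb →+* Qb)) := by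
    conv_lhs => rw [← RatFunc.num_div_denom f]
    exact galL_div σ _ _
  have h2 : (⟨galL σ f, galL_mem_regAt ha hf⟩ : regAt a) = ⟨_, div_mem_regAt _ hd'⟩ :=
    Subtype.ext h1
  rw [h2, evAt_div _ hd', eval_map_gal σ ha, eval_map_gal σ ha, evAt_apply, map_div₀]

end Fermat.Agent.S52x.Spec3
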