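/-
S52 (3–5 switch), chunk B1-spec (helper3), file 2: **specialisation of points of a family**.

`Wt` a Weierstrass curve over `ℚ[t]`, `a : ℚ` with `Δ(Wt)(a) ≠ 0`.  The specialisation homomorphism
`E_t(ℚ̄(t)) →+ E_a(ℚ̄)` (reduction at the place `t = a`, `Red9`), is `G_ℚ`-equivariant and injective
on torsion.
-/
import Mathlib
import Fermat.Prelude.Def_FLTPrelim_GaloisRep
import Fermat.Agent.ES.Q58.Red9Gal
import Fermat.Agent.S52x.Spec3Field

set_option autoImplicit false
set_option linter.style.haveILetI false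

open Polynomial WeierstrassCurve WeierstrassCurve.Affine WeierstrassCurve.Affine.Point
open Fermat.Agent.S05.Kernel Fermat.Agent.ES.Q58.Red9

namespace Fermat.Agent.S52x.Spec3

local notation "Qb" => AlgebraicClosure ℚ
local notation "GQ" => (AlgebraicClosure ℚ ≃ₐ[ℚ] AlgebraicClosure ℚ)

/-- The inclusion `ℚ[t] → ℚ̄(t)`. -/
noncomputable def iotaX : ℚ[X] →+* RatFunc Qb :=
  (algebraMap Qb[X] (RatFunc Qb)).comp (Polynomial.mapRingHom (algebraMap ℚ Qb))

/-- `ℚ̄(t)` as a `ℚ[t]`-algebra. -/
noncomputable scoped instance algQXL : Algebra ℚ[X] (RatFunc Qb) := iotaX.toAlgebra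

noncomputable scoped instance decEqL : DecidableEq (RatFunc Qb) := Classical.decEq _

theorem algebraMap_QX_apply (p : ℚ[X]) :
    algebraMap ℚ[X] (RatFunc Qb) p = algebraMap Qb[X] (RatFunc Qb) (p.map (algebraMap ℚ Qb)) :=
  rfl

/-- The coefficientwise action of `σ ∈ G_ℚ` on `ℚ̄(t)`, as a `ℚ[t]`-algebra automorphism. -/
noncomputable def galLAlg (σ : GQ) : RatFunc Qb ≃ₐ[ℚ[X]] RatFunc Qb :=
  AlgEquiv.ofRingEquiv (f := galL σ) (by
    intro p
    rw [algebraMap_QX_apply, galL_algebraMap, Polynomial.map_map]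
    congr 2
    ext q
    exact σ.commutes q)

@[simp] theorem galLAlg_apply (σ : GQ) (x : RatFunc Qb) : galLAlg σ x = galL σ x := rfl

theorem galL_inv_galL (σ : GQ) (x : RatFunc Qb) : galL σ⁻¹ (galL σ x) = x := by
  rw [← RatFunc.num_div_denom x, galL_div, galL_div, Polynomial.map_map, Polynomial.map_map]
  have : ((σ⁻¹ : GQ) : Qb →+* Qb).comp (σ : Qb →+* Qb) = RingHom.id Qb := by
    ext q
    show σ⁻¹ (σ q) = q
    exact σ.symm_apply_apply q
  rw [this, Polynomial.map_id, Polynomial.map_id]

section Spec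

variable (Wt : WeierstrassCurve ℚ[X]) (a : ℚ)

/-- **Specialisation homomorphism** at `t = a` for a family with good reduction at `a`. -/
theorem exists_specHom (hΔ : (Wt.map (Polynomial.evalRingHom a)).Δ ≠ 0) :
    ∃ f : (Wt⁄(RatFunc Qb)).Point →+ ((Wt.map (Polynomial.evalRingHom a))⁄Qb).Point,
      (∀ (σ : GQ) (P : (Wt⁄(RatFunc Qb)).Point), f (galLAlg σ • P) = σ • f P) ∧
      (∀ (n : ℕ) (P : (Wt⁄(RatFunc Qb)).Point), n ≠ 0 → n • P = 0 → f P = 0 → P = 0) := by
  classical
  set a' : Qb := algebraMap ℚ Qb a with ha'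
  set A : ValuationSubring (RatFunc Qb) := regAt a' with hA
  have hfix : ∀ σ : GQ, σ a' = a' := fun σ => σ.commutes a
  -- the model over `A`
  let jA : ℚ[X] →+* A := RingHom.codRestrict iotaX A.toSubring
    (fun p => algebraMap_mem_regAt a' _)
  set WA : WeierstrassCurve A := Wt.map jA with hWA
  have hL : WL WA = Wt⁄(RatFunc Qb) := by
    show (Wt.map jA).map A.subtype = Wt.map (algebraMap ℚ[X] (RatFunc Qb))
    rw [WeierstrassCurve.map_map]
    rfl
  have hcomp : (res A).comp jA = (algebraMap ℚ (kap A)).comp (Polynomial.evalRingHom a) := by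
    ext p
    · apply (resHom a').injective
      show resHom a' (res A (jA (Polynomial.C p))) = resHom a' (algebraMap ℚ (kap A) (Polynomial.eval a (Polynomial.C p)))
      rw [resHom_residue]
      have : jA (Polynomial.C p) = ⟨algebraMap Qb[X] (RatFunc Qb) (Polynomial.C (algebraMap ℚ Qb p)),
          algebraMap_mem_regAt a' _⟩ := by
        apply Subtype.ext
        show algebraMap Qb[X] (RatFunc Qb) ((Polynomial.C p).map (algebraMap ℚ Qb)) = _
        rw [Polynomial.map_C]
      rw [this, evAt_algebraMap, Polynomial.eval_C, Polynomial.eval_C, eq_ratCast, eq_ratCast,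
        map_ratCast]
    · apply (resHom a').injective
      show resHom a' (res A (jA Polynomial.X)) = resHom a' (algebraMap ℚ (kap A) (Polynomial.eval a Polynomial.X))
      rw [resHom_residue]
      have : jA Polynomial.X = ⟨algebraMap Qb[X] (RatFunc Qb) Polynomial.X,
          algebraMap_mem_regAt a' _⟩ := by
        apply Subtype.ext
        show algebraMap Qb[X] (RatFunc Qb) ((Polynomial.X).map (algebraMap ℚ Qb)) = _
        rw [Polynomial.map_X]
      rw [this, evAt_algebraMap, Polynomial.eval_X, Polynomial.eval_X, eq_ratCast, map_ratCast,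
        ha', eq_ratCast]
  have hk : Wk WA = (Wt.map (Polynomial.evalRingHom a))⁄(kap A) := by
    show (Wt.map jA).map (res A) = (Wt.map (Polynomial.evalRingHom a)).map (algebraMap ℚ (kap A))
    rw [WeierstrassCurve.map_map, WeierstrassCurve.map_map, hcomp]
  have hΔ' : ((Wt.map (Polynomial.evalRingHom a))⁄(kap A)).Δ ≠ 0 := by
    show ((Wt.map (Polynomial.evalRingHom a)).map (algebraMap ℚ (kap A))).Δ ≠ 0
    rw [WeierstrassCurve.map_Δ]
    exact (map_ne_zero_iff _ (algebraMap ℚ (kap A)).injective).mpr hΔ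
  obtain ⟨f, hf1, hf2, hf3, hint⟩ := exists_redHom A _ _ WA hL hk hΔ'
  let e : kap A →ₐ[ℚ] Qb := (resEquiv a').toAlgHom
  have he : ∀ x : A, e (res A x) = evAt a' x := fun x => resEquiv_residue a' x
  refine ⟨(Point.map (W' := Wt.map (Polynomial.evalRingHom a)) e).comp f, ?_, ?_⟩
  · -- equivariance
    intro σ P
    simp only [AddMonoidHom.comp_apply]
    rcases P with _ | ⟨x, y, h⟩
    · have h0 : galLAlg σ • (Point.zero : (Wt⁄(RatFunc Qb)).Point) = 0 := rfl
      have h1 : (Point.zero : (Wt⁄(RatFunc Qb)).Point) = 0 := rfl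
      rw [h0, h1, _root_.map_zero, _root_.map_zero]
      rfl
    · rw [algEquiv_smul_def, Point.map_some]
      by_cases hx : x ∈ A
      · have hy : y ∈ A := y_mem_of_x_mem' hint h.1 hx
        obtain ⟨h', e1⟩ := hf1 ⟨x, hx⟩ ⟨y, hy⟩ h
        rw [e1, Point.map_some, algEquiv_smul_def, Point.map_some]
        have hsx : galL σ x ∈ A := galL_mem_regAt (hfix σ) hx
        have hsy : galL σ y ∈ A := galL_mem_regAt (hfix σ) hy
        have hgen : ∀ (hq : (Wt⁄(RatFunc Qb)).Nonsingular (galL σ x) (galL σ y)),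
            ∃ hq', (Point.map (W' := Wt.map (Polynomial.evalRingHom a)) e)
              (f (Point.some _ _ hq)) =
              Point.some (σ (e (res A ⟨x, hx⟩))) (σ (e (res A ⟨y, hy⟩))) hq' := by
          intro hq
          obtain ⟨h'', e2⟩ := hf1 ⟨galL σ x, hsx⟩ ⟨galL σ y, hsy⟩ hq
          rw [e2, Point.map_some]
          have hX : e (res A ⟨galL σ x, hsx⟩) = σ (e (res A ⟨x, hx⟩)) := by
            rw [he, he]; exact evAt_galL (hfix σ) hx
          have hY : e (res A ⟨galL σ y, hsy⟩) = σ (e (res A ⟨y, hy⟩)) := by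
            rw [he, he]; exact evAt_galL (hfix σ) hy
          refine ⟨?_, ?_⟩
          · rw [← hX, ← hY]
            exact (baseChange_nonsingular _ e.injective ..).mpr h''
          · simp only [Point.some.injEq]
            exact ⟨hX, hY⟩
        obtain ⟨hq', e3⟩ := hgen ((baseChange_nonsingular _ (galLAlg σ).toAlgHom.injective ..).mpr h)
        exact e3
      · have hsx : (galLAlg σ).toAlgHom x ∉ A := by
          intro hmem
          apply hx
          have := galL_mem_regAt (hfix σ⁻¹) hmem
          rwa [show galL σ⁻¹ ((galLAlg σ).toAlgHom x) = x from galL_inv_galL σ x] at this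
        rw [hf2 _ _ _ hsx, hf2 _ _ h hx, _root_.map_zero]
        rfl
  · -- injectivity on torsion
    intro n P hn hnP hfP
    simp only [AddMonoidHom.comp_apply] at hfP
    have h0 : f P = 0 := by
      apply Point.map_injective (W' := Wt.map (Polynomial.evalRingHom a)) e
      rw [hfP, _root_.map_zero]
    have hE1 := (hf3 P).mp h0
    have hvn : A.valuation ((n : ℕ) : RatFunc Qb) = 1 := by
      have hmem : ((n : ℕ) : RatFunc Qb) ∈ A := by
        have : ((n : ℕ) : RatFunc Qb) = algebraMap Qb[X] (RatFunc Qb) (n : Qb[X]) := by simp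
        rw [this]; exact algebraMap_mem_regAt a' _
      have hne : evAt a' ⟨_, hmem⟩ ≠ 0 := by
        have : (⟨((n : ℕ) : RatFunc Qb), hmem⟩ : A) = ((n : ℕ) : A) := by
          apply Subtype.ext; simp
        rw [this, map_natCast]
        exact_mod_cast hn
      have hu := isUnit_of_evAt_ne_zero hne
      exact (ValuationSubring.valuation_eq_one_iff A ⟨_, hmem⟩).mp hu
    exact eq_zero_of_nsmul_eq_zero hint hE1 hvn hnP

end Spec

end Fermat.Agent.S52x.Spec3
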