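/-
S52 (3–5 switch), chunk B1-spec (helper3), file 3: **the `a_ℓ` congruence from a family with one
polynomial 5-torsion point**.

`five_dvd_apOfModel_sub_of_family` : `W`, `W'` integral models (with the Eichler–Shimura relation
`RelQbar`) whose `c₄, c₆` are the values at `t = 0`, `t = t₀` of polynomials `C4, C6 ∈ ℚ[t]`, and
`(Xp, Yp) ∈ ℚ̄[t]²` a point of `y² = x³ - 27 C4 x - 54 C6` killed by the 5-division polynomial.
Then `5 ∣ a_ℓ(W') - a_ℓ(W)` for all common good primes `ℓ ≠ 5`.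
-/
import Mathlib
import Fermat.Agent.S52x.Spec3Red
import Fermat.Agent.DivPoly.TorsionFinal
import Fermat.Agent.S05.TransportQ
import Fermat.Agent.ES.Q58.TraceCong20
import Fermat.Agent.Lib.FrobeniusExists

set_option autoImplicit false
set_option linter.style.haveILetI false

open Polynomial WeierstrassCurve WeierstrassCurve.Affine WeierstrassCurve.Affine.Point

namespace Fermat.Agent.S52x.Spec3

local notation "Qb" => AlgebraicClosure ℚ
local notation "GQ" => (AlgebraicClosure ℚ ≃ₐ[ℚ] AlgebraicClosure ℚ)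

/-- The 5-division polynomial of `y² = x³ + A x + B`, as a raw expression. -/
def psi5 {R : Type*} [CommRing R] (A B x : R) : R :=
  5 * x ^ 12 + 62 * A * x ^ 10 + 380 * B * x ^ 9 - 105 * A ^ 2 * x ^ 8 + 240 * A * B * x ^ 7
    - (300 * A ^ 3 + 240 * B ^ 2) * x ^ 6 - 696 * A ^ 2 * B * x ^ 5
    - (125 * A ^ 4 + 1920 * A * B ^ 2) * x ^ 4 - (80 * A ^ 3 * B + 1600 * B ^ 3) * x ^ 3
    - (50 * A ^ 5 + 240 * A ^ 2 * B ^ 2) * x ^ 2 - (100 * A ^ 4 * B + 640 * A * B ^ 3) * x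
    + (A ^ 6 - 32 * A ^ 3 * B ^ 2 - 256 * B ^ 4)

/-- The short Weierstrass curve `y² = x³ + A x + B`. -/
def shortAB {R : Type*} [CommRing R] (A B : R) : WeierstrassCurve R := ⟨0, 0, 0, A, B⟩

theorem eval_preΨ'_five_shortAB {F : Type*} [Field F] (A B x : F) :
    ((shortAB A B).preΨ' 5).eval x = psi5 A B x := by
  have h5 : (shortAB A B).preΨ' 5 = (shortAB A B).preΨ₄ * (shortAB A B).Ψ₂Sq ^ 2
      - (shortAB A B).Ψ₃ ^ 3 := by
    have := (shortAB A B).preΨ'_odd 0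
    simpa using this
  rw [h5]
  simp only [WeierstrassCurve.preΨ₄, WeierstrassCurve.Ψ₂Sq, WeierstrassCurve.Ψ₃,
    WeierstrassCurve.b₂, WeierstrassCurve.b₄, WeierstrassCurve.b₆, WeierstrassCurve.b₈, shortAB,
    psi5, eval_add, eval_sub, eval_mul, eval_pow, eval_C, eval_X, eval_ofNat]
  ring

/-- The variable change bringing a Weierstrass curve over `ℚ` to its short form. -/
noncomputable def toShortVC (W : WeierstrassCurve ℚ) : VariableChange ℚ :=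
  ⟨Units.mk0 (1 / 6) (by norm_num), -W.b₂ / 12, -W.a₁ / 2, -W.a₃ / 2 + W.a₁ * W.b₂ / 24⟩

theorem shortAB_eq_smul (W : WeierstrassCurve ℚ) :
    shortAB (-27 * W.c₄) (-54 * W.c₆) = toShortVC W • W := by
  ext
  · simp only [variableChange_a₁, shortAB, toShortVC, Units.val_mk0, Units.val_inv_eq_inv_val]
    ring
  · simp only [variableChange_a₂, shortAB, toShortVC, Units.val_mk0, Units.val_inv_eq_inv_val,
      WeierstrassCurve.b₂]
    ring
  · simp only [variableChange_a₃, shortAB, toShortVC, Units.val_mk0, Units.val_inv_eq_inv_val,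
      WeierstrassCurve.b₂]
    ring
  · simp only [variableChange_a₄, shortAB, toShortVC, Units.val_mk0, Units.val_inv_eq_inv_val,
      WeierstrassCurve.b₂, WeierstrassCurve.c₄, WeierstrassCurve.b₄]
    ring
  · simp only [variableChange_a₆, shortAB, toShortVC, Units.val_mk0, Units.val_inv_eq_inv_val,
      WeierstrassCurve.b₂, WeierstrassCurve.c₆, WeierstrassCurve.b₄, WeierstrassCurve.b₆]
    ring

theorem shortAB_Δ_ne_zero (W : WeierstrassCurve ℚ) (hΔ : W.Δ ≠ 0) :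
    (shortAB (-27 * W.c₄) (-54 * W.c₆)).Δ ≠ 0 := by
  rw [shortAB_eq_smul, variableChange_Δ]
  exact mul_ne_zero (pow_ne_zero _ (Units.ne_zero _)) hΔ

open Fermat.Agent.ES.Q58.TraceCong20 in
/-- The Eichler–Shimura relation of an integral model `W`, on any `ℚ`-isomorphic model. -/
theorem rel_of_vc (W : WeierstrassCurve ℤ) (hrel : RelQbar W) {Ws : WeierstrassCurve ℚ}
    {C : VariableChange ℚ} (hsh : Ws = C • W.map (Int.castRingHom ℚ))
    {r : ℕ} (hr : r.Prime) (hgood : W.IsGoodPrimeFor r) {m : ℕ} (hm : Odd m) (hrm : ¬ r ∣ m)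
    (P : ValuationSubring Qb) (σ : GQ) (hP : P.LiesOverPrime r) (hσ : P.IsFrobeniusAt σ r)
    (Q : (Ws⁄Qb).Point) (hQ : m • Q = 0) :
    σ • σ • Q - W.apOfModel r • (σ • Q) + r • Q = 0 := by
  let T := Fermat.Agent.S05.TransportQ.pointEquivBC Qb hsh
  have key : ∀ Q' : (Ws⁄Qb).Point, T (σ • Q') = σ • T Q' := by
    intro Q'
    rw [algEquiv_smul_def, algEquiv_smul_def]
    exact Fermat.Agent.S05.TransportQ.pointEquivBC_map hsh σ.toAlgHom Q'
  apply T.injective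
  rw [map_add, map_sub, map_zsmul, map_nsmul, key, key, _root_.map_zero]
  apply hrel r hr hgood m hm hrm P σ hP hσ (T Q)
  rw [← map_nsmul, hQ, _root_.map_zero]

/-- The short curve with `(c₄, c₆)` scaled by `(u⁴, u⁶)` is `ℚ`-isomorphic to `V`. -/
theorem exists_vc_of_scaled (V : WeierstrassCurve ℚ) {u c4 c6 : ℚ} (hu : u ≠ 0)
    (h4 : u ^ 4 * c4 = V.c₄) (h6 : u ^ 6 * c6 = V.c₆) :
    ∃ C : VariableChange ℚ, shortAB (-27 * c4) (-54 * c6) = C • V := by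
  refine ⟨⟨Units.mk0 u hu, 0, 0, 0⟩ * toShortVC V, ?_⟩
  rw [mul_smul, ← shortAB_eq_smul, ← h4, ← h6]
  ext
  · simp only [variableChange_a₁, shortAB, Units.val_mk0, Units.val_inv_eq_inv_val]; ring
  · simp only [variableChange_a₂, shortAB, Units.val_mk0, Units.val_inv_eq_inv_val]; ring
  · simp only [variableChange_a₃, shortAB, Units.val_mk0, Units.val_inv_eq_inv_val]; ring
  · simp only [variableChange_a₄, shortAB, Units.val_mk0, Units.val_inv_eq_inv_val]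
    field_simp
    ring
  · simp only [variableChange_a₆, shortAB, Units.val_mk0, Units.val_inv_eq_inv_val]
    field_simp
    ring

theorem vc_Δ_ne_zero {V Ws : WeierstrassCurve ℚ} {C : VariableChange ℚ} (h : Ws = C • V)
    (hΔ : V.Δ ≠ 0) : Ws.Δ ≠ 0 := by
  rw [h, variableChange_Δ]
  exact mul_ne_zero (pow_ne_zero _ (Units.ne_zero _)) hΔ

theorem algebraMap_QX_injective :
    Function.Injective (algebraMap ℚ[X] (RatFunc Qb)) := by
  intro p q h
  rw [algebraMap_QX_apply, algebraMap_QX_apply] at h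
  have h1 := IsFractionRing.injective Qb[X] (RatFunc Qb) h
  exact Polynomial.map_injective _ (algebraMap ℚ Qb).injective h1

/-- The abstract core: a Frobenius relation transported through two specialisation maps which are
injective on 5-torsion. -/
theorem abstract_core {M M0 M1 : Type*} [AddCommGroup M] [AddCommGroup M0] [AddCommGroup M1]
    (s : M →+ M) (s0 : M0 →+ M0) (s1 : M1 →+ M1) (f0 : M →+ M0) (f1 : M →+ M1)
    (h0 : ∀ P, f0 (s P) = s0 (f0 P)) (h1 : ∀ P, f1 (s P) = s1 (f1 P))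
    (hi0 : ∀ P, 5 • P = 0 → f0 P = 0 → P = 0) (hi1 : ∀ P, 5 • P = 0 → f1 P = 0 → P = 0)
    (a a' : ℤ) (ℓ : ℕ)
    (r0 : ∀ Q : M0, 5 • Q = 0 → s0 (s0 Q) - a • s0 Q + ℓ • Q = 0)
    (r1 : ∀ Q : M1, 5 • Q = 0 → s1 (s1 Q) - a' • s1 Q + ℓ • Q = 0)
    (P : M) (h5 : 5 • P = 0) (hsP : s P ≠ 0) : (5 : ℤ) ∣ a' - a := by
  have h5s : ∀ Q : M, 5 • Q = 0 → 5 • s Q = 0 := by
    intro Q h
    rw [← map_nsmul, h, _root_.map_zero]
  have h5Y : 5 • s P = 0 := h5s P h5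
  have h5YY : 5 • s (s P) = 0 := h5s _ h5Y
  have hZ : ∀ b : ℤ, 5 • (s (s P) - b • s P + ℓ • P) = 0 := by
    intro b
    rw [nsmul_add, nsmul_sub, smul_comm 5 b (s P), smul_comm 5 ℓ P, h5YY, h5Y, h5,
      smul_zero, smul_zero, sub_zero, add_zero]
  have hZ0 : s (s P) - a • s P + ℓ • P = 0 := by
    apply hi0 _ (hZ a)
    rw [map_add, map_sub, map_zsmul, map_nsmul, h0, h0]
    apply r0
    rw [← map_nsmul, h5, _root_.map_zero]
  have hZ1 : s (s P) - a' • s P + ℓ • P = 0 := by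
    apply hi1 _ (hZ a')
    rw [map_add, map_sub, map_zsmul, map_nsmul, h1, h1]
    apply r1
    rw [← map_nsmul, h5, _root_.map_zero]
  have hdiff : (a' - a) • s P = 0 := by
    have e1 : (a' - a) • s P =
        (s (s P) - a • s P + ℓ • P) - (s (s P) - a' • s P + ℓ • P) := by
      rw [sub_smul]; abel
    rw [e1, hZ0, hZ1, sub_zero]
  haveI : Fact (Nat.Prime 5) := ⟨by norm_num⟩
  have hord : addOrderOf (s P) = 5 := addOrderOf_eq_prime h5Y hsP
  have := (addOrderOf_dvd_iff_zsmul_eq_zero).mpr hdiff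
  rw [hord] at this
  exact_mod_cast this

open Fermat.Agent.ES.Q58.TraceCong20 Fermat.Agent.DivPoly.Torsion in
/-- **The `a_ℓ` congruence from a family with one polynomial 5-torsion point** (general form: the
fibres at `0` and `t₀` are `ℚ`-isomorphic to the generic fibres of `W` and `W'`). -/
theorem five_dvd_apOfModel_sub_of_family_vc (W W' : WeierstrassCurve ℤ)
    (hΔ : W.Δ ≠ 0) (hΔ' : W'.Δ ≠ 0) (hrel : RelQbar W) (hrel' : RelQbar W')
    (C4 C6 : ℚ[X]) (Xp Yp : Qb[X])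
    (hcurve : Yp ^ 2 = Xp ^ 3 + (-27 * C4.map (algebraMap ℚ Qb)) * Xp
      + (-54 * C6.map (algebraMap ℚ Qb)))
    (hpsi : psi5 (-27 * C4.map (algebraMap ℚ Qb)) (-54 * C6.map (algebraMap ℚ Qb)) Xp = 0)
    (t₀ : ℚ)
    (h0 : ∃ C : VariableChange ℚ, shortAB (-27 * C4.eval 0) (-54 * C6.eval 0) =
      C • W.map (Int.castRingHom ℚ))
    (h1 : ∃ C : VariableChange ℚ, shortAB (-27 * C4.eval t₀) (-54 * C6.eval t₀) =
      C • W'.map (Int.castRingHom ℚ))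
    (ℓ : ℕ) (hℓ : ℓ.Prime) (hg : W.IsGoodPrimeFor ℓ) (hg' : W'.IsGoodPrimeFor ℓ) (hℓ5 : ℓ ≠ 5) :
    (5 : ℤ) ∣ W'.apOfModel ℓ - W.apOfModel ℓ := by
  set A0 : Qb[X] := -27 * C4.map (algebraMap ℚ Qb) with hA0
  set B0 : Qb[X] := -54 * C6.map (algebraMap ℚ Qb) with hB0
  set Wt : WeierstrassCurve ℚ[X] := shortAB (-27 * C4) (-54 * C6) with hWt
  -- the special fibres
  have hmap : ∀ a : ℚ, Wt.map (Polynomial.evalRingHom a) =
      shortAB (-27 * C4.eval a) (-54 * C6.eval a) := by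
    intro a
    ext <;> simp [hWt, shortAB]
  obtain ⟨Cv0, hCv0⟩ := h0
  obtain ⟨Cv1, hCv1⟩ := h1
  have hW0 : Wt.map (Polynomial.evalRingHom 0) = Cv0 • W.map (Int.castRingHom ℚ) := by
    rw [hmap, hCv0]
  have hW1 : Wt.map (Polynomial.evalRingHom t₀) = Cv1 • W'.map (Int.castRingHom ℚ) := by
    rw [hmap, hCv1]
  have hΔ0 : (Wt.map (Polynomial.evalRingHom 0)).Δ ≠ 0 :=
    vc_Δ_ne_zero hW0 (by rw [WeierstrassCurve.map_Δ]; simpa using hΔ)
  have hΔ1 : (Wt.map (Polynomial.evalRingHom t₀)).Δ ≠ 0 :=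
    vc_Δ_ne_zero hW1 (by rw [WeierstrassCurve.map_Δ]; simpa using hΔ')
  obtain ⟨f0, hf0e, hf0i⟩ := exists_specHom Wt 0 hΔ0
  obtain ⟨f1, hf1e, hf1i⟩ := exists_specHom Wt t₀ hΔ1
  -- the generic fibre and the generic point
  set AL : RatFunc Qb := algebraMap Qb[X] (RatFunc Qb) A0 with hAL
  set BL : RatFunc Qb := algebraMap Qb[X] (RatFunc Qb) B0 with hBL
  have hE : Wt⁄(RatFunc Qb) = shortAB AL BL := by
    show Wt.map (algebraMap ℚ[X] (RatFunc Qb)) = shortAB AL BL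
    ext <;> simp [hWt, shortAB, hAL, hBL, hA0, hB0, algebraMap_QX_apply]
  have hΔt : Wt.Δ ≠ 0 := by
    intro h0
    apply hΔ0
    rw [WeierstrassCurve.map_Δ, h0, _root_.map_zero]
  have hΔL : (Wt⁄(RatFunc Qb)).Δ ≠ 0 := by
    show (Wt.map (algebraMap ℚ[X] (RatFunc Qb))).Δ ≠ 0
    rw [WeierstrassCurve.map_Δ]
    exact (map_ne_zero_iff _ algebraMap_QX_injective).mpr hΔt
  set x : RatFunc Qb := algebraMap Qb[X] (RatFunc Qb) Xp with hx
  set y : RatFunc Qb := algebraMap Qb[X] (RatFunc Qb) Yp with hy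
  have heq : (Wt⁄(RatFunc Qb)).Equation x y := by
    rw [hE, Affine.equation_iff]
    have := congrArg (algebraMap Qb[X] (RatFunc Qb)) hcurve
    simp only [map_add, map_mul, map_pow] at this
    simp only [shortAB]
    rw [← hx, ← hy, ← hAL, ← hBL] at this
    linear_combination this
  have hns : (Wt⁄(RatFunc Qb)).Nonsingular x y :=
    (Affine.equation_iff_nonsingular_of_Δ_ne_zero hΔL).mp heq
  set P : (Wt⁄(RatFunc Qb)).Point := Point.some x y hns with hP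
  have h5P : 5 • P = 0 := by
    rw [hP, nsmul_eq_zero_iff_preΨ' hns (by decide : Odd 5)]
    have h1 : ((Wt⁄(RatFunc Qb)).preΨ' 5).eval x = psi5 AL BL x := by
      rw [hE]
      exact eval_preΨ'_five_shortAB AL BL x
    rw [h1]
    have := congrArg (algebraMap Qb[X] (RatFunc Qb)) hpsi
    simp only [psi5, map_add, map_sub, map_mul, map_pow, map_ofNat, _root_.map_zero] at this
    rw [← hx, ← hAL, ← hBL] at this
    simp only [psi5]
    linear_combination this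
  -- Frobenius
  obtain ⟨𝔓, σ, h𝔓, hσ⟩ := Fermat.Agent.Lib.exists_isFrobeniusAt ℓ hℓ
  have h5ℓ : ¬ ℓ ∣ 5 := by
    intro h
    rcases (Nat.dvd_prime (by norm_num : Nat.Prime 5)).mp h with h1 | h1
    · exact hℓ.one_lt.ne' h1
    · exact hℓ5 h1
  refine abstract_core (Point.map (W' := Wt) (galLAlg σ).toAlgHom)
    (Point.map (W' := Wt.map (Polynomial.evalRingHom 0)) σ.toAlgHom)
    (Point.map (W' := Wt.map (Polynomial.evalRingHom t₀)) σ.toAlgHom) f0 f1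
    (fun Q => hf0e σ Q) (fun Q => hf1e σ Q)
    (fun Q h5 h => hf0i 5 Q (by norm_num) h5 h) (fun Q h5 h => hf1i 5 Q (by norm_num) h5 h)
    (W.apOfModel ℓ) (W'.apOfModel ℓ) ℓ ?_ ?_ P h5P ?_
  · intro Q hQ
    exact rel_of_vc W hrel hW0 hℓ hg (by decide : Odd 5) h5ℓ 𝔓 σ h𝔓 hσ Q hQ
  · intro Q hQ
    exact rel_of_vc W' hrel' hW1 hℓ hg' (by decide : Odd 5) h5ℓ 𝔓 σ h𝔓 hσ Q hQ
  · rw [hP, Point.map_some]
    exact Point.some_ne_zero _

open Fermat.Agent.ES.Q58.TraceCong20 in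
/-- **The `a_ℓ` congruence from a family with one polynomial 5-torsion point**, with scalings:
`(c₄, c₆)(W) = (u₀⁴ C4(0), u₀⁶ C6(0))` and `(c₄, c₆)(W') = (u₁⁴ C4(t₀), u₁⁶ C6(t₀))`. -/
theorem five_dvd_apOfModel_sub_of_family_scaled (W W' : WeierstrassCurve ℤ)
    (hΔ : W.Δ ≠ 0) (hΔ' : W'.Δ ≠ 0) (hrel : RelQbar W) (hrel' : RelQbar W')
    (C4 C6 : ℚ[X]) (Xp Yp : Qb[X])
    (hcurve : Yp ^ 2 = Xp ^ 3 + (-27 * C4.map (algebraMap ℚ Qb)) * Xp
      + (-54 * C6.map (algebraMap ℚ Qb)))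
    (hpsi : psi5 (-27 * C4.map (algebraMap ℚ Qb)) (-54 * C6.map (algebraMap ℚ Qb)) Xp = 0)
    (u₀ : ℚ) (hu₀ : u₀ ≠ 0) (h40 : u₀ ^ 4 * C4.eval 0 = W.c₄) (h60 : u₀ ^ 6 * C6.eval 0 = W.c₆)
    (t₀ u₁ : ℚ) (hu₁ : u₁ ≠ 0) (h4t : u₁ ^ 4 * C4.eval t₀ = W'.c₄)
    (h6t : u₁ ^ 6 * C6.eval t₀ = W'.c₆)
    (ℓ : ℕ) (hℓ : ℓ.Prime) (hg : W.IsGoodPrimeFor ℓ) (hg' : W'.IsGoodPrimeFor ℓ) (hℓ5 : ℓ ≠ 5) :
    (5 : ℤ) ∣ W'.apOfModel ℓ - W.apOfModel ℓ := by
  refine five_dvd_apOfModel_sub_of_family_vc W W' hΔ hΔ' hrel hrel' C4 C6 Xp Yp hcurve hpsi t₀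
    ?_ ?_ ℓ hℓ hg hg' hℓ5
  · exact exists_vc_of_scaled _ hu₀ (by rw [h40, WeierstrassCurve.map_c₄]; simp)
      (by rw [h60, WeierstrassCurve.map_c₆]; simp)
  · exact exists_vc_of_scaled _ hu₁ (by rw [h4t, WeierstrassCurve.map_c₄]; simp)
      (by rw [h6t, WeierstrassCurve.map_c₆]; simp)

open Fermat.Agent.ES.Q58.TraceCong20 in
/-- **The `a_ℓ` congruence from a family with one polynomial 5-torsion point.** -/
theorem five_dvd_apOfModel_sub_of_family (W W' : WeierstrassCurve ℤ)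
    (hΔ : W.Δ ≠ 0) (hΔ' : W'.Δ ≠ 0) (hrel : RelQbar W) (hrel' : RelQbar W')
    (C4 C6 : ℚ[X]) (Xp Yp : Qb[X])
    (hcurve : Yp ^ 2 = Xp ^ 3 + (-27 * C4.map (algebraMap ℚ Qb)) * Xp
      + (-54 * C6.map (algebraMap ℚ Qb)))
    (hpsi : psi5 (-27 * C4.map (algebraMap ℚ Qb)) (-54 * C6.map (algebraMap ℚ Qb)) Xp = 0)
    (h40 : C4.eval 0 = W.c₄) (h60 : C6.eval 0 = W.c₆)
    (t₀ : ℚ) (h4t : C4.eval t₀ = W'.c₄) (h6t : C6.eval t₀ = W'.c₆)
    (ℓ : ℕ) (hℓ : ℓ.Prime) (hg : W.IsGoodPrimeFor ℓ) (hg' : W'.IsGoodPrimeFor ℓ) (hℓ5 : ℓ ≠ 5) :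
    (5 : ℤ) ∣ W'.apOfModel ℓ - W.apOfModel ℓ :=
  five_dvd_apOfModel_sub_of_family_scaled W W' hΔ hΔ' hrel hrel' C4 C6 Xp Yp hcurve hpsi
    1 one_ne_zero (by rw [h40]; ring) (by rw [h60]; ring) t₀ 1 one_ne_zero (by rw [h4t]; ring)
    (by rw [h6t]; ring) ℓ hℓ hg hg' hℓ5

end Fermat.Agent.S52x.Spec3
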