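/-
S52 (3–5 switch), chunk K4 (helper1): **every pair `(a, b)` with `a³ + b² ≠ 0` is a value of the
Klein forms `(H, T)`** over an algebraically closed field of characteristic `0`.

`Hs`, `Ts` are the degree `4` and `6` forms in `(s, w) = (u⁵, v⁵)` with
`Ts² + Hs³ = 1728 s w (s² + 11 s w - w²)⁵`.  Mathlib only.
-/
import Mathlib

set_option autoImplicit false

namespace Fermat.Agent.S52x.KleinPt1

open Polynomial

section Ring

variable {R : Type*} [CommRing R]

/-- the quartic Klein form in `(s, w) = (u⁵, v⁵)`. -/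
def Hs (s w : R) : R := -(s ^ 4 + w ^ 4) + 228 * (s ^ 3 * w - s * w ^ 3) - 494 * s ^ 2 * w ^ 2

/-- the sextic Klein form in `(s, w) = (u⁵, v⁵)`. -/
def Ts (s w : R) : R :=
  (s ^ 6 + w ^ 6) + 522 * (s ^ 5 * w - s * w ^ 5) - 10005 * (s ^ 4 * w ^ 2 + s ^ 2 * w ^ 4)

/-- first component of the covariant `n(p) = (f_v, -f_u)`, divided by `u`. -/
def G1 (s w : R) : R := s ^ 2 + 66 * s * w - 11 * w ^ 2

/-- minus the second component of the covariant `n(p) = (f_v, -f_u)`, divided by `v`. -/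
def G2 (s w : R) : R := 11 * s ^ 2 + 66 * s * w - w ^ 2

theorem syzygy (s w : R) :
    Ts s w ^ 2 + Hs s w ^ 3 = 1728 * s * w * (s ^ 2 + 11 * s * w - w ^ 2) ^ 5 := by
  unfold Hs Ts; ring

theorem Hs_smul (l s w : R) : Hs (l * s) (l * w) = l ^ 4 * Hs s w := by unfold Hs; ring

theorem Ts_smul (l s w : R) : Ts (l * s) (l * w) = l ^ 6 * Ts s w := by unfold Ts; ring

theorem G1_add_G2 (s w : R) : G1 s w + G2 s w = 12 * (s ^ 2 + 11 * s * w - w ^ 2) := by
  unfold G1 G2; ring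

theorem map_Hs {R' : Type*} [CommRing R'] (g : R →+* R') (s w : R) :
    g (Hs s w) = Hs (g s) (g w) := by
  unfold Hs; simp only [map_add, map_sub, map_neg, map_mul, map_pow, map_ofNat]

theorem map_Ts {R' : Type*} [CommRing R'] (g : R →+* R') (s w : R) :
    g (Ts s w) = Ts (g s) (g w) := by
  unfold Ts; simp only [map_add, map_sub, map_mul, map_pow, map_ofNat]

theorem map_G1 {R' : Type*} [CommRing R'] (g : R →+* R') (s w : R) :
    g (G1 s w) = G1 (g s) (g w) := by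
  unfold G1; simp only [map_add, map_sub, map_mul, map_pow, map_ofNat]

theorem map_G2 {R' : Type*} [CommRing R'] (g : R →+* R') (s w : R) :
    g (G2 s w) = G2 (g s) (g w) := by
  unfold G2; simp only [map_add, map_sub, map_mul, map_pow, map_ofNat]

end Ring

variable {k : Type*} [Field k]

theorem two_ne_zero_of_thirty (h30 : (30 : k) ≠ 0) : (2 : k) ≠ 0 := by
  intro h; apply h30
  have : (30 : k) = 2 * 15 := by norm_num
  rw [this, h, zero_mul]

theorem three_ne_zero_of_thirty (h30 : (30 : k) ≠ 0) : (3 : k) ≠ 0 := by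
  intro h; apply h30
  have : (30 : k) = 3 * 10 := by norm_num
  rw [this, h, zero_mul]

theorem five_ne_zero_of_thirty (h30 : (30 : k) ≠ 0) : (5 : k) ≠ 0 := by
  intro h; apply h30
  have : (30 : k) = 5 * 6 := by norm_num
  rw [this, h, zero_mul]

theorem c1728_ne_zero_of_thirty (h30 : (30 : k) ≠ 0) : (1728 : k) ≠ 0 := by
  have e : (1728 : k) = 2 ^ 6 * 3 ^ 3 := by norm_num
  rw [e]
  exact mul_ne_zero (pow_ne_zero _ (two_ne_zero_of_thirty h30))
    (pow_ne_zero _ (three_ne_zero_of_thirty h30))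

theorem c3125_ne_zero_of_thirty (h30 : (30 : k) ≠ 0) : (3125 : k) ≠ 0 := by
  have e : (3125 : k) = 5 ^ 5 := by norm_num
  rw [e]
  exact pow_ne_zero _ (five_ne_zero_of_thirty h30)

/-- the two forms have no common zero on the affine line `w = 1` (characteristic prime to `30`). -/
theorem not_common_root_of_thirty (h30 : (30 : k) ≠ 0) (z : k) (h1 : Hs z 1 = 0)
    (h2 : Ts z 1 = 0) : False := by
  have hs := syzygy z 1
  rw [h1, h2] at hs
  have h3 : z * (z ^ 2 + 11 * z - 1) ^ 5 = 0 := by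
    have h1728 : (1728 : k) ≠ 0 := c1728_ne_zero_of_thirty h30
    have : (1728 : k) * (z * (z ^ 2 + 11 * z - 1) ^ 5) = 0 := by
      have e : (1728 : k) * (z * (z ^ 2 + 11 * z - 1) ^ 5) =
          1728 * z * 1 * (z ^ 2 + 11 * z * 1 - 1 ^ 2) ^ 5 := by ring
      rw [e, ← hs]; ring
    exact (mul_eq_zero.mp this).resolve_left h1728
  rcases mul_eq_zero.mp h3 with hz | hq
  · rw [hz] at h1
    unfold Hs at h1
    have : (-1 : k) = 0 := by rw [← h1]; ring
    exact one_ne_zero (neg_eq_zero.mp this)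
  · have hq' : z ^ 2 + 11 * z - 1 = 0 := pow_eq_zero_iff (by norm_num) |>.mp hq
    have e : (3125 : k) = (-11 * z - 122) * Hs z 1 +
        (-11 * z ^ 3 + 2507 * z ^ 2 - 5206 * z - 3003) * (z ^ 2 + 11 * z - 1) := by
      unfold Hs; ring
    rw [h1, hq'] at e
    apply c3125_ne_zero_of_thirty h30
    rw [e]; ring

/-- the two forms have no common zero on the affine line `w = 1`. -/
theorem not_common_root [CharZero k] (z : k) (h1 : Hs z 1 = 0) (h2 : Ts z 1 = 0) : False :=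
  not_common_root_of_thirty (by norm_num) z h1 h2

/-- **the two forms have no common zero except the origin** (characteristic prime to `30`). -/
theorem eq_zero_of_forms_eq_zero (h30 : (30 : k) ≠ 0) {s w : k} (h1 : Hs s w = 0)
    (h2 : Ts s w = 0) : s = 0 ∧ w = 0 := by
  by_cases hw : w = 0
  · subst hw
    refine ⟨?_, rfl⟩
    unfold Hs at h1
    have : s ^ 4 = 0 := by
      have e : -(s ^ 4 + (0 : k) ^ 4) + 228 * (s ^ 3 * 0 - s * (0 : k) ^ 3) - 494 * s ^ 2 * (0 : k) ^ 2 =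
          -(s ^ 4) := by ring
      rw [e] at h1
      exact neg_eq_zero.mp h1
    exact pow_eq_zero_iff (by norm_num) |>.mp this
  · exfalso
    have e1 : Hs s w = w ^ 4 * Hs (s / w) 1 := by
      unfold Hs; field_simp
    have e2 : Ts s w = w ^ 6 * Ts (s / w) 1 := by
      unfold Ts; field_simp
    rw [e1] at h1
    rw [e2] at h2
    exact not_common_root_of_thirty h30 (s / w)
      ((mul_eq_zero.mp h1).resolve_left (pow_ne_zero _ hw))
      ((mul_eq_zero.mp h2).resolve_left (pow_ne_zero _ hw))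

/-- the dehomogenised quartic as a polynomial. -/
noncomputable def hP : k[X] :=
  -X ^ 4 + C 228 * X ^ 3 - C 494 * X ^ 2 - C 228 * X - C 1

/-- the dehomogenised sextic as a polynomial. -/
noncomputable def tP : k[X] :=
  X ^ 6 + C 522 * X ^ 5 - C 10005 * X ^ 4 - C 10005 * X ^ 2 - C 522 * X + C 1

theorem eval_hP (z : k) : (hP : k[X]).eval z = Hs z 1 := by
  unfold hP Hs
  simp only [eval_add, eval_sub, eval_neg, eval_mul, eval_pow, eval_X, eval_C]
  ring

theorem eval_tP (z : k) : (tP : k[X]).eval z = Ts z 1 := by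
  unfold tP Ts
  simp only [eval_add, eval_sub, eval_mul, eval_pow, eval_X, eval_C]
  ring

theorem natDegree_hP_le : (hP : k[X]).natDegree ≤ 4 := by
  unfold hP; compute_degree

theorem natDegree_tP_le : (tP : k[X]).natDegree ≤ 6 := by
  unfold tP; compute_degree

theorem coeff_hP : (hP : k[X]).coeff 4 = -1 := by
  unfold hP
  simp [coeff_X_pow, coeff_one]

theorem coeff_tP : (tP : k[X]).coeff 6 = 1 := by
  unfold tP
  simp [coeff_X_pow, coeff_one]

/-- the auxiliary polynomial `b² h³ - a³ τ²`. -/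
noncomputable def gP (a b : k) : k[X] := C (b ^ 2) * hP ^ 3 - C (a ^ 3) * tP ^ 2

theorem coeff_gP (a b : k) : (gP a b).coeff 12 = -(a ^ 3 + b ^ 2) := by
  unfold gP
  rw [coeff_sub, coeff_C_mul, coeff_C_mul]
  have h1 : ((hP : k[X]) ^ 3).coeff (3 * 4) = (hP : k[X]).coeff 4 ^ 3 :=
    coeff_pow_of_natDegree_le natDegree_hP_le
  have h2 : ((tP : k[X]) ^ 2).coeff (2 * 6) = (tP : k[X]).coeff 6 ^ 2 :=
    coeff_pow_of_natDegree_le natDegree_tP_le
  norm_num at h1 h2
  rw [h1, h2, coeff_hP, coeff_tP]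
  ring

theorem exists_root_gP [IsAlgClosed k] (a b : k) (hab : a ^ 3 + b ^ 2 ≠ 0) :
    ∃ z : k, b ^ 2 * Hs z 1 ^ 3 = a ^ 3 * Ts z 1 ^ 2 := by
  have hc : (gP a b).coeff 12 ≠ 0 := by
    rw [coeff_gP]; exact neg_ne_zero.mpr hab
  have hpos : 0 < (gP a b).natDegree :=
    lt_of_lt_of_le (by norm_num) (le_natDegree_of_ne_zero hc)
  have hdeg : (gP a b).degree ≠ 0 := (natDegree_pos_iff_degree_pos.mp hpos).ne'
  obtain ⟨z, hz⟩ := IsAlgClosed.exists_root (gP a b) hdeg
  refine ⟨z, ?_⟩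
  unfold gP at hz
  rw [IsRoot.def, eval_sub, eval_mul, eval_mul, eval_pow, eval_pow, eval_C, eval_C, eval_hP,
    eval_tP] at hz
  exact sub_eq_zero.mp hz

/-- **surjectivity of `(Hs, Ts)` onto the pairs with `a³ + b² ≠ 0`** (characteristic prime to
`30`). -/
theorem exists_forms_eq_of_thirty [IsAlgClosed k] (h30 : (30 : k) ≠ 0) (a b : k)
    (hab : a ^ 3 + b ^ 2 ≠ 0) : ∃ s w : k, Hs s w = a ∧ Ts s w = b := by
  obtain ⟨z, hz⟩ := exists_root_gP a b hab
  suffices h : ∃ l : k, l ^ 4 * Hs z 1 = a ∧ l ^ 6 * Ts z 1 = b by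
    obtain ⟨l, h1, h2⟩ := h
    exact ⟨l * z, l * 1, by rw [Hs_smul, h1], by rw [Ts_smul, h2]⟩
  by_cases hH : Hs z 1 = 0
  · have hT : Ts z 1 ≠ 0 := fun hT => not_common_root_of_thirty h30 z hH hT
    have ha : a = 0 := by
      rw [hH] at hz
      have : a ^ 3 * Ts z 1 ^ 2 = 0 := by rw [← hz]; ring
      rcases mul_eq_zero.mp this with h | h
      · exact pow_eq_zero_iff (by norm_num) |>.mp h
      · exact absurd (pow_eq_zero_iff (by norm_num) |>.mp h) hT
    obtain ⟨l, hl⟩ := IsAlgClosed.exists_pow_nat_eq (b / Ts z 1) (n := 6) (by norm_num)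
    refine ⟨l, by rw [hH, ha, mul_zero], ?_⟩
    rw [hl, div_mul_cancel₀ _ hT]
  · by_cases hT : Ts z 1 = 0
    · have hb : b = 0 := by
        rw [hT] at hz
        have : b ^ 2 * Hs z 1 ^ 3 = 0 := by rw [hz]; ring
        rcases mul_eq_zero.mp this with h | h
        · exact pow_eq_zero_iff (by norm_num) |>.mp h
        · exact absurd (pow_eq_zero_iff (by norm_num) |>.mp h) hH
      obtain ⟨l, hl⟩ := IsAlgClosed.exists_pow_nat_eq (a / Hs z 1) (n := 4) (by norm_num)
      refine ⟨l, ?_, by rw [hT, hb, mul_zero]⟩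
      rw [hl, div_mul_cancel₀ _ hH]
    · have ha : a ≠ 0 := by
        rintro rfl
        have : b ^ 2 * Hs z 1 ^ 3 = 0 := by rw [hz]; ring
        rcases mul_eq_zero.mp this with h | h
        · have hb : b = 0 := pow_eq_zero_iff (by norm_num) |>.mp h
          apply hab; rw [hb]; ring
        · exact hH (pow_eq_zero_iff (by norm_num) |>.mp h)
      obtain ⟨l, hl⟩ := IsAlgClosed.exists_pow_nat_eq (b * Hs z 1 / (a * Ts z 1)) (n := 2)
        (by norm_num)
      refine ⟨l, ?_, ?_⟩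
      · have e : l ^ 4 = (l ^ 2) ^ 2 := by ring
        rw [e, hl]
        field_simp
        linear_combination hz
      · have e : l ^ 6 = (l ^ 2) ^ 3 := by ring
        rw [e, hl]
        field_simp
        linear_combination b * hz

/-- **surjectivity of `(Hs, Ts)` onto the pairs with `a³ + b² ≠ 0`.** -/
theorem exists_forms_eq [IsAlgClosed k] [CharZero k] (a b : k) (hab : a ^ 3 + b ^ 2 ≠ 0) :
    ∃ s w : k, Hs s w = a ∧ Ts s w = b :=
  exists_forms_eq_of_thirty (by norm_num) a b hab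

/-- **existence of the Klein point** (characteristic prime to `30`). -/
theorem exists_klein_point_of_thirty [IsAlgClosed k] (h30 : (30 : k) ≠ 0) (a b : k)
    (hab : a ^ 3 + b ^ 2 ≠ 0) : ∃ u v : k, Hs (u ^ 5) (v ^ 5) = a ∧ Ts (u ^ 5) (v ^ 5) = b := by
  obtain ⟨s, w, h1, h2⟩ := exists_forms_eq_of_thirty h30 a b hab
  obtain ⟨u, hu⟩ := IsAlgClosed.exists_pow_nat_eq s (n := 5) (by norm_num)
  obtain ⟨v, hv⟩ := IsAlgClosed.exists_pow_nat_eq w (n := 5) (by norm_num)
  exact ⟨u, v, by rw [hu, hv, h1], by rw [hu, hv, h2]⟩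

/-- **existence of the Klein point**: `(u, v)` with `Hs (u⁵, v⁵) = a` and `Ts (u⁵, v⁵) = b`. -/
theorem exists_klein_point [IsAlgClosed k] [CharZero k] (a b : k) (hab : a ^ 3 + b ^ 2 ≠ 0) :
    ∃ u v : k, Hs (u ^ 5) (v ^ 5) = a ∧ Ts (u ^ 5) (v ^ 5) = b := by
  obtain ⟨s, w, h1, h2⟩ := exists_forms_eq a b hab
  obtain ⟨u, hu⟩ := IsAlgClosed.exists_pow_nat_eq s (n := 5) (by norm_num)
  obtain ⟨v, hv⟩ := IsAlgClosed.exists_pow_nat_eq w (n := 5) (by norm_num)
  exact ⟨u, v, by rw [hu, hv, h1], by rw [hu, hv, h2]⟩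

/-- at a Klein point the form `s w (s² + 11 s w - w²)` does not vanish. -/
theorem klein_point_nondeg {s w a b : k} (hab : a ^ 3 + b ^ 2 ≠ 0)
    (h1 : Hs s w = a) (h2 : Ts s w = b) : s * w * (s ^ 2 + 11 * s * w - w ^ 2) ≠ 0 := by
  intro h0
  apply hab
  have hs := syzygy s w
  rw [h1, h2] at hs
  have e : (1728 : k) * s * w * (s ^ 2 + 11 * s * w - w ^ 2) ^ 5 =
      1728 * (s * w * (s ^ 2 + 11 * s * w - w ^ 2)) * (s ^ 2 + 11 * s * w - w ^ 2) ^ 4 := by ring
  rw [e, h0] at hs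
  linear_combination hs

/-! ### the line `λ p + μ n(p)` through a Klein point never meets a common zero of the forms -/

/-- **no common zero on the line**: if `f(u, v) = u v (s² + 11 s w - w²) ≠ 0` (`s = u⁵`, `w = v⁵`)
and `(λ, μ) ≠ (0, 0)`, the forms `H`, `T` do not both vanish at `λ (u, v) + μ n(u, v)`,
`n(u, v) = (u G1, -v G2)`. Characteristic prime to `30`. -/
theorem not_forms_eq_zero_on_line (h30 : (30 : k) ≠ 0) {u v lam mu : k}
    (hf : u * v * ((u ^ 5) ^ 2 + 11 * u ^ 5 * v ^ 5 - (v ^ 5) ^ 2) ≠ 0)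
    (hlm : lam ≠ 0 ∨ mu ≠ 0)
    (h1 : Hs ((lam * u + mu * (u * G1 (u ^ 5) (v ^ 5))) ^ 5)
      ((lam * v + mu * (-(v * G2 (u ^ 5) (v ^ 5)))) ^ 5) = 0)
    (h2 : Ts ((lam * u + mu * (u * G1 (u ^ 5) (v ^ 5))) ^ 5)
      ((lam * v + mu * (-(v * G2 (u ^ 5) (v ^ 5)))) ^ 5) = 0) : False := by
  obtain ⟨e1, e2⟩ := eq_zero_of_forms_eq_zero h30 h1 h2
  have hu : u ≠ 0 := fun h => hf (by rw [h]; ring)
  have hv : v ≠ 0 := fun h => hf (by rw [h]; ring)
  have hq : (u ^ 5) ^ 2 + 11 * u ^ 5 * v ^ 5 - (v ^ 5) ^ 2 ≠ 0 := fun h => hf (by rw [h]; ring)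
  have e1' : lam + mu * G1 (u ^ 5) (v ^ 5) = 0 := by
    have := pow_eq_zero_iff (n := 5) (by norm_num) |>.mp e1
    have e : lam * u + mu * (u * G1 (u ^ 5) (v ^ 5)) = u * (lam + mu * G1 (u ^ 5) (v ^ 5)) := by
      ring
    rw [e] at this
    exact (mul_eq_zero.mp this).resolve_left hu
  have e2' : lam - mu * G2 (u ^ 5) (v ^ 5) = 0 := by
    have := pow_eq_zero_iff (n := 5) (by norm_num) |>.mp e2
    have e : lam * v + mu * (-(v * G2 (u ^ 5) (v ^ 5))) = v * (lam - mu * G2 (u ^ 5) (v ^ 5)) := by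
      ring
    rw [e] at this
    exact (mul_eq_zero.mp this).resolve_left hv
  have h12 : (12 : k) ≠ 0 := by
    have e : (12 : k) = 2 ^ 2 * 3 := by norm_num
    rw [e]
    exact mul_ne_zero (pow_ne_zero _ (two_ne_zero_of_thirty h30)) (three_ne_zero_of_thirty h30)
  have hmu : mu = 0 := by
    have : mu * (G1 (u ^ 5) (v ^ 5) + G2 (u ^ 5) (v ^ 5)) = 0 := by linear_combination e1' - e2'
    rw [G1_add_G2] at this
    rcases mul_eq_zero.mp this with h | h
    · exact h
    · exact absurd ((mul_eq_zero.mp h).resolve_left h12) hq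
  have hlam : lam = 0 := by rw [hmu, zero_mul, add_zero] at e1'; exact e1'
  rcases hlm with h | h
  · exact h hlam
  · exact h hmu

/-- **no common zero on the line, in the variables `(s, w) = (u⁵, v⁵)`**: if
`s w (s² + 11 s w - w²) ≠ 0` and `(λ, μ) ≠ (0, 0)`, the forms `Hs`, `Ts` do not both vanish at
`(s (λ + μ G1)⁵, w (λ - μ G2)⁵)`. Characteristic prime to `30`. -/
theorem not_forms_eq_zero_on_line_sw (h30 : (30 : k) ≠ 0) {s w lam mu : k}
    (hf : s * w * (s ^ 2 + 11 * s * w - w ^ 2) ≠ 0)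
    (hlm : lam ≠ 0 ∨ mu ≠ 0)
    (h1 : Hs (s * (lam + mu * G1 s w) ^ 5) (w * (lam - mu * G2 s w) ^ 5) = 0)
    (h2 : Ts (s * (lam + mu * G1 s w) ^ 5) (w * (lam - mu * G2 s w) ^ 5) = 0) : False := by
  obtain ⟨e1, e2⟩ := eq_zero_of_forms_eq_zero h30 h1 h2
  have hs : s ≠ 0 := fun h => hf (by rw [h]; ring)
  have hw : w ≠ 0 := fun h => hf (by rw [h]; ring)
  have hq : s ^ 2 + 11 * s * w - w ^ 2 ≠ 0 := fun h => hf (by rw [h]; ring)
  have e1' : lam + mu * G1 s w = 0 :=
    pow_eq_zero_iff (n := 5) (by norm_num) |>.mp ((mul_eq_zero.mp e1).resolve_left hs)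
  have e2' : lam - mu * G2 s w = 0 :=
    pow_eq_zero_iff (n := 5) (by norm_num) |>.mp ((mul_eq_zero.mp e2).resolve_left hw)
  have h12 : (12 : k) ≠ 0 := by
    have e : (12 : k) = 2 ^ 2 * 3 := by norm_num
    rw [e]
    exact mul_ne_zero (pow_ne_zero _ (two_ne_zero_of_thirty h30)) (three_ne_zero_of_thirty h30)
  have hmu : mu = 0 := by
    have : mu * (G1 s w + G2 s w) = 0 := by linear_combination e1' - e2'
    rw [G1_add_G2] at this
    rcases mul_eq_zero.mp this with h | h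
    · exact h
    · exact absurd ((mul_eq_zero.mp h).resolve_left h12) hq
  have hlam : lam = 0 := by rw [hmu, zero_mul, add_zero] at e1'; exact e1'
  rcases hlm with h | h
  · exact h hlam
  · exact h hmu

end Fermat.Agent.S52x.KleinPt1
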