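/-
S52 (3–5 switch), helper9: the cusp polynomial of the Klein family is separable and prime to `C₄`.

`f(u,v) = u v g(u⁵,v⁵)` (Klein's vertex form), `p₀ = (u₀,v₀)`, `n₀ = (a,b)` linearly independent
(`u₀ b - v₀ a ≠ 0`).  Along the line `p₀ + t n₀`:
* `Φ(t) = f(p₀ + t n₀)` is separable  (`separable_line`);
* `Φ` is coprime to `H(p₀ + t n₀)`  (`isCoprime_H_line`).
Specialised to `n₀ = n(p₀) = (u₀ G₁, -v₀ G₂)` where the determinant is `-12 f(p₀)`.
-/
import Mathlib
import Fermat.Agent.S52x.KleinFam7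
import Fermat.Agent.S52x.KleinPt1

set_option autoImplicit false

open Polynomial

namespace Fermat.Agent.S52x.KleinSep9

open Fermat.Agent.S52x.KleinFam7

section Ring

variable {R : Type*} [CommRing R]

/-- Klein's vertex form `f = u v (u¹⁰ + 11 u⁵ v⁵ - v¹⁰)`. -/
def kf9 (u v : R) : R := u * v * gsw (u ^ 5) (v ^ 5)

/-- `∂f/∂u`. -/
def kfu9 (u v : R) : R := v * G2 (u ^ 5) (v ^ 5)

/-- `∂f/∂v`. -/
def kfv9 (u v : R) : R := u * G1 (u ^ 5) (v ^ 5)

theorem euler9 (u v : R) : u * kfu9 u v + v * kfv9 u v = 12 * kf9 u v := by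
  unfold kfu9 kfv9 kf9 G1 G2 gsw; ring

theorem kf9_pow_five (u v : R) : kf9 u v ^ 5 = u ^ 5 * v ^ 5 * gsw (u ^ 5) (v ^ 5) ^ 5 := by
  unfold kf9; ring

theorem syzygy9 (u v : R) :
    Tsw (u ^ 5) (v ^ 5) ^ 2 + Hsw (u ^ 5) (v ^ 5) ^ 3 = 1728 * kf9 u v ^ 5 := by
  rw [syzygy_sw, kf9_pow_five]

theorem map_kf9 {S : Type*} [CommRing S] (φ : R →+* S) (u v : R) :
    φ (kf9 u v) = kf9 (φ u) (φ v) := by
  unfold kf9 gsw; simp only [map_mul, map_add, map_sub, map_pow, map_ofNat]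

theorem map_kfu9 {S : Type*} [CommRing S] (φ : R →+* S) (u v : R) :
    φ (kfu9 u v) = kfu9 (φ u) (φ v) := by
  unfold kfu9 G2; simp only [map_mul, map_add, map_sub, map_pow, map_ofNat]

theorem map_kfv9 {S : Type*} [CommRing S] (φ : R →+* S) (u v : R) :
    φ (kfv9 u v) = kfv9 (φ u) (φ v) := by
  unfold kfv9 G1; simp only [map_mul, map_add, map_sub, map_pow, map_ofNat]

theorem map_Hsw9 {S : Type*} [CommRing S] (φ : R →+* S) (s w : R) :
    φ (Hsw s w) = Hsw (φ s) (φ w) := by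
  unfold Hsw; simp only [map_mul, map_add, map_sub, map_neg, map_pow, map_ofNat]

/-- the chain rule for `f`. -/
theorem derivative_kf9 (U V : R[X]) :
    derivative (kf9 U V) = kfu9 U V * derivative U + kfv9 U V * derivative V := by
  have h : kf9 U V = U ^ 11 * V + C 11 * (U ^ 6 * V ^ 6) - U * V ^ 11 := by
    unfold kf9 gsw
    simp only [map_ofNat]
    ring
  rw [h]
  simp only [derivative_add, derivative_sub, derivative_mul, derivative_pow, derivative_C,
    zero_mul, zero_add]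
  unfold kfu9 kfv9 G1 G2
  simp only [map_natCast, map_ofNat]
  push_cast
  ring

/-- the derivative of `f` along a line. -/
theorem derivative_kf9_line (u0 v0 a b : R) :
    derivative (kf9 (C u0 + X * C a) (C v0 + X * C b)) =
      kfu9 (C u0 + X * C a) (C v0 + X * C b) * C a +
        kfv9 (C u0 + X * C a) (C v0 + X * C b) * C b := by
  rw [derivative_kf9]
  simp

end Ring

section Field

variable {k : Type*} [Field k] [CharZero k]

/-- the gradient of `f` vanishes only at the origin. -/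
theorem eq_zero_of_grad_eq_zero {u v : k} (h1 : kfu9 u v = 0) (h2 : kfv9 u v = 0) :
    u = 0 ∧ v = 0 := by
  unfold kfu9 G2 at h1
  unfold kfv9 G1 at h2
  by_cases hv : v = 0
  · subst hv
    refine ⟨?_, rfl⟩
    have : u ^ 11 = 0 := by linear_combination h2
    exact pow_eq_zero_iff (by norm_num) |>.mp this
  by_cases hu : u = 0
  · subst hu
    exfalso
    have : v ^ 11 = 0 := by linear_combination -h1
    exact hv (pow_eq_zero_iff (by norm_num) |>.mp this)
  exfalso
  have e1 : 11 * (u ^ 5) ^ 2 + 66 * u ^ 5 * v ^ 5 - (v ^ 5) ^ 2 = 0 :=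
    (mul_eq_zero.mp h1).resolve_left hv
  have e2 : (u ^ 5) ^ 2 + 66 * u ^ 5 * v ^ 5 - 11 * (v ^ 5) ^ 2 = 0 :=
    (mul_eq_zero.mp h2).resolve_left hu
  have hs : u ^ 5 ≠ 0 := pow_ne_zero 5 hu
  have hw : v ^ 5 ≠ 0 := pow_ne_zero 5 hv
  -- 11 G1 - G2 = 60 w (11 s - 2 w),  G1 - 11 G2 = -60 s (2 s + 11 w)
  have e3 : 60 * v ^ 5 * (11 * u ^ 5 - 2 * v ^ 5) = 0 := by linear_combination 11 * e2 - e1
  have e4 : 60 * u ^ 5 * (2 * u ^ 5 + 11 * v ^ 5) = 0 := by linear_combination 11 * e1 - e2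
  have e5 : 11 * u ^ 5 - 2 * v ^ 5 = 0 :=
    (mul_eq_zero.mp e3).resolve_left (mul_ne_zero (by norm_num) hw)
  have e6 : 2 * u ^ 5 + 11 * v ^ 5 = 0 :=
    (mul_eq_zero.mp e4).resolve_left (mul_ne_zero (by norm_num) hs)
  have e7 : (125 : k) * v ^ 5 = 0 := by linear_combination 11 * e6 - 2 * e5
  exact hw ((mul_eq_zero.mp e7).resolve_left (by norm_num))

/-- `H` and `f` have no common zero except the origin. -/
theorem eq_zero_of_H_f_eq_zero {u v : k} (h1 : Hsw (u ^ 5) (v ^ 5) = 0) (h2 : kf9 u v = 0) :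
    u = 0 ∧ v = 0 := by
  have hT : Tsw (u ^ 5) (v ^ 5) = 0 := by
    have := syzygy9 u v
    rw [h1, h2] at this
    have h3 : Tsw (u ^ 5) (v ^ 5) ^ 2 = 0 := by linear_combination this
    exact pow_eq_zero_iff (by norm_num) |>.mp h3
  have h30 : (30 : k) ≠ 0 := by norm_num
  obtain ⟨hs, hw⟩ := Fermat.Agent.S52x.KleinPt1.eq_zero_of_forms_eq_zero h30
    (s := u ^ 5) (w := v ^ 5) h1 hT
  exact ⟨pow_eq_zero_iff (by norm_num) |>.mp hs, pow_eq_zero_iff (by norm_num) |>.mp hw⟩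

/-- **separability along a line not through the origin.** -/
theorem separable_line (u0 v0 a b : k) (hdet : u0 * b - v0 * a ≠ 0) :
    (kf9 (C u0 + X * C a) (C v0 + X * C b)).Separable := by
  rw [separable_def, isCoprime_iff_aeval_ne_zero_of_isAlgClosed k (AlgebraicClosure k)]
  intro x
  by_contra hcon
  rw [not_or, not_not, not_not] at hcon
  obtain ⟨h1, h2⟩ := hcon
  set ι := algebraMap k (AlgebraicClosure k) with hι
  set pu : AlgebraicClosure k := ι u0 + x * ι a with hpu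
  set pv : AlgebraicClosure k := ι v0 + x * ι b with hpv
  have hU : aeval x (C u0 + X * C a : k[X]) = pu := by
    simp only [map_add, map_mul, aeval_C, aeval_X, hpu, hι]
  have hV : aeval x (C v0 + X * C b : k[X]) = pv := by
    simp only [map_add, map_mul, aeval_C, aeval_X, hpv, hι]
  have e1 : kf9 pu pv = 0 := by
    have := map_kf9 (aeval x : k[X] →ₐ[k] AlgebraicClosure k).toRingHom
      (C u0 + X * C a) (C v0 + X * C b)
    simp only [AlgHom.toRingHom_eq_coe, RingHom.coe_coe] at this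
    rw [hU, hV] at this
    rw [← this]
    exact h1
  have e2 : kfu9 pu pv * ι a + kfv9 pu pv * ι b = 0 := by
    rw [derivative_kf9_line] at h2
    have hu := map_kfu9 (aeval x : k[X] →ₐ[k] AlgebraicClosure k).toRingHom
      (C u0 + X * C a) (C v0 + X * C b)
    have hv := map_kfv9 (aeval x : k[X] →ₐ[k] AlgebraicClosure k).toRingHom
      (C u0 + X * C a) (C v0 + X * C b)
    simp only [AlgHom.toRingHom_eq_coe, RingHom.coe_coe] at hu hv
    rw [hU, hV] at hu hv
    rw [map_add, map_mul, map_mul, hu, hv, aeval_C, aeval_C] at h2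
    exact h2
  have e3 : pu * kfu9 pu pv + pv * kfv9 pu pv = 0 := by
    rw [euler9, e1, mul_zero]
  have hdet' : pu * ι b - pv * ι a = ι (u0 * b - v0 * a) := by
    rw [hpu, hpv, map_sub, map_mul, map_mul]
    ring
  have hdet0 : pu * ι b - pv * ι a ≠ 0 := by
    rw [hdet']
    exact (map_ne_zero ι).mpr hdet
  have hA : kfu9 pu pv = 0 := by
    have : (pu * ι b - pv * ι a) * kfu9 pu pv = 0 := by
      linear_combination ι b * e3 - pv * e2
    exact (mul_eq_zero.mp this).resolve_left hdet0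
  have hB : kfv9 pu pv = 0 := by
    have : (pu * ι b - pv * ι a) * kfv9 pu pv = 0 := by
      linear_combination pu * e2 - ι a * e3
    exact (mul_eq_zero.mp this).resolve_left hdet0
  obtain ⟨hu0, hv0⟩ := eq_zero_of_grad_eq_zero hA hB
  apply hdet0
  rw [hu0, hv0]
  ring

/-- **`H` and `f` are coprime along a line not through the origin.** -/
theorem isCoprime_H_line (u0 v0 a b : k) (hdet : u0 * b - v0 * a ≠ 0) :
    IsCoprime (Hsw ((C u0 + X * C a) ^ 5) ((C v0 + X * C b) ^ 5))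
      (kf9 (C u0 + X * C a) (C v0 + X * C b)) := by
  rw [isCoprime_iff_aeval_ne_zero_of_isAlgClosed k (AlgebraicClosure k)]
  intro x
  by_contra hcon
  rw [not_or, not_not, not_not] at hcon
  obtain ⟨h1, h2⟩ := hcon
  set ι := algebraMap k (AlgebraicClosure k) with hι
  set pu : AlgebraicClosure k := ι u0 + x * ι a with hpu
  set pv : AlgebraicClosure k := ι v0 + x * ι b with hpv
  have hU : aeval x (C u0 + X * C a : k[X]) = pu := by
    simp only [map_add, map_mul, aeval_C, aeval_X, hpu, hι]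
  have hV : aeval x (C v0 + X * C b : k[X]) = pv := by
    simp only [map_add, map_mul, aeval_C, aeval_X, hpv, hι]
  have e1 : kf9 pu pv = 0 := by
    have := map_kf9 (aeval x : k[X] →ₐ[k] AlgebraicClosure k).toRingHom
      (C u0 + X * C a) (C v0 + X * C b)
    simp only [AlgHom.toRingHom_eq_coe, RingHom.coe_coe] at this
    rw [hU, hV] at this
    rw [← this]
    exact h2
  have e2 : Hsw (pu ^ 5) (pv ^ 5) = 0 := by
    have := map_Hsw9 (aeval x : k[X] →ₐ[k] AlgebraicClosure k).toRingHom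
      ((C u0 + X * C a) ^ 5) ((C v0 + X * C b) ^ 5)
    simp only [AlgHom.toRingHom_eq_coe, RingHom.coe_coe, map_pow] at this
    rw [hU, hV] at this
    rw [← this]
    exact h1
  have hdet' : pu * ι b - pv * ι a = ι (u0 * b - v0 * a) := by
    rw [hpu, hpv, map_sub, map_mul, map_mul]
    ring
  have hdet0 : pu * ι b - pv * ι a ≠ 0 := by
    rw [hdet']
    exact (map_ne_zero ι).mpr hdet
  obtain ⟨hu0, hv0⟩ := eq_zero_of_H_f_eq_zero e2 e1
  apply hdet0
  rw [hu0, hv0]
  ring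

omit [CharZero k] in
/-- the determinant of `(p₀, n(p₀))` is `-12 f(p₀)`. -/
theorem det_covariant (u0 v0 : k) :
    u0 * (-(v0 * G2 (u0 ^ 5) (v0 ^ 5))) - v0 * (u0 * G1 (u0 ^ 5) (v0 ^ 5)) = -12 * kf9 u0 v0 := by
  unfold kf9 G1 G2 gsw; ring

/-! ### the Klein line `p₀ + t n(p₀)` -/

/-- first coordinate of `p₀ + t n(p₀)`. -/
noncomputable def lineU (u0 v0 : k) : k[X] := C u0 + X * C (u0 * G1 (u0 ^ 5) (v0 ^ 5))

/-- second coordinate of `p₀ + t n(p₀)`. -/
noncomputable def lineV (u0 v0 : k) : k[X] := C v0 + X * C (-(v0 * G2 (u0 ^ 5) (v0 ^ 5)))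

omit [CharZero k] in
theorem lineU_pow_five (u0 v0 : k) :
    lineU u0 v0 ^ 5 = C (u0 ^ 5) * (1 + X * C (G1 (u0 ^ 5) (v0 ^ 5))) ^ 5 := by
  unfold lineU
  simp only [map_mul, map_pow]
  ring

omit [CharZero k] in
theorem lineV_pow_five (u0 v0 : k) :
    lineV u0 v0 ^ 5 = C (v0 ^ 5) * (1 - X * C (G2 (u0 ^ 5) (v0 ^ 5))) ^ 5 := by
  unfold lineV
  simp only [map_mul, map_pow, map_neg]
  ring

theorem klein_det_ne_zero {u0 v0 : k} (hf : kf9 u0 v0 ≠ 0) :
    u0 * (-(v0 * G2 (u0 ^ 5) (v0 ^ 5))) - v0 * (u0 * G1 (u0 ^ 5) (v0 ^ 5)) ≠ 0 := by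
  rw [det_covariant]
  exact mul_ne_zero (by norm_num) hf

/-- **the cusp polynomial `f(p₀ + t n(p₀))` is separable.** -/
theorem separable_klein_line {u0 v0 : k} (hf : kf9 u0 v0 ≠ 0) :
    (kf9 (lineU u0 v0) (lineV u0 v0)).Separable :=
  separable_line u0 v0 _ _ (klein_det_ne_zero hf)

/-- **`H(p₀ + t n(p₀))` is prime to the cusp polynomial.** -/
theorem isCoprime_klein_line {u0 v0 : k} (hf : kf9 u0 v0 ≠ 0) :
    IsCoprime (Hsw (lineU u0 v0 ^ 5) (lineV u0 v0 ^ 5)) (kf9 (lineU u0 v0) (lineV u0 v0)) :=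
  isCoprime_H_line u0 v0 _ _ (klein_det_ne_zero hf)

/-! ### interface for polynomials over a subfield -/

/-- if `c • F` (over `k`) is the cusp polynomial, `F` (over `k₀ ⊆ k`) is squarefree. -/
theorem squarefree_of_klein {k₀ : Type*} [Field k₀] [Algebra k₀ k] (F : k₀[X]) {u0 v0 : k}
    (hf : kf9 u0 v0 ≠ 0) (c : k)
    (hF : C c * F.map (algebraMap k₀ k) = kf9 (lineU u0 v0) (lineV u0 v0)) : Squarefree F := by
  have h1 := separable_klein_line hf
  rw [← hF] at h1
  have h2 : (F.map (algebraMap k₀ k)).Separable := h1.of_mul_right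
  exact (Polynomial.separable_map (algebraMap k₀ k)).mp h2 |>.squarefree

/-- if `c • F` is the cusp polynomial and `C₄ = -H(p₀ + t n(p₀))`, then `C₄` and `F` are
coprime. -/
theorem isCoprime_of_klein {k₀ : Type*} [Field k₀] [Algebra k₀ k] (C4 F : k₀[X]) {u0 v0 : k}
    (hf : kf9 u0 v0 ≠ 0) (c : k)
    (hF : C c * F.map (algebraMap k₀ k) = kf9 (lineU u0 v0) (lineV u0 v0))
    (hC4 : C4.map (algebraMap k₀ k) = -Hsw (lineU u0 v0 ^ 5) (lineV u0 v0 ^ 5)) :
    IsCoprime C4 F := by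
  have h1 := isCoprime_klein_line hf
  rw [← hF] at h1
  have h2 : IsCoprime (C4.map (algebraMap k₀ k)) (F.map (algebraMap k₀ k)) := by
    rw [hC4]
    exact (IsCoprime.of_mul_right_right h1).neg_left
  exact (Polynomial.isCoprime_map (algebraMap k₀ k)).mp h2

end Field

end Fermat.Agent.S52x.KleinSep9
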