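/-
S52 (3–5 switch), helper9: `Squarefree F` and `IsCoprime C₄ F` for the Klein family over a field of
characteristic `0`, from `KleinSep9` and the parametrisation identities of `KleinFam7`
(taken here as hypotheses `GId`, `HId` over the polynomial ring, so that this file does not depend
on the heavy identity files; `FamSq9Main` instantiates them).

`rhoX h τ = rhoPoly (C h) (C τ) X`, `hX h τ = hPoly (C h) (C τ) X` are the polynomials in `t` with
the invariants `(h, τ) = (H(p₀), T(p₀)) = (-c₄, -c₆)`.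
-/
import Mathlib
import Fermat.Agent.S52x.KleinSep9

set_option autoImplicit false

open Polynomial

namespace Fermat.Agent.S52x.FamSq9

open Fermat.Agent.S52x.KleinFam7 Fermat.Agent.S52x.KleinSep9

section Ring

variable {R : Type*} [CommRing R]

/-- the `g`-identity of `KleinFam7F` over the ring `R`. -/
def GId (R : Type*) [CommRing R] : Prop :=
  ∀ s w lam mu : R, (lam + mu * G1 s w) * (lam - mu * G2 s w) *
      gsw (s * (lam + mu * G1 s w) ^ 5) (w * (lam - mu * G2 s w) ^ 5) =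
    gsw s w * rhoForm (Hsw s w) (Tsw s w) lam mu

/-- the `H`-identity of `KleinFam7H` over the ring `R`. -/
def HId (R : Type*) [CommRing R] : Prop :=
  ∀ s w lam mu : R, Hsw (s * (lam + mu * G1 s w) ^ 5) (w * (lam - mu * G2 s w) ^ 5) =
    hForm (Hsw s w) (Tsw s w) lam mu

theorem rhoForm_one (h τ t : R) : rhoForm h τ 1 t = rhoPoly h τ t := by
  unfold rhoForm rhoPoly; ring

theorem hForm_one (h τ t : R) : hForm h τ 1 t = hPoly h τ t := by
  unfold hForm hPoly; ring

theorem G1_C (s w : R) : G1 (C s) (C w) = C (G1 s w) := by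
  unfold G1; simp only [map_add, map_sub, map_mul, map_pow, map_ofNat]

theorem G2_C (s w : R) : G2 (C s) (C w) = C (G2 s w) := by
  unfold G2; simp only [map_add, map_sub, map_mul, map_pow, map_ofNat]

theorem gsw_C (s w : R) : gsw (C s) (C w) = C (gsw s w) := by
  unfold gsw; simp only [map_add, map_sub, map_mul, map_pow, map_ofNat]

theorem Hsw_C (s w : R) : Hsw (C s) (C w) = C (Hsw s w) := by
  unfold Hsw; simp only [map_add, map_sub, map_neg, map_mul, map_pow, map_ofNat]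

theorem Tsw_C (s w : R) : Tsw (C s) (C w) = C (Tsw s w) := by
  unfold Tsw; simp only [map_add, map_sub, map_mul, map_pow, map_ofNat]

theorem map_rhoPoly9 {S : Type*} [CommRing S] (φ : R →+* S) (h τ t : R) :
    φ (rhoPoly h τ t) = rhoPoly (φ h) (φ τ) (φ t) := by
  unfold rhoPoly rc0 rc1 rc2 rc3 rc4 rc5 rc6 rc7 rc8 rc9 rc10 rc11 rc12
  simp only [map_add, map_mul, map_pow, map_neg, map_ofNat, map_one, map_zero]

theorem map_hPoly9 {S : Type*} [CommRing S] (φ : R →+* S) (h τ t : R) :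
    φ (hPoly h τ t) = hPoly (φ h) (φ τ) (φ t) := by
  unfold hPoly hc0 hc1 hc2 hc3 hc4 hc5 hc6 hc7 hc8 hc9 hc10 hc11 hc12 hc13 hc14 hc15 hc16 hc17
    hc18 hc19 hc20
  simp only [map_add, map_mul, map_pow, map_neg, map_ofNat, map_one, map_zero]

/-- the cusp polynomial with invariants `(h, τ)`. -/
noncomputable def rhoX (h τ : R) : R[X] := rhoPoly (C h) (C τ) X

/-- `H` along the family with invariants `(h, τ)`. -/
noncomputable def hX (h τ : R) : R[X] := hPoly (C h) (C τ) X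

theorem map_rhoX {S : Type*} [CommRing S] (φ : R →+* S) (h τ : R) :
    (rhoX h τ).map φ = rhoX (φ h) (φ τ) := by
  have := map_rhoPoly9 (Polynomial.mapRingHom φ) (C h) (C τ) X
  simpa [rhoX] using this

theorem map_hX {S : Type*} [CommRing S] (φ : R →+* S) (h τ : R) :
    (hX h τ).map φ = hX (φ h) (φ τ) := by
  have := map_hPoly9 (Polynomial.mapRingHom φ) (C h) (C τ) X
  simpa [hX] using this

end Ring

section Field

variable {k : Type*} [Field k]

theorem lineU_eq (u0 v0 : k) :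
    lineU u0 v0 = C u0 * (1 + X * C (G1 (u0 ^ 5) (v0 ^ 5))) := by
  unfold lineU; simp only [map_mul]; ring

theorem lineV_eq (u0 v0 : k) :
    lineV u0 v0 = C v0 * (1 - X * C (G2 (u0 ^ 5) (v0 ^ 5))) := by
  unfold lineV; simp only [map_mul, map_neg]; ring

/-- the cusp polynomial of the Klein line is `f(p₀) · rhoX (H(p₀)) (T(p₀))`. -/
theorem kf9_line_eq (hG : GId k[X]) (u0 v0 : k) :
    kf9 (lineU u0 v0) (lineV u0 v0) =
      C (kf9 u0 v0) * rhoX (Hsw (u0 ^ 5) (v0 ^ 5)) (Tsw (u0 ^ 5) (v0 ^ 5)) := by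
  have h := hG (C (u0 ^ 5)) (C (v0 ^ 5)) 1 X
  rw [G1_C, G2_C, gsw_C, Hsw_C, Tsw_C, rhoForm_one] at h
  unfold kf9 rhoX
  rw [lineU_pow_five, lineV_pow_five, lineU_eq, lineV_eq]
  simp only [map_mul]
  linear_combination (C u0 * C v0) * h

/-- `H` along the Klein line is `hX (H(p₀)) (T(p₀))`. -/
theorem Hsw_line_eq (hH : HId k[X]) (u0 v0 : k) :
    Hsw (lineU u0 v0 ^ 5) (lineV u0 v0 ^ 5) =
      hX (Hsw (u0 ^ 5) (v0 ^ 5)) (Tsw (u0 ^ 5) (v0 ^ 5)) := by
  have h := hH (C (u0 ^ 5)) (C (v0 ^ 5)) 1 X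
  rw [G1_C, G2_C, Hsw_C, Tsw_C, hForm_one] at h
  unfold hX
  rw [lineU_pow_five, lineV_pow_five]
  exact h

variable [CharZero k]

/-- **`rhoX (H(p₀)) (T(p₀))` is separable** when `f(p₀) ≠ 0`. -/
theorem separable_rhoX_of_point (hG : GId k[X]) {u0 v0 : k} (hf : kf9 u0 v0 ≠ 0) :
    (rhoX (Hsw (u0 ^ 5) (v0 ^ 5)) (Tsw (u0 ^ 5) (v0 ^ 5))).Separable := by
  have h1 := separable_klein_line hf
  rw [kf9_line_eq hG] at h1
  exact h1.of_mul_right

/-- **`hX` and `rhoX` at `(H(p₀), T(p₀))` are coprime** when `f(p₀) ≠ 0`. -/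
theorem isCoprime_hX_rhoX_of_point (hG : GId k[X]) (hH : HId k[X]) {u0 v0 : k}
    (hf : kf9 u0 v0 ≠ 0) :
    IsCoprime (hX (Hsw (u0 ^ 5) (v0 ^ 5)) (Tsw (u0 ^ 5) (v0 ^ 5)))
      (rhoX (Hsw (u0 ^ 5) (v0 ^ 5)) (Tsw (u0 ^ 5) (v0 ^ 5))) := by
  have h1 := isCoprime_klein_line hf
  rw [kf9_line_eq hG, Hsw_line_eq hH] at h1
  exact IsCoprime.of_mul_right_right h1

/-- existence of the Klein point over the algebraic closure, with `f(p₀) ≠ 0`. -/
theorem exists_point9 (h τ : k) (hne : h ^ 3 + τ ^ 2 ≠ 0) :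
    ∃ u0 v0 : AlgebraicClosure k,
      Hsw (u0 ^ 5) (v0 ^ 5) = algebraMap k (AlgebraicClosure k) h ∧
      Tsw (u0 ^ 5) (v0 ^ 5) = algebraMap k (AlgebraicClosure k) τ ∧ kf9 u0 v0 ≠ 0 := by
  set ι := algebraMap k (AlgebraicClosure k) with hι
  have hne' : ι h ^ 3 + ι τ ^ 2 ≠ 0 := by
    rw [← map_pow, ← map_pow, ← map_add]
    exact (map_ne_zero ι).mpr hne
  obtain ⟨u0, v0, h1, h2⟩ := Fermat.Agent.S52x.KleinPt1.exists_klein_point (ι h) (ι τ) hne'
  refine ⟨u0, v0, h1, h2, ?_⟩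
  intro hf
  have := syzygy9 u0 v0
  rw [hf] at this
  apply hne'
  have h1' : Hsw (u0 ^ 5) (v0 ^ 5) = ι h := h1
  have h2' : Tsw (u0 ^ 5) (v0 ^ 5) = ι τ := h2
  rw [h1', h2'] at this
  linear_combination this

/-- **the cusp polynomial is separable** as soon as `h³ + τ² ≠ 0` (i.e. `Δ ≠ 0`). -/
theorem separable_rhoX (hG : GId (AlgebraicClosure k)[X]) (h τ : k) (hne : h ^ 3 + τ ^ 2 ≠ 0) :
    (rhoX h τ).Separable := by
  obtain ⟨u0, v0, h1, h2, hf⟩ := exists_point9 h τ hne
  have := separable_rhoX_of_point hG hf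
  rw [h1, h2, ← map_rhoX] at this
  exact (Polynomial.separable_map _).mp this

/-- **`hX` is prime to the cusp polynomial** as soon as `h³ + τ² ≠ 0`. -/
theorem isCoprime_hX_rhoX (hG : GId (AlgebraicClosure k)[X]) (hH : HId (AlgebraicClosure k)[X])
    (h τ : k) (hne : h ^ 3 + τ ^ 2 ≠ 0) : IsCoprime (hX h τ) (rhoX h τ) := by
  obtain ⟨u0, v0, h1, h2, hf⟩ := exists_point9 h τ hne
  have := isCoprime_hX_rhoX_of_point hG hH hf
  rw [h1, h2, ← map_rhoX, ← map_hX] at this
  exact (Polynomial.isCoprime_map _).mp this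

omit [CharZero k] in
theorem rhoX_eq_sum (h τ : k) :
    rhoX h τ = C (rc0 h τ) * X ^ 0 + C (rc1 h τ) * X ^ 1 + C (rc2 h τ) * X ^ 2 + C (rc3 h τ) * X ^ 3 + C (rc4 h τ) * X ^ 4 + C (rc5 h τ) * X ^ 5 + C (rc6 h τ) * X ^ 6 + C (rc7 h τ) * X ^ 7 + C (rc8 h τ) * X ^ 8 + C (rc9 h τ) * X ^ 9 + C (rc10 h τ) * X ^ 10 + C (rc11 h τ) * X ^ 11 + C (rc12 h τ) * X ^ 12 := by
  unfold rhoX rhoPoly rc0 rc1 rc2 rc3 rc4 rc5 rc6 rc7 rc8 rc9 rc10 rc11 rc12
  simp only [map_add, map_mul, map_pow, map_neg, map_ofNat, map_one, map_zero]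
  ring

omit [CharZero k] in
theorem coeff_rhoX_seven (h τ : k) : (rhoX h τ).coeff 7 = rc7 h τ := by
  rw [rhoX_eq_sum]
  simp only [coeff_add, coeff_C_mul_X_pow]
  simp

omit [CharZero k] in
theorem coeff_rhoX_twelve (h τ : k) : (rhoX h τ).coeff 12 = rc12 h τ := by
  rw [rhoX_eq_sum]
  simp only [coeff_add, coeff_C_mul_X_pow]
  simp

/-- the degree of the cusp polynomial is at least `7` (in fact `≥ 11`). -/
theorem natDegree_rhoX_ge (h τ : k) (hne : h ^ 3 + τ ^ 2 ≠ 0) : 7 ≤ (rhoX h τ).natDegree := by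
  by_cases h7 : rc7 h τ = 0
  · -- then `h = 0` or `τ = 0`, and the top coefficient is nonzero
    have h12 : rc12 h τ ≠ 0 := by
      unfold rc7 at h7
      unfold rc12
      have : h ^ 2 * τ = 0 := by
        have h4752 : (4752 : k) ≠ 0 := by norm_num
        have : (4752 : k) * (h ^ 2 * τ) = 0 := by linear_combination -h7
        exact (mul_eq_zero.mp this).resolve_left h4752
      rcases mul_eq_zero.mp this with hh | hτ
      · have hh0 : h = 0 := pow_eq_zero_iff (by norm_num) |>.mp hh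
        subst hh0
        have hτ0 : τ ≠ 0 := by
          rintro rfl
          apply hne
          ring
        have : τ ^ 4 ≠ 0 := pow_ne_zero 4 hτ0
        intro hc
        apply this
        have h102400 : (102400 : k) ≠ 0 := by norm_num
        have : (102400 : k) * τ ^ 4 = 0 := by linear_combination hc
        exact (mul_eq_zero.mp this).resolve_left h102400
      · subst hτ
        have hh0 : h ≠ 0 := by
          rintro rfl
          apply hne
          ring
        have : h ^ 6 ≠ 0 := pow_ne_zero 6 hh0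
        intro hc
        apply this
        have h91125 : (91125 : k) ≠ 0 := by norm_num
        have : (91125 : k) * h ^ 6 = 0 := by linear_combination hc
        exact (mul_eq_zero.mp this).resolve_left h91125
    have : 12 ≤ (rhoX h τ).natDegree :=
      le_natDegree_of_ne_zero (by rw [coeff_rhoX_twelve]; exact h12)
    omega
  · exact le_natDegree_of_ne_zero (by rw [coeff_rhoX_seven]; exact h7)

end Field

end Fermat.Agent.S52x.FamSq9
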