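/-
S52 (3–5 switch), part P3a (helper4): the quartic `Θ(e) = e⁴ - 6 c₄ e² - 8 c₆ e - 3 c₄²`.

For a Weierstrass curve `W` the substitution `e = 12 x + b₂` turns the `3`-division polynomial into
`Θ`: `Θ(12 x + b₂) = 6912 ψ₃(x)`.  So a rational root of `ψ₃` (a rational `3`-isogeny) is the same as
an integer root of the monic integral quartic `Θ`.  This file contains the polynomial identities.
-/
import Mathlib
import Fermat.Agent.S51.Defs

set_option autoImplicit false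

namespace Fermat.Agent.S52x.Theta4

open Fermat.Agent.S51

/-- `Θ(e) = e⁴ - 6 c₄ e² - 8 c₆ e - 3 c₄²`. -/
def theta {R : Type*} [CommRing R] (c4 c6 e : R) : R :=
  e ^ 4 - 6 * c4 * e ^ 2 - 8 * c6 * e - 3 * c4 ^ 2

/-- `Θ(12 x + b₂) = 6912 ψ₃(x)`. -/
theorem theta_eq_psi3 {R : Type*} [CommRing R] (W : WeierstrassCurve R) (x : R) :
    theta W.c₄ W.c₆ (12 * x + W.b₂) = 6912 * psi3 W x := by
  unfold theta psi3
  rw [WeierstrassCurve.c₄, WeierstrassCurve.c₆]
  linear_combination (-1728 : R) * W.b_relation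

/-- `3 c₄² = e (e³ - 6 c₄ e - 8 c₆)` at a root of `Θ`. -/
theorem three_mul_sq_eq {R : Type*} [CommRing R] {c4 c6 e : R} (h : theta c4 c6 e = 0) :
    3 * c4 ^ 2 = e * (e ^ 3 - 6 * c4 * e - 8 * c6) := by
  unfold theta at h
  linear_combination (-1 : R) * h

/-- The expansion of `c₄⁴ Θ(e)` around the triple root `c₄ e + c₆ = 0` of `Θ` modulo
`D = c₄³ - c₆²`. -/
theorem key_identity {R : Type*} [CommRing R] (c4 c6 e : R) :
    c4 ^ 4 * theta c4 c6 e =
      (c4 * e + c6) ^ 3 * ((c4 * e + c6) - 4 * c6) -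
        (c4 ^ 3 - c6 ^ 2) * (6 * (c4 * e + c6) ^ 2 - 4 * c6 * (c4 * e + c6) + 4 * c6 ^ 2 +
          3 * (c4 ^ 3 - c6 ^ 2)) := by
  unfold theta
  ring

end Fermat.Agent.S52x.Theta4
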