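/-
S52 (3–5 switch), B3 via "HIT-lite-lite" (helper4), part A: algebra of the quartic
`Θ(e) = e⁴ - 6 c₄ e² - 8 c₆ e - 3 c₄²`.

* Taylor expansion, divided difference, weighted homogeneity;
* simple roots when `c₄³ ≠ c₆²`;
* two distinct real roots have opposite signs (`x Θ(y) - y Θ(x) = (y-x)[xy(x-y)² + 3(xy-c₄)²]`);
* truncated Newton iteration in `K[t]`.
-/
import Mathlib
import Fermat.Agent.S52x.Theta4

set_option autoImplicit false

namespace Fermat.Agent.S52x.Hit4A

open Fermat.Agent.S52x.Theta4 Polynomial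

section Ring

variable {R : Type*} [CommRing R]

/-- the derivative of `Θ` in `e`. -/
def thetaD (c4 c6 e : R) : R := 4 * e ^ 3 - 12 * c4 * e - 8 * c6

/-- the divided difference of `Θ`. -/
def thetaDD (c4 c6 x y : R) : R :=
  x ^ 3 + x ^ 2 * y + x * y ^ 2 + y ^ 3 - 6 * c4 * (x + y) - 8 * c6

theorem theta_add (c4 c6 e d : R) :
    theta c4 c6 (e + d) =
      theta c4 c6 e + d * thetaD c4 c6 e + d ^ 2 * (6 * e ^ 2 + 4 * e * d + d ^ 2 - 6 * c4) := by
  unfold theta thetaD
  ring

theorem theta_sub_theta (c4 c6 x y : R) :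
    theta c4 c6 x - theta c4 c6 y = (x - y) * thetaDD c4 c6 x y := by
  unfold theta thetaDD
  ring

theorem thetaDD_self (c4 c6 x : R) : thetaDD c4 c6 x x = thetaD c4 c6 x := by
  unfold thetaDD thetaD
  ring

theorem theta_scale (u a b x : R) :
    theta (u ^ 2 * a) (u ^ 3 * b) (u * x) = u ^ 4 * theta a b x := by
  unfold theta
  ring

theorem cross_identity (c4 c6 x y : R) :
    x * theta c4 c6 y - y * theta c4 c6 x =
      (y - x) * (x * y * (x - y) ^ 2 + 3 * (x * y - c4) ^ 2) := by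
  unfold theta
  ring

/-- `Θ(e) = e Θ'(e) - 3 (e² - c₄)²`. -/
theorem theta_eq_mul_thetaD (c4 c6 e : R) :
    theta c4 c6 e = e * thetaD c4 c6 e - 3 * (e ^ 2 - c4) ^ 2 := by
  unfold theta thetaD
  ring

theorem map_theta {S : Type*} [CommRing S] (f : R →+* S) (c4 c6 e : R) :
    f (theta c4 c6 e) = theta (f c4) (f c6) (f e) := by
  unfold theta
  simp only [map_sub, map_mul, map_pow, map_ofNat]

theorem map_thetaD {S : Type*} [CommRing S] (f : R →+* S) (c4 c6 e : R) :
    f (thetaD c4 c6 e) = thetaD (f c4) (f c6) (f e) := by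
  unfold thetaD
  simp only [map_sub, map_mul, map_pow, map_ofNat]

theorem eval_theta (A B E : R[X]) (t : R) :
    (theta A B E).eval t = theta (A.eval t) (B.eval t) (E.eval t) :=
  map_theta (evalRingHom t) A B E

theorem eval_thetaD (A B E : R[X]) (t : R) :
    (thetaD A B E).eval t = thetaD (A.eval t) (B.eval t) (E.eval t) :=
  map_thetaD (evalRingHom t) A B E

end Ring

section Field

variable {K : Type*} [Field K] [CharZero K]

/-- a multiple root of `Θ` forces `c₄³ = c₆²`. -/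
theorem thetaD_ne_zero {c4 c6 z : K} (hD : c4 ^ 3 ≠ c6 ^ 2)
    (hz : theta c4 c6 z = 0) : thetaD c4 c6 z ≠ 0 := by
  intro hd
  apply hD
  have h1 : (z ^ 2 - c4) ^ 2 = 0 := by
    have := theta_eq_mul_thetaD c4 c6 z
    rw [hz, hd, mul_zero, zero_sub] at this
    have h3 : (3 : K) ≠ 0 := by norm_num
    have : 3 * (z ^ 2 - c4) ^ 2 = 0 := by linear_combination this
    exact (mul_eq_zero.mp this).resolve_left h3
  have h2 : z ^ 2 = c4 := by
    have := pow_eq_zero_iff (two_ne_zero) |>.mp h1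
    linear_combination this
  have h3 : c6 = -(c4 * z) := by
    unfold thetaD at hd
    have h8 : (8 : K) ≠ 0 := by norm_num
    have : 8 * (c6 + c4 * z) = 0 := by
      linear_combination (-1 : K) * hd + (4 * z) * h2
    have := (mul_eq_zero.mp this).resolve_left h8
    linear_combination this
  rw [h3, ← h2]
  ring

omit [CharZero K] in
/-- the truncated Newton iteration: a simple root `z` of `Θ` at `t = 0` lifts to a polynomial
`ε` of degree `≤ k` with `Θ_t(ε(t)) ≡ 0 mod t^(k+1)`. -/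
theorem exists_newton (A B : K[X]) (z : K) (hz : theta (A.eval 0) (B.eval 0) z = 0)
    (hd : thetaD (A.eval 0) (B.eval 0) z ≠ 0) (k : ℕ) :
    ∃ ε : K[X], ε.eval 0 = z ∧ ε.natDegree ≤ k ∧ (X : K[X]) ^ (k + 1) ∣ theta A B ε := by
  induction k with
  | zero =>
    refine ⟨C z, eval_C, by simp, ?_⟩
    rw [zero_add, pow_one, X_dvd_iff, coeff_zero_eq_eval_zero, eval_theta, eval_C]
    exact hz
  | succ k ih =>
    obtain ⟨ε, hε0, hεd, r, hr⟩ := ih
    -- `Θ(ε) = X^(k+1) r`; correct `ε` by `a X^(k+1)` with `a = - r(0) / Θ'(z)`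
    set a : K := -(r.eval 0) / thetaD (A.eval 0) (B.eval 0) z with ha
    refine ⟨ε + C a * X ^ (k + 1), ?_, ?_, ?_⟩
    · simp [hε0]
    · refine (natDegree_add_le _ _).trans (max_le (hεd.trans (Nat.le_succ k)) ?_)
      exact (natDegree_C_mul_le _ _).trans (natDegree_X_pow_le _)
    · rw [theta_add, hr]
      -- `r + a Θ'(ε)` vanishes at `0`
      have h0 : (X : K[X]) ∣ r + C a * thetaD A B ε := by
        rw [X_dvd_iff, coeff_zero_eq_eval_zero, eval_add, eval_mul, eval_C, eval_thetaD, hε0, ha]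
        field_simp
        ring
      obtain ⟨s, hs⟩ := h0
      refine ⟨s + C a ^ 2 * X ^ k *
        (6 * ε ^ 2 + 4 * ε * (C a * X ^ (k + 1)) + (C a * X ^ (k + 1)) ^ 2 - 6 * A), ?_⟩
      have : X ^ (k + 1) * r + C a * X ^ (k + 1) * thetaD A B ε =
          X ^ (k + 1) * (r + C a * thetaD A B ε) := by ring
      rw [this, hs]
      ring

end Field

/-- two distinct real roots of `Θ` do not have the same sign. -/
theorem not_pos_mul_of_roots {c4 c6 x y : ℝ} (hx : theta c4 c6 x = 0) (hy : theta c4 c6 y = 0)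
    (hxy : x ≠ y) : ¬ 0 < x * y := by
  intro hpos
  have h := cross_identity c4 c6 x y
  rw [hx, hy, mul_zero, mul_zero, sub_zero] at h
  have h1 : y - x ≠ 0 := sub_ne_zero.mpr (Ne.symm hxy)
  have h2 : x * y * (x - y) ^ 2 + 3 * (x * y - c4) ^ 2 = 0 :=
    (mul_eq_zero.mp h.symm).resolve_left h1
  have h3 : 0 < (x - y) ^ 2 := by
    have : x - y ≠ 0 := sub_ne_zero.mpr hxy
    positivity
  have h4 : 0 < x * y * (x - y) ^ 2 := mul_pos hpos h3
  have h5 : 0 ≤ 3 * (x * y - c4) ^ 2 := by positivity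
  linarith

end Fermat.Agent.S52x.Hit4A
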