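/-
S52 (3–5 switch), B3 via "HIT-lite-lite" (helper4), part B: localisation of the real roots of
`Θ_t(x) = Θ(A(t), B(t), x)` for small `t`.

If all real roots `z` of `Θ₀` are simple and `ε_z ∈ ℝ[t]` are approximate roots
(`ε_z(0) = z`, `t^(k+1) ∣ Θ_t(ε_z(t))`), then for `|t|` small every real root `x` of `Θ_t` satisfies
`|x - ε_z(t)| ≤ C |t|^(k+1)` for some `z`.
-/
import Mathlib
import Fermat.Agent.S52x.Hit4A

set_option autoImplicit false

namespace Fermat.Agent.S52x.Hit4B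

open Fermat.Agent.S52x.Theta4 Fermat.Agent.S52x.Hit4A Polynomial Filter Topology

variable (A B : ℝ[X])

/-- `Θ_t(x)`. -/
noncomputable def Th (t x : ℝ) : ℝ := theta (A.eval t) (B.eval t) x

theorem continuous_Th : Continuous (fun p : ℝ × ℝ => Th A B p.1 p.2) := by
  unfold Th theta
  have hA : Continuous (fun p : ℝ × ℝ => A.eval p.1) := A.continuous.comp continuous_fst
  have hB : Continuous (fun p : ℝ × ℝ => B.eval p.1) := B.continuous.comp continuous_fst
  fun_prop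

theorem exists_bound_eval (P : ℝ[X]) : ∃ a : ℝ, 0 ≤ a ∧ ∀ t : ℝ, |t| ≤ 1 → |P.eval t| ≤ a := by
  obtain ⟨a, ha⟩ := (isCompact_Icc : IsCompact (Set.Icc (-1 : ℝ) 1)).exists_bound_of_continuousOn
    P.continuous.continuousOn
  refine ⟨|a|, abs_nonneg a, fun t ht => ?_⟩
  have := ha t (Set.mem_Icc.mpr (abs_le.mp ht))
  rw [Real.norm_eq_abs] at this
  exact this.trans (le_abs_self a)

/-- the real roots of `Θ_t`, `|t| ≤ 1`, are uniformly bounded. -/
theorem root_bound : ∃ B₀ : ℝ, 0 < B₀ ∧ ∀ t : ℝ, |t| ≤ 1 → ∀ x : ℝ, Th A B t x = 0 → |x| ≤ B₀ := by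
  obtain ⟨a, ha0, ha⟩ := exists_bound_eval A
  obtain ⟨b, hb0, hb⟩ := exists_bound_eval B
  refine ⟨1 + (6 * a + 8 * b + 3 * a ^ 2), by positivity, ?_⟩
  intro t ht x hx
  have hta := ha t ht
  have htb := hb t ht
  by_cases h1 : |x| ≤ 1
  · have : 0 ≤ 6 * a + 8 * b + 3 * a ^ 2 := by positivity
    linarith
  · push_neg at h1
    set y := |x| with hy
    have hx4 : x ^ 4 = 6 * A.eval t * x ^ 2 + 8 * B.eval t * x + 3 * (A.eval t) ^ 2 := by
      unfold Th theta at hx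
      linarith
    have hy4 : y ^ 4 ≤ (6 * a + 8 * b + 3 * a ^ 2) * y ^ 2 := by
      have e1 : y ^ 4 = |x ^ 4| := by rw [hy, abs_pow]
      rw [e1, hx4]
      have e2 : |6 * A.eval t * x ^ 2| ≤ 6 * a * y ^ 2 := by
        rw [abs_mul, abs_mul, abs_pow, abs_of_pos (by norm_num : (0 : ℝ) < 6)]
        have : 0 ≤ y ^ 2 := by positivity
        nlinarith
      have e3 : |8 * B.eval t * x| ≤ 8 * b * y ^ 2 := by
        rw [abs_mul, abs_mul, abs_of_pos (by norm_num : (0 : ℝ) < 8)]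
        have h2 : y ≤ y ^ 2 := by nlinarith
        have : 0 ≤ y := abs_nonneg x
        calc 8 * |B.eval t| * |x| ≤ 8 * b * y := by
              have : |B.eval t| * |x| ≤ b * y := mul_le_mul htb le_rfl (abs_nonneg x) hb0
              nlinarith
          _ ≤ 8 * b * y ^ 2 := by
              have : 0 ≤ 8 * b := by positivity
              exact mul_le_mul_of_nonneg_left h2 this
      have e4 : |3 * (A.eval t) ^ 2| ≤ 3 * a ^ 2 * y ^ 2 := by
        rw [abs_mul, abs_pow, abs_of_pos (by norm_num : (0 : ℝ) < 3)]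
        have h2 : 1 ≤ y ^ 2 := by nlinarith
        have h3 : |A.eval t| ^ 2 ≤ a ^ 2 := pow_le_pow_left₀ (abs_nonneg _) hta 2
        have h4 : 0 ≤ a ^ 2 := by positivity
        nlinarith
      calc |6 * A.eval t * x ^ 2 + 8 * B.eval t * x + 3 * (A.eval t) ^ 2|
          ≤ |6 * A.eval t * x ^ 2| + |8 * B.eval t * x| + |3 * (A.eval t) ^ 2| := abs_add_three _ _ _
        _ ≤ 6 * a * y ^ 2 + 8 * b * y ^ 2 + 3 * a ^ 2 * y ^ 2 := by linarith
        _ = (6 * a + 8 * b + 3 * a ^ 2) * y ^ 2 := by ring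
    have hy2 : y ^ 2 ≤ 6 * a + 8 * b + 3 * a ^ 2 := by
      have hpos : 0 < y ^ 2 := by positivity
      have : y ^ 2 * y ^ 2 ≤ (6 * a + 8 * b + 3 * a ^ 2) * y ^ 2 := by
        calc y ^ 2 * y ^ 2 = y ^ 4 := by ring
          _ ≤ _ := hy4
      exact le_of_mul_le_mul_right this hpos
    have : y ≤ y ^ 2 := by nlinarith
    linarith

/-- for `t` small, every real root of `Θ_t` is close to a real root of `Θ₀`. -/
theorem near_root (ρ : ℝ) (hρ : 0 < ρ) :
    ∃ τ : ℝ, 0 < τ ∧ ∀ t : ℝ, |t| < τ → ∀ x : ℝ, Th A B t x = 0 →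
      ∃ z : ℝ, Th A B 0 z = 0 ∧ |x - z| < ρ := by
  obtain ⟨B₀, hB₀, hbound⟩ := root_bound A B
  by_contra hcon
  push_neg at hcon
  have hn : ∀ n : ℕ, ∃ t : ℝ, |t| < 1 / ((n : ℝ) + 1) ∧ ∃ x : ℝ, Th A B t x = 0 ∧
      ∀ z : ℝ, Th A B 0 z = 0 → ρ ≤ |x - z| := fun n => hcon (1 / ((n : ℝ) + 1)) (by positivity)
  choose t ht x hx hfar using hn
  have ht1 : ∀ n, |t n| ≤ 1 := by
    intro n
    have h1 : 1 / ((n : ℝ) + 1) ≤ 1 := by
      rw [div_le_one (by positivity)]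
      have : (0 : ℝ) ≤ n := Nat.cast_nonneg n
      linarith
    exact (ht n).le.trans h1
  have hxmem : ∀ n, x n ∈ Metric.closedBall (0 : ℝ) B₀ := by
    intro n
    rw [mem_closedBall_zero_iff, Real.norm_eq_abs]
    exact hbound (t n) (ht1 n) (x n) (hx n)
  obtain ⟨xs, -, φ, hφ, hlim⟩ := (isCompact_closedBall (0 : ℝ) B₀).tendsto_subseq hxmem
  have ht0 : Tendsto t atTop (𝓝 0) := by
    refine squeeze_zero_norm (fun n => ?_) tendsto_one_div_add_atTop_nhds_zero_nat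
    rw [Real.norm_eq_abs]
    exact (ht n).le
  have hpair : Tendsto (fun n => (t (φ n), x (φ n))) atTop (𝓝 ((0 : ℝ), xs)) :=
    (ht0.comp hφ.tendsto_atTop).prodMk_nhds hlim
  have hzero : Th A B 0 xs = 0 := by
    have hval : Tendsto ((fun p : ℝ × ℝ => Th A B p.1 p.2) ∘ fun n => (t (φ n), x (φ n))) atTop
        (𝓝 ((fun p : ℝ × ℝ => Th A B p.1 p.2) ((0 : ℝ), xs))) :=
      ((continuous_Th A B).tendsto ((0 : ℝ), xs)).comp hpair
    have hconst : ((fun p : ℝ × ℝ => Th A B p.1 p.2) ∘ fun n => (t (φ n), x (φ n))) =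
        fun _ => (0 : ℝ) := by
      funext n
      exact hx (φ n)
    rw [hconst] at hval
    exact tendsto_nhds_unique hval tendsto_const_nhds
  have hfar' : ∀ n, ρ ≤ |x (φ n) - xs| := fun n => hfar (φ n) xs hzero
  have hsub : Tendsto (fun n => |x (φ n) - xs|) atTop (𝓝 0) := by
    have : Tendsto (fun n => x (φ n) - xs) atTop (𝓝 (xs - xs)) := hlim.sub_const xs
    rw [sub_self] at this
    exact (tendsto_zero_iff_abs_tendsto_zero _).mp this
  have := ge_of_tendsto' hsub hfar'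
  linarith

/-- local refinement near a simple root `z` of `Θ₀`. -/
theorem local_refine (E : ℝ[X]) (z : ℝ) (hE : E.eval 0 = z)
    (hd : thetaD (A.eval 0) (B.eval 0) z ≠ 0) :
    ∃ ρ : ℝ, 0 < ρ ∧ ∃ c : ℝ, 0 < c ∧ ∀ t : ℝ, |t| < ρ → ∀ x : ℝ, |x - z| < ρ →
      c * |x - E.eval t| ≤ |Th A B t x - Th A B t (E.eval t)| := by
  set d := thetaD (A.eval 0) (B.eval 0) z with hd'
  let G : ℝ × ℝ → ℝ := fun p => thetaDD (A.eval p.1) (B.eval p.1) p.2 (E.eval p.1)
  have hG : Continuous G := by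
    have hA : Continuous (fun p : ℝ × ℝ => A.eval p.1) := A.continuous.comp continuous_fst
    have hB : Continuous (fun p : ℝ × ℝ => B.eval p.1) := B.continuous.comp continuous_fst
    have hEc : Continuous (fun p : ℝ × ℝ => E.eval p.1) := E.continuous.comp continuous_fst
    show Continuous fun p : ℝ × ℝ => thetaDD (A.eval p.1) (B.eval p.1) p.2 (E.eval p.1)
    unfold thetaDD
    fun_prop
  have hG0 : G (0, z) = d := by
    show thetaDD (A.eval 0) (B.eval 0) z (E.eval 0) = d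
    rw [hE, thetaDD_self]
  have hev : ∀ᶠ p in 𝓝 ((0 : ℝ), z), |d| / 2 < |G p| := by
    have h1 : Tendsto (fun p => |G p|) (𝓝 ((0 : ℝ), z)) (𝓝 |G (0, z)|) :=
      (continuous_abs.comp hG).tendsto _
    rw [hG0] at h1
    have h2 : |d| / 2 < |d| := by
      have : 0 < |d| := abs_pos.mpr hd
      linarith
    exact h1.eventually (lt_mem_nhds h2)
  obtain ⟨ρ, hρ, hball⟩ := Metric.eventually_nhds_iff.mp hev
  refine ⟨ρ, hρ, |d| / 2, by have : 0 < |d| := abs_pos.mpr hd; linarith, ?_⟩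
  intro t ht x hx
  have hmem : dist (t, x) ((0 : ℝ), z) < ρ := by
    rw [Prod.dist_eq]
    refine max_lt ?_ ?_
    · simpa [Real.dist_eq] using ht
    · simpa [Real.dist_eq] using hx
  have hGp := hball hmem
  have hsub : Th A B t x - Th A B t (E.eval t) = (x - E.eval t) * G (t, x) :=
    theta_sub_theta _ _ _ _
  rw [hsub, abs_mul, mul_comm]
  exact mul_le_mul_of_nonneg_left hGp.le (abs_nonneg _)

/-- the size of `Θ_t(ε(t))` for an approximate root. -/
theorem approx_bound (E : ℝ[X]) (k : ℕ) (hdvd : (X : ℝ[X]) ^ (k + 1) ∣ theta A B E) :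
    ∃ C : ℝ, 0 ≤ C ∧ ∀ t : ℝ, |t| ≤ 1 → |Th A B t (E.eval t)| ≤ C * |t| ^ (k + 1) := by
  obtain ⟨R, hR⟩ := hdvd
  obtain ⟨C, hC0, hC⟩ := exists_bound_eval R
  refine ⟨C, hC0, fun t ht => ?_⟩
  have : Th A B t (E.eval t) = t ^ (k + 1) * R.eval t := by
    unfold Th
    rw [← eval_theta, hR, eval_mul, eval_pow, eval_X]
  rw [this, abs_mul, abs_pow, mul_comm]
  exact mul_le_mul_of_nonneg_right (hC t ht) (by positivity)

/-- **localisation of the real roots.** -/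
theorem localise (Z : Finset ℝ) (hZ : ∀ z : ℝ, Th A B 0 z = 0 → z ∈ Z) (E : ℝ → ℝ[X])
    (hE0 : ∀ z ∈ Z, (E z).eval 0 = z)
    (hd : ∀ z ∈ Z, thetaD (A.eval 0) (B.eval 0) z ≠ 0) (k : ℕ)
    (hdvd : ∀ z ∈ Z, (X : ℝ[X]) ^ (k + 1) ∣ theta A B (E z)) :
    ∃ τ : ℝ, 0 < τ ∧ ∃ C : ℝ, 0 ≤ C ∧ ∀ t : ℝ, |t| < τ → ∀ x : ℝ, Th A B t x = 0 →
      ∃ z ∈ Z, |x - (E z).eval t| ≤ C * |t| ^ (k + 1) := by
  -- uniform constants over `Z`
  have key : ∀ Z' : Finset ℝ, Z' ⊆ Z → ∃ ρ : ℝ, 0 < ρ ∧ ∃ C : ℝ, 0 ≤ C ∧ ∀ z ∈ Z', ∀ t : ℝ,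
      |t| < ρ → ∀ x : ℝ, |x - z| < ρ → Th A B t x = 0 →
        |x - (E z).eval t| ≤ C * |t| ^ (k + 1) := by
    intro Z'
    induction Z' using Finset.induction_on with
    | empty =>
      intro _
      exact ⟨1, one_pos, 0, le_rfl, fun z hz => absurd hz (Finset.notMem_empty z)⟩
    | insert a s ha ih =>
      intro hsub
      obtain ⟨ρ₁, hρ₁, C₁, hC₁, h₁⟩ := ih ((Finset.subset_insert a s).trans hsub)
      have haZ : a ∈ Z := hsub (Finset.mem_insert_self a s)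
      obtain ⟨ρ₂, hρ₂, c, hc, h₂⟩ := local_refine A B (E a) a (hE0 a haZ) (hd a haZ)
      obtain ⟨C₂, hC₂, h₃⟩ := approx_bound A B (E a) k (hdvd a haZ)
      refine ⟨min (min ρ₁ ρ₂) 1, lt_min (lt_min hρ₁ hρ₂) one_pos, max C₁ (C₂ / c),
        le_max_of_le_left hC₁, ?_⟩
      intro z hz t ht x hx hroot
      have ht1 : |t| < ρ₁ := ht.trans_le ((min_le_left _ _).trans (min_le_left _ _))
      have ht2 : |t| < ρ₂ := ht.trans_le ((min_le_left _ _).trans (min_le_right _ _))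
      have ht3 : |t| ≤ 1 := (ht.trans_le (min_le_right _ _)).le
      have hx1 : |x - z| < ρ₁ := hx.trans_le ((min_le_left _ _).trans (min_le_left _ _))
      have hx2 : |x - z| < ρ₂ := hx.trans_le ((min_le_left _ _).trans (min_le_right _ _))
      have hpow : 0 ≤ |t| ^ (k + 1) := by positivity
      rcases Finset.mem_insert.mp hz with rfl | hzs
      · have e1 := h₂ t ht2 x hx2
        rw [hroot, zero_sub, abs_neg] at e1
        have e2 := h₃ t ht3
        have e3 : |x - (E z).eval t| ≤ C₂ / c * |t| ^ (k + 1) := by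
          rw [div_mul_eq_mul_div, le_div_iff₀ hc]
          calc |x - (E z).eval t| * c = c * |x - (E z).eval t| := mul_comm _ _
            _ ≤ _ := e1.trans e2
        exact e3.trans (mul_le_mul_of_nonneg_right (le_max_right _ _) hpow)
      · exact (h₁ z hzs t ht1 x hx1 hroot).trans
          (mul_le_mul_of_nonneg_right (le_max_left _ _) hpow)
  obtain ⟨ρ, hρ, C, hC, hkey⟩ := key Z (Finset.Subset.refl Z)
  obtain ⟨τ, hτ, hnear⟩ := near_root A B ρ hρ
  refine ⟨min τ ρ, lt_min hτ hρ, C, hC, ?_⟩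
  intro t ht x hroot
  obtain ⟨z, hz0, hzx⟩ := hnear t (ht.trans_le (min_le_left _ _)) x hroot
  exact ⟨z, hZ z hz0, hkey z (hZ z hz0) t (ht.trans_le (min_le_right _ _)) x hzx hroot⟩

end Fermat.Agent.S52x.Hit4B
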