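/-
S52 (3–5 switch), B3 via "HIT-lite-lite" (helper4), part C: generalities used in the arithmetic
part — homogenisation, forward differences of polynomials, distance of a non-integer to `ℤ`,
denominators.
-/
import Mathlib
import Fermat.Agent.S52x.Hit4B

set_option autoImplicit false

namespace Fermat.Agent.S52x.Hit4C

open Polynomial Finset

/-- homogenisation of an integer polynomial: `hom P d l m = l^d P(m/l)`. -/
def hom (P : ℤ[X]) (d : ℕ) (l m : ℤ) : ℤ :=
  ∑ k ∈ range (d + 1), P.coeff k * l ^ (d - k) * m ^ k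

theorem hom_cast (P : ℤ[X]) (d : ℕ) (hd : P.natDegree ≤ d) (l m : ℤ) (hl : l ≠ 0) :
    ((hom P d l m : ℤ) : ℝ) =
      (l : ℝ) ^ d * (P.map (Int.castRingHom ℝ)).eval ((m : ℝ) / l) := by
  have hl' : (l : ℝ) ≠ 0 := Int.cast_ne_zero.mpr hl
  have hdeg : (P.map (Int.castRingHom ℝ)).natDegree < d + 1 :=
    lt_of_le_of_lt natDegree_map_le (Nat.lt_succ_of_le hd)
  rw [eval_eq_sum_range' hdeg, hom, Int.cast_sum, mul_sum]
  refine sum_congr rfl fun k hk => ?_
  have hk' : k ≤ d := Nat.lt_succ_iff.mp (mem_range.mp hk)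
  rw [coeff_map, eq_intCast, div_pow]
  push_cast
  have : (l : ℝ) ^ d = (l : ℝ) ^ (d - k) * (l : ℝ) ^ k := by
    rw [← pow_add, Nat.sub_add_cancel hk']
  rw [this]
  field_simp

/-- the `n`-th forward difference of a polynomial of degree `≤ n`. -/
theorem fwdDiff_iter_of_natDegree_le {R : Type*} [CommRing R] (P : R[X]) (n : ℕ)
    (h : P.natDegree ≤ n) (y : R) :
    (fwdDiff (1 : R))^[n] P.eval y = (n.factorial : R) * P.coeff n := by
  rcases h.lt_or_eq with hlt | rfl
  · rw [Polynomial.fwdDiff_iter_eq_zero_of_degree_lt hlt, coeff_eq_zero_of_natDegree_lt hlt,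
      mul_zero]
    rfl
  · rw [Polynomial.fwdDiff_iter_degree_eq_factorial, ← Polynomial.leadingCoeff]
    simp [mul_comm]

/-- explicit alternating-sum form. -/
theorem alt_sum_eval {R : Type*} [CommRing R] (P : R[X]) (n : ℕ) (h : P.natDegree ≤ n) (y : R) :
    ∑ j ∈ range (n + 1), (((-1 : ℤ) ^ (n - j) * (n.choose j : ℤ) : ℤ) : R) * P.eval (y + j) =
      (n.factorial : R) * P.coeff n := by
  rw [← fwdDiff_iter_of_natDegree_le P n h y, fwdDiff_iter_eq_sum_shift]
  refine sum_congr rfl fun j _ => ?_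
  rw [zsmul_eq_mul, nsmul_eq_mul, mul_one]

/-- a real number which is not an integer has positive distance to `ℤ`. -/
theorem exists_dist_int {y : ℝ} (hy : ∀ m : ℤ, (m : ℝ) ≠ y) :
    ∃ η : ℝ, 0 < η ∧ ∀ m : ℤ, η ≤ |y - m| := by
  have h1 : (⌊y⌋ : ℝ) < y := lt_of_le_of_ne (Int.floor_le y) (hy _)
  have h2 : y < ⌊y⌋ + 1 := Int.lt_floor_add_one y
  refine ⟨min (y - ⌊y⌋) (⌊y⌋ + 1 - y), lt_min (by linarith) (by linarith), fun m => ?_⟩
  rcases le_or_gt m ⌊y⌋ with hm | hm
  · have : (m : ℝ) ≤ ⌊y⌋ := Int.cast_le.mpr hm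
    rw [abs_of_nonneg (by linarith)]
    exact (min_le_left _ _).trans (by linarith)
  · have : (⌊y⌋ : ℝ) + 1 ≤ m := by exact_mod_cast Int.add_one_le_iff.mpr hm
    rw [abs_of_nonpos (by linarith)]
    exact (min_le_right _ _).trans (by linarith)

/-- common denominator of the first `n` coefficients of a rational polynomial. -/
theorem exists_common_den (P : ℚ[X]) (n : ℕ) :
    ∃ K : ℕ, 0 < K ∧ ∀ k ∈ range n, ∃ m : ℤ, (K : ℚ) * P.coeff k = m := by
  refine ⟨∏ k ∈ range n, (P.coeff k).den, prod_pos fun k _ => (P.coeff k).den_pos, ?_⟩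
  intro k hk
  obtain ⟨c, hc⟩ := dvd_prod_of_mem (fun k => (P.coeff k).den) hk
  refine ⟨c * (P.coeff k).num, ?_⟩
  rw [hc]
  push_cast
  have := Rat.mul_den_eq_num (P.coeff k)
  calc ((P.coeff k).den : ℚ) * c * P.coeff k = c * (P.coeff k * (P.coeff k).den) := by ring
    _ = c * (P.coeff k).num := by rw [this]

/-- two integers at distance `< 1` are equal. -/
theorem int_eq_of_abs_lt_one {a b : ℤ} (h : |(a : ℝ) - b| < 1) : a = b := by
  have : |a - b| < 1 := by exact_mod_cast h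
  have := Int.abs_lt_one_iff.mp this
  omega

end Fermat.Agent.S52x.Hit4C
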