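/-
S52 (3–5 switch), chunk B1b (helper7): the explicit family of elliptic curves with constant
mod-5 representation, via Klein's icosahedral forms.

`H, T, f` are Klein's forms (`T² + H³ = 1728 f⁵`), written through `s = u⁵`, `w = v⁵`.
`n(p) = (f_v, -f_u) = (u G₁, -v G₂)` is the degree-11 covariant.  The key identities
(proved in `KleinFam7H/T/F`): along the line `lam p + mu n(p)` the forms `H`, `T`, `f / f(p)` are
binary forms in `(lam, mu)` whose coefficients are explicit integer polynomials in `H(p)`, `T(p)`.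
This file: definitions only (fast).
-/
import Mathlib

set_option autoImplicit false
set_option linter.unusedVariables false

namespace Fermat.Agent.S52x.KleinFam7

variable {R : Type*} [CommRing R]

/-- Klein's `H` in `s = u⁵`, `w = v⁵`. -/
def Hsw (s w : R) : R := -(s ^ 4 + w ^ 4) + 228 * (s ^ 3 * w - s * w ^ 3) - 494 * s ^ 2 * w ^ 2

/-- Klein's `T` in `s = u⁵`, `w = v⁵`. -/
def Tsw (s w : R) : R :=
  (s ^ 6 + w ^ 6) + 522 * (s ^ 5 * w - s * w ^ 5) - 10005 * (s ^ 4 * w ^ 2 + s ^ 2 * w ^ 4)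

/-- `f = u v g(u⁵, v⁵)`. -/
def gsw (s w : R) : R := s ^ 2 + 11 * s * w - w ^ 2

def G1 (s w : R) : R := s ^ 2 + 66 * s * w - 11 * w ^ 2

def G2 (s w : R) : R := 11 * s ^ 2 + 66 * s * w - w ^ 2

theorem syzygy_sw (s w : R) : Tsw s w ^ 2 + Hsw s w ^ 3 = 1728 * (s * w * gsw s w ^ 5) := by
  unfold Tsw Hsw gsw; ring


def hc0 (h τ : R) : R := (1) * h

def hc1 (h τ : R) : R := (-20) * τ

def hc2 (h τ : R) : R := (-190) * h ^ 2

def hc3 (h τ : R) : R := (1140) * h * τ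

def hc4 (h τ : R) : R := (-855) * h ^ 3 + (-5700) * τ ^ 2

def hc5 (h τ : R) : R := (-15504) * h ^ 2 * τ

def hc6 (h τ : R) : R := (-102600) * h ^ 4 + (-63840) * h * τ ^ 2

def hc7 (h τ : R) : R := (259920) * h ^ 3 * τ + (182400) * τ ^ 3

def hc8 (h τ : R) : R := (-1000350) * h ^ 5 + (-1126320) * h ^ 2 * τ ^ 2

def hc9 (h τ : R) : R := (7736040) * h ^ 4 * τ + (7904000) * h * τ ^ 3

def hc10 (h τ : R) : R := (10003500) * h ^ 6 + (-5619744) * h ^ 3 * τ ^ 2 + (-15808000) * τ ^ 4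

def hc11 (h τ : R) : R := (-54685800) * h ^ 5 * τ + (-54853760) * h ^ 2 * τ ^ 3

def hc12 (h τ : R) : R := (-45015750) * h ^ 7 + (-7202520) * h ^ 4 * τ ^ 2 + (37939200) * h * τ ^ 4

def hc13 (h τ : R) : R := (35089200) * h ^ 6 * τ + (-23201280) * h ^ 3 * τ ^ 3 + (-58368000) * τ ^ 5

def hc14 (h τ : R) : R := (-207765000) * h ^ 8 + (-495188640) * h ^ 5 * τ ^ 2 + (-287462400) * h ^ 2 * τ ^ 4

def hc15 (h τ : R) : R := (415530000) * h ^ 7 * τ + (882458496) * h ^ 4 * τ ^ 3 + (466944000) * h * τ ^ 5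

def hc16 (h τ : R) : R := (-77911875) * h ^ 9 + (-714711600) * h ^ 6 * τ ^ 2 + (-1220474880) * h ^ 3 * τ ^ 4 + (-583680000) * τ ^ 6

def hc17 (h τ : R) : R := (-353200500) * h ^ 8 * τ + (-715080960) * h ^ 5 * τ ^ 3 + (-361881600) * h ^ 2 * τ ^ 5

def hc18 (h τ : R) : R := (-779118750) * h ^ 10 + (-2182917600) * h ^ 7 * τ ^ 2 + (-2026391040) * h ^ 4 * τ ^ 4 + (-622592000) * h * τ ^ 6

def hc19 (h τ : R) : R := (694372500) * h ^ 9 * τ + (2044414080) * h ^ 6 * τ ^ 3 + (2005401600) * h ^ 3 * τ ^ 5 + (655360000) * τ ^ 7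

def hc20 (h τ : R) : R := (184528125) * h ^ 11 + (549301500) * h ^ 8 * τ ^ 2 + (544997376) * h ^ 5 * τ ^ 4 + (180224000) * h ^ 2 * τ ^ 6

def hPoly (h τ t : R) : R :=
  hc0 h τ + t * (hc1 h τ + t * (hc2 h τ + t * (hc3 h τ + t * (hc4 h τ + t * (hc5 h τ + t * (hc6 h τ + t * (hc7 h τ + t * (hc8 h τ + t * (hc9 h τ + t * (hc10 h τ + t * (hc11 h τ + t * (hc12 h τ + t * (hc13 h τ + t * (hc14 h τ + t * (hc15 h τ + t * (hc16 h τ + t * (hc17 h τ + t * (hc18 h τ + t * (hc19 h τ + t * (hc20 h τ))))))))))))))))))))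

def tc0 (h τ : R) : R := (1) * τ

def tc1 (h τ : R) : R := (30) * h ^ 2

def tc2 (h τ : R) : R := (-435) * h * τ

def tc3 (h τ : R) : R := (-1160) * h ^ 3 + (2900) * τ ^ 2

def tc4 (h τ : R) : R := (27405) * h ^ 2 * τ

def tc5 (h τ : R) : R := (95526) * h ^ 4 + (-46980) * h * τ ^ 2

def tc6 (h τ : R) : R := (-437175) * h ^ 3 * τ + (156600) * τ ^ 3

def tc7 (h τ : R) : R := (1879200) * h ^ 5 + (3915000) * h ^ 2 * τ ^ 2

def tc8 (h τ : R) : R := (-8554275) * h ^ 4 * τ + (-14407200) * h * τ ^ 3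

def tc9 (h τ : R) : R := (24312150) * h ^ 6 + (42021000) * h ^ 3 * τ ^ 2 + (32016000) * τ ^ 4

def tc10 (h τ : R) : R := (-246633255) * h ^ 5 * τ + (-216588240) * h ^ 2 * τ ^ 3

def tc11 (h τ : R) : R := (-162081000) * h ^ 7 + (1352475900) * h ^ 4 * τ ^ 2 + (1459929600) * h * τ ^ 4

def tc12 (h τ : R) : R := (4131714825) * h ^ 6 * τ + (1612005600) * h ^ 3 * τ ^ 3 + (-2433216000) * τ ^ 5

def tc13 (h τ : R) : R := (6928962750) * h ^ 8 + (-5235216300) * h ^ 5 * τ ^ 2 + (-12044419200) * h ^ 2 * τ ^ 4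

def tc14 (h τ : R) : R := (-43190534475) * h ^ 7 * τ + (-43045111800) * h ^ 4 * τ ^ 3

def tc15 (h τ : R) : R := (79575287760) * h ^ 6 * τ ^ 2 + (79420170240) * h ^ 3 * τ ^ 4

def tc16 (h τ : R) : R := (-176688550125) * h ^ 8 * τ + (-474659611200) * h ^ 5 * τ ^ 3 + (-297825638400) * h ^ 2 * τ ^ 5

def tc17 (h τ : R) : R := (-311803323750) * h ^ 10 + (-77604382800) * h ^ 7 * τ ^ 2 + (935084908800) * h ^ 4 * τ ^ 4 + (700766208000) * h * τ ^ 6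

def tc18 (h τ : R) : R := (1694131392375) * h ^ 9 * τ + (2776512362400) * h ^ 6 * τ ^ 3 + (303665356800) * h ^ 3 * τ ^ 5 + (-778629120000) * τ ^ 7

def tc19 (h τ : R) : R := (328214025000) * h ^ 11 + (-3481840250100) * h ^ 8 * τ ^ 2 + (-8100765158400) * h ^ 5 * τ ^ 4 + (-4290656256000) * h ^ 2 * τ ^ 6

def tc20 (h τ : R) : R := (-2874607835625) * h ^ 10 * τ + (-2424887357760) * h ^ 7 * τ ^ 3 + (3892110842880) * h ^ 4 * τ ^ 5 + (3442360320000) * h * τ ^ 7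

def tc21 (h τ : R) : R := (-2215444668750) * h ^ 12 + (-3077188825500) * h ^ 9 * τ ^ 2 + (-2709129888000) * h ^ 6 * τ ^ 4 + (-5125838438400) * h ^ 3 * τ ^ 6 + (-3278438400000) * τ ^ 8

def tc22 (h τ : R) : R := (1403114956875) * h ^ 11 * τ + (-1724509423800) * h ^ 8 * τ ^ 3 + (-7701051801600) * h ^ 5 * τ ^ 5 + (-4573421568000) * h ^ 2 * τ ^ 7

def tc23 (h τ : R) : R := (-7705894500000) * h ^ 13 + (-33414470973000) * h ^ 10 * τ ^ 2 + (-49888700928000) * h ^ 7 * τ ^ 4 + (-30337884979200) * h ^ 4 * τ ^ 6 + (-6157762560000) * h * τ ^ 8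

def tc24 (h τ : R) : R := (5089101159375) * h ^ 12 * τ + (22687218914400) * h ^ 9 * τ ^ 3 + (35246094796800) * h ^ 6 * τ ^ 5 + (22779445248000) * h ^ 3 * τ ^ 7 + (5131468800000) * τ ^ 9

def tc25 (h τ : R) : R := (-17627233668750) * h ^ 14 + (-70097953635000) * h ^ 11 * τ ^ 2 + (-105528606261120) * h ^ 8 * τ ^ 4 + (-71274600677376) * h ^ 5 * τ ^ 6 + (-18216714240000) * h ^ 2 * τ ^ 8

def tc26 (h τ : R) : R := (40985726371875) * h ^ 13 * τ + (163672057566000) * h ^ 10 * τ ^ 3 + (245438120632320) * h ^ 7 * τ ^ 5 + (163803539865600) * h ^ 4 * τ ^ 7 + (41051750400000) * h * τ ^ 9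

def tc27 (h τ : R) : R := (9632368125000) * h ^ 15 + (8104032382500) * h ^ 12 * τ ^ 2 + (-63806176396800) * h ^ 9 * τ ^ 4 + (-143803576074240) * h ^ 6 * τ ^ 6 + (-111934439424000) * h ^ 3 * τ ^ 8 + (-30408704000000) * τ ^ 10

def tc28 (h τ : R) : R := (-21432019078125) * h ^ 14 * τ + (-85719228804000) * h ^ 11 * τ ^ 3 + (-128580522647040) * h ^ 8 * τ ^ 5 + (-85731449241600) * h ^ 5 * τ ^ 7 + (-21438136320000) * h ^ 2 * τ ^ 9

def tc29 (h τ : R) : R := (-11210083593750) * h ^ 16 + (-49873523512500) * h ^ 13 * τ ^ 2 + (-87394892457600) * h ^ 10 * τ ^ 4 + (-75042714746880) * h ^ 7 * τ ^ 6 + (-31344427008000) * h ^ 4 * τ ^ 8 + (-5033164800000) * h * τ ^ 10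

def tc30 (h τ : R) : R := (4110363984375) * h ^ 15 * τ + (19796866155000) * h ^ 12 * τ ^ 3 + (38083944628224) * h ^ 9 * τ ^ 5 + (36574189977600) * h ^ 6 * τ ^ 7 + (17532190720000) * h ^ 3 * τ ^ 9 + (3355443200000) * τ ^ 11

def tPoly (h τ t : R) : R :=
  tc0 h τ + t * (tc1 h τ + t * (tc2 h τ + t * (tc3 h τ + t * (tc4 h τ + t * (tc5 h τ + t * (tc6 h τ + t * (tc7 h τ + t * (tc8 h τ + t * (tc9 h τ + t * (tc10 h τ + t * (tc11 h τ + t * (tc12 h τ + t * (tc13 h τ + t * (tc14 h τ + t * (tc15 h τ + t * (tc16 h τ + t * (tc17 h τ + t * (tc18 h τ + t * (tc19 h τ + t * (tc20 h τ + t * (tc21 h τ + t * (tc22 h τ + t * (tc23 h τ + t * (tc24 h τ + t * (tc25 h τ + t * (tc26 h τ + t * (tc27 h τ + t * (tc28 h τ + t * (tc29 h τ + t * (tc30 h τ))))))))))))))))))))))))))))))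

def rc0 (h τ : R) : R := (1)

def rc1 (h τ : R) : R := 0

def rc2 (h τ : R) : R := (66) * h

def rc3 (h τ : R) : R := (-440) * τ

def rc4 (h τ : R) : R := (-1485) * h ^ 2

def rc5 (h τ : R) : R := (3168) * h * τ

def rc6 (h τ : R) : R := (-5940) * h ^ 3 + (-10560) * τ ^ 2

def rc7 (h τ : R) : R := (-4752) * h ^ 2 * τ

def rc8 (h τ : R) : R := (-66825) * h ^ 4 + (-63360) * h * τ ^ 2

def rc9 (h τ : R) : R := (142560) * h ^ 3 * τ + (140800) * τ ^ 3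

def rc10 (h τ : R) : R := (133650) * h ^ 5 + (133056) * h ^ 2 * τ ^ 2

def rc11 (h τ : R) : R := (-61560) * h ^ 4 * τ + (-61440) * h * τ ^ 3

def rc12 (h τ : R) : R := (91125) * h ^ 6 + (193536) * h ^ 3 * τ ^ 2 + (102400) * τ ^ 4

def rhoPoly (h τ t : R) : R :=
  rc0 h τ + t * (rc1 h τ + t * (rc2 h τ + t * (rc3 h τ + t * (rc4 h τ + t * (rc5 h τ + t * (rc6 h τ + t * (rc7 h τ + t * (rc8 h τ + t * (rc9 h τ + t * (rc10 h τ + t * (rc11 h τ + t * (rc12 h τ))))))))))))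

def hForm (h τ lam mu : R) : R :=
  hc0 h τ * lam ^ 20 + mu * (hc1 h τ * lam ^ 19 + mu * (hc2 h τ * lam ^ 18 + mu * (hc3 h τ * lam ^ 17 + mu * (hc4 h τ * lam ^ 16 + mu * (hc5 h τ * lam ^ 15 + mu * (hc6 h τ * lam ^ 14 + mu * (hc7 h τ * lam ^ 13 + mu * (hc8 h τ * lam ^ 12 + mu * (hc9 h τ * lam ^ 11 + mu * (hc10 h τ * lam ^ 10 + mu * (hc11 h τ * lam ^ 9 + mu * (hc12 h τ * lam ^ 8 + mu * (hc13 h τ * lam ^ 7 + mu * (hc14 h τ * lam ^ 6 + mu * (hc15 h τ * lam ^ 5 + mu * (hc16 h τ * lam ^ 4 + mu * (hc17 h τ * lam ^ 3 + mu * (hc18 h τ * lam ^ 2 + mu * (hc19 h τ * lam + mu * (hc20 h τ))))))))))))))))))))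

def tForm (h τ lam mu : R) : R :=
  tc0 h τ * lam ^ 30 + mu * (tc1 h τ * lam ^ 29 + mu * (tc2 h τ * lam ^ 28 + mu * (tc3 h τ * lam ^ 27 + mu * (tc4 h τ * lam ^ 26 + mu * (tc5 h τ * lam ^ 25 + mu * (tc6 h τ * lam ^ 24 + mu * (tc7 h τ * lam ^ 23 + mu * (tc8 h τ * lam ^ 22 + mu * (tc9 h τ * lam ^ 21 + mu * (tc10 h τ * lam ^ 20 + mu * (tc11 h τ * lam ^ 19 + mu * (tc12 h τ * lam ^ 18 + mu * (tc13 h τ * lam ^ 17 + mu * (tc14 h τ * lam ^ 16 + mu * (tc15 h τ * lam ^ 15 + mu * (tc16 h τ * lam ^ 14 + mu * (tc17 h τ * lam ^ 13 + mu * (tc18 h τ * lam ^ 12 + mu * (tc19 h τ * lam ^ 11 + mu * (tc20 h τ * lam ^ 10 + mu * (tc21 h τ * lam ^ 9 + mu * (tc22 h τ * lam ^ 8 + mu * (tc23 h τ * lam ^ 7 + mu * (tc24 h τ * lam ^ 6 + mu * (tc25 h τ * lam ^ 5 + mu * (tc26 h τ * lam ^ 4 + mu * (tc27 h τ * lam ^ 3 + mu * (tc28 h τ * lam ^ 2 + mu * (tc29 h τ * lam + mu * (tc30 h τ))))))))))))))))))))))))))))))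

def rhoForm (h τ lam mu : R) : R :=
  rc0 h τ * lam ^ 12 + mu * (rc1 h τ * lam ^ 11 + mu * (rc2 h τ * lam ^ 10 + mu * (rc3 h τ * lam ^ 9 + mu * (rc4 h τ * lam ^ 8 + mu * (rc5 h τ * lam ^ 7 + mu * (rc6 h τ * lam ^ 6 + mu * (rc7 h τ * lam ^ 5 + mu * (rc8 h τ * lam ^ 4 + mu * (rc9 h τ * lam ^ 3 + mu * (rc10 h τ * lam ^ 2 + mu * (rc11 h τ * lam + mu * (rc12 h τ))))))))))))

end Fermat.Agent.S52x.KleinFam7
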