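/-
S52 chunk B1b (helper7): Klein family, polynomial-level packaging of the definitions of
`KleinFam7` (ring-hom compatibility, coefficient functions, the one-variable polynomials
`C4fam`, `C6fam`, `Ffam`, degrees, evaluation, homogenisation).
-/
import Fermat.Agent.S52x.KleinFam7

set_option autoImplicit false
set_option linter.unusedVariables false

open Polynomial

namespace Fermat.Agent.S52x.KleinFam7

variable {R : Type*} [CommRing R] {S : Type*} [CommRing S]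

/-! ### Ring-hom compatibility -/

theorem map_Hsw (φ : R →+* S) (s w : R) : φ (Hsw s w) = Hsw (φ s) (φ w) := by
  simp [Hsw, map_ofNat]

theorem map_Tsw (φ : R →+* S) (s w : R) : φ (Tsw s w) = Tsw (φ s) (φ w) := by
  simp [Tsw, map_ofNat]

theorem map_gsw (φ : R →+* S) (s w : R) : φ (gsw s w) = gsw (φ s) (φ w) := by
  simp [gsw, map_ofNat]

theorem map_G1 (φ : R →+* S) (s w : R) : φ (G1 s w) = G1 (φ s) (φ w) := by
  simp [G1, map_ofNat]

theorem map_G2 (φ : R →+* S) (s w : R) : φ (G2 s w) = G2 (φ s) (φ w) := by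
  simp [G2, map_ofNat]

/-- The `k`-th coefficient `hck` as a function of `k` (zero for `k > 20`). -/
def hcoef (h τ : R) : ℕ → R
  | 0 => hc0 h τ
  | 1 => hc1 h τ
  | 2 => hc2 h τ
  | 3 => hc3 h τ
  | 4 => hc4 h τ
  | 5 => hc5 h τ
  | 6 => hc6 h τ
  | 7 => hc7 h τ
  | 8 => hc8 h τ
  | 9 => hc9 h τ
  | 10 => hc10 h τ
  | 11 => hc11 h τ
  | 12 => hc12 h τ
  | 13 => hc13 h τ
  | 14 => hc14 h τ
  | 15 => hc15 h τ
  | 16 => hc16 h τ
  | 17 => hc17 h τ
  | 18 => hc18 h τ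
  | 19 => hc19 h τ
  | 20 => hc20 h τ
  | _ => 0

/-- The `k`-th coefficient `tck` as a function of `k` (zero for `k > 30`). -/
def tcoef (h τ : R) : ℕ → R
  | 0 => tc0 h τ
  | 1 => tc1 h τ
  | 2 => tc2 h τ
  | 3 => tc3 h τ
  | 4 => tc4 h τ
  | 5 => tc5 h τ
  | 6 => tc6 h τ
  | 7 => tc7 h τ
  | 8 => tc8 h τ
  | 9 => tc9 h τ
  | 10 => tc10 h τ
  | 11 => tc11 h τ
  | 12 => tc12 h τ
  | 13 => tc13 h τ
  | 14 => tc14 h τ
  | 15 => tc15 h τ
  | 16 => tc16 h τ
  | 17 => tc17 h τ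
  | 18 => tc18 h τ
  | 19 => tc19 h τ
  | 20 => tc20 h τ
  | 21 => tc21 h τ
  | 22 => tc22 h τ
  | 23 => tc23 h τ
  | 24 => tc24 h τ
  | 25 => tc25 h τ
  | 26 => tc26 h τ
  | 27 => tc27 h τ
  | 28 => tc28 h τ
  | 29 => tc29 h τ
  | 30 => tc30 h τ
  | _ => 0

/-- The `k`-th coefficient `rck` as a function of `k` (zero for `k > 12`). -/
def rcoef (h τ : R) : ℕ → R
  | 0 => rc0 h τ
  | 1 => rc1 h τ
  | 2 => rc2 h τ
  | 3 => rc3 h τ
  | 4 => rc4 h τ
  | 5 => rc5 h τ
  | 6 => rc6 h τ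
  | 7 => rc7 h τ
  | 8 => rc8 h τ
  | 9 => rc9 h τ
  | 10 => rc10 h τ
  | 11 => rc11 h τ
  | 12 => rc12 h τ
  | _ => 0

theorem hcoef_eq_zero (h τ : R) {k : ℕ} (hk : 20 < k) : hcoef h τ k = 0 := by
  unfold hcoef
  split <;> first | omega | rfl

theorem tcoef_eq_zero (h τ : R) {k : ℕ} (hk : 30 < k) : tcoef h τ k = 0 := by
  unfold tcoef
  split <;> first | omega | rfl

theorem rcoef_eq_zero (h τ : R) {k : ℕ} (hk : 12 < k) : rcoef h τ k = 0 := by
  unfold rcoef
  split <;> first | omega | rfl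

theorem map_hcoef (φ : R →+* S) (h τ : R) (k : ℕ) : φ (hcoef h τ k) = hcoef (φ h) (φ τ) k := by
  unfold hcoef
  split <;> simp [hc0, hc1, hc2, hc3, hc4, hc5, hc6, hc7, hc8, hc9, hc10, hc11, hc12, hc13, hc14, hc15, hc16, hc17, hc18, hc19, hc20, map_ofNat]

theorem map_tcoef (φ : R →+* S) (h τ : R) (k : ℕ) : φ (tcoef h τ k) = tcoef (φ h) (φ τ) k := by
  unfold tcoef
  split <;> simp [tc0, tc1, tc2, tc3, tc4, tc5, tc6, tc7, tc8, tc9, tc10, tc11, tc12, tc13, tc14, tc15, tc16, tc17, tc18, tc19, tc20, tc21, tc22, tc23, tc24, tc25, tc26, tc27, tc28, tc29, tc30, map_ofNat]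

theorem map_rcoef (φ : R →+* S) (h τ : R) (k : ℕ) : φ (rcoef h τ k) = rcoef (φ h) (φ τ) k := by
  unfold rcoef
  split <;> simp [rc0, rc1, rc2, rc3, rc4, rc5, rc6, rc7, rc8, rc9, rc10, rc11, rc12, map_ofNat]

/-! ### The forms as sums over the coefficient functions -/

theorem hPoly_eq_sum (h τ t : R) : hPoly h τ t = ∑ k ∈ Finset.range 21, hcoef h τ k * t ^ k := by
  simp only [Finset.sum_range_succ, Finset.sum_range_zero, hcoef, hPoly]
  ring

theorem tPoly_eq_sum (h τ t : R) : tPoly h τ t = ∑ k ∈ Finset.range 31, tcoef h τ k * t ^ k := by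
  simp only [Finset.sum_range_succ, Finset.sum_range_zero, tcoef, tPoly]
  ring

theorem rhoPoly_eq_sum (h τ t : R) :
    rhoPoly h τ t = ∑ k ∈ Finset.range 13, rcoef h τ k * t ^ k := by
  simp only [Finset.sum_range_succ, Finset.sum_range_zero, rcoef, rhoPoly]
  ring

theorem hForm_eq_sum (h τ lam mu : R) :
    hForm h τ lam mu = ∑ k ∈ Finset.range 21, hcoef h τ k * lam ^ (20 - k) * mu ^ k := by
  simp only [Finset.sum_range_succ, Finset.sum_range_zero, hcoef, hForm]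
  ring

theorem tForm_eq_sum (h τ lam mu : R) :
    tForm h τ lam mu = ∑ k ∈ Finset.range 31, tcoef h τ k * lam ^ (30 - k) * mu ^ k := by
  simp only [Finset.sum_range_succ, Finset.sum_range_zero, tcoef, tForm]
  ring

theorem rhoForm_eq_sum (h τ lam mu : R) :
    rhoForm h τ lam mu = ∑ k ∈ Finset.range 13, rcoef h τ k * lam ^ (12 - k) * mu ^ k := by
  simp only [Finset.sum_range_succ, Finset.sum_range_zero, rcoef, rhoForm]
  ring

theorem map_hPoly (φ : R →+* S) (h τ t : R) : φ (hPoly h τ t) = hPoly (φ h) (φ τ) (φ t) := by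
  simp only [hPoly_eq_sum, map_sum, map_mul, map_pow, map_hcoef]

theorem map_tPoly (φ : R →+* S) (h τ t : R) : φ (tPoly h τ t) = tPoly (φ h) (φ τ) (φ t) := by
  simp only [tPoly_eq_sum, map_sum, map_mul, map_pow, map_tcoef]

theorem map_rhoPoly (φ : R →+* S) (h τ t : R) :
    φ (rhoPoly h τ t) = rhoPoly (φ h) (φ τ) (φ t) := by
  simp only [rhoPoly_eq_sum, map_sum, map_mul, map_pow, map_rcoef]

theorem map_hForm (φ : R →+* S) (h τ lam mu : R) :
    φ (hForm h τ lam mu) = hForm (φ h) (φ τ) (φ lam) (φ mu) := by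
  simp only [hForm_eq_sum, map_sum, map_mul, map_pow, map_hcoef]

theorem map_tForm (φ : R →+* S) (h τ lam mu : R) :
    φ (tForm h τ lam mu) = tForm (φ h) (φ τ) (φ lam) (φ mu) := by
  simp only [tForm_eq_sum, map_sum, map_mul, map_pow, map_tcoef]

theorem map_rhoForm (φ : R →+* S) (h τ lam mu : R) :
    φ (rhoForm h τ lam mu) = rhoForm (φ h) (φ τ) (φ lam) (φ mu) := by
  simp only [rhoForm_eq_sum, map_sum, map_mul, map_pow, map_rcoef]

theorem hForm_one (h τ t : R) : hForm h τ 1 t = hPoly h τ t := by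
  simp only [hForm_eq_sum, hPoly_eq_sum, one_pow, mul_one]

theorem tForm_one (h τ t : R) : tForm h τ 1 t = tPoly h τ t := by
  simp only [tForm_eq_sum, tPoly_eq_sum, one_pow, mul_one]

theorem rhoForm_one (h τ t : R) : rhoForm h τ 1 t = rhoPoly h τ t := by
  simp only [rhoForm_eq_sum, rhoPoly_eq_sum, one_pow, mul_one]

/-! ### The one-variable polynomials of the family -/

/-- `C4fam c4 c6` : the `c₄` of the family, as a polynomial in the parameter `t`. -/
noncomputable def C4fam (c4 c6 : R) : R[X] := -hPoly (C (-c4)) (C (-c6)) X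

theorem C4fam_eq_sum (c4 c6 : R) :
    C4fam c4 c6 = ∑ k ∈ Finset.range 21, C (-hcoef (-c4) (-c6) k) * X ^ k := by
  rw [C4fam, hPoly_eq_sum, ← Finset.sum_neg_distrib]
  refine Finset.sum_congr rfl fun k _ => ?_
  rw [← map_hcoef (C : R →+* R[X])]
  simp

theorem coeff_C4fam (c4 c6 : R) (k : ℕ) : (C4fam c4 c6).coeff k = -hcoef (-c4) (-c6) k := by
  rw [C4fam_eq_sum, finsetSum_coeff]
  simp only [coeff_C_mul_X_pow]
  rw [Finset.sum_ite_eq]
  split_ifs with hk
  · rfl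
  · rw [hcoef_eq_zero _ _ (by simp only [Finset.mem_range, not_lt] at hk; omega), neg_zero]

theorem natDegree_C4fam_le (c4 c6 : R) : (C4fam c4 c6).natDegree ≤ 20 := by
  rw [natDegree_le_iff_coeff_eq_zero]
  intro k hk
  rw [coeff_C4fam, hcoef_eq_zero _ _ hk, neg_zero]

theorem eval_C4fam (c4 c6 t : R) : (C4fam c4 c6).eval t = -hPoly (-c4) (-c6) t := by
  have := map_hPoly (evalRingHom t) (C (-c4)) (C (-c6)) X
  simpa [C4fam] using this

theorem eval_zero_C4fam (c4 c6 : R) : (C4fam c4 c6).eval 0 = c4 := by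
  rw [eval_C4fam, hPoly_eq_sum, Finset.sum_range_succ']
  simp [hcoef, hc0]

theorem map_C4fam (φ : R →+* S) (c4 c6 : R) : (C4fam c4 c6).map φ = C4fam (φ c4) (φ c6) := by
  have := map_hPoly (mapRingHom φ) (C (-c4)) (C (-c6)) X
  simpa [C4fam] using this

/-- The homogenisation of `C4fam` is `hForm`. -/
theorem sum_coeff_C4fam (c4 c6 l m : R) :
    ∑ k ∈ Finset.range 21, (C4fam c4 c6).coeff k * l ^ (20 - k) * m ^ k =
      -hForm (-c4) (-c6) l m := by
  rw [hForm_eq_sum, ← Finset.sum_neg_distrib]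
  refine Finset.sum_congr rfl fun k _ => ?_
  rw [coeff_C4fam]
  ring

/-- `C6fam c4 c6` : the `c₆` of the family, as a polynomial in the parameter `t`. -/
noncomputable def C6fam (c4 c6 : R) : R[X] := -tPoly (C (-c4)) (C (-c6)) X

theorem C6fam_eq_sum (c4 c6 : R) :
    C6fam c4 c6 = ∑ k ∈ Finset.range 31, C (-tcoef (-c4) (-c6) k) * X ^ k := by
  rw [C6fam, tPoly_eq_sum, ← Finset.sum_neg_distrib]
  refine Finset.sum_congr rfl fun k _ => ?_
  rw [← map_tcoef (C : R →+* R[X])]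
  simp

theorem coeff_C6fam (c4 c6 : R) (k : ℕ) : (C6fam c4 c6).coeff k = -tcoef (-c4) (-c6) k := by
  rw [C6fam_eq_sum, finsetSum_coeff]
  simp only [coeff_C_mul_X_pow]
  rw [Finset.sum_ite_eq]
  split_ifs with hk
  · rfl
  · rw [tcoef_eq_zero _ _ (by simp only [Finset.mem_range, not_lt] at hk; omega), neg_zero]

theorem natDegree_C6fam_le (c4 c6 : R) : (C6fam c4 c6).natDegree ≤ 30 := by
  rw [natDegree_le_iff_coeff_eq_zero]
  intro k hk
  rw [coeff_C6fam, tcoef_eq_zero _ _ hk, neg_zero]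

theorem eval_C6fam (c4 c6 t : R) : (C6fam c4 c6).eval t = -tPoly (-c4) (-c6) t := by
  have := map_tPoly (evalRingHom t) (C (-c4)) (C (-c6)) X
  simpa [C6fam] using this

theorem eval_zero_C6fam (c4 c6 : R) : (C6fam c4 c6).eval 0 = c6 := by
  rw [eval_C6fam, tPoly_eq_sum, Finset.sum_range_succ']
  simp [tcoef, tc0]

theorem map_C6fam (φ : R →+* S) (c4 c6 : R) : (C6fam c4 c6).map φ = C6fam (φ c4) (φ c6) := by
  have := map_tPoly (mapRingHom φ) (C (-c4)) (C (-c6)) X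
  simpa [C6fam] using this

/-- The homogenisation of `C6fam` is `tForm`. -/
theorem sum_coeff_C6fam (c4 c6 l m : R) :
    ∑ k ∈ Finset.range 31, (C6fam c4 c6).coeff k * l ^ (30 - k) * m ^ k =
      -tForm (-c4) (-c6) l m := by
  rw [tForm_eq_sum, ← Finset.sum_neg_distrib]
  refine Finset.sum_congr rfl fun k _ => ?_
  rw [coeff_C6fam]
  ring

/-- `Ffam c4 c6` : the cusp polynomial (`Δ(t) = Δ · F(t)⁵`) of the family, as a polynomial in the parameter `t`. -/
noncomputable def Ffam (c4 c6 : R) : R[X] := rhoPoly (C (-c4)) (C (-c6)) X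

theorem Ffam_eq_sum (c4 c6 : R) :
    Ffam c4 c6 = ∑ k ∈ Finset.range 13, C (rcoef (-c4) (-c6) k) * X ^ k := by
  rw [Ffam, rhoPoly_eq_sum]
  refine Finset.sum_congr rfl fun k _ => ?_
  rw [← map_rcoef (C : R →+* R[X])]

theorem coeff_Ffam (c4 c6 : R) (k : ℕ) : (Ffam c4 c6).coeff k = rcoef (-c4) (-c6) k := by
  rw [Ffam_eq_sum, finsetSum_coeff]
  simp only [coeff_C_mul_X_pow]
  rw [Finset.sum_ite_eq]
  split_ifs with hk
  · rfl
  · rw [rcoef_eq_zero _ _ (by simp only [Finset.mem_range, not_lt] at hk; omega)]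

theorem natDegree_Ffam_le (c4 c6 : R) : (Ffam c4 c6).natDegree ≤ 12 := by
  rw [natDegree_le_iff_coeff_eq_zero]
  intro k hk
  rw [coeff_Ffam, rcoef_eq_zero _ _ hk]

theorem eval_Ffam (c4 c6 t : R) : (Ffam c4 c6).eval t = rhoPoly (-c4) (-c6) t := by
  have := map_rhoPoly (evalRingHom t) (C (-c4)) (C (-c6)) X
  simpa [Ffam] using this

theorem eval_zero_Ffam (c4 c6 : R) : (Ffam c4 c6).eval 0 = 1 := by
  rw [eval_Ffam, rhoPoly_eq_sum, Finset.sum_range_succ']
  simp [rcoef, rc0]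

theorem map_Ffam (φ : R →+* S) (c4 c6 : R) : (Ffam c4 c6).map φ = Ffam (φ c4) (φ c6) := by
  have := map_rhoPoly (mapRingHom φ) (C (-c4)) (C (-c6)) X
  simpa [Ffam] using this

/-- The homogenisation of `Ffam` is `rhoForm`. -/
theorem sum_coeff_Ffam (c4 c6 l m : R) :
    ∑ k ∈ Finset.range 13, (Ffam c4 c6).coeff k * l ^ (12 - k) * m ^ k =
      rhoForm (-c4) (-c6) l m := by
  rw [rhoForm_eq_sum]
  refine Finset.sum_congr rfl fun k _ => ?_
  rw [coeff_Ffam]

end Fermat.Agent.S52x.KleinFam7
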