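/-
S52 chunk B1b (helper7): Klein family, the discriminant identity
`C4(t)³ - C6(t)² = (c4³ - c6²) · F(t)⁵` and the degree of the cusp polynomial `F`.
-/
import Fermat.Agent.S52x.KleinFam7Poly

set_option autoImplicit false
set_option maxRecDepth 100000

open Polynomial

namespace Fermat.Agent.S52x.KleinFam7

variable {R : Type*} [CommRing R]

set_option maxHeartbeats 0 in
theorem disc_poly (h τ t : R) :
    hPoly h τ t ^ 3 + tPoly h τ t ^ 2 = (h ^ 3 + τ ^ 2) * rhoPoly h τ t ^ 5 := by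
  unfold hPoly tPoly rhoPoly hc0 hc1 hc2 hc3 hc4 hc5 hc6 hc7 hc8 hc9 hc10 hc11 hc12 hc13 hc14 hc15 hc16 hc17 hc18 hc19 hc20 tc0 tc1 tc2 tc3 tc4 tc5 tc6 tc7 tc8 tc9 tc10 tc11 tc12 tc13 tc14 tc15 tc16 tc17 tc18 tc19 tc20 tc21 tc22 tc23 tc24 tc25 tc26 tc27 tc28 tc29 tc30 rc0 rc1 rc2 rc3 rc4 rc5 rc6 rc7 rc8 rc9 rc10 rc11 rc12
  ring

/-- `Δ(t) = Δ · F(t)⁵` (up to the factor `1728`). -/
theorem disc_fam (c4 c6 : R) :
    C4fam c4 c6 ^ 3 - C6fam c4 c6 ^ 2 = C (c4 ^ 3 - c6 ^ 2) * Ffam c4 c6 ^ 5 := by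
  have h := disc_poly (C (-c4)) (C (-c6)) (X : R[X])
  simp only [C4fam, C6fam, Ffam, map_sub, map_pow, map_neg] at h ⊢
  linear_combination (-1 : R[X]) * h

theorem eval_disc_fam (c4 c6 t : R) :
    (C4fam c4 c6).eval t ^ 3 - (C6fam c4 c6).eval t ^ 2 =
      (c4 ^ 3 - c6 ^ 2) * (Ffam c4 c6).eval t ^ 5 := by
  have h := congrArg (Polynomial.eval t) (disc_fam c4 c6)
  simpa using h

/-- The cusp polynomial has degree at least `4` (in fact `11` or `12`). -/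
theorem four_le_natDegree_Ffam {K : Type*} [Field K] [CharZero K] (c4 c6 : K)
    (hD : c4 ^ 3 ≠ c6 ^ 2) : 4 ≤ (Ffam c4 c6).natDegree := by
  by_cases h4 : c4 = 0
  · have h6 : c6 ≠ 0 := by
      rintro rfl
      exact hD (by rw [h4]; ring)
    have : (Ffam c4 c6).coeff 6 ≠ 0 := by
      rw [coeff_Ffam, h4]
      simp only [rcoef, rc6]
      have : (-5940 : K) * (-0) ^ 3 + -10560 * (-c6) ^ 2 = -10560 * c6 ^ 2 := by ring
      rw [this]
      exact mul_ne_zero (by norm_num) (pow_ne_zero 2 h6)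
    exact le_trans (by norm_num) (le_natDegree_of_ne_zero this)
  · have : (Ffam c4 c6).coeff 4 ≠ 0 := by
      rw [coeff_Ffam]
      simp only [rcoef, rc4]
      have : (-1485 : K) * (-c4) ^ 2 = -1485 * c4 ^ 2 := by ring
      rw [this]
      exact mul_ne_zero (by norm_num) (pow_ne_zero 2 h4)
    exact le_natDegree_of_ne_zero this

end Fermat.Agent.S52x.KleinFam7
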