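/-
S52 (3–5 switch) (helper4): the family polynomials `hX, tX, rhoX ∈ R[t]` of `KleinFam7` —
discriminant identity `hX³ + tX² = (h³ + τ²) rhoX⁵`, degrees, values at `0`, and the link between
`Hit4C.hom` (homogenisation) and the binary forms `hForm`, `tForm`.
-/
import Mathlib
import Fermat.Agent.S52x.KleinFam7
import Fermat.Agent.S52x.KleinFam7Disc
import Fermat.Agent.S52x.FamSq9
import Fermat.Agent.S52x.Hit4C

set_option autoImplicit false

open Polynomial

namespace Fermat.Agent.S52x.FamPoly4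

open Fermat.Agent.S52x.KleinFam7 Fermat.Agent.S52x.FamSq9 Fermat.Agent.S52x.Hit4C

variable {R : Type*} [CommRing R]

/-- the discriminant identity of the family, as a polynomial identity in `(h, τ, t)`
(proved in `KleinFam7Disc`). -/
theorem disc_poly (h τ t : R) :
    hPoly h τ t ^ 3 + tPoly h τ t ^ 2 = (h ^ 3 + τ ^ 2) * rhoPoly h τ t ^ 5 :=
  Fermat.Agent.S52x.KleinFam7.disc_poly h τ t

/-- `T` along the family with invariants `(h, τ)`. -/
noncomputable def tX (h τ : R) : R[X] := tPoly (C h) (C τ) X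

theorem map_tPoly4 {S : Type*} [CommRing S] (φ : R →+* S) (h τ t : R) :
    φ (tPoly h τ t) = tPoly (φ h) (φ τ) (φ t) := by
  unfold tPoly tc0 tc1 tc2 tc3 tc4 tc5 tc6 tc7 tc8 tc9 tc10 tc11 tc12 tc13 tc14 tc15 tc16 tc17
    tc18 tc19 tc20 tc21 tc22 tc23 tc24 tc25 tc26 tc27 tc28 tc29 tc30
  simp only [map_add, map_mul, map_pow, map_neg, map_ofNat, map_one, map_zero]

theorem map_tX {S : Type*} [CommRing S] (φ : R →+* S) (h τ : R) :
    (tX h τ).map φ = tX (φ h) (φ τ) := by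
  have := map_tPoly4 (Polynomial.mapRingHom φ) (C h) (C τ) X
  simpa [tX] using this

theorem eval_hX (h τ t : R) : (hX h τ).eval t = hPoly h τ t := by
  have := map_hPoly9 (evalRingHom t) (C h) (C τ) X
  simpa [hX] using this

theorem eval_tX (h τ t : R) : (tX h τ).eval t = tPoly h τ t := by
  have := map_tPoly4 (evalRingHom t) (C h) (C τ) X
  simpa [tX] using this

theorem eval_zero_hX (h τ : R) : (hX h τ).eval 0 = h := by
  rw [eval_hX]
  unfold hPoly hc0
  ring

theorem eval_zero_tX (h τ : R) : (tX h τ).eval 0 = τ := by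
  rw [eval_tX]
  unfold tPoly tc0
  ring

/-- **the discriminant identity** in `R[t]`. -/
theorem disc_X (h τ : R) : hX h τ ^ 3 + tX h τ ^ 2 = C (h ^ 3 + τ ^ 2) * rhoX h τ ^ 5 := by
  have := disc_poly (C h) (C τ) (X : R[X])
  rw [hX, tX, rhoX, this]
  simp only [map_add, map_pow]

/-! ### coefficients -/

/-- coefficient function of `hX`. -/
def hcf (h τ : R) : ℕ → R
  | 0 => hc0 h τ | 1 => hc1 h τ | 2 => hc2 h τ | 3 => hc3 h τ | 4 => hc4 h τ | 5 => hc5 h τ
  | 6 => hc6 h τ | 7 => hc7 h τ | 8 => hc8 h τ | 9 => hc9 h τ | 10 => hc10 h τ | 11 => hc11 h τ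
  | 12 => hc12 h τ | 13 => hc13 h τ | 14 => hc14 h τ | 15 => hc15 h τ | 16 => hc16 h τ
  | 17 => hc17 h τ | 18 => hc18 h τ | 19 => hc19 h τ | 20 => hc20 h τ | _ => 0

/-- coefficient function of `tX`. -/
def tcf (h τ : R) : ℕ → R
  | 0 => tc0 h τ | 1 => tc1 h τ | 2 => tc2 h τ | 3 => tc3 h τ | 4 => tc4 h τ | 5 => tc5 h τ
  | 6 => tc6 h τ | 7 => tc7 h τ | 8 => tc8 h τ | 9 => tc9 h τ | 10 => tc10 h τ | 11 => tc11 h τ
  | 12 => tc12 h τ | 13 => tc13 h τ | 14 => tc14 h τ | 15 => tc15 h τ | 16 => tc16 h τ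
  | 17 => tc17 h τ | 18 => tc18 h τ | 19 => tc19 h τ | 20 => tc20 h τ | 21 => tc21 h τ
  | 22 => tc22 h τ | 23 => tc23 h τ | 24 => tc24 h τ | 25 => tc25 h τ | 26 => tc26 h τ
  | 27 => tc27 h τ | 28 => tc28 h τ | 29 => tc29 h τ | 30 => tc30 h τ | _ => 0

theorem hX_eq_sum (h τ : R) : hX h τ = ∑ k ∈ Finset.range 21, C (hcf h τ k) * X ^ k := by
  simp only [Finset.sum_range_succ, Finset.sum_range_zero, hcf]
  unfold hX hPoly hc0 hc1 hc2 hc3 hc4 hc5 hc6 hc7 hc8 hc9 hc10 hc11 hc12 hc13 hc14 hc15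
    hc16 hc17 hc18 hc19 hc20
  simp only [map_add, map_mul, map_pow, map_neg, map_ofNat, map_one, map_zero]
  ring

theorem tX_eq_sum (h τ : R) : tX h τ = ∑ k ∈ Finset.range 31, C (tcf h τ k) * X ^ k := by
  simp only [Finset.sum_range_succ, Finset.sum_range_zero, tcf]
  unfold tX tPoly tc0 tc1 tc2 tc3 tc4 tc5 tc6 tc7 tc8 tc9 tc10 tc11 tc12 tc13 tc14 tc15 tc16 tc17
    tc18 tc19 tc20 tc21 tc22 tc23 tc24 tc25 tc26 tc27 tc28 tc29 tc30
  simp only [map_add, map_mul, map_pow, map_neg, map_ofNat, map_one, map_zero]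
  ring

theorem coeff_sum_range (a : ℕ → R) (n k : ℕ) (hk : k < n) :
    (∑ j ∈ Finset.range n, C (a j) * X ^ j).coeff k = a k := by
  rw [finsetSum_coeff]
  simp only [coeff_C_mul_X_pow]
  rw [Finset.sum_eq_single k]
  · simp
  · intro j _ hjk
    rw [if_neg (Ne.symm hjk)]
  · intro hk'
    exact absurd (Finset.mem_range.mpr hk) hk'

theorem natDegree_sum_range_le (a : ℕ → R) (d : ℕ) :
    (∑ j ∈ Finset.range (d + 1), C (a j) * X ^ j).natDegree ≤ d := by
  refine natDegree_sum_le_of_forall_le _ _ fun j hj => ?_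
  exact (natDegree_C_mul_X_pow_le _ _).trans (Nat.lt_succ_iff.mp (Finset.mem_range.mp hj))

theorem natDegree_hX_le (h τ : R) : (hX h τ).natDegree ≤ 20 := by
  rw [hX_eq_sum]
  exact natDegree_sum_range_le _ 20

theorem natDegree_tX_le (h τ : R) : (tX h τ).natDegree ≤ 30 := by
  rw [tX_eq_sum]
  exact natDegree_sum_range_le _ 30

/-! ### homogenisation -/

theorem hom_neg (P : ℤ[X]) (d : ℕ) (l m : ℤ) : hom (-P) d l m = -hom P d l m := by
  unfold hom
  rw [← Finset.sum_neg_distrib]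
  refine Finset.sum_congr rfl fun k _ => ?_
  rw [coeff_neg]
  ring

theorem hom_hX (h τ l m : ℤ) : hom (hX h τ) 20 l m = hForm h τ l m := by
  unfold hom
  have : ∀ k ∈ Finset.range (20 + 1), (hX h τ).coeff k * l ^ (20 - k) * m ^ k =
      hcf h τ k * l ^ (20 - k) * m ^ k := by
    intro k hk
    rw [hX_eq_sum, coeff_sum_range _ _ _ (Finset.mem_range.mp hk)]
  rw [Finset.sum_congr rfl this]
  simp only [Finset.sum_range_succ, Finset.sum_range_zero, hcf]
  unfold hForm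
  ring

theorem hom_tX (h τ l m : ℤ) : hom (tX h τ) 30 l m = tForm h τ l m := by
  unfold hom
  have : ∀ k ∈ Finset.range (30 + 1), (tX h τ).coeff k * l ^ (30 - k) * m ^ k =
      tcf h τ k * l ^ (30 - k) * m ^ k := by
    intro k hk
    rw [tX_eq_sum, coeff_sum_range _ _ _ (Finset.mem_range.mp hk)]
  rw [Finset.sum_congr rfl this]
  simp only [Finset.sum_range_succ, Finset.sum_range_zero, tcf]
  unfold tForm
  ring

end Fermat.Agent.S52x.FamPoly4
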