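/-
S52 (3–5 switch), chunk B1-spec (helper3), file 5: **the `a_ℓ` congruence for a family which is
Klein-parametrised over `ℚ̄[t]`**.

Input: `C4 C6 ∈ ℚ[t]` and `S T ∈ ℚ̄[t]` with `C4 = -kH(S, T)`, `C6 = -kT(S, T)` in `ℚ̄[t]`
(`kH`, `kT` Klein's forms in `s = u⁵`, `w = v⁵`), and integral models `W`, `W'` whose `(c₄, c₆)` are
the values of `(C4, C6)` at `0`, `t₀` up to scalings `(u⁴, u⁶)`.
Output: `5 ∣ a_ℓ(W') - a_ℓ(W)` at the common good primes `ℓ ≠ 5`.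
-/
import Mathlib
import Fermat.Agent.S52x.Spec3Main
import Fermat.Agent.S52x.Spec3Klein

set_option autoImplicit false

open Polynomial WeierstrassCurve

namespace Fermat.Agent.S52x.Spec3

local notation "Qb" => AlgebraicClosure ℚ

theorem psi5_homog {R : Type*} [CommRing R] (A B x c : R) :
    psi5 (c ^ 2 * A) (c ^ 3 * B) (c * x) = c ^ 12 * psi5 A B x := by
  unfold psi5
  ring

/-- From the denominator-free identities to a point of `y² = x³ + 27 kH x + 54 kT` killed by `ψ₅`. -/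
theorem exists_klein_point {R : Type*} [CommRing R] (r j a b s w : R) (hr : r ^ 2 = 5)
    (hj : j ^ 2 = -10 - 2 * r) (ha : 20 * a = 1) (hb : b ^ 2 = a ^ 3) :
    (b * kY40 r j s w) ^ 2 = (a * kX20 r s w) ^ 3 + 27 * kH s w * (a * kX20 r s w) + 54 * kT s w ∧
      psi5 (27 * kH s w) (54 * kT s w) (a * kX20 r s w) = 0 := by
  constructor
  · have hY := kY40_sq r j s w hr hj
    rw [mul_pow, hb, hY]
    linear_combination (27 * kH s w * a * kX20 r s w * (20 * a + 1)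
      + 54 * kT s w * (400 * a ^ 2 + 20 * a + 1)) * ha
  · have h0 := psi5_kX20 r s w hr
    have hx : (20 : R) * (a * kX20 r s w) = kX20 r s w := by
      linear_combination kX20 r s w * ha
    have hom := psi5_homog (27 * kH s w) (54 * kT s w) (a * kX20 r s w) 20
    rw [hx] at hom
    have e1 : (20 : R) ^ 2 * (27 * kH s w) = 400 * 27 * kH s w := by ring
    have e2 : (20 : R) ^ 3 * (54 * kT s w) = 8000 * 54 * kT s w := by ring
    rw [e1, e2, h0] at hom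
    have h1 : (20 * a) ^ 12 = (1 : R) := by rw [ha, one_pow]
    calc psi5 (27 * kH s w) (54 * kT s w) (a * kX20 r s w)
        = (20 * a) ^ 12 * psi5 (27 * kH s w) (54 * kT s w) (a * kX20 r s w) := by
          rw [h1, one_mul]
      _ = a ^ 12 * (20 ^ 12 * psi5 (27 * kH s w) (54 * kT s w) (a * kX20 r s w)) := by ring
      _ = 0 := by rw [← hom, mul_zero]

open Fermat.Agent.ES.Q58.TraceCong20 in
/-- **The `a_ℓ` congruence for a Klein-parametrised family.** -/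
theorem five_dvd_apOfModel_sub_of_klein (W W' : WeierstrassCurve ℤ)
    (hΔ : W.Δ ≠ 0) (hΔ' : W'.Δ ≠ 0) (hrel : RelQbar W) (hrel' : RelQbar W')
    (C4 C6 : ℚ[X]) (S T : Qb[X])
    (hH : C4.map (algebraMap ℚ Qb) = -kH S T) (hT : C6.map (algebraMap ℚ Qb) = -kT S T)
    (u₀ : ℚ) (hu₀ : u₀ ≠ 0) (h40 : u₀ ^ 4 * C4.eval 0 = W.c₄) (h60 : u₀ ^ 6 * C6.eval 0 = W.c₆)
    (t₀ u₁ : ℚ) (hu₁ : u₁ ≠ 0) (h4t : u₁ ^ 4 * C4.eval t₀ = W'.c₄)
    (h6t : u₁ ^ 6 * C6.eval t₀ = W'.c₆)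
    (ℓ : ℕ) (hℓ : ℓ.Prime) (hg : W.IsGoodPrimeFor ℓ) (hg' : W'.IsGoodPrimeFor ℓ) (hℓ5 : ℓ ≠ 5) :
    (5 : ℤ) ∣ W'.apOfModel ℓ - W.apOfModel ℓ := by
  obtain ⟨r, hr⟩ := IsAlgClosed.exists_pow_nat_eq (5 : Qb) (n := 2) (by norm_num)
  obtain ⟨j, hj⟩ := IsAlgClosed.exists_pow_nat_eq (-10 - 2 * r : Qb) (n := 2) (by norm_num)
  have hr0 : r ≠ 0 := by
    rintro rfl
    norm_num at hr
  have hrC : (C r : Qb[X]) ^ 2 = 5 := by
    rw [← C_pow, hr]; exact map_ofNat C 5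
  have hjC : (C j : Qb[X]) ^ 2 = -10 - 2 * C r := by
    rw [← C_pow, hj, C_sub, C_neg, C_mul, map_ofNat C 10, map_ofNat C 2]
  have haC : (20 : Qb[X]) * C (1 / 20 : Qb) = 1 := by
    have : (20 : Qb[X]) = C (20 : Qb) := (map_ofNat C 20).symm
    rw [this, ← C_mul]; norm_num
  have hbC : (C (1 / (40 * r)) : Qb[X]) ^ 2 = C (1 / 20 : Qb) ^ 3 := by
    rw [← C_pow, ← C_pow]
    congr 1
    field_simp
    rw [hr]; norm_num
  obtain ⟨h1, h2⟩ := exists_klein_point (C r) (C j) (C (1 / 20 : Qb)) (C (1 / (40 * r))) S T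
    hrC hjC haC hbC
  refine five_dvd_apOfModel_sub_of_family_scaled W W' hΔ hΔ' hrel hrel' C4 C6
    (C (1 / 20 : Qb) * kX20 (C r) S T) (C (1 / (40 * r)) * kY40 (C r) (C j) S T) ?_ ?_
    u₀ hu₀ h40 h60 t₀ u₁ hu₁ h4t h6t ℓ hℓ hg hg' hℓ5
  · rw [hH, hT, h1]; ring
  · rw [hH, hT]
    have e1 : (-27 : Qb[X]) * -kH S T = 27 * kH S T := by ring
    have e2 : (-54 : Qb[X]) * -kT S T = 54 * kT S T := by ring
    rw [e1, e2]
    exact h2

end Fermat.Agent.S52x.Spec3
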