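/-
S52 (3–5 switch), chunk B1-spec (helper3), file 6: **S52 from a Klein-parametrised switch**.

`KleinLink W W'` : `W` and `W'` are (up to scaling of `(c₄, c₆)`) the fibres at `0` and `t₀` of a family
`C4, C6 ∈ ℚ[t]` which over `ℚ̄[t]` is the Klein curve at a polynomial point `(S(t), T(t))`.
`s52_of_kleinSwitch` : the S52 statement, from: every semistable `W` with `W[5]` irreducible and
`W[3]` reducible has a semistable `W'` with `W'[3]` irreducible and `KleinLink W W'`.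
(The Eichler–Shimura relation `RelQbar` is unconditional: `Red9.relQbar`.)
-/
import Mathlib
import Fermat.Prelude.Def_FLTPrelim_ModularRep
import Fermat.Agent.S52x.Spec3Top
import Fermat.Agent.ES.Q58.Red9Final

set_option autoImplicit false

open Polynomial WeierstrassCurve

namespace Fermat.Agent.S52x.Spec3

local notation "Qb" => AlgebraicClosure ℚ

/-- `W`, `W'` are two fibres of a Klein-parametrised family. -/
def KleinLink (W W' : WeierstrassCurve ℤ) : Prop :=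
  ∃ (C4 C6 : ℚ[X]) (S T : Qb[X]) (u₀ t₀ u₁ : ℚ),
    C4.map (algebraMap ℚ Qb) = -kH S T ∧ C6.map (algebraMap ℚ Qb) = -kT S T ∧
    u₀ ≠ 0 ∧ u₀ ^ 4 * C4.eval 0 = W.c₄ ∧ u₀ ^ 6 * C6.eval 0 = W.c₆ ∧
    u₁ ≠ 0 ∧ u₁ ^ 4 * C4.eval t₀ = W'.c₄ ∧ u₁ ^ 6 * C6.eval t₀ = W'.c₆

theorem five_dvd_of_kleinLink {W W' : WeierstrassCurve ℤ} (hΔ : W.Δ ≠ 0) (hΔ' : W'.Δ ≠ 0)
    (h : KleinLink W W') {ℓ : ℕ} (hℓ : ℓ.Prime) (hg : W.IsGoodPrimeFor ℓ)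
    (hg' : W'.IsGoodPrimeFor ℓ) (hℓ5 : ℓ ≠ 5) :
    (5 : ℤ) ∣ W'.apOfModel ℓ - W.apOfModel ℓ := by
  obtain ⟨C4, C6, S, T, u₀, t₀, u₁, hH, hT, hu₀, h40, h60, hu₁, h4t, h6t⟩ := h
  exact five_dvd_apOfModel_sub_of_klein W W' hΔ hΔ' (Fermat.Agent.ES.Q58.Red9.relQbar W)
    (Fermat.Agent.ES.Q58.Red9.relQbar W') C4 C6 S T hH hT u₀ hu₀ h40 h60 t₀ u₁ hu₁ h4t h6t
    ℓ hℓ hg hg' hℓ5

/-- **S52 from the Klein-parametrised switch.** -/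
theorem s52_of_kleinSwitch
    (hsw : ∀ W : WeierstrassCurve ℤ, W.Δ ≠ 0 → W.IsSemistableModel → W.ModRepIsIrreducible 5 →
      ¬ W.ModRepIsIrreducible 3 →
      ∃ W' : WeierstrassCurve ℤ, W'.Δ ≠ 0 ∧ W'.IsSemistableModel ∧ W'.ModRepIsIrreducible 3 ∧
        KleinLink W W')
    (W : WeierstrassCurve ℤ) (hΔ : W.Δ ≠ 0) (hW : W.IsSemistableModel)
    (h5 : W.ModRepIsIrreducible 5) :
    ∃ W' : WeierstrassCurve ℤ, W'.Δ ≠ 0 ∧ W'.IsSemistableModel ∧ W'.ModRepIsIrreducible 3 ∧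
      ∀ ℓ : ℕ, ℓ.Prime → W.IsGoodPrimeFor ℓ → W'.IsGoodPrimeFor ℓ → ℓ ≠ 5 →
        (5 : ℤ) ∣ (W'.apOfModel ℓ - W.apOfModel ℓ) := by
  by_cases h3 : W.ModRepIsIrreducible 3
  · refine ⟨W, hΔ, hW, h3, fun ℓ _ _ _ _ => ?_⟩
    rw [sub_self]
    exact dvd_zero _
  · obtain ⟨W', hΔ', hW', h3', hlink⟩ := hsw W hΔ hW h5 h3
    exact ⟨W', hΔ', hW', h3', fun ℓ hℓ hg hg' hℓ5 =>
      five_dvd_of_kleinLink hΔ hΔ' hlink hℓ hg hg' hℓ5⟩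

end Fermat.Agent.S52x.Spec3
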