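/-
S52 (3–5 switch), chapter B3 (Hilbert irreducibility, lite), part D (helper8):
**`Hit8C` for the quartic `Θ(e) = e⁴ - 6 c₄ e² - 8 c₆ e - 3 c₄²`** (`Theta4.theta`).

`c4 c6 : ℚ[X]` (a family in the parameter `x`), `c4(0)³ ≠ c6(0)²`; if for every large `n` the quartic
`Θ(c4(1/n), c6(1/n), ·)` has a rational root `e` with `n ^ d * e ∈ ℤ`, then there is a polynomial
`P ∈ ℚ[X]`, `deg P ≤ d`, with `Θ(c4, c6, P) = 0` in `ℚ[X]`.
-/
import Fermat.Agent.S52x.Hit8C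
import Fermat.Agent.S52x.Theta4

set_option autoImplicit false

namespace Fermat.Agent.S52x.Hit8D

open Polynomial Filter Topology
open Fermat.Agent.S52x.Theta4

/-- the polynomial `Θ` in the variable `e`. -/
noncomputable def thetaPoly {R : Type*} [CommRing R] (c4 c6 : R) : R[X] :=
  X ^ 4 - C (6 * c4) * X ^ 2 - C (8 * c6) * X - C (3 * c4 ^ 2)

theorem eval_thetaPoly {R : Type*} [CommRing R] (c4 c6 e : R) :
    (thetaPoly c4 c6).eval e = theta c4 c6 e := by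
  unfold thetaPoly theta
  simp only [eval_sub, eval_mul, eval_pow, eval_X, eval_C]

theorem map_thetaPoly {R S : Type*} [CommRing R] [CommRing S] (f : R →+* S) (c4 c6 : R) :
    (thetaPoly c4 c6).map f = thetaPoly (f c4) (f c6) := by
  unfold thetaPoly
  simp only [Polynomial.map_sub, Polynomial.map_mul, Polynomial.map_pow, map_X, map_C]
  simp only [map_mul, map_pow, map_ofNat]

theorem thetaPoly_monic {R : Type*} [CommRing R] [Nontrivial R] (c4 c6 : R) :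
    (thetaPoly c4 c6).Monic := by
  have h : thetaPoly c4 c6 =
      X ^ (3 + 1) - (C (6 * c4) * X ^ 2 + C (8 * c6) * X + C (3 * c4 ^ 2)) := by
    unfold thetaPoly; ring
  rw [h]
  exact monic_X_pow_sub (lt_of_le_of_lt degree_quadratic_le (by norm_num))

/-- the Bézout identity between `Θ` and `Θ' / 4`. -/
theorem bezout_identity {R : Type*} [CommRing R] (c4 c6 e : R) :
    72 * (c4 ^ 3 - c6 ^ 2) ^ 2 =
      (-2 * c4 * ((c4 * e - 2 * c6) * (e ^ 3 - 6 * c4 * e - 8 * c6) + 12 * (c4 ^ 3 - c6 ^ 2)) +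
          3 * c6 * ((c4 * e - 2 * c6) * (e ^ 2 - 3 * c4))) * theta c4 c6 e +
        (-2 * c4 * ((-c4 * e ^ 2 + 2 * c6 * e + 3 * c4 ^ 2) * (e ^ 3 - 6 * c4 * e - 8 * c6)) +
          3 * c6 * ((-c4 * e ^ 2 + 2 * c6 * e + 3 * c4 ^ 2) * (e ^ 2 - 3 * c4) +
            12 * (c4 ^ 3 - c6 ^ 2))) * (e ^ 3 - 3 * c4 * e - 2 * c6) := by
  unfold theta
  ring

theorem thetaPoly_eq_theta {R : Type*} [CommRing R] (c4 c6 : R) :
    thetaPoly c4 c6 = theta (C c4 : R[X]) (C c6) X := by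
  unfold thetaPoly theta
  simp only [C_mul, C_pow, map_ofNat]

theorem derivative_thetaPoly {R : Type*} [CommRing R] (c4 c6 : R) :
    derivative (thetaPoly c4 c6) = 4 * (X ^ 3 - 3 * C c4 * X - 2 * C c6) := by
  unfold thetaPoly
  simp only [derivative_sub, derivative_mul, derivative_X_pow, derivative_C, derivative_X,
    C_mul, map_ofNat, C_eq_natCast, derivative_ofNat]
  push_cast
  ring

/-- **`Θ` is separable when `c₄³ ≠ c₆²`.** -/
theorem separable_thetaPoly (c4 c6 : ℚ) (hD : c4 ^ 3 - c6 ^ 2 ≠ 0) :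
    (thetaPoly c4 c6).Separable := by
  rw [separable_def, derivative_thetaPoly, thetaPoly_eq_theta]
  have hb := bezout_identity (C c4 : ℚ[X]) (C c6) X
  set A := (-2 * C c4 * ((C c4 * X - 2 * C c6) * (X ^ 3 - 6 * C c4 * X - 8 * C c6) +
      12 * (C c4 ^ 3 - C c6 ^ 2)) + 3 * C c6 * ((C c4 * X - 2 * C c6) * (X ^ 2 - 3 * C c4)) : ℚ[X])
    with hA
  set B := (-2 * C c4 * ((-C c4 * X ^ 2 + 2 * C c6 * X + 3 * C c4 ^ 2) *
      (X ^ 3 - 6 * C c4 * X - 8 * C c6)) + 3 * C c6 * ((-C c4 * X ^ 2 + 2 * C c6 * X +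
      3 * C c4 ^ 2) * (X ^ 2 - 3 * C c4) + 12 * (C c4 ^ 3 - C c6 ^ 2)) : ℚ[X]) with hB
  set κ : ℚ[X] := C (1 / (72 * (c4 ^ 3 - c6 ^ 2) ^ 2)) with hκdef
  have hκ : κ * (72 * (C c4 ^ 3 - C c6 ^ 2) ^ 2) = 1 := by
    have : (72 * (C c4 ^ 3 - C c6 ^ 2) ^ 2 : ℚ[X]) = C (72 * (c4 ^ 3 - c6 ^ 2) ^ 2) := by
      simp only [C_mul, C_pow, C_sub, map_ofNat]
    rw [this, hκdef, ← C_mul, one_div, inv_mul_cancel₀ (by positivity), C_1]
  have h4 : (C (1 / 4) : ℚ[X]) * 4 = 1 := by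
    have : (4 : ℚ[X]) = C 4 := (C_ofNat 4).symm
    rw [this, ← C_mul]; norm_num
  refine ⟨κ * A, κ * B * C (1 / 4), ?_⟩
  linear_combination (-κ) * hb + hκ + (κ * B * (X ^ 3 - 3 * C c4 * X - 2 * C c6)) * h4

/-- **Hilbert irreducibility (lite) for the quartic `Θ`.**  `c4 c6 : ℚ[X]` a family with
`c4(0)³ ≠ c6(0)²`; if for every large `n` the quartic `Θ(c4(1/n), c6(1/n), ·)` has a rational root
`e` with `n ^ d * e ∈ ℤ`, then `Θ(c4, c6, P) = 0` for some `P ∈ ℚ[X]` of degree `≤ d`. -/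
theorem exists_polynomial_root_theta (c4 c6 : ℚ[X])
    (hD : (c4.eval 0) ^ 3 - (c6.eval 0) ^ 2 ≠ 0) (d : ℕ)
    (H : ∀ᶠ n : ℕ in atTop, ∃ e : ℚ,
      theta (c4.eval ((n : ℚ)⁻¹)) (c6.eval ((n : ℚ)⁻¹)) e = 0 ∧ ∃ z : ℤ, (n : ℚ) ^ d * e = z) :
    ∃ P : ℚ[X], P.natDegree ≤ d ∧ theta c4 c6 P = 0 := by
  obtain ⟨P, hP, h0⟩ := Hit8C.exists_polynomial_root_rat (G := thetaPoly c4 c6)
    (thetaPoly_monic c4 c6)
    (by rw [map_thetaPoly, coe_evalRingHom]; exact separable_thetaPoly _ _ hD) d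
    (by
      filter_upwards [H] with n ⟨e, he, hz⟩
      refine ⟨e, ?_, hz⟩
      rw [map_thetaPoly, eval_thetaPoly, coe_evalRingHom]
      exact he)
  exact ⟨P, hP, by rwa [eval_thetaPoly] at h0⟩

/-- contrapositive form: if `Θ(c4, c6, ·)` has no polynomial root of degree `≤ d`, then there are
arbitrarily large `n` for which `Θ(c4(1/n), c6(1/n), ·)` has no rational root `e` with
`n ^ d * e ∈ ℤ`. -/
theorem frequently_no_root_theta (c4 c6 : ℚ[X])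
    (hD : (c4.eval 0) ^ 3 - (c6.eval 0) ^ 2 ≠ 0) (d : ℕ)
    (hno : ∀ P : ℚ[X], P.natDegree ≤ d → theta c4 c6 P ≠ 0) :
    ∃ᶠ n : ℕ in atTop, ∀ e : ℚ,
      theta (c4.eval ((n : ℚ)⁻¹)) (c6.eval ((n : ℚ)⁻¹)) e = 0 → ∀ z : ℤ, (n : ℚ) ^ d * e ≠ z := by
  intro hev
  obtain ⟨P, hP, h0⟩ := exists_polynomial_root_theta c4 c6 hD d (by
    filter_upwards [hev] with n hn
    by_contra hcon
    apply hn
    intro e he z hz
    exact hcon ⟨e, he, z, hz⟩)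
  exact hno P hP h0

end Fermat.Agent.S52x.Hit8D
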