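/-
S52 (3–5 switch), chapter B3 (Hilbert irreducibility, lite), part E (helper8):
**the glue: in the subfamily `(λ, μ) = (1 + M n, M)` there are arbitrarily large `n` for which
`Θ(C4(λ, μ), C6(λ, μ), ·)` has no integer root**, provided `Θ(C4, C6, ·)` has no polynomial root.

`C4 C6 : ℤ[X]` (degrees `≤ 20, 30`), `Hit4C.hom` their homogenisations.  With `x = 1 / n` one has
`hom C4 20 (1 + M n) M = n ^ 20 * c4(x)`, `c4(x) := hom C4 20 (M + x) (M x) ∈ ℚ[x]`; `Hit8D` gives a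
polynomial root `P(x)` of `Θ(c4(x), c6(x), ·)`, and the Möbius substitution `t = M x / (M + x)` turns
it into a polynomial root `ε(t)` of `Θ(C4(t), C6(t), ·)`.
-/
import Fermat.Agent.S52x.Hit8D
import Fermat.Agent.S52x.Hit4C

set_option autoImplicit false

namespace Fermat.Agent.S52x.Hit8E

open Polynomial Filter Finset
open Fermat.Agent.S52x.Theta4 Fermat.Agent.S52x.Hit4A Fermat.Agent.S52x.Hit4C
  Fermat.Agent.S52x.Hit8D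

/-- the family polynomial `c(x) = hom P d (M + x) (M x) ∈ ℚ[x]`. -/
noncomputable def fam (P : ℤ[X]) (d : ℕ) (M : ℤ) : ℚ[X] :=
  ∑ k ∈ range (d + 1), C (P.coeff k : ℚ) * (C (M : ℚ) + X) ^ (d - k) * (C (M : ℚ) * X) ^ k

theorem eval_fam (P : ℤ[X]) (d : ℕ) (M : ℤ) (x : ℚ) :
    (fam P d M).eval x =
      ∑ k ∈ range (d + 1), (P.coeff k : ℚ) * ((M : ℚ) + x) ^ (d - k) * ((M : ℚ) * x) ^ k := by
  unfold fam
  rw [eval_finsetSum]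
  refine sum_congr rfl fun k _ => ?_
  simp only [eval_mul, eval_C, eval_pow, eval_add, eval_X]

/-- `hom P d (1 + M n) M = n ^ d * c(1 / n)`. -/
theorem hom_eq_fam (P : ℤ[X]) (d : ℕ) (M : ℤ) {n : ℕ} (hn : 1 ≤ n) :
    ((hom P d (1 + M * n) M : ℤ) : ℚ) = (n : ℚ) ^ d * (fam P d M).eval ((n : ℚ)⁻¹) := by
  have hn0 : (n : ℚ) ≠ 0 := by exact_mod_cast (by omega : n ≠ 0)
  rw [eval_fam, hom, Int.cast_sum, mul_sum]
  refine sum_congr rfl fun k hk => ?_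
  have hk' : k ≤ d := Nat.lt_succ_iff.mp (mem_range.mp hk)
  have hpow : (n : ℚ) ^ d = (n : ℚ) ^ (d - k) * (n : ℚ) ^ k := by
    rw [← pow_add, Nat.sub_add_cancel hk']
  push_cast
  rw [hpow]
  have h1 : (n : ℚ) ^ (d - k) * ((M : ℚ) + (n : ℚ)⁻¹) ^ (d - k) = (1 + (M : ℚ) * n) ^ (d - k) := by
    rw [← mul_pow]
    congr 1
    field_simp
    ring
  have h2 : (n : ℚ) ^ k * ((M : ℚ) * (n : ℚ)⁻¹) ^ k = (M : ℚ) ^ k := by
    rw [← mul_pow]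
    congr 1
    field_simp
  calc (P.coeff k : ℚ) * (1 + (M : ℚ) * n) ^ (d - k) * (M : ℚ) ^ k
      = (P.coeff k : ℚ) * ((n : ℚ) ^ (d - k) * ((M : ℚ) + (n : ℚ)⁻¹) ^ (d - k)) *
          ((n : ℚ) ^ k * ((M : ℚ) * (n : ℚ)⁻¹) ^ k) := by rw [h1, h2]
    _ = _ := by ring

theorem eval_fam_zero (P : ℤ[X]) (d : ℕ) (M : ℤ) :
    (fam P d M).eval 0 = (P.eval 0 : ℤ) * (M : ℚ) ^ d := by
  rw [eval_fam, sum_eq_single 0]
  · simp [coeff_zero_eq_eval_zero]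
  · intro k _ hk
    rw [mul_zero, zero_pow hk, mul_zero]
  · intro h
    exact absurd (mem_range.mpr (Nat.succ_pos d)) h

/-- the Möbius substitution on the family polynomial. -/
theorem eval_fam_mobius (P : ℤ[X]) (d : ℕ) (hd : P.natDegree ≤ d) (M : ℤ) {t : ℚ}
    (ht : (M : ℚ) - t ≠ 0) :
    (fam P d M).eval ((M : ℚ) * t / ((M : ℚ) - t)) =
      ((M : ℚ) ^ 2 / ((M : ℚ) - t)) ^ d * (P.map (Int.castRingHom ℚ)).eval t := by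
  have hdeg : (P.map (Int.castRingHom ℚ)).natDegree < d + 1 :=
    lt_of_le_of_lt natDegree_map_le (Nat.lt_succ_of_le hd)
  rw [eval_fam, eval_eq_sum_range' hdeg, mul_sum]
  refine sum_congr rfl fun k hk => ?_
  have hk' : k ≤ d := Nat.lt_succ_iff.mp (mem_range.mp hk)
  have hpow : ((M : ℚ) ^ 2 / ((M : ℚ) - t)) ^ d =
      ((M : ℚ) ^ 2 / ((M : ℚ) - t)) ^ (d - k) * ((M : ℚ) ^ 2 / ((M : ℚ) - t)) ^ k := by
    rw [← pow_add, Nat.sub_add_cancel hk']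
  have h1 : (M : ℚ) + (M : ℚ) * t / ((M : ℚ) - t) = (M : ℚ) ^ 2 / ((M : ℚ) - t) := by
    field_simp
    ring
  have h2 : (M : ℚ) * ((M : ℚ) * t / ((M : ℚ) - t)) = (M : ℚ) ^ 2 / ((M : ℚ) - t) * t := by
    field_simp
  rw [coeff_map, eq_intCast, h1, h2, hpow, mul_pow]
  ring

/-- the Möbius transform of a polynomial of degree `≤ d`. -/
noncomputable def mob (Q : ℚ[X]) (d : ℕ) (M : ℤ) : ℚ[X] :=
  ∑ k ∈ range (d + 1), C (Q.coeff k) * (C ((M : ℚ)⁻¹) * X) ^ k *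
    (C (((M : ℚ) ^ 2)⁻¹) * (C (M : ℚ) - X)) ^ (d - k)

theorem eval_mob (Q : ℚ[X]) (d : ℕ) (hd : Q.natDegree ≤ d) (M : ℤ) (hM : (M : ℚ) ≠ 0) {t : ℚ}
    (ht : (M : ℚ) - t ≠ 0) :
    Q.eval ((M : ℚ) * t / ((M : ℚ) - t)) =
      ((M : ℚ) ^ 2 / ((M : ℚ) - t)) ^ d * (mob Q d M).eval t := by
  have hdeg : Q.natDegree < d + 1 := Nat.lt_succ_of_le hd
  unfold mob
  rw [eval_eq_sum_range' hdeg, eval_finsetSum, mul_sum]
  refine sum_congr rfl fun k hk => ?_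
  have hk' : k ≤ d := Nat.lt_succ_iff.mp (mem_range.mp hk)
  have hpow : ((M : ℚ) ^ 2 / ((M : ℚ) - t)) ^ d =
      ((M : ℚ) ^ 2 / ((M : ℚ) - t)) ^ k * ((M : ℚ) ^ 2 / ((M : ℚ) - t)) ^ (d - k) := by
    rw [← pow_add, Nat.add_sub_cancel' hk']
  simp only [eval_mul, eval_C, eval_pow, eval_sub, eval_X]
  have h1 : (M : ℚ) ^ 2 / ((M : ℚ) - t) * ((M : ℚ)⁻¹ * t) = (M : ℚ) * t / ((M : ℚ) - t) := by
    field_simp
  have h2 : (M : ℚ) ^ 2 / ((M : ℚ) - t) * (((M : ℚ) ^ 2)⁻¹ * ((M : ℚ) - t)) = 1 := by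
    field_simp
  rw [← h1, hpow]
  have h3 : Q.coeff k * ((M : ℚ) ^ 2 / ((M : ℚ) - t) * ((M : ℚ)⁻¹ * t)) ^ k =
      Q.coeff k * ((M : ℚ) ^ 2 / ((M : ℚ) - t) * ((M : ℚ)⁻¹ * t)) ^ k *
        ((M : ℚ) ^ 2 / ((M : ℚ) - t) * (((M : ℚ) ^ 2)⁻¹ * ((M : ℚ) - t))) ^ (d - k) := by
    rw [h2, one_pow, mul_one]
  rw [h3]
  generalize (M : ℚ) ^ 2 / ((M : ℚ) - t) = s
  generalize (M : ℚ)⁻¹ * t = a
  generalize ((M : ℚ) ^ 2)⁻¹ * ((M : ℚ) - t) = b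
  rw [mul_pow, mul_pow]
  ring

/-- **B3, analytic half: in the subfamily `(λ, μ) = (1 + M n, M)` there are arbitrarily large `n`
for which `Θ(C4(λ, μ), C6(λ, μ), ·)` has no integer root**, if `Θ(C4, C6, ·)` has no polynomial
root. -/
theorem exists_no_int_root (c4 c6 : ℤ) (hD : c4 ^ 3 ≠ c6 ^ 2) (C4 C6 : ℤ[X])
    (h4 : C4.eval 0 = c4) (h6 : C6.eval 0 = c6) (hd4 : C4.natDegree ≤ 20)
    (hd6 : C6.natDegree ≤ 30) (M : ℤ) (hM : 0 < M)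
    (H4 : ∀ ε : ℚ[X],
      theta (C4.map (Int.castRingHom ℚ)) (C6.map (Int.castRingHom ℚ)) ε ≠ 0) :
    ∀ n₀ : ℕ, ∃ n : ℕ, n₀ ≤ n ∧ ∀ e : ℤ,
      theta (hom C4 20 (1 + M * n) M) (hom C6 30 (1 + M * n) M) e ≠ 0 := by
  have hMq : (M : ℚ) ≠ 0 := by exact_mod_cast hM.ne'
  by_contra hcon
  push Not at hcon
  obtain ⟨n₀, hn₀⟩ := hcon
  -- the hypothesis of `Hit8D`
  have hD' : ((fam C4 20 M).eval 0) ^ 3 - ((fam C6 30 M).eval 0) ^ 2 ≠ 0 := by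
    rw [eval_fam_zero, eval_fam_zero, h4, h6]
    have : ((c4 : ℚ) * (M : ℚ) ^ 20) ^ 3 - ((c6 : ℚ) * (M : ℚ) ^ 30) ^ 2 =
        (M : ℚ) ^ 60 * (((c4 ^ 3 - c6 ^ 2 : ℤ)) : ℚ) := by push_cast; ring
    rw [this]
    refine mul_ne_zero (pow_ne_zero _ hMq) ?_
    exact_mod_cast sub_ne_zero.mpr hD
  have H : ∀ᶠ n : ℕ in atTop, ∃ e : ℚ,
      theta ((fam C4 20 M).eval ((n : ℚ)⁻¹)) ((fam C6 30 M).eval ((n : ℚ)⁻¹)) e = 0 ∧
        ∃ z : ℤ, (n : ℚ) ^ 10 * e = z := by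
    filter_upwards [eventually_ge_atTop (max n₀ 1)] with n hn
    have hn1 : 1 ≤ n := le_trans (le_max_right _ _) hn
    have hn0 : (n : ℚ) ≠ 0 := by exact_mod_cast (by omega : n ≠ 0)
    obtain ⟨e, he⟩ := hn₀ n (le_trans (le_max_left _ _) hn)
    refine ⟨(e : ℚ) / (n : ℚ) ^ 10, ?_, e, by field_simp⟩
    have hcast : theta ((hom C4 20 (1 + M * n) M : ℤ) : ℚ) ((hom C6 30 (1 + M * n) M : ℤ) : ℚ)
        (e : ℚ) = 0 := by
      have := congrArg (Int.castRingHom ℚ) he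
      rwa [map_theta, map_zero] at this
    rw [hom_eq_fam C4 20 M hn1, hom_eq_fam C6 30 M hn1] at hcast
    have hscale := theta_scale ((n : ℚ) ^ 10) ((fam C4 20 M).eval ((n : ℚ)⁻¹))
      ((fam C6 30 M).eval ((n : ℚ)⁻¹)) ((e : ℚ) / (n : ℚ) ^ 10)
    have e1 : ((n : ℚ) ^ 10) ^ 2 = (n : ℚ) ^ 20 := by ring
    have e2 : ((n : ℚ) ^ 10) ^ 3 = (n : ℚ) ^ 30 := by ring
    have e3 : (n : ℚ) ^ 10 * ((e : ℚ) / (n : ℚ) ^ 10) = e := by field_simp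
    rw [e1, e2, e3, hcast] at hscale
    exact (mul_eq_zero.mp hscale.symm).resolve_left (pow_ne_zero _ (pow_ne_zero _ hn0))
  obtain ⟨P, hPdeg, hP⟩ := exists_polynomial_root_theta (fam C4 20 M) (fam C6 30 M) hD' 10 H
  -- Möbius substitution
  apply H4 (mob P 10 M)
  apply eq_zero_of_infinite_isRoot
  refine Set.Infinite.mono ?_ (Set.finite_singleton (M : ℚ)).infinite_compl
  intro t ht
  have ht' : (M : ℚ) - t ≠ 0 := sub_ne_zero.mpr (Ne.symm ht)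
  have hs : (M : ℚ) ^ 2 / ((M : ℚ) - t) ≠ 0 := div_ne_zero (pow_ne_zero _ hMq) ht'
  have h0 := congrArg (Polynomial.eval ((M : ℚ) * t / ((M : ℚ) - t))) hP
  rw [eval_theta, eval_zero, eval_fam_mobius C4 20 hd4 M ht', eval_fam_mobius C6 30 hd6 M ht',
    eval_mob P 10 hPdeg M hMq ht'] at h0
  have hscale := theta_scale (((M : ℚ) ^ 2 / ((M : ℚ) - t)) ^ 10)
    ((C4.map (Int.castRingHom ℚ)).eval t) ((C6.map (Int.castRingHom ℚ)).eval t)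
    ((mob P 10 M).eval t)
  have e1 : (((M : ℚ) ^ 2 / ((M : ℚ) - t)) ^ 10) ^ 2 = ((M : ℚ) ^ 2 / ((M : ℚ) - t)) ^ 20 := by
    ring
  have e2 : (((M : ℚ) ^ 2 / ((M : ℚ) - t)) ^ 10) ^ 3 = ((M : ℚ) ^ 2 / ((M : ℚ) - t)) ^ 30 := by
    ring
  rw [e1, e2, h0] at hscale
  have := (mul_eq_zero.mp hscale.symm).resolve_left (pow_ne_zero _ (pow_ne_zero _ hs))
  show IsRoot _ t
  rw [IsRoot.def, eval_theta]
  exact this

end Fermat.Agent.S52x.Hit8E
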