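/-
S52 (3–5 switch), part P3a (helper4): Legendre symbols at primes `r ≡ 23 (mod 24)`.

For such `r`: `(-1|r) = -1`, `(2|r) = 1`, `(3|r) = 1`; hence `(n|r) = 1` for every natural number
`n` prime to `r` all of whose prime factors `≥ 5` occur to an even power, and `(e|r) = sign e` for
the corresponding integers.
-/
import Mathlib

set_option autoImplicit false

namespace Fermat.Agent.S52x.Legendre4

variable {r : ℕ} [hr : Fact r.Prime]

theorem ne_two_of_mod (h : r % 24 = 23) : r ≠ 2 := by
  rintro rfl; norm_num at h

theorem legendre_neg_one (h : r % 24 = 23) : legendreSym r (-1) = -1 := by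
  rw [legendreSym.at_neg_one (ne_two_of_mod h)]
  exact ZMod.χ₄_nat_three_mod_four (by omega)

theorem legendre_two (h : r % 24 = 23) : legendreSym r 2 = 1 := by
  rw [legendreSym.at_two (ne_two_of_mod h), ZMod.χ₈_nat_eq_if_mod_eight]
  have h2 : r % 2 ≠ 0 := by omega
  have h8 : r % 8 = 7 := by omega
  simp [h2, h8]

theorem legendre_three (h : r % 24 = 23) : legendreSym r 3 = 1 := by
  haveI : Fact (Nat.Prime 3) := ⟨Nat.prime_three⟩
  have hne : (3 : ℕ) ≠ r := by rintro rfl; norm_num at h
  have h1 := legendreSym.quadratic_reciprocity_three_mod_four (p := 3) (q := r) (by norm_num)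
    (by omega)
  -- `legendreSym r 3 = - legendreSym 3 r`
  have h2 : legendreSym 3 (r : ℤ) = -1 := by
    rw [legendreSym.mod]
    have : ((r : ℤ) % ((3 : ℕ) : ℤ)) = 2 := by
      have : r % 3 = 2 := by omega
      omega
    rw [this, legendreSym.at_two (by norm_num), ZMod.χ₈_nat_eq_if_mod_eight]
    simp
  have h3 : legendreSym r ((3 : ℕ) : ℤ) = -legendreSym 3 (r : ℤ) := h1
  rw [h2] at h3
  simpa using h3

/-- Natural numbers prime to `r` whose prime factors `≥ 5` occur to even powers are squares
modulo `r`. -/
theorem legendre_nat_eq_one (h : r % 24 = 23) :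
    ∀ n : ℕ, n ≠ 0 → ¬ r ∣ n → (∀ l : ℕ, l.Prime → 5 ≤ l → Even (padicValNat l n)) →
      legendreSym r (n : ℤ) = 1 := by
  intro n
  induction n using Nat.strong_induction_on with
  | _ n ih =>
    intro hn0 hrn hev
    by_cases h1 : n = 1
    · subst h1
      simpa using legendreSym.at_one (p := r)
    · -- a prime factor
      set l := n.minFac with hl
      have hlp : l.Prime := Nat.minFac_prime h1
      have hln : l ∣ n := Nat.minFac_dvd n
      haveI : Fact l.Prime := ⟨hlp⟩
      by_cases h5 : 5 ≤ l
      · -- `l² ∣ n`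
        have hv : 2 ≤ padicValNat l n := by
          have h1' : 1 ≤ padicValNat l n := one_le_padicValNat_of_dvd hn0 hln
          obtain ⟨k, hk⟩ := hev l hlp h5
          omega
        have hsq : l ^ 2 ∣ n := (padicValNat_dvd_iff_le hn0).mpr hv
        obtain ⟨m, hm⟩ := hsq
        have hm0 : m ≠ 0 := by rintro rfl; simp at hm; exact hn0 hm
        have hl0 : l ≠ 0 := hlp.ne_zero
        have hlt : m < n := by
          rw [hm]
          have : 1 < l ^ 2 := Nat.one_lt_pow (by norm_num) hlp.one_lt
          exact lt_mul_of_one_lt_left (Nat.pos_of_ne_zero hm0) this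
        have hrm : ¬ r ∣ m := fun hd => hrn (hm ▸ Dvd.dvd.mul_left hd _)
        have hrl : ¬ r ∣ l := fun hd => hrn (hd.trans hln)
        have hevm : ∀ l' : ℕ, l'.Prime → 5 ≤ l' → Even (padicValNat l' m) := by
          intro l' hl' h5'
          haveI : Fact l'.Prime := ⟨hl'⟩
          have e := hev l' hl' h5'
          rw [hm, padicValNat.mul (pow_ne_zero 2 hl0) hm0, padicValNat.pow (p := l') l 2] at e
          have e2 : Even (2 * padicValNat l' l) := even_two_mul _
          exact (Nat.even_add.mp e).mp e2
        have ihm := ih m hlt hm0 hrm hevm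
        have hcast : ((n : ℕ) : ℤ) = (l : ℤ) ^ 2 * (m : ℤ) := by rw [hm]; push_cast; ring
        rw [hcast, legendreSym.mul, ihm, mul_one, pow_two, legendreSym.mul, ← pow_two]
        apply legendreSym.sq_one
        intro h0
        rw [ZMod.intCast_zmod_eq_zero_iff_dvd] at h0
        exact hrl (by exact_mod_cast h0)
      · -- `l = 2` or `l = 3`
        have hl23 : l = 2 ∨ l = 3 := by
          have h2 := hlp.two_le
          have : l ≠ 4 := by rintro h4; rw [h4] at hlp; norm_num at hlp
          omega
        obtain ⟨m, hm⟩ := hln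
        have hm0 : m ≠ 0 := by rintro rfl; simp at hm; exact hn0 hm
        have hl0 : l ≠ 0 := hlp.ne_zero
        have hlt : m < n := by
          rw [hm]
          exact lt_mul_of_one_lt_left (Nat.pos_of_ne_zero hm0) hlp.one_lt
        have hrm : ¬ r ∣ m := fun hd => hrn (hm ▸ Dvd.dvd.mul_left hd _)
        have hevm : ∀ l' : ℕ, l'.Prime → 5 ≤ l' → Even (padicValNat l' m) := by
          intro l' hl' h5'
          haveI : Fact l'.Prime := ⟨hl'⟩
          have e := hev l' hl' h5'
          rw [hm, padicValNat.mul hl0 hm0] at e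
          have e2 : padicValNat l' l = 0 := by
            apply padicValNat.eq_zero_of_not_dvd
            intro hd
            have := (Nat.prime_dvd_prime_iff_eq hl' hlp).mp hd
            omega
          rwa [e2, zero_add] at e
        have ihm := ih m hlt hm0 hrm hevm
        have hcast : ((n : ℕ) : ℤ) = (l : ℤ) * (m : ℤ) := by rw [hm]; push_cast; ring
        rw [hcast, legendreSym.mul, ihm, mul_one]
        rcases hl23 with h2 | h3
        · rw [h2]; exact_mod_cast legendre_two h
        · rw [h3]; exact_mod_cast legendre_three h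

/-- For integers: `(e|r) = 1` if `e > 0`, `-1` if `e < 0`. -/
theorem legendre_int (h : r % 24 = 23) {e : ℤ} (he0 : e ≠ 0) (hre : ¬ (r : ℤ) ∣ e)
    (hev : ∀ l : ℕ, l.Prime → 5 ≤ l → Even (padicValInt l e)) :
    (0 < e → legendreSym r e = 1) ∧ (e < 0 → legendreSym r e = -1) := by
  have hn0 : e.natAbs ≠ 0 := Int.natAbs_ne_zero.mpr he0
  have hrn : ¬ r ∣ e.natAbs := fun hd => hre (Int.natCast_dvd.mpr hd)
  have hnat := legendre_nat_eq_one h e.natAbs hn0 hrn (fun l hl h5 => hev l hl h5)
  constructor
  · intro hpos
    have : (e.natAbs : ℤ) = e := Int.natAbs_of_nonneg hpos.le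
    rwa [this] at hnat
  · intro hneg
    have : e = -1 * (e.natAbs : ℤ) := by
      have := Int.natAbs_neg e ▸ Int.natAbs_of_nonneg (neg_nonneg.mpr hneg.le)
      omega
    rw [this, legendreSym.mul, hnat, mul_one, legendre_neg_one h]

end Fermat.Agent.S52x.Legendre4
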