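/-
S52 (3–5 switch), part P3a (helper4): integer roots of `Θ(e) = e⁴ - 6 c₄ e² - 8 c₆ e - 3 c₄²`
for a semistable pair `(c₄, c₆)`, `1728 Δ = c₄³ - c₆²`.

* `padicValInt_root_eq` / `even_padicValInt_root` : for a prime `l ≥ 5` dividing an integer root
  `e` of `Θ`, `v_l(e) = 2 v_l(c₄)`; so `v_l(e)` is even for every prime `l ≥ 5`.
* `tate_dvd` : at a prime `r ≥ 5` with `r ∣ Δ`, `r ∤ c₄` and `3 ∤ v_r(Δ)` (a "Tate prime"),
  every integer root `e` satisfies `r ∣ c₄ e - 3 c₆` (the root is the simple root of `Θ` mod `r`,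
  not the triple one).
-/
import Mathlib
import Fermat.Agent.S52x.Theta4

set_option autoImplicit false

namespace Fermat.Agent.S52x.ThetaInt4

open Fermat.Agent.S52x.Theta4

/-- A prime `≥ 5` does not divide `1728`. -/
theorem not_dvd_1728 {l : ℕ} (hl : l.Prime) (h5 : 5 ≤ l) : ¬ (l : ℤ) ∣ 1728 := by
  intro h
  have h' : l ∣ 1728 := by exact_mod_cast h
  have e : (1728 : ℕ) = 2 ^ 6 * 3 ^ 3 := by norm_num
  rw [e] at h'
  rcases (Nat.Prime.dvd_mul hl).mp h' with h2 | h3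
  · have := (Nat.prime_dvd_prime_iff_eq hl Nat.prime_two).mp (hl.dvd_of_dvd_pow h2)
    omega
  · have := (Nat.prime_dvd_prime_iff_eq hl Nat.prime_three).mp (hl.dvd_of_dvd_pow h3)
    omega

/-- A prime `≥ 5` divides neither `2`, `3`, `4` nor `8`. -/
theorem not_dvd_small {l : ℕ} (hl : l.Prime) (h5 : 5 ≤ l) {m : ℤ} (hm : m ∣ 1728) :
    ¬ (l : ℤ) ∣ m := fun h => not_dvd_1728 hl h5 (h.trans hm)

section

variable {c4 c6 Δ : ℤ}

/-- In a semistable situation a prime `l ≥ 5` dividing `c₄` does not divide `c₆`. -/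
theorem not_dvd_c6_of_dvd_c4 (hrel : 1728 * Δ = c4 ^ 3 - c6 ^ 2)
    (hss : ∀ p : ℕ, p.Prime → (p : ℤ) ∣ Δ → ¬ (p : ℤ) ∣ c4)
    {l : ℕ} (hl : l.Prime) (h5 : 5 ≤ l) (hc4 : (l : ℤ) ∣ c4) : ¬ (l : ℤ) ∣ c6 := by
  intro hc6
  have hpp : Prime (l : ℤ) := Nat.prime_iff_prime_int.mp hl
  have h1 : (l : ℤ) ∣ 1728 * Δ := by
    rw [hrel]
    exact dvd_sub (Dvd.dvd.pow hc4 (by norm_num)) (Dvd.dvd.pow hc6 (by norm_num))
  rcases hpp.dvd_or_dvd h1 with h | h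
  · exact not_dvd_1728 hl h5 h
  · exact hss l hl h hc4

/-- At a prime `r ≥ 5` dividing `Δ` but not `c₄`, `r` does not divide `c₆`. -/
theorem not_dvd_c6_of_dvd_Δ (hrel : 1728 * Δ = c4 ^ 3 - c6 ^ 2)
    {r : ℕ} (hr : r.Prime) (hΔ : (r : ℤ) ∣ Δ) (hc4 : ¬ (r : ℤ) ∣ c4) : ¬ (r : ℤ) ∣ c6 := by
  intro hc6
  have hpp : Prime (r : ℤ) := Nat.prime_iff_prime_int.mp hr
  have h1 : (r : ℤ) ∣ c4 ^ 3 := by
    have : c4 ^ 3 = 1728 * Δ + c6 ^ 2 := by linarith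
    rw [this]
    exact dvd_add (Dvd.dvd.mul_left hΔ _) (Dvd.dvd.pow hc6 (by norm_num))
  exact hc4 (hpp.dvd_of_dvd_pow h1)

/-- **Valuation of a root at a prime `≥ 5`.** -/
theorem padicValInt_root_eq (hrel : 1728 * Δ = c4 ^ 3 - c6 ^ 2)
    (hss : ∀ p : ℕ, p.Prime → (p : ℤ) ∣ Δ → ¬ (p : ℤ) ∣ c4) (hc40 : c4 ≠ 0)
    {e : ℤ} (hθ : theta c4 c6 e = 0) {l : ℕ} (hl : l.Prime) (h5 : 5 ≤ l)
    (hle : (l : ℤ) ∣ e) : padicValInt l e = 2 * padicValInt l c4 := by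
  haveI : Fact l.Prime := ⟨hl⟩
  have hpp : Prime (l : ℤ) := Nat.prime_iff_prime_int.mp hl
  have h3 := three_mul_sq_eq hθ
  -- `l ∣ c4`
  have hc4 : (l : ℤ) ∣ c4 := by
    have h1 : (l : ℤ) ∣ 3 * c4 ^ 2 := by rw [h3]; exact Dvd.dvd.mul_right hle _
    rcases hpp.dvd_or_dvd h1 with h | h
    · exact absurd h (not_dvd_small hl h5 (by norm_num))
    · exact hpp.dvd_of_dvd_pow h
  have hc6 : ¬ (l : ℤ) ∣ c6 := not_dvd_c6_of_dvd_c4 hrel hss hl h5 hc4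
  -- the cofactor is a unit at `l`
  have hu : ¬ (l : ℤ) ∣ (e ^ 3 - 6 * c4 * e - 8 * c6) := by
    intro h
    have h1 : (l : ℤ) ∣ e ^ 3 - 6 * c4 * e :=
      dvd_sub (Dvd.dvd.pow hle (by norm_num)) (Dvd.dvd.mul_left hle _)
    have h2 : (l : ℤ) ∣ 8 * c6 := by
      have := dvd_sub h1 h
      have e' : e ^ 3 - 6 * c4 * e - (e ^ 3 - 6 * c4 * e - 8 * c6) = 8 * c6 := by ring
      rwa [e'] at this
    rcases hpp.dvd_or_dvd h2 with h | h
    · exact absurd h (not_dvd_small hl h5 (by norm_num))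
    · exact hc6 h
  have hu0 : e ^ 3 - 6 * c4 * e - 8 * c6 ≠ 0 := fun h => hu (h ▸ dvd_zero _)
  have he0 : e ≠ 0 := by
    rintro rfl
    have : 3 * c4 ^ 2 = 0 := by rw [h3]; ring
    have : c4 ^ 2 = 0 := by linarith
    exact hc40 (pow_eq_zero_iff (by norm_num) |>.mp this)
  have hL : padicValInt l (3 * c4 ^ 2) = 2 * padicValInt l c4 := by
    have h30 : (3 : ℤ) ≠ 0 := by norm_num
    rw [padicValInt.mul h30 (pow_ne_zero 2 hc40), sq, padicValInt.mul hc40 hc40,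
      padicValInt.eq_zero_of_not_dvd (not_dvd_small hl h5 (by norm_num))]
    ring
  have hR : padicValInt l (e * (e ^ 3 - 6 * c4 * e - 8 * c6)) = padicValInt l e := by
    rw [padicValInt.mul he0 hu0, padicValInt.eq_zero_of_not_dvd hu, add_zero]
  rw [← hR, ← h3, hL]

/-- **Even valuations.**  Every prime `l ≥ 5` has even valuation in an integer root of `Θ`. -/
theorem even_padicValInt_root (hrel : 1728 * Δ = c4 ^ 3 - c6 ^ 2)
    (hss : ∀ p : ℕ, p.Prime → (p : ℤ) ∣ Δ → ¬ (p : ℤ) ∣ c4) (hc40 : c4 ≠ 0)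
    {e : ℤ} (hθ : theta c4 c6 e = 0) {l : ℕ} (hl : l.Prime) (h5 : 5 ≤ l) :
    Even (padicValInt l e) := by
  haveI : Fact l.Prime := ⟨hl⟩
  by_cases hle : (l : ℤ) ∣ e
  · rw [padicValInt_root_eq hrel hss hc40 hθ hl h5 hle]
    exact even_two_mul _
  · rw [padicValInt.eq_zero_of_not_dvd hle]
    exact Even.zero

/-- **Tate primes.**  At a prime `r ≥ 5` with `r ∣ Δ`, `r ∤ c₄`, `3 ∤ v_r(Δ)`, an integer root of
`Θ` is congruent to the simple root `3 c₆ / c₄` of `Θ mod r`. -/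
theorem tate_dvd (hrel : 1728 * Δ = c4 ^ 3 - c6 ^ 2) (hΔ0 : Δ ≠ 0)
    {e : ℤ} (hθ : theta c4 c6 e = 0) {r : ℕ} (hr : r.Prime) (h5 : 5 ≤ r)
    (hΔ : (r : ℤ) ∣ Δ) (hc4 : ¬ (r : ℤ) ∣ c4) (h3 : ¬ 3 ∣ padicValInt r Δ) :
    (r : ℤ) ∣ c4 * e - 3 * c6 := by
  haveI : Fact r.Prime := ⟨hr⟩
  have hpp : Prime (r : ℤ) := Nat.prime_iff_prime_int.mp hr
  have hc6 : ¬ (r : ℤ) ∣ c6 := not_dvd_c6_of_dvd_Δ hrel hr hΔ hc4
  set s : ℤ := c4 * e + c6 with hs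
  set D : ℤ := c4 ^ 3 - c6 ^ 2 with hD
  set G : ℤ := 6 * s ^ 2 - 4 * c6 * s + 4 * c6 ^ 2 + 3 * D with hG
  have hkey : s ^ 3 * (s - 4 * c6) = D * G := by
    have := key_identity c4 c6 e
    rw [hθ, mul_zero] at this
    linarith
  have hDr : (r : ℤ) ∣ D := by rw [← hrel]; exact Dvd.dvd.mul_left hΔ _
  have hD0 : D ≠ 0 := by
    rw [← hrel]
    exact mul_ne_zero (by norm_num) hΔ0
  have h4c6 : ¬ (r : ℤ) ∣ 4 * c6 := by
    intro h
    rcases hpp.dvd_or_dvd h with h | h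
    · exact absurd h (not_dvd_small hr h5 (by norm_num))
    · exact hc6 h
  have e1 : c4 * e - 3 * c6 = s - 4 * c6 := by rw [hs]; ring
  rw [e1]
  by_contra hns
  -- then `r ∣ s`
  have hrs : (r : ℤ) ∣ s := by
    have h1 : (r : ℤ) ∣ s ^ 3 * (s - 4 * c6) := by rw [hkey]; exact Dvd.dvd.mul_right hDr _
    rcases hpp.dvd_or_dvd h1 with h | h
    · exact hpp.dvd_of_dvd_pow h
    · exact absurd h hns
  -- `G` is a unit at `r`
  have hGr : ¬ (r : ℤ) ∣ G := by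
    intro h
    have h1 : (r : ℤ) ∣ 6 * s ^ 2 - 4 * c6 * s + 3 * D :=
      dvd_add (dvd_sub (Dvd.dvd.mul_left (Dvd.dvd.pow hrs (by norm_num)) _)
        (Dvd.dvd.mul_left hrs _)) (Dvd.dvd.mul_left hDr _)
    have h2 : (r : ℤ) ∣ 4 * c6 ^ 2 := by
      have := dvd_sub h h1
      have e' : G - (6 * s ^ 2 - 4 * c6 * s + 3 * D) = 4 * c6 ^ 2 := by rw [hG]; ring
      rwa [e'] at this
    rcases hpp.dvd_or_dvd h2 with h | h
    · exact absurd h (not_dvd_small hr h5 (by norm_num))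
    · exact hc6 (hpp.dvd_of_dvd_pow h)
  have hG0 : G ≠ 0 := fun h => hGr (h ▸ dvd_zero _)
  have hs0 : s ≠ 0 := by
    intro h0
    rw [h0] at hkey
    have : D * G = 0 := by rw [← hkey]; ring
    rcases mul_eq_zero.mp this with h | h
    · exact hD0 h
    · exact hG0 h
  have hs40 : s - 4 * c6 ≠ 0 := fun h => hns (h ▸ dvd_zero _)
  -- compare valuations
  have hL : padicValInt r (s ^ 3 * (s - 4 * c6)) = 3 * padicValInt r s := by
    rw [padicValInt.mul (pow_ne_zero 3 hs0) hs40, padicValInt.eq_zero_of_not_dvd hns, add_zero,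
      show s ^ 3 = s * (s * s) by ring, padicValInt.mul hs0 (mul_ne_zero hs0 hs0),
      padicValInt.mul hs0 hs0]
    ring
  have hR : padicValInt r (D * G) = padicValInt r Δ := by
    rw [padicValInt.mul hD0 hG0, padicValInt.eq_zero_of_not_dvd hGr, add_zero, ← hrel,
      padicValInt.mul (by norm_num) hΔ0,
      padicValInt.eq_zero_of_not_dvd (not_dvd_1728 hr h5), zero_add]
  apply h3
  rw [← hR, ← hkey, hL]
  exact dvd_mul_right 3 _

end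

end Fermat.Agent.S52x.ThetaInt4
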