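/-
S52 (3–5 switch), part P3a (helper4): a family-independent criterion for the irreducibility of the
mod-`3` representation of a semistable integral Weierstrass model.

If `W` is semistable and has two "Tate primes" `r₁, r₂ ≡ 23 (mod 24)` (multiplicative reduction with
`3 ∤ v_r(Δ)`), split at `r₁` (`-c₄c₆` a square mod `r₁`) and nonsplit at `r₂`, then the mod-`3`
representation of `W` is irreducible.

Proof: a reducible mod-`3` representation gives a rational root of `ψ₃`, i.e. an integer root `e` of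
`Θ(e) = e⁴ - 6c₄e² - 8c₆e - 3c₄²`.  Semistability forces all primes `≥ 5` to occur to even powers in
`e` (`ThetaInt4.even_padicValInt_root`), so `(e|r) = sign e` for `r ≡ 23 (mod 24)`; on the other
hand `(e|r) = (3c₄c₆|r) = -(-c₄c₆|r)` at a Tate prime (`ThetaInt4.tate_dvd`).
-/
import Mathlib
import Fermat.Prelude.Def_FLTPrelim_ModularRep
import Fermat.Agent.S52x.ThetaInt4
import Fermat.Agent.S52x.Legendre4
import Fermat.Agent.S51.GaloisDescent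

set_option autoImplicit false

namespace Fermat.Agent.S52x.Irr4

open Fermat.Agent.S52x.Theta4 Fermat.Agent.S52x.ThetaInt4 Fermat.Agent.S52x.Legendre4
open Fermat.Agent.S51

theorem legendreSym_congr {r : ℕ} [Fact r.Prime] {a b : ℤ} (h : (r : ℤ) ∣ a - b) :
    legendreSym r a = legendreSym r b := by
  unfold legendreSym
  have : (a : ZMod r) = (b : ZMod r) := ((ZMod.intCast_eq_intCast_iff_dvd_sub b a r).mpr h).symm
  rw [this]

/-- The Legendre symbol of an integer root at a Tate prime `r ≡ 23 (mod 24)`. -/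
theorem legendre_root {c4 c6 Δ : ℤ} (hrel : 1728 * Δ = c4 ^ 3 - c6 ^ 2) (hΔ0 : Δ ≠ 0)
    {e : ℤ} (hθ : theta c4 c6 e = 0) {r : ℕ} [hr : Fact r.Prime] (h : r % 24 = 23)
    (hΔ : (r : ℤ) ∣ Δ) (hc4 : ¬ (r : ℤ) ∣ c4) (h3 : ¬ 3 ∣ padicValInt r Δ) :
    ¬ (r : ℤ) ∣ e ∧ legendreSym r e = -legendreSym r (-(c4 * c6)) := by
  have h5 : 5 ≤ r := by omega
  have hpp : Prime (r : ℤ) := Nat.prime_iff_prime_int.mp hr.out
  have hd := tate_dvd hrel hΔ0 hθ hr.out h5 hΔ hc4 h3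
  have hc6 : ¬ (r : ℤ) ∣ c6 := not_dvd_c6_of_dvd_Δ hrel hr.out hΔ hc4
  have hre : ¬ (r : ℤ) ∣ e := by
    intro he
    have h1 : (r : ℤ) ∣ 3 * c6 := by
      have := dvd_sub (Dvd.dvd.mul_left he c4) hd
      have e' : c4 * e - (c4 * e - 3 * c6) = 3 * c6 := by ring
      rwa [e'] at this
    rcases hpp.dvd_or_dvd h1 with h | h
    · exact absurd h (not_dvd_small hr.out h5 (by norm_num))
    · exact hc6 h
  refine ⟨hre, ?_⟩
  have hc4z : ((c4 : ℤ) : ZMod r) ≠ 0 := by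
    rw [ne_eq, ZMod.intCast_zmod_eq_zero_iff_dvd]; exact hc4
  have h1 : legendreSym r (c4 ^ 2 * e) = legendreSym r e := by
    rw [legendreSym.mul, pow_two, legendreSym.mul, ← pow_two, legendreSym.sq_one r hc4z, one_mul]
  have h2 : legendreSym r (c4 ^ 2 * e) = legendreSym r (3 * c4 * c6) := by
    apply legendreSym_congr
    obtain ⟨k, hk⟩ := hd
    exact ⟨c4 * k, by linear_combination c4 * hk⟩
  have h3' : legendreSym r (3 * c4 * c6) = -legendreSym r (-(c4 * c6)) := by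
    have e' : 3 * c4 * c6 = (-1) * 3 * (-(c4 * c6)) := by ring
    rw [e', legendreSym.mul, legendreSym.mul, legendre_neg_one h, legendre_three h]
    ring
  rw [← h1, h2, h3']

/-- **No integer root of `Θ`** in the presence of a split and a nonsplit Tate prime
`≡ 23 (mod 24)`. -/
theorem theta_ne_zero {c4 c6 Δ : ℤ} (hrel : 1728 * Δ = c4 ^ 3 - c6 ^ 2) (hΔ0 : Δ ≠ 0)
    (hss : ∀ p : ℕ, p.Prime → (p : ℤ) ∣ Δ → ¬ (p : ℤ) ∣ c4)
    {r₁ r₂ : ℕ} [hr₁ : Fact r₁.Prime] [hr₂ : Fact r₂.Prime]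
    (h₁ : r₁ % 24 = 23) (h₂ : r₂ % 24 = 23)
    (hΔ₁ : (r₁ : ℤ) ∣ Δ) (hΔ₂ : (r₂ : ℤ) ∣ Δ)
    (hv₁ : ¬ 3 ∣ padicValInt r₁ Δ) (hv₂ : ¬ 3 ∣ padicValInt r₂ Δ)
    (hs₁ : legendreSym r₁ (-(c4 * c6)) = 1) (hs₂ : legendreSym r₂ (-(c4 * c6)) = -1) (e : ℤ) :
    theta c4 c6 e ≠ 0 := by
  intro hθ
  have hc4₁ : ¬ (r₁ : ℤ) ∣ c4 := hss r₁ hr₁.out hΔ₁
  have hc4₂ : ¬ (r₂ : ℤ) ∣ c4 := hss r₂ hr₂.out hΔ₂
  have hc40 : c4 ≠ 0 := fun h => hc4₁ (h ▸ dvd_zero _)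
  have he0 : e ≠ 0 := by
    rintro rfl
    have h3 := three_mul_sq_eq hθ
    have : c4 ^ 2 = 0 := by linarith
    exact hc40 (pow_eq_zero_iff (by norm_num) |>.mp this)
  obtain ⟨hre₁, hl₁⟩ := legendre_root hrel hΔ0 hθ h₁ hΔ₁ hc4₁ hv₁
  obtain ⟨hre₂, hl₂⟩ := legendre_root hrel hΔ0 hθ h₂ hΔ₂ hc4₂ hv₂
  rw [hs₁] at hl₁
  rw [hs₂] at hl₂
  have hev : ∀ l : ℕ, l.Prime → 5 ≤ l → Even (padicValInt l e) :=
    fun l hl h5 => even_padicValInt_root hrel hss hc40 hθ hl h5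
  obtain ⟨hp₁, hn₁⟩ := legendre_int h₁ he0 hre₁ hev
  obtain ⟨hp₂, hn₂⟩ := legendre_int h₂ he0 hre₂ hev
  rcases lt_or_gt_of_ne he0 with hneg | hpos
  · have := hn₂ hneg
    rw [hl₂] at this
    norm_num at this
  · have := hp₁ hpos
    rw [hl₁] at this
    norm_num at this

/-- A rational root of a monic integral quartic `e⁴ - 6c₄e² - 8c₆e - 3c₄²` is an integer. -/
theorem exists_int_root {c4 c6 : ℤ} {q : ℚ} (hq : theta (c4 : ℚ) (c6 : ℚ) q = 0) :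
    ∃ e : ℤ, (e : ℚ) = q := by
  open Polynomial in
  classical
  let g : ℤ[X] := C (-(6 * c4)) * X ^ 2 + C (-(8 * c6)) * X + C (-(3 * c4 ^ 2))
  have hg : g.degree < ((3 + 1 : ℕ) : WithBot ℕ) :=
    lt_of_le_of_lt degree_quadratic_le (by norm_num)
  have hmonic : (X ^ (3 + 1) - (-g)).Monic := monic_X_pow_sub (by rwa [degree_neg])
  have hroot : aeval q (X ^ (3 + 1) - (-g)) = 0 := by
    unfold theta at hq
    simp only [g, map_sub, map_neg, map_add, map_mul, map_pow, aeval_X, aeval_C]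
    simp only [eq_intCast, Int.cast_ofNat]
    linear_combination hq
  have hint : IsIntegral ℤ q := ⟨_, hmonic, by rwa [← aeval_def]⟩
  obtain ⟨e, he⟩ := IsIntegrallyClosed.isIntegral_iff.mp hint
  exact ⟨e, by simpa using he⟩

/-- **Mod-`3` irreducibility from a split and a nonsplit Tate prime.** -/
theorem modRepIsIrreducible_three (W : WeierstrassCurve ℤ) (hΔ : W.Δ ≠ 0)
    (hW : W.IsSemistableModel)
    {r₁ r₂ : ℕ} [hr₁ : Fact r₁.Prime] [hr₂ : Fact r₂.Prime]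
    (h₁ : r₁ % 24 = 23) (h₂ : r₂ % 24 = 23)
    (hΔ₁ : (r₁ : ℤ) ∣ W.Δ) (hΔ₂ : (r₂ : ℤ) ∣ W.Δ)
    (hv₁ : ¬ 3 ∣ padicValInt r₁ W.Δ) (hv₂ : ¬ 3 ∣ padicValInt r₂ W.Δ)
    (hs₁ : legendreSym r₁ (-(W.c₄ * W.c₆)) = 1) (hs₂ : legendreSym r₂ (-(W.c₄ * W.c₆)) = -1) :
    W.ModRepIsIrreducible 3 := by
  by_contra h
  unfold WeierstrassCurve.ModRepIsIrreducible at h
  have hΔq : (W.map (Int.castRingHom ℚ)).Δ = (W.Δ : ℚ) := by
    rw [WeierstrassCurve.map_Δ]; rfl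
  have hc₄q : (W.map (Int.castRingHom ℚ)).c₄ = (W.c₄ : ℚ) := by
    rw [WeierstrassCurve.map_c₄]; rfl
  have hc₆q : (W.map (Int.castRingHom ℚ)).c₆ = (W.c₆ : ℚ) := by
    rw [WeierstrassCurve.map_c₆]; rfl
  have hΔne : (W.map (Int.castRingHom ℚ)).Δ ≠ 0 := by
    rw [hΔq]; exact_mod_cast hΔ
  obtain ⟨x, hx1, hx2⟩ :=
    Galois.rational_root_of_not_irreducible_three (W.map (Int.castRingHom ℚ)) hΔne h
  have hpsi : psi3 (W.map (Int.castRingHom ℚ)) x = 0 := by rw [psi3_eq, hx2]; ring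
  have hθq : theta (W.c₄ : ℚ) (W.c₆ : ℚ) (12 * x + (W.map (Int.castRingHom ℚ)).b₂) = 0 := by
    rw [← hc₄q, ← hc₆q, theta_eq_psi3, hpsi, mul_zero]
  obtain ⟨e, he⟩ := exists_int_root hθq
  have hθ : theta W.c₄ W.c₆ e = 0 := by
    have : ((theta W.c₄ W.c₆ e : ℤ) : ℚ) = 0 := by
      rw [← hθq, ← he]
      unfold theta
      push_cast
      ring
    exact_mod_cast this
  exact theta_ne_zero W.c_relation hΔ hW h₁ h₂ hΔ₁ hΔ₂ hv₁ hv₂ hs₁ hs₂ e hθ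

end Fermat.Agent.S52x.Irr4
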