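/-
S52 (3–5 switch), part P4 (helper4): the semistable integral model.

Given a semistable integral Weierstrass model `W` (`Δ ≠ 0`) and integers `c4'`, `c6'` congruent to
`c₄(W)`, `c₆(W)` modulo `1728 * 30 * Δ(W)`, with `c4'^3 ≠ c6'^2` and with no common prime factor
outside `30 * Δ(W)`, there is an integral Weierstrass model `W'` with `c₄(W') = c4'`,
`c₆(W') = c6'` which is again semistable (and has the same `a₁, a₂, a₃`).
-/
import Mathlib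
import Fermat.Prelude.Def_FLTPrelim_Modularity

set_option autoImplicit false

namespace Fermat.Agent.S52x.Model4

open WeierstrassCurve

/-- The perturbed model: same `a₁, a₂, a₃`, and `a₄, a₆` moved by multiples of `Δ`. -/
def perturb (W : WeierstrassCurve ℤ) (k4 k6 : ℤ) : WeierstrassCurve ℤ where
  a₁ := W.a₁
  a₂ := W.a₂
  a₃ := W.a₃
  a₄ := W.a₄ - 1080 * W.Δ * k4
  a₆ := W.a₆ - 60 * W.Δ * k6 - 90 * W.b₂ * W.Δ * k4

theorem perturb_b₂ (W : WeierstrassCurve ℤ) (k4 k6 : ℤ) : (perturb W k4 k6).b₂ = W.b₂ := rfl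

theorem perturb_c₄ (W : WeierstrassCurve ℤ) (k4 k6 : ℤ) :
    (perturb W k4 k6).c₄ = W.c₄ + 1728 * 30 * W.Δ * k4 := by
  simp only [WeierstrassCurve.c₄, WeierstrassCurve.b₂, WeierstrassCurve.b₄, perturb]
  ring

theorem perturb_c₆ (W : WeierstrassCurve ℤ) (k4 k6 : ℤ) :
    (perturb W k4 k6).c₆ = W.c₆ + 1728 * 30 * W.Δ * k6 := by
  simp only [WeierstrassCurve.c₆, WeierstrassCurve.b₂, WeierstrassCurve.b₄,
    WeierstrassCurve.b₆, perturb]
  ring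

/-- `Δ(W') = Δ(W) * (1 + 30 * Z)`. -/
theorem perturb_Δ (W : WeierstrassCurve ℤ) (k4 k6 : ℤ) :
    ∃ Z : ℤ, (perturb W k4 k6).Δ = W.Δ * (1 + 30 * Z) := by
  have h' := (perturb W k4 k6).c_relation
  have h := W.c_relation
  rw [perturb_c₄, perturb_c₆] at h'
  refine ⟨k4 * (3 * W.c₄ ^ 2 + 3 * W.c₄ * (1728 * 30 * W.Δ * k4) + (1728 * 30 * W.Δ * k4) ^ 2)
    - k6 * (2 * W.c₆ + 1728 * 30 * W.Δ * k6), ?_⟩
  have h1728 : (1728 : ℤ) ≠ 0 := by norm_num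
  apply mul_left_cancel₀ h1728
  rw [h']
  linear_combination (-1 : ℤ) * h

theorem exists_model (W : WeierstrassCurve ℤ) (hW : W.IsSemistableModel) (c4' c6' : ℤ)
    (h4 : (1728 * 30 * W.Δ) ∣ c4' - W.c₄) (h6 : (1728 * 30 * W.Δ) ∣ c6' - W.c₆)
    (hne : c4' ^ 3 ≠ c6' ^ 2)
    (hcop : ∀ p : ℕ, p.Prime → ¬ (p : ℤ) ∣ 30 * W.Δ → ¬ ((p : ℤ) ∣ c4' ∧ (p : ℤ) ∣ c6')) :
    ∃ W' : WeierstrassCurve ℤ, W'.c₄ = c4' ∧ W'.c₆ = c6' ∧ W'.Δ ≠ 0 ∧ W'.IsSemistableModel ∧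
      W'.a₁ = W.a₁ ∧ W'.a₂ = W.a₂ ∧ W'.a₃ = W.a₃ := by
  obtain ⟨k4, hk4⟩ := h4
  obtain ⟨k6, hk6⟩ := h6
  have e4 : (perturb W k4 k6).c₄ = c4' := by rw [perturb_c₄]; linarith
  have e6 : (perturb W k4 k6).c₆ = c6' := by rw [perturb_c₆]; linarith
  have hrel := (perturb W k4 k6).c_relation
  rw [e4, e6] at hrel
  have hΔ' : (perturb W k4 k6).Δ ≠ 0 := by
    intro h0
    rw [h0, mul_zero] at hrel
    exact hne (by linarith)
  refine ⟨perturb W k4 k6, e4, e6, hΔ', ?_, rfl, rfl, rfl⟩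
  intro p hp hpΔ' hpc4
  rw [e4] at hpc4
  have hpp : Prime (p : ℤ) := Nat.prime_iff_prime_int.mp hp
  by_cases hp30 : (p : ℤ) ∣ 30 * W.Δ
  · -- primes of `30 Δ`
    obtain ⟨Z, hZ⟩ := perturb_Δ W k4 k6
    rw [hZ] at hpΔ'
    have hc4 : (p : ℤ) ∣ W.c₄ := by
      have h1 : (p : ℤ) ∣ c4' - W.c₄ := by
        rw [hk4]
        obtain ⟨m, hm⟩ := hp30
        exact ⟨1728 * m * k4, by linear_combination (1728 * k4) * hm⟩
      have := dvd_sub hpc4 h1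
      simpa using this
    have hnΔ : ¬ (p : ℤ) ∣ W.Δ := fun h => hW p hp h hc4
    rcases hpp.dvd_or_dvd hpΔ' with h | h
    · exact hnΔ h
    · rcases hpp.dvd_or_dvd hp30 with h30 | hΔ
      · have : (p : ℤ) ∣ 1 := by
          have h2 : (p : ℤ) ∣ 30 * Z := Dvd.dvd.mul_right h30 Z
          have := dvd_sub h h2
          simpa using this
        exact hpp.not_dvd_one this
      · exact hnΔ hΔ
  · -- the other primes
    apply hcop p hp hp30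
    refine ⟨hpc4, ?_⟩
    have h2 : (p : ℤ) ∣ c6' ^ 2 := by
      have h3 : c6' ^ 2 = c4' ^ 3 - 1728 * (perturb W k4 k6).Δ := by linarith
      rw [h3]
      exact dvd_sub (Dvd.dvd.pow hpc4 (by norm_num)) (Dvd.dvd.mul_left hpΔ' _)
    exact hpp.dvd_of_dvd_pow h2

end Fermat.Agent.S52x.Model4
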