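/-
S52 (3–5 switch), B3, the algebraic input (H4) (helper4): the quartic
`Θ(C4(t), C6(t), e)` of a family with `C4³ - C6² = κ F⁵`, `F` squarefree of degree `≥ 7` and
coprime to `C4`, has no root `e = ε(t) ∈ ℚ[t]`.

Proof: with `y = C4 ε + C6`, `D = C4³ - C6²`, the identity (`Theta4.key_identity`)
`C4⁴ Θ = y³ (y - 4 C6) - D (6 y² - 4 C6 y + 4 C6² + 3 D)` shows that no prime `π ∣ F` divides `y`
(else `3 v_π(y) = 5`), hence `D ∣ y - 4 C6`, which has degree `≤ 30 < 5 deg F`; so `y = 4 C6` and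
then `3 C4³ = -81 C6²`, contradicting coprimality.
-/
import Mathlib
import Fermat.Agent.S52x.Theta4

set_option autoImplicit false

namespace Fermat.Agent.S52x.NoRoot4

open Fermat.Agent.S52x.Theta4 Polynomial

variable {K : Type*} [Field K]

/-- degree bound for a polynomial root of `Θ`. -/
theorem natDegree_root_le {C4 C6 ε : K[X]} (hd4 : C4.natDegree ≤ 20) (hd6 : C6.natDegree ≤ 30)
    (h : theta C4 C6 ε = 0) : ε.natDegree ≤ 10 := by
  by_contra hcon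
  push_neg at hcon
  have hε : ε ≠ 0 := by
    rintro rfl
    simp at hcon
  have h4 : ε ^ 4 = 6 * C4 * ε ^ 2 + 8 * C6 * ε + 3 * C4 ^ 2 := by
    unfold theta at h
    linear_combination h
  have hdeg : (ε ^ 4).natDegree = 4 * ε.natDegree := natDegree_pow ε 4
  have h1 : (6 * C4 * ε ^ 2).natDegree ≤ 20 + 2 * ε.natDegree := by
    calc (6 * C4 * ε ^ 2).natDegree ≤ (6 * C4).natDegree + (ε ^ 2).natDegree := natDegree_mul_le
      _ ≤ 20 + 2 * ε.natDegree := by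
          have e1 : (6 * C4 : K[X]).natDegree ≤ 20 := by
            have : (6 : K[X]) = C 6 := (map_ofNat C 6).symm
            rw [this]
            exact (natDegree_C_mul_le _ _).trans hd4
          have e2 : (ε ^ 2).natDegree ≤ 2 * ε.natDegree := natDegree_pow_le
          omega
  have h2 : (8 * C6 * ε).natDegree ≤ 30 + ε.natDegree := by
    calc (8 * C6 * ε).natDegree ≤ (8 * C6).natDegree + ε.natDegree := natDegree_mul_le
      _ ≤ 30 + ε.natDegree := by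
          have e1 : (8 * C6 : K[X]).natDegree ≤ 30 := by
            have : (8 : K[X]) = C 8 := (map_ofNat C 8).symm
            rw [this]
            exact (natDegree_C_mul_le _ _).trans hd6
          omega
  have h3 : (3 * C4 ^ 2).natDegree ≤ 40 := by
    have : (3 : K[X]) = C 3 := (map_ofNat C 3).symm
    rw [this]
    refine (natDegree_C_mul_le _ _).trans ?_
    have e2 : (C4 ^ 2).natDegree ≤ 2 * C4.natDegree := natDegree_pow_le
    omega
  have hsum : (6 * C4 * ε ^ 2 + 8 * C6 * ε + 3 * C4 ^ 2).natDegree < 4 * ε.natDegree := by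
    refine lt_of_le_of_lt (natDegree_add_le _ _) (max_lt ?_ (by omega))
    exact lt_of_le_of_lt (natDegree_add_le _ _) (max_lt (by omega) (by omega))
  rw [← h4, hdeg] at hsum
  exact lt_irrefl _ hsum

/-- no prime factor of `F` divides `y = C4 ε + C6`. -/
theorem not_dvd_y {C4 C6 F ε : K[X]} {κ : K} (h4 : (4 : K) ≠ 0) (hκ : κ ≠ 0) (hdisc : C4 ^ 3 - C6 ^ 2 = C κ * F ^ 5)
    (hsq : Squarefree F) (hcop : IsCoprime C4 F) (h : theta C4 C6 ε = 0) {π : K[X]}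
    (hπ : Prime π) (hπF : π ∣ F) : ¬ π ∣ C4 * ε + C6 := by
  intro hπy
  set y := C4 * ε + C6 with hy
  set D := C4 ^ 3 - C6 ^ 2 with hD
  set V := 6 * y ^ 2 - 4 * C6 * y + 4 * C6 ^ 2 + 3 * D with hV
  have hkey : y ^ 3 * (y - 4 * C6) = D * V := by
    have := key_identity C4 C6 ε
    rw [h, mul_zero] at this
    linear_combination (-1 : K[X]) * this
  have hπD : π ∣ D := by
    rw [hdisc]
    exact Dvd.dvd.mul_left (dvd_pow hπF (by norm_num)) _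
  have hπC4 : ¬ π ∣ C4 := by
    intro hd
    exact hπ.not_isUnit (hcop.isUnit_of_dvd' hd hπF)
  have hπC6 : ¬ π ∣ C6 := by
    intro hd
    apply hπC4
    have : π ∣ C4 ^ 3 := by
      have e : C4 ^ 3 = D + C6 ^ 2 := by rw [hD]; ring
      rw [e]
      exact dvd_add hπD (dvd_pow hd (by norm_num))
    exact hπ.dvd_of_dvd_pow this
  have h4u : IsUnit (C (4 : K)) := isUnit_C.mpr (isUnit_iff_ne_zero.mpr h4)
  have h4' : (4 : K[X]) = C 4 := (map_ofNat C 4).symm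
  have hπ4C6 : ¬ π ∣ 4 * C6 := by
    intro hd
    rw [h4'] at hd
    exact hπC6 ((h4u.dvd_mul_left).mp hd)
  have hπ1 : ¬ π ∣ y - 4 * C6 := by
    intro hd
    apply hπ4C6
    have : 4 * C6 = y - (y - 4 * C6) := by ring
    rw [this]
    exact dvd_sub hπy hd
  have hπV : ¬ π ∣ V := by
    intro hd
    have : π ∣ 4 * C6 ^ 2 := by
      have e : 4 * C6 ^ 2 = V - (6 * y ^ 2 - 4 * C6 * y + 3 * D) := by rw [hV]; ring
      rw [e]
      refine dvd_sub hd (dvd_add (dvd_sub ?_ ?_) ?_)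
      · exact Dvd.dvd.mul_left (dvd_pow hπy (by norm_num)) _
      · exact Dvd.dvd.mul_left hπy _
      · exact Dvd.dvd.mul_left hπD _
    rw [h4'] at this
    have := (h4u.dvd_mul_left).mp this
    exact hπC6 (hπ.dvd_of_dvd_pow this)
  obtain ⟨F₁, hF₁⟩ := hπF
  have hπF₁ : ¬ π ∣ F₁ := by
    rintro ⟨F₂, hF₂⟩
    have : π * π ∣ F := ⟨F₂, by rw [hF₁, hF₂]; ring⟩
    exact hπ.not_isUnit (hsq π this)
  have hπ0 : π ≠ 0 := hπ.ne_zero
  obtain ⟨y₁, hy₁⟩ := hπy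
  -- first descent
  have e1 : y₁ ^ 3 * (y - 4 * C6) = C κ * π ^ 2 * F₁ ^ 5 * V := by
    have : π ^ 3 * (y₁ ^ 3 * (y - 4 * C6)) = π ^ 3 * (C κ * π ^ 2 * F₁ ^ 5 * V) := by
      calc π ^ 3 * (y₁ ^ 3 * (y - 4 * C6)) = (π * y₁) ^ 3 * (y - 4 * C6) := by ring
        _ = y ^ 3 * (y - 4 * C6) := by rw [← hy₁]
        _ = D * V := hkey
        _ = C κ * (π * F₁) ^ 5 * V := by rw [hdisc, hF₁]
        _ = π ^ 3 * (C κ * π ^ 2 * F₁ ^ 5 * V) := by ring
    exact mul_left_cancel₀ (pow_ne_zero 3 hπ0) this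
  have hπy₁ : π ∣ y₁ := by
    have : π ∣ y₁ ^ 3 * (y - 4 * C6) := by
      rw [e1]
      exact ⟨C κ * π * F₁ ^ 5 * V, by ring⟩
    rcases hπ.dvd_or_dvd this with h' | h'
    · exact hπ.dvd_of_dvd_pow h'
    · exact absurd h' hπ1
  obtain ⟨y₂, hy₂⟩ := hπy₁
  have e2 : π * (y₂ ^ 3 * (y - 4 * C6)) = C κ * F₁ ^ 5 * V := by
    have : π ^ 2 * (π * (y₂ ^ 3 * (y - 4 * C6))) = π ^ 2 * (C κ * F₁ ^ 5 * V) := by
      calc π ^ 2 * (π * (y₂ ^ 3 * (y - 4 * C6))) = (π * y₂) ^ 3 * (y - 4 * C6) := by ring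
        _ = y₁ ^ 3 * (y - 4 * C6) := by rw [← hy₂]
        _ = C κ * π ^ 2 * F₁ ^ 5 * V := e1
        _ = π ^ 2 * (C κ * F₁ ^ 5 * V) := by ring
    exact mul_left_cancel₀ (pow_ne_zero 2 hπ0) this
  have hfin : π ∣ C κ * F₁ ^ 5 * V := ⟨_, e2.symm⟩
  rcases hπ.dvd_or_dvd hfin with h' | h'
  · rcases hπ.dvd_or_dvd h' with h'' | h''
    · exact hπ.not_isUnit (isUnit_of_dvd_unit h'' (isUnit_C.mpr (isUnit_iff_ne_zero.mpr hκ)))
    · exact hπF₁ (hπ.dvd_of_dvd_pow h'')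
  · exact hπV h'

/-- **(H4)**: the family quartic has no polynomial root. -/
theorem no_root [CharZero K] {C4 C6 F : K[X]} {κ : K} (hκ : κ ≠ 0)
    (hdisc : C4 ^ 3 - C6 ^ 2 = C κ * F ^ 5) (hsq : Squarefree F) (hcop : IsCoprime C4 F)
    (hdeg : 7 ≤ F.natDegree) (hd4 : C4.natDegree ≤ 20) (hd6 : C6.natDegree ≤ 30) (ε : K[X]) :
    theta C4 C6 ε ≠ 0 := by
  intro h
  have hF0 : F ≠ 0 := by
    rintro rfl
    simp at hdeg
  have h4 : (4 : K) ≠ 0 := by norm_num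
  set y := C4 * ε + C6 with hy
  set D := C4 ^ 3 - C6 ^ 2 with hD
  set V := 6 * y ^ 2 - 4 * C6 * y + 4 * C6 ^ 2 + 3 * D with hV
  have hkey : y ^ 3 * (y - 4 * C6) = D * V := by
    have := key_identity C4 C6 ε
    rw [h, mul_zero] at this
    linear_combination (-1 : K[X]) * this
  have hcopy : IsCoprime F y :=
    isCoprime_of_prime_dvd (fun hh => hF0 hh.1)
      (fun π hπ hπF => not_dvd_y h4 hκ hdisc hsq hcop h hπ hπF)
  have hκu : IsUnit (C κ : K[X]) := isUnit_C.mpr (isUnit_iff_ne_zero.mpr hκ)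
  have hcopD : IsCoprime D (y ^ 3) := by
    rw [hdisc]
    exact (isCoprime_mul_unit_left_left hκu _ _).mpr (hcopy.pow)
  have hDdvd : D ∣ y - 4 * C6 := by
    refine hcopD.dvd_of_dvd_mul_left ?_
    rw [hkey]
    exact dvd_mul_right _ _
  have hDdeg : D.natDegree = 5 * F.natDegree := by
    rw [hdisc, natDegree_C_mul hκ, natDegree_pow]
  have hε := natDegree_root_le hd4 hd6 h
  have hydeg : (y - 4 * C6).natDegree ≤ 30 := by
    have e : y - 4 * C6 = C4 * ε - C 3 * C6 := by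
      rw [hy, map_ofNat C 3]
      ring
    rw [e]
    refine (natDegree_sub_le _ _).trans (max_le ?_ ?_)
    · exact natDegree_mul_le.trans (by omega)
    · exact (natDegree_C_mul_le _ _).trans hd6
  have hy4 : y - 4 * C6 = 0 := by
    by_contra hne
    have := natDegree_le_of_dvd hDdvd hne
    omega
  have hD0 : D ≠ 0 := by
    rw [hdisc]
    exact mul_ne_zero (C_ne_zero.mpr hκ) (pow_ne_zero _ hF0)
  have hV0 : V = 0 := by
    rw [hy4, mul_zero] at hkey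
    exact (mul_eq_zero.mp hkey.symm).resolve_left hD0
  -- `y = 4 C6`, so `V = 84 C6² + 3 D = 0`, i.e. `28 C4³ = 27 κ F⁵`
  have hy' : y = 4 * C6 := by linear_combination hy4
  have hrel : C (28 : K) * C4 ^ 3 = C (27 * κ) * F ^ 5 := by
    have e1 : 84 * C6 ^ 2 + 3 * D = 0 := by
      rw [hV, hy'] at hV0
      linear_combination hV0
    have e2 : C4 ^ 3 = D + C6 ^ 2 := by rw [hD]; ring
    rw [C_mul, map_ofNat C 28, map_ofNat C 27, mul_assoc, ← hdisc, e2]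
    have h3 : (3 : K[X]) ≠ 0 := by
      rw [← map_ofNat C 3]
      exact C_ne_zero.mpr (by norm_num)
    apply mul_left_cancel₀ h3
    linear_combination e1
  -- `F⁵ ∣ 28 C4³` and `F⁵` coprime to `C4³`, so `F⁵ ∣ 28`: `F` is a unit
  have h28u : IsUnit (C (28 : K) : K[X]) := isUnit_C.mpr (isUnit_iff_ne_zero.mpr (by norm_num))
  have hdvd : F ^ 5 ∣ C (28 : K) * C4 ^ 3 := ⟨C (27 * κ), by rw [hrel]; ring⟩
  have hcop5 : IsCoprime (F ^ 5) (C4 ^ 3) := (hcop.symm.pow)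
  have hdvd28 : F ^ 5 ∣ C (28 : K) := hcop5.dvd_of_dvd_mul_right hdvd
  have hFu : IsUnit (F ^ 5) := isUnit_of_dvd_unit hdvd28 h28u
  have hFu' : IsUnit F := (isUnit_pow_iff (by norm_num)).mp hFu
  have := natDegree_eq_zero_of_isUnit hFu'
  omega


/-! ### Variant via the modular equation of `X₀(3)`, needing only `4 ≤ deg F`. -/

section Modular

variable {R : Type*} [CommRing R]

/-- `g = e³ - 3 c₄ e - 2 c₆` (a quarter of `∂Θ/∂e`). -/
def gcub (c4 c6 e : R) : R := e ^ 3 - 3 * c4 * e - 2 * c6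

/-- the cofactor in `modular_identity`. -/
def modCofactor (c4 c6 e : R) : R :=
  e ^ 20 - 18 * e ^ 18 * c4 - 8 * e ^ 17 * c6 + 147 * e ^ 16 * c4 ^ 2 + 144 * e ^ 15 * c4 * c6 - 828 * e ^ 14 * c4 ^ 3 - 64 * e ^ 14 * c6 ^ 2 - 1008 * e ^ 13 * c4 ^ 2 * c6 + 3735 * e ^ 12 * c4 ^ 4 + 768 * e ^ 12 * c4 * c6 ^ 2 + 4608 * e ^ 11 * c4 ^ 3 * c6 + 384 * e ^ 11 * c6 ^ 3 - 13122 * e ^ 10 * c4 ^ 5 - 3648 * e ^ 10 * c4 ^ 2 * c6 ^ 2 - 16776 * e ^ 9 * c4 ^ 4 * c6 - 4992 * e ^ 9 * c4 * c6 ^ 3 + 34965 * e ^ 8 * c4 ^ 6 + 1792 * e ^ 8 * c6 ^ 4 + 45360 * e ^ 7 * c4 ^ 5 * c6 + 22656 * e ^ 7 * c4 ^ 2 * c6 ^ 3 - 73872 * e ^ 6 * c4 ^ 7 + 62208 * e ^ 6 * c4 ^ 4 * c6 ^ 2 - 13824 * e ^ 6 * c4 * c6 ^ 4 - 81216 * e ^ 5 * c4 ^ 6 * c6 - 28800 * e ^ 5 * c4 ^ 3 * c6 ^ 3 - 4096 * e ^ 5 * c6 ^ 5 + 111456 * e ^ 4 * c4 ^ 8 - 196992 * e ^ 4 * c4 ^ 5 * c6 ^ 2 + 34560 * e ^ 4 * c4 ^ 2 * c6 ^ 4 + 103680 * e ^ 3 * c4 ^ 7 * c6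 - 73728 * e ^ 3 * c4 ^ 4 * c6 ^ 3 + 30720 * e ^ 3 * c4 * c6 ^ 5 - 62208 * e ^ 2 * c4 ^ 9 + 138240 * e ^ 2 * c4 ^ 6 * c6 ^ 2 + 18432 * e ^ 2 * c4 ^ 3 * c6 ^ 4 - 16384 * e ^ 2 * c6 ^ 6 - 82944 * e * c4 ^ 8 * c6 + 165888 * e * c4 ^ 5 * c6 ^ 3 - 49152 * e * c4 ^ 2 * c6 ^ 5 - 62208 * c4 ^ 10 + 165888 * c4 ^ 7 * c6 ^ 2 - 147456 * c4 ^ 4 * c6 ^ 4 + 49152 * c4 * c6 ^ 6

/-- the modular equation of `X₀(3)` in terms of `g`: with `D = c₄³ - c₆²`,
`(4 D + g²)(36 D + g²)³ - 256 c₄³ g⁶ = Θ · q`. -/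
theorem modular_identity (c4 c6 e : R) :
    (4 * (c4 ^ 3 - c6 ^ 2) + gcub c4 c6 e ^ 2) * (36 * (c4 ^ 3 - c6 ^ 2) + gcub c4 c6 e ^ 2) ^ 3 -
        256 * c4 ^ 3 * gcub c4 c6 e ^ 6 = theta c4 c6 e * modCofactor c4 c6 e := by
  unfold gcub theta modCofactor
  ring

/-- `c₄³ g = y² (y - 3 c₆) - D (3 y - c₆)` with `y = c₄ e + c₆`. -/
theorem c4_cube_mul_gcub (c4 c6 e : R) :
    c4 ^ 3 * gcub c4 c6 e = (c4 * e + c6) ^ 2 * ((c4 * e + c6) - 3 * c6) -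
      (c4 ^ 3 - c6 ^ 2) * (3 * (c4 * e + c6) - c6) := by
  unfold gcub
  ring

end Modular

/-- no prime factor of `F` divides `g`. -/
theorem not_dvd_g {C4 C6 F ε : K[X]} {κ : K} (h2 : (2 : K) ≠ 0) (hκ : κ ≠ 0)
    (hdisc : C4 ^ 3 - C6 ^ 2 = C κ * F ^ 5)
    (hsq : Squarefree F) (hcop : IsCoprime C4 F) (h : theta C4 C6 ε = 0) {π : K[X]}
    (hπ : Prime π) (hπF : π ∣ F) : ¬ π ∣ gcub C4 C6 ε := by
  intro hπg
  have h4 : (4 : K) ≠ 0 := by
    have : (4 : K) = 2 * 2 := by norm_num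
    rw [this]
    exact mul_ne_zero h2 h2
  have hπy := not_dvd_y h4 hκ hdisc hsq hcop h hπ hπF
  set y := C4 * ε + C6 with hy
  set D := C4 ^ 3 - C6 ^ 2 with hD
  have hπD : π ∣ D := by
    rw [hdisc]
    exact Dvd.dvd.mul_left (dvd_pow hπF (by norm_num)) _
  have hπC4 : ¬ π ∣ C4 := fun hd => hπ.not_isUnit (hcop.isUnit_of_dvd' hd hπF)
  have hπC6 : ¬ π ∣ C6 := by
    intro hd
    apply hπC4
    have : π ∣ C4 ^ 3 := by
      have e : C4 ^ 3 = D + C6 ^ 2 := by rw [hD]; ring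
      rw [e]
      exact dvd_add hπD (dvd_pow hd (by norm_num))
    exact hπ.dvd_of_dvd_pow this
  -- `π ∣ y - 4 C6` from the key identity
  have hkey : y ^ 3 * (y - 4 * C6) =
      D * (6 * y ^ 2 - 4 * C6 * y + 4 * C6 ^ 2 + 3 * D) := by
    have := key_identity C4 C6 ε
    rw [h, mul_zero] at this
    linear_combination (-1 : K[X]) * this
  have h1 : π ∣ y - 4 * C6 := by
    have : π ∣ y ^ 3 * (y - 4 * C6) := by
      rw [hkey]
      exact Dvd.dvd.mul_right hπD _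
    rcases hπ.dvd_or_dvd this with h' | h'
    · exact absurd (hπ.dvd_of_dvd_pow h') hπy
    · exact h'
  -- `C4³ g ≡ y² (y - 3 C6) ≡ 16 C6³`
  have h2' : π ∣ y ^ 2 * (y - 3 * C6) := by
    have e := c4_cube_mul_gcub C4 C6 ε
    have : y ^ 2 * (y - 3 * C6) = C4 ^ 3 * gcub C4 C6 ε + D * (3 * y - C6) := by
      rw [e]
      ring
    rw [this]
    exact dvd_add (Dvd.dvd.mul_left hπg _) (Dvd.dvd.mul_right hπD _)
  rcases hπ.dvd_or_dvd h2' with h' | h'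
  · exact hπy (hπ.dvd_of_dvd_pow h')
  · -- `π ∣ (y - 3 C6) - (y - 4 C6) = C6`
    apply hπC6
    have : C6 = (y - 3 * C6) - (y - 4 * C6) := by ring
    rw [this]
    exact dvd_sub h' h1

/-- **(H4), variant**: only `4 ≤ deg F` is needed. -/
theorem no_root' [CharZero K] {C4 C6 F : K[X]} {κ : K} (hκ : κ ≠ 0)
    (hdisc : C4 ^ 3 - C6 ^ 2 = C κ * F ^ 5) (hsq : Squarefree F) (hcop : IsCoprime C4 F)
    (hdeg : 4 ≤ F.natDegree) (hd4 : C4.natDegree ≤ 20) (ε : K[X]) :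
    theta C4 C6 ε ≠ 0 := by
  intro h
  have hF0 : F ≠ 0 := by
    rintro rfl
    simp at hdeg
  set g := gcub C4 C6 ε with hg
  set D := C4 ^ 3 - C6 ^ 2 with hD
  have hmod : (4 * D + g ^ 2) * (36 * D + g ^ 2) ^ 3 = 256 * C4 ^ 3 * g ^ 6 := by
    have := modular_identity C4 C6 ε
    rw [h, zero_mul] at this
    linear_combination this
  have hκu : IsUnit (C κ : K[X]) := isUnit_C.mpr (isUnit_iff_ne_zero.mpr hκ)
  have hcopg : IsCoprime g F := by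
    refine (isCoprime_of_prime_dvd (fun hh => hF0 hh.1)
      (fun π hπ hπF => not_dvd_g (by norm_num) hκ hdisc hsq hcop h hπ hπF)).symm
  have hcopD : IsCoprime g D := by
    rw [hdisc]
    exact (isCoprime_mul_unit_left_right hκu _ _).mpr (hcopg.pow_right)
  have hunit : ∀ c : K, c ≠ 0 → IsCoprime g (C c * D + g ^ 2) := by
    intro c hc
    have hcu : IsUnit (C c : K[X]) := isUnit_C.mpr (isUnit_iff_ne_zero.mpr hc)
    have h1 : IsCoprime g (C c * D) := (isCoprime_mul_unit_left_right hcu _ _).mpr hcopD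
    have : C c * D + g ^ 2 = C c * D + g * g := by ring
    rw [this]
    exact h1.add_mul_left_right g
  have h4c : (4 : K[X]) = C 4 := (map_ofNat C 4).symm
  have h36c : (36 : K[X]) = C 36 := (map_ofNat C 36).symm
  have hc1 : IsCoprime g (4 * D + g ^ 2) := by
    rw [h4c]; exact hunit 4 (by norm_num)
  have hc2 : IsCoprime g (36 * D + g ^ 2) := by
    rw [h36c]; exact hunit 36 (by norm_num)
  have hcprod : IsCoprime g ((4 * D + g ^ 2) * (36 * D + g ^ 2) ^ 3) := hc1.mul_right hc2.pow_right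
  have hgdvd : g ∣ (4 * D + g ^ 2) * (36 * D + g ^ 2) ^ 3 := by
    rw [hmod]
    exact ⟨256 * C4 ^ 3 * g ^ 5, by ring⟩
  have hgu : IsUnit g := hcprod.isUnit_of_dvd' dvd_rfl hgdvd
  obtain ⟨γ, hγu, hγ⟩ := Polynomial.isUnit_iff.mp hgu
  have hγ0 : γ ≠ 0 := hγu.ne_zero
  -- degree count
  have hDdeg : D.natDegree = 5 * F.natDegree := by
    rw [hdisc, natDegree_C_mul hκ, natDegree_pow]
  have hD0 : D ≠ 0 := by
    rw [hdisc]
    exact mul_ne_zero (C_ne_zero.mpr hκ) (pow_ne_zero _ hF0)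
  have hshift : ∀ c : K, c ≠ 0 → (C c * D + g ^ 2).natDegree = D.natDegree ∧
      C c * D + g ^ 2 ≠ 0 := by
    intro c hc
    have e : C c * D + g ^ 2 = C c * D + C (γ ^ 2) := by rw [← hγ, C_pow]
    have hdeg' : (C c * D + C (γ ^ 2)).natDegree = D.natDegree := by
      rw [natDegree_add_C, natDegree_C_mul hc]
    refine ⟨by rw [e, hdeg'], ?_⟩
    intro h0
    have : (C c * D + g ^ 2).natDegree = 0 := by rw [h0]; simp
    rw [e, hdeg', hDdeg] at this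
    omega
  have hl : ((4 * D + g ^ 2) * (36 * D + g ^ 2) ^ 3).natDegree = 4 * D.natDegree := by
    rw [h4c, h36c]
    obtain ⟨d1, n1⟩ := hshift 4 (by norm_num)
    obtain ⟨d2, n2⟩ := hshift 36 (by norm_num)
    rw [natDegree_mul n1 (pow_ne_zero 3 n2), natDegree_pow, d1, d2]
    ring
  have hr : (256 * C4 ^ 3 * g ^ 6).natDegree ≤ 60 := by
    have e : 256 * C4 ^ 3 * g ^ 6 = C (256 * γ ^ 6) * C4 ^ 3 := by
      rw [← hγ, C_mul, C_pow, ← map_ofNat C 256]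
      ring
    rw [e]
    refine (natDegree_C_mul_le _ _).trans (natDegree_pow_le.trans ?_)
    omega
  rw [hmod] at hl
  omega

end Fermat.Agent.S52x.NoRoot4
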