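/-
S52 (3–5 switch), top-level assembly (helper4).

* `FiveHom W W'`: an injective `G_ℚ`-equivariant additive map `W[5](ℚ̄) → W'[5](ℚ̄)`.
* `five_dvd_ap_sub`: from `FiveHom W W'` and the Eichler–Shimura relation on the generic fibres
  (`TraceCong20.RelQbar`) we get `5 ∣ a_ℓ(W') - a_ℓ(W)` at the common good primes `ℓ ≠ 5`.
* `s52_of_switch`: the S52 statement from `RelQbar` for all curves and the geometric input
  `Switch` (for a semistable `W` with `W[5]` irreducible and `W[3]` reducible there is a semistable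
  `W'` with `W'[3]` irreducible and `FiveHom W W'`).
-/
import Mathlib
import Fermat.Prelude.Def_FLTPrelim_ModularRep
import Fermat.Agent.ES.Q58.TraceCong20
import Fermat.Agent.S13.UnramVal
import Fermat.Agent.ES.FROB.FrobFacts12

set_option autoImplicit false

open WeierstrassCurve WeierstrassCurve.Affine WeierstrassCurve.Affine.Point

namespace Fermat.Agent.S52x.Top4

open Fermat.Agent.ES.Q58.TraceCong20

local notation "Qb" => AlgebraicClosure ℚ
local notation "GQ" => (AlgebraicClosure ℚ ≃ₐ[ℚ] AlgebraicClosure ℚ)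

/-- the `5`-torsion of the generic fibre of `W` over `ℚ̄`. -/
abbrev Tor5 (W : WeierstrassCurve ℤ) : Type :=
  Submodule.torsionBy ℤ ((W.map (Int.castRingHom ℚ))⁄Qb).Point ((5 : ℕ) : ℤ)

/-- an injective Galois-equivariant homomorphism `W[5] → W'[5]`. -/
def FiveHom (W W' : WeierstrassCurve ℤ) : Prop :=
  ∃ φ : Tor5 W →+ Tor5 W', Function.Injective φ ∧ ∀ (σ : GQ) (x : Tor5 W), φ (σ • x) = σ • φ x

theorem fiveHom_refl (W : WeierstrassCurve ℤ) : FiveHom W W :=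
  ⟨AddMonoidHom.id _, Function.injective_id, fun _ _ => rfl⟩

theorem fiveHom_of_equiv {W W' : WeierstrassCurve ℤ} (e : Tor5 W ≃+ Tor5 W')
    (he : ∀ (σ : GQ) (x : Tor5 W), e (σ • x) = σ • e x) : FiveHom W W' :=
  ⟨e.toAddMonoidHom, e.injective, he⟩

/-- an element of order dividing `5` killed by an integer prime to `5` vanishes. -/
theorem five_dvd_of_zsmul_eq_zero {A : Type*} [AddCommGroup A] {x : A} (hx : x ≠ 0)
    (h5 : (5 : ℤ) • x = 0) {n : ℤ} (hn : n • x = 0) : (5 : ℤ) ∣ n := by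
  by_contra hdvd
  have hcop : IsCoprime (5 : ℤ) n := by
    have hp : Prime (5 : ℤ) := by
      have : Prime ((5 : ℕ) : ℤ) := Nat.prime_iff_prime_int.mp (by norm_num)
      exact_mod_cast this
    exact (Prime.coprime_iff_not_dvd hp).mpr hdvd
  obtain ⟨u, v, huv⟩ := hcop
  apply hx
  calc x = (u * 5 + v * n) • x := by rw [huv, one_smul]
    _ = u • ((5 : ℤ) • x) + v • (n • x) := by rw [add_smul, mul_smul, mul_smul]
    _ = 0 := by rw [h5, hn, smul_zero, smul_zero, add_zero]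

/-- **the trace congruence.** -/
theorem five_dvd_ap_sub {W W' : WeierstrassCurve ℤ} (hrel : RelQbar W) (hrel' : RelQbar W')
    (hnt : Nontrivial (Tor5 W)) (hφ : FiveHom W W') {ℓ : ℕ} (hℓ : ℓ.Prime)
    (hg : W.IsGoodPrimeFor ℓ) (hg' : W'.IsGoodPrimeFor ℓ) (hℓ5 : ℓ ≠ 5) :
    (5 : ℤ) ∣ W'.apOfModel ℓ - W.apOfModel ℓ := by
  classical
  obtain ⟨φ, hinj, hequiv⟩ := hφ
  obtain ⟨P, hP⟩ := Fermat.Agent.S13.UnramVal.exists_liesOverPrime (L := Qb) hℓ
  obtain ⟨σ, hσ⟩ := Fermat.Agent.ES.FROB.FrobFacts12.exists_isFrobeniusAt_of ℓ hℓ P hP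
  obtain ⟨x, hx⟩ := exists_ne (0 : Tor5 W)
  have h5odd : Odd 5 := by decide
  have hℓ5' : ¬ ℓ ∣ 5 := by
    intro h
    exact hℓ5 ((Nat.prime_dvd_prime_iff_eq hℓ (by norm_num)).mp h)
  have htor : ∀ (V : WeierstrassCurve ℤ) (y : Tor5 V),
      (5 : ℕ) • (y : ((V.map (Int.castRingHom ℚ))⁄Qb).Point) = 0 := by
    intro V y
    have := y.2
    rw [Submodule.mem_torsionBy_iff] at this
    rw [← Nat.cast_smul_eq_nsmul ℤ]
    exact this
  -- the relation on `W[5]`, as an identity in the torsion module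
  have h1 : σ • σ • x - W.apOfModel ℓ • (σ • x) + (ℓ : ℤ) • x = 0 := by
    apply Subtype.ext
    have := hrel ℓ hℓ hg 5 h5odd hℓ5' P σ hP hσ (x : _) (htor W x)
    rw [← Nat.cast_smul_eq_nsmul ℤ] at this
    exact this
  have h2 : σ • σ • φ x - W'.apOfModel ℓ • (σ • φ x) + (ℓ : ℤ) • φ x = 0 := by
    apply Subtype.ext
    have := hrel' ℓ hℓ hg' 5 h5odd hℓ5' P σ hP hσ (φ x : _) (htor W' (φ x))
    rw [← Nat.cast_smul_eq_nsmul ℤ] at this
    exact this
  have h3 : σ • σ • φ x - W.apOfModel ℓ • (σ • φ x) + (ℓ : ℤ) • φ x = 0 := by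
    have := congrArg φ h1
    rw [map_add, map_sub, map_zsmul, map_zsmul, hequiv, hequiv, _root_.map_zero] at this
    exact this
  have h4 : (W'.apOfModel ℓ - W.apOfModel ℓ) • (σ • φ x) = 0 := by
    rw [sub_smul]
    have := congrArg₂ (· - ·) h3 h2
    simp only [sub_zero] at this
    rw [← this]
    abel
  have hne : σ • φ x ≠ 0 := by
    intro h0
    apply hx
    apply hinj
    rw [_root_.map_zero]
    have := congrArg (fun y => σ⁻¹ • y) h0
    simpa using this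
  have h55 : (5 : ℤ) • (σ • φ x) = 0 := by
    apply Subtype.ext
    have := (σ • φ x).2
    rw [Submodule.mem_torsionBy_iff] at this
    exact this
  exact five_dvd_of_zsmul_eq_zero hne h55 h4

/-- the geometric input of the 3–5 switch. -/
def Switch : Prop :=
  ∀ W : WeierstrassCurve ℤ, W.Δ ≠ 0 → W.IsSemistableModel → W.ModRepIsIrreducible 5 →
    ¬ W.ModRepIsIrreducible 3 →
    ∃ W' : WeierstrassCurve ℤ, W'.Δ ≠ 0 ∧ W'.IsSemistableModel ∧ W'.ModRepIsIrreducible 3 ∧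
      FiveHom W W'

/-- **S52 from the Eichler–Shimura relation and the switch.** -/
theorem s52_of_switch (hrel : ∀ W : WeierstrassCurve ℤ, RelQbar W) (hsw : Switch)
    (W : WeierstrassCurve ℤ) (hΔ : W.Δ ≠ 0) (hW : W.IsSemistableModel)
    (h5 : W.ModRepIsIrreducible 5) :
    ∃ W' : WeierstrassCurve ℤ, W'.Δ ≠ 0 ∧ W'.IsSemistableModel ∧ W'.ModRepIsIrreducible 3 ∧
      ∀ ℓ : ℕ, ℓ.Prime → W.IsGoodPrimeFor ℓ → W'.IsGoodPrimeFor ℓ → ℓ ≠ 5 →
        (5 : ℤ) ∣ (W'.apOfModel ℓ - W.apOfModel ℓ) := by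
  by_cases h3 : W.ModRepIsIrreducible 3
  · refine ⟨W, hΔ, hW, h3, fun ℓ _ _ _ _ => ?_⟩
    rw [sub_self]
    exact dvd_zero _
  · obtain ⟨W', hΔ', hW', h3', hφ⟩ := hsw W hΔ hW h5 h3
    refine ⟨W', hΔ', hW', h3', fun ℓ hℓ hg hg' hℓ5 => ?_⟩
    exact five_dvd_ap_sub (hrel W) (hrel W') h5.1 hφ hℓ hg hg' hℓ5

end Fermat.Agent.S52x.Top4
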