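/-
S52 (3–5 switch): transfer of Galois-equivariant maps of `5`-torsion across `ℚ`-isomorphisms
(helper4).

* `FiveHomQ E E'` for curves over `ℚ`; it is reflexive, transitive, and holds in both directions
  when `E = C • E'` for a change of variables `C` over `ℚ`.
* `short c4 c6 : y² = x³ - 27 c4 x - 54 c6`; `short_eq_smul : short E.c₄ E.c₆ = toShort E • E`.
* `fiveHom_of_short`: `FiveHomQ (short c₄(W) c₆(W)) (short c₄(W') c₆(W')) → Top4.FiveHom W W'`.
-/
import Mathlib
import Fermat.Agent.S05.TransportQ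
import Fermat.Agent.S52x.Top4

set_option autoImplicit false

open WeierstrassCurve WeierstrassCurve.Affine WeierstrassCurve.Affine.Point

namespace Fermat.Agent.S52x.Twist4

open Fermat.Agent.S05.TransportQ

local notation "Qb" => AlgebraicClosure ℚ
local notation "GQ" => (AlgebraicClosure ℚ ≃ₐ[ℚ] AlgebraicClosure ℚ)

/-- the `5`-torsion of `E(ℚ̄)`. -/
abbrev TorQ (E : WeierstrassCurve ℚ) : Type :=
  Submodule.torsionBy ℤ (E⁄Qb).Point ((5 : ℕ) : ℤ)

/-- an injective Galois-equivariant homomorphism `E[5] → E'[5]`. -/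
def FiveHomQ (E E' : WeierstrassCurve ℚ) : Prop :=
  ∃ φ : TorQ E →+ TorQ E', Function.Injective φ ∧ ∀ (σ : GQ) (x : TorQ E), φ (σ • x) = σ • φ x

theorem fiveHomQ_refl (E : WeierstrassCurve ℚ) : FiveHomQ E E :=
  ⟨AddMonoidHom.id _, Function.injective_id, fun _ _ => rfl⟩

theorem FiveHomQ.trans {E₁ E₂ E₃ : WeierstrassCurve ℚ} (h₁ : FiveHomQ E₁ E₂)
    (h₂ : FiveHomQ E₂ E₃) : FiveHomQ E₁ E₃ := by
  obtain ⟨φ, hφ, hφe⟩ := h₁
  obtain ⟨ψ, hψ, hψe⟩ := h₂
  refine ⟨ψ.comp φ, hψ.comp hφ, fun σ x => ?_⟩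
  rw [AddMonoidHom.comp_apply, AddMonoidHom.comp_apply, hφe, hψe]

/-- restriction of an additive map to the `n`-torsion. -/
def torMap {A B : Type*} [AddCommGroup A] [AddCommGroup B] (f : A →+ B) (n : ℤ) :
    Submodule.torsionBy ℤ A n →+ Submodule.torsionBy ℤ B n where
  toFun x := ⟨f (x : A), by
    rw [Submodule.mem_torsionBy_iff, ← map_zsmul, (Submodule.mem_torsionBy_iff _ _).mp x.2,
      _root_.map_zero]⟩
  map_zero' := Subtype.ext (_root_.map_zero f)
  map_add' x y := Subtype.ext (map_add f (x : A) (y : A))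

theorem torMap_injective {A B : Type*} [AddCommGroup A] [AddCommGroup B] (f : A →+ B) (n : ℤ)
    (hf : Function.Injective f) : Function.Injective (torMap f n) := by
  intro x y hxy
  apply Subtype.ext
  apply hf
  exact congrArg Subtype.val hxy

/-- a `ℚ`-isomorphism (with Galois-equivariant point map) gives `FiveHomQ`. -/
theorem fiveHomQ_of_equiv {E E' : WeierstrassCurve ℚ} (e : (E⁄Qb).Point ≃+ (E'⁄Qb).Point)
    (he : ∀ (σ : GQ) (P : (E⁄Qb).Point), e (σ • P) = σ • e P) : FiveHomQ E E' := by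
  refine ⟨torMap e.toAddMonoidHom _, torMap_injective _ _ e.injective, fun σ x => ?_⟩
  apply Subtype.ext
  exact he σ x

theorem fiveHomQ_of_eq_smul {E E' : WeierstrassCurve ℚ} {C : VariableChange ℚ}
    (h : E = C • E') : FiveHomQ E E' :=
  fiveHomQ_of_equiv (pointEquivBC Qb h) (fun σ P => pointEquivBC_map h σ.toAlgHom P)

theorem fiveHomQ_of_eq_smul' {E E' : WeierstrassCurve ℚ} {C : VariableChange ℚ}
    (h : E = C • E') : FiveHomQ E' E := by
  refine fiveHomQ_of_equiv (pointEquivBC Qb h).symm (fun σ P => ?_)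
  apply (pointEquivBC Qb h).injective
  rw [AddEquiv.apply_symm_apply]
  have := pointEquivBC_map h σ.toAlgHom ((pointEquivBC Qb h).symm P)
  rw [AddEquiv.apply_symm_apply] at this
  exact this.symm

/-- the short Weierstrass curve `y² = x³ - 27 c4 x - 54 c6`. -/
def short (c4 c6 : ℚ) : WeierstrassCurve ℚ := ⟨0, 0, 0, -27 * c4, -54 * c6⟩

/-- the change of variables bringing `E` to short form. -/
def toShort (E : WeierstrassCurve ℚ) : VariableChange ℚ :=
  ⟨Units.mk0 (1 / 6) (by norm_num), -E.b₂ / 12, -E.a₁ / 2, -(E.a₃ - E.b₂ * E.a₁ / 12) / 2⟩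

theorem short_eq_smul (E : WeierstrassCurve ℚ) : short E.c₄ E.c₆ = toShort E • E := by
  ext
  · simp only [short, variableChange_a₁, toShort, Units.val_inv_eq_inv_val, Units.val_mk0]; ring
  · simp only [short, variableChange_a₂, toShort, Units.val_inv_eq_inv_val, Units.val_mk0, b₂]
    ring
  · simp only [short, variableChange_a₃, toShort, Units.val_inv_eq_inv_val, Units.val_mk0, b₂]
    ring
  · simp only [short, variableChange_a₄, toShort, Units.val_inv_eq_inv_val, Units.val_mk0, b₂,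
      c₄, b₄]
    ring
  · simp only [short, variableChange_a₆, toShort, Units.val_inv_eq_inv_val, Units.val_mk0, b₂,
      c₆, b₄, b₆]
    ring

theorem fiveHomQ_short (E : WeierstrassCurve ℚ) : FiveHomQ (short E.c₄ E.c₆) E :=
  fiveHomQ_of_eq_smul (short_eq_smul E)

theorem fiveHomQ_short' (E : WeierstrassCurve ℚ) : FiveHomQ E (short E.c₄ E.c₆) :=
  fiveHomQ_of_eq_smul' (short_eq_smul E)

theorem fiveHom_iff (W W' : WeierstrassCurve ℤ) :
    Top4.FiveHom W W' ↔
      FiveHomQ (W.map (Int.castRingHom ℚ)) (W'.map (Int.castRingHom ℚ)) := Iff.rfl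

/-- **transfer to integral models**: a `FiveHomQ` between the short curves with the `c₄, c₆` of
`W`, `W'` gives `FiveHom W W'`. -/
theorem fiveHom_of_short {W W' : WeierstrassCurve ℤ}
    (h : FiveHomQ (short (W.c₄ : ℚ) (W.c₆ : ℚ)) (short (W'.c₄ : ℚ) (W'.c₆ : ℚ))) :
    Top4.FiveHom W W' := by
  rw [fiveHom_iff]
  have h1 := fiveHomQ_short' (W.map (Int.castRingHom ℚ))
  have h2 := fiveHomQ_short (W'.map (Int.castRingHom ℚ))
  rw [map_c₄, map_c₆] at h1 h2
  exact (h1.trans h) |>.trans h2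

end Fermat.Agent.S52x.Twist4
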