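/-
S52 (3–5 switch), final assembly (helper4): `Top4.Switch` from

* `FamilyFacts c₄ c₆ C4 C6 F`: the algebraic facts about the `X_E(5)`-family (B1b),
* `Hit8E.exists_no_int_root`: the Hilbert-irreducibility-lite output (B3, helper8),

using `Model4.exists_model` (B2), `NoRoot4.no_root` (H4).  `exists_member` produces the member
`W'` of the family (semistable integral model, `W'[3]` irreducible) with
`c₄(W') = N²⁰ C4(M/N)`, `c₆(W') = N³⁰ C6(M/N)`; the link `W[5] ≅ W'[5]` is then supplied either by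
`Twist4.FiveHomQ` (`switch_of_family`) or by helper3's `Spec3.KleinLink`.
-/
import Mathlib
import Fermat.Agent.S52x.Model4
import Fermat.Agent.S52x.Irr4
import Fermat.Agent.S52x.Hit4C
import Fermat.Agent.S52x.NoRoot4
import Fermat.Agent.S52x.Twist4
import Fermat.Agent.S52x.Hit8E

set_option autoImplicit false

open WeierstrassCurve WeierstrassCurve.Affine WeierstrassCurve.Affine.Point

namespace Fermat.Agent.S52x.Switch4

open Fermat.Agent.S51 Fermat.Agent.S52x.Theta4 Fermat.Agent.S52x.Hit4C Fermat.Agent.S52x.Twist4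
open Polynomial

/-- a reducible `W[3]` gives an integer root of `Θ`. -/
theorem int_root_of_not_irreducible (W : WeierstrassCurve ℤ) (hΔ : W.Δ ≠ 0)
    (h : ¬ W.ModRepIsIrreducible 3) : ∃ e : ℤ, theta W.c₄ W.c₆ e = 0 := by
  unfold WeierstrassCurve.ModRepIsIrreducible at h
  have hΔq : (W.map (Int.castRingHom ℚ)).Δ = (W.Δ : ℚ) := by
    rw [WeierstrassCurve.map_Δ]; rfl
  have hc₄q : (W.map (Int.castRingHom ℚ)).c₄ = (W.c₄ : ℚ) := by
    rw [WeierstrassCurve.map_c₄]; rfl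
  have hc₆q : (W.map (Int.castRingHom ℚ)).c₆ = (W.c₆ : ℚ) := by
    rw [WeierstrassCurve.map_c₆]; rfl
  have hΔne : (W.map (Int.castRingHom ℚ)).Δ ≠ 0 := by
    rw [hΔq]; exact_mod_cast hΔ
  obtain ⟨x, hx1, hx2⟩ :=
    Galois.rational_root_of_not_irreducible_three (W.map (Int.castRingHom ℚ)) hΔne h
  have hpsi : psi3 (W.map (Int.castRingHom ℚ)) x = 0 := by rw [psi3_eq, hx2]; ring
  have hθq : theta (W.c₄ : ℚ) (W.c₆ : ℚ) (12 * x + (W.map (Int.castRingHom ℚ)).b₂) = 0 := by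
    rw [← hc₄q, ← hc₆q, theta_eq_psi3, hpsi, mul_zero]
  obtain ⟨e, he⟩ := Irr4.exists_int_root hθq
  refine ⟨e, ?_⟩
  have : ((theta W.c₄ W.c₆ e : ℤ) : ℚ) = 0 := by
    rw [← hθq, ← he]
    unfold theta
    push_cast
    ring
  exact_mod_cast this

/-- congruence of the homogenised values. -/
theorem dvd_hom_sub (P : ℤ[X]) (d : ℕ) (l M : ℤ) (hl : M ∣ l - 1) :
    M ∣ hom P d l M - P.eval 0 := by
  unfold hom
  rw [Finset.sum_range_succ', ← coeff_zero_eq_eval_zero]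
  have h1 : M ∣ ∑ k ∈ Finset.range d, P.coeff (k + 1) * l ^ (d - (k + 1)) * M ^ (k + 1) := by
    refine Finset.dvd_sum fun k _ => ?_
    exact Dvd.dvd.mul_left (dvd_pow_self M (Nat.succ_ne_zero k)) _
  have h2 : M ∣ P.coeff 0 * l ^ (d - 0) * M ^ 0 - P.coeff 0 := by
    have : l - 1 ∣ l ^ d - 1 := by
      have := sub_dvd_pow_sub_pow l 1 d
      rwa [one_pow] at this
    obtain ⟨c, hc⟩ := hl.trans this
    refine ⟨P.coeff 0 * c, ?_⟩
    rw [Nat.sub_zero, pow_zero, mul_one]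
    linear_combination P.coeff 0 * hc
  rw [add_sub_assoc]
  exact dvd_add h1 h2

/-- the homogenised value over `ℚ`. -/
theorem hom_cast_rat (P : ℤ[X]) (d : ℕ) (hd : P.natDegree ≤ d) (l m : ℤ) (hl : l ≠ 0) :
    ((hom P d l m : ℤ) : ℚ) =
      (l : ℚ) ^ d * (P.map (Int.castRingHom ℚ)).eval ((m : ℚ) / l) := by
  have hl' : (l : ℚ) ≠ 0 := Int.cast_ne_zero.mpr hl
  have hdeg : (P.map (Int.castRingHom ℚ)).natDegree < d + 1 :=
    lt_of_le_of_lt natDegree_map_le (Nat.lt_succ_of_le hd)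
  rw [eval_eq_sum_range' hdeg, hom, Int.cast_sum, Finset.mul_sum]
  refine Finset.sum_congr rfl fun k hk => ?_
  have hk' : k ≤ d := Nat.lt_succ_iff.mp (Finset.mem_range.mp hk)
  rw [coeff_map, eq_intCast, div_pow]
  push_cast
  have : (l : ℚ) ^ d = (l : ℚ) ^ (d - k) * (l : ℚ) ^ k := by
    rw [← pow_add, Nat.sub_add_cancel hk']
  rw [this]
  field_simp

/-- scaling `(c₄, c₆) ↦ (u⁴ c₄, u⁶ c₆)`. -/
theorem fiveHomQ_scale (a b u : ℚ) (hu : u ≠ 0) :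
    FiveHomQ (short a b) (short (u ^ 4 * a) (u ^ 6 * b)) := by
  have h : short (u ^ 4 * a) (u ^ 6 * b) =
      (⟨Units.mk0 u⁻¹ (inv_ne_zero hu), 0, 0, 0⟩ : VariableChange ℚ) • short a b := by
    ext
    · simp only [short, variableChange_a₁]; ring
    · simp only [short, variableChange_a₂]; ring
    · simp only [short, variableChange_a₃]; ring
    · simp only [short, variableChange_a₄, Units.val_inv_eq_inv_val, Units.val_mk0, inv_inv]; ring
    · simp only [short, variableChange_a₆, Units.val_inv_eq_inv_val, Units.val_mk0, inv_inv]; ring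
  exact fiveHomQ_of_eq_smul' h

/-- the algebraic facts about the family through `(c₄, c₆)` (B1b). -/
def FamilyFacts (c4 c6 : ℤ) (C4 C6 F : ℤ[X]) : Prop :=
  C4.natDegree ≤ 20 ∧ C6.natDegree ≤ 30 ∧ C4.eval 0 = c4 ∧ C6.eval 0 = c6 ∧
    C4 ^ 3 - C6 ^ 2 = C (c4 ^ 3 - c6 ^ 2) * F ^ 5 ∧
    Squarefree (F.map (Int.castRingHom ℚ)) ∧
    IsCoprime (C4.map (Int.castRingHom ℚ)) (F.map (Int.castRingHom ℚ)) ∧
    4 ≤ (F.map (Int.castRingHom ℚ)).natDegree ∧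
    (∀ l m : ℤ, IsCoprime l m → ∀ p : ℕ, p.Prime → ¬ (p : ℤ) ∣ 30 * (c4 ^ 3 - c6 ^ 2) →
      ¬ ((p : ℤ) ∣ hom C4 20 l m ∧ (p : ℤ) ∣ hom C6 30 l m))

/-- **the member of the family** (B2 + B3): a semistable integral model `W'` with `W'[3]`
irreducible and `(c₄, c₆)(W') = (N²⁰ C4(M/N), N³⁰ C6(M/N))`. -/
theorem exists_member (W : WeierstrassCurve ℤ) (hΔ : W.Δ ≠ 0) (hW : W.IsSemistableModel)
    {C4 C6 F : ℤ[X]} (hfam : FamilyFacts W.c₄ W.c₆ C4 C6 F) :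
    ∃ (W' : WeierstrassCurve ℤ) (N M : ℤ), 0 < N ∧ W'.Δ ≠ 0 ∧ W'.IsSemistableModel ∧
      W'.ModRepIsIrreducible 3 ∧ W'.c₄ = hom C4 20 N M ∧ W'.c₆ = hom C6 30 N M ∧
      (W'.c₄ : ℚ) = ((N : ℚ) ^ 5) ^ 4 * (C4.map (Int.castRingHom ℚ)).eval ((M : ℚ) / N) ∧
      (W'.c₆ : ℚ) = ((N : ℚ) ^ 5) ^ 6 * (C6.map (Int.castRingHom ℚ)).eval ((M : ℚ) / N) := by
  obtain ⟨hd4, hd6, h40, h60, hdisc, hsq, hcopF, hdegF, hcop⟩ := hfam
  have hrel := W.c_relation
  have hD : W.c₄ ^ 3 ≠ W.c₆ ^ 2 := by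
    intro h
    apply hΔ
    have : 1728 * W.Δ = 0 := by rw [hrel, h, sub_self]
    exact (mul_eq_zero.mp this).resolve_left (by norm_num)
  -- the modulus
  set M : ℤ := |1728 * 30 * W.Δ| with hM
  have hMpos : 0 < M := abs_pos.mpr (mul_ne_zero (by norm_num) hΔ)
  have hMdvd : 1728 * 30 * W.Δ ∣ M := (dvd_abs _ _).mpr dvd_rfl
  -- (H4)
  have hDq : ((W.c₄ ^ 3 - W.c₆ ^ 2 : ℤ) : ℚ) ≠ 0 := by
    exact_mod_cast sub_ne_zero.mpr hD
  have hdiscq : (C4.map (Int.castRingHom ℚ)) ^ 3 - (C6.map (Int.castRingHom ℚ)) ^ 2 =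
      C ((W.c₄ ^ 3 - W.c₆ ^ 2 : ℤ) : ℚ) * (F.map (Int.castRingHom ℚ)) ^ 5 := by
    have := congrArg (Polynomial.map (Int.castRingHom ℚ)) hdisc
    simpa using this
  have H4 : ∀ ε : ℚ[X],
      theta (C4.map (Int.castRingHom ℚ)) (C6.map (Int.castRingHom ℚ)) ε ≠ 0 :=
    NoRoot4.no_root' hDq hdiscq hsq hcopF hdegF (natDegree_map_le.trans hd4)
  -- the member of the family
  obtain ⟨n, -, hn⟩ :=
    Hit8E.exists_no_int_root W.c₄ W.c₆ hD C4 C6 h40 h60 hd4 hd6 M hMpos H4 0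
  set N : ℤ := 1 + M * n with hN
  set c4' : ℤ := hom C4 20 N M with hc4'
  set c6' : ℤ := hom C6 30 N M with hc6'
  have hNM : M ∣ N - 1 := ⟨n, by rw [hN]; ring⟩
  have hNpos : 0 < N := by
    have : 0 ≤ M * n := mul_nonneg hMpos.le (Int.natCast_nonneg n)
    omega
  have h4 : 1728 * 30 * W.Δ ∣ c4' - W.c₄ := by
    rw [← h40]
    exact hMdvd.trans (dvd_hom_sub C4 20 N M hNM)
  have h6 : 1728 * 30 * W.Δ ∣ c6' - W.c₆ := by
    rw [← h60]
    exact hMdvd.trans (dvd_hom_sub C6 30 N M hNM)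
  have hne : c4' ^ 3 ≠ c6' ^ 2 := by
    obtain ⟨k4, hk4⟩ := h4
    obtain ⟨k6, hk6⟩ := h6
    intro h
    -- `c4'³ - c6'² = 1728 Δ (1 + 30 z)`
    have e4 : c4' = W.c₄ + 1728 * 30 * W.Δ * k4 := by linarith
    have e6 : c6' = W.c₆ + 1728 * 30 * W.Δ * k6 := by linarith
    have : 1728 * W.Δ * (1 + 30 * (k4 * (3 * W.c₄ ^ 2 + 3 * W.c₄ * (1728 * 30 * W.Δ * k4) +
        (1728 * 30 * W.Δ * k4) ^ 2) - k6 * (2 * W.c₆ + 1728 * 30 * W.Δ * k6))) = 0 := by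
      have h' : c4' ^ 3 - c6' ^ 2 = 0 := by rw [h, sub_self]
      rw [e4, e6] at h'
      linear_combination h' + hrel
    rcases mul_eq_zero.mp this with h0 | h0
    · exact hΔ ((mul_eq_zero.mp h0).resolve_left (by norm_num))
    · omega
  have hcop' : ∀ p : ℕ, p.Prime → ¬ (p : ℤ) ∣ 30 * W.Δ → ¬ ((p : ℤ) ∣ c4' ∧ (p : ℤ) ∣ c6') := by
    intro p hp hpΔ
    refine hcop N M ⟨1, -(n : ℤ), by rw [hN]; ring⟩ p hp ?_
    intro hdvd
    apply hpΔ
    rw [← hrel] at hdvd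
    have hp' : Prime (p : ℤ) := Nat.prime_iff_prime_int.mp hp
    rcases hp'.dvd_or_dvd hdvd with h30 | h1728
    · exact Dvd.dvd.mul_right h30 _
    · rcases hp'.dvd_or_dvd h1728 with h' | h'
      · -- `p ∣ 1728 = 2⁶ 3³`
        have : (p : ℤ) ∣ 30 := by
          have h1728' : (1728 : ℤ) = 2 ^ 6 * 3 ^ 3 := by norm_num
          rw [h1728'] at h'
          rcases hp'.dvd_or_dvd h' with h2 | h3
          · exact (hp'.dvd_of_dvd_pow h2).trans (by norm_num)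
          · exact (hp'.dvd_of_dvd_pow h3).trans (by norm_num)
        exact Dvd.dvd.mul_right this _
      · exact Dvd.dvd.mul_left h' _
  obtain ⟨W', hW'4, hW'6, hΔ', hW'ss, -, -, -⟩ :=
    Model4.exists_model W hW c4' c6' h4 h6 hne hcop'
  refine ⟨W', N, M, hNpos, hΔ', hW'ss, ?_, hW'4, hW'6, ?_, ?_⟩
  · -- `W'[3]` is irreducible
    by_contra hred
    obtain ⟨e, he⟩ := int_root_of_not_irreducible W' hΔ' hred
    rw [hW'4, hW'6] at he
    exact hn e he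
  · rw [hW'4, hc4', hom_cast_rat C4 20 hd4 N M hNpos.ne']
    ring
  · rw [hW'6, hc6', hom_cast_rat C6 30 hd6 N M hNpos.ne']
    ring

/-- **the switch** via `FiveHomQ`. -/
theorem switch_of_family
    (hfam : ∀ W : WeierstrassCurve ℤ, W.Δ ≠ 0 → W.IsSemistableModel →
      ∃ C4 C6 F : ℤ[X], FamilyFacts W.c₄ W.c₆ C4 C6 F ∧
        ∀ t : ℚ, ((C4.map (Int.castRingHom ℚ)).eval t) ^ 3 ≠
            ((C6.map (Int.castRingHom ℚ)).eval t) ^ 2 →
          FiveHomQ (short W.c₄ W.c₆)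
            (short ((C4.map (Int.castRingHom ℚ)).eval t)
              ((C6.map (Int.castRingHom ℚ)).eval t))) :
    Top4.Switch := by
  intro W hΔ hW _ _
  obtain ⟨C4, C6, F, hfacts, hfive⟩ := hfam W hΔ hW
  obtain ⟨W', N, M, hNpos, hΔ', hW'ss, h3', -, -, e4, e6⟩ := exists_member W hΔ hW hfacts
  refine ⟨W', hΔ', hW'ss, h3', ?_⟩
  apply fiveHom_of_short
  have hNq : (N : ℚ) ≠ 0 := Int.cast_ne_zero.mpr hNpos.ne'
  have hne : (W'.c₄ : ℚ) ^ 3 ≠ (W'.c₆ : ℚ) ^ 2 := by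
    intro h
    apply hΔ'
    have h1 : W'.c₄ ^ 3 = W'.c₆ ^ 2 := by exact_mod_cast h
    have hrel' := W'.c_relation
    have : 1728 * W'.Δ = 0 := by rw [hrel', h1, sub_self]
    exact (mul_eq_zero.mp this).resolve_left (by norm_num)
  have hnet : ((C4.map (Int.castRingHom ℚ)).eval ((M : ℚ) / N)) ^ 3 ≠
      ((C6.map (Int.castRingHom ℚ)).eval ((M : ℚ) / N)) ^ 2 := by
    intro h
    apply hne
    rw [e4, e6]
    linear_combination ((N : ℚ) ^ 60) * h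
  rw [e4, e6]
  exact (hfive _ hnet).trans (fiveHomQ_scale _ _ _ (pow_ne_zero 5 hNq))

end Fermat.Agent.S52x.Switch4
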