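/-
S52 (3–5 switch), last wiring step (helper4): the S52 statement from

* `Switch4.FamilyFacts W.c₄ W.c₆ C4 C6 F` (algebraic facts about the family, B1b), and
* a Klein parametrisation `C4 = -kH(S,T)`, `C6 = -kT(S,T)` over `ℚ̄[t]` (helper3's `KleinLink`),

for every semistable `W` with `Δ ≠ 0`.
-/
import Mathlib
import Fermat.Agent.S52x.Switch4
import Fermat.Agent.S52x.Spec3S52

set_option autoImplicit false

open Polynomial WeierstrassCurve

namespace Fermat.Agent.S52x.Final4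

open Fermat.Agent.S52x.Switch4 Fermat.Agent.S52x.Spec3

local notation "Qb" => AlgebraicClosure ℚ

/-- the input: the family through `(c₄(W), c₆(W))` with its Klein parametrisation. -/
def HasKleinFamily (W : WeierstrassCurve ℤ) : Prop :=
  ∃ C4 C6 F : ℤ[X], FamilyFacts W.c₄ W.c₆ C4 C6 F ∧ ∃ S T : Qb[X],
    (C4.map (Int.castRingHom ℚ)).map (algebraMap ℚ Qb) = -kH S T ∧
    (C6.map (Int.castRingHom ℚ)).map (algebraMap ℚ Qb) = -kT S T

/-- **S52 from the Klein family.** -/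
theorem s52_of_kleinFamily
    (hfam : ∀ W : WeierstrassCurve ℤ, W.Δ ≠ 0 → W.IsSemistableModel → HasKleinFamily W)
    (W : WeierstrassCurve ℤ) (hΔ : W.Δ ≠ 0) (hW : W.IsSemistableModel)
    (h5 : W.ModRepIsIrreducible 5) :
    ∃ W' : WeierstrassCurve ℤ, W'.Δ ≠ 0 ∧ W'.IsSemistableModel ∧ W'.ModRepIsIrreducible 3 ∧
      ∀ ℓ : ℕ, ℓ.Prime → W.IsGoodPrimeFor ℓ → W'.IsGoodPrimeFor ℓ → ℓ ≠ 5 →
        (5 : ℤ) ∣ (W'.apOfModel ℓ - W.apOfModel ℓ) := by
  refine s52_of_kleinSwitch (fun W hΔ hW _ _ => ?_) W hΔ hW h5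
  obtain ⟨C4, C6, F, hfacts, S, T, hS, hT⟩ := hfam W hΔ hW
  obtain ⟨W', N, M, hNpos, hΔ', hW'ss, h3', -, -, e4, e6⟩ := exists_member W hΔ hW hfacts
  have hNq : (N : ℚ) ≠ 0 := Int.cast_ne_zero.mpr hNpos.ne'
  obtain ⟨-, -, h40, h60, -⟩ := hfacts
  refine ⟨W', hΔ', hW'ss, h3', C4.map (Int.castRingHom ℚ), C6.map (Int.castRingHom ℚ), S, T, 1,
    (M : ℚ) / N, (N : ℚ) ^ 5, hS, hT, one_ne_zero, ?_, ?_, pow_ne_zero 5 hNq, e4.symm, e6.symm⟩
  · rw [one_pow, one_mul, eval_zero_map, h40]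
    rfl
  · rw [one_pow, one_mul, eval_zero_map, h60]
    rfl

end Fermat.Agent.S52x.Final4
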