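/-
S52 (3–5 switch), chunk `hcop` (helper1): **the values `c₄' = -hForm(-c₄,-c₆;l,m)`,
`c₆' = -tForm(-c₄,-c₆;l,m)` of the Klein family at coprime integers `(l, m)` have no common prime
factor `p ∤ 30 Δ`** (the hypothesis `hcop` of `Model4.exists_model`).

Route: over `K = AlgebraicClosure (ZMod p)` pick a Klein point `p₀ = (u, v)` with
`H(p₀) = -c₄`, `T(p₀) = -c₆` (`KleinPt1.exists_klein_point_of_thirty`); by the line identities of
`KleinFam7` the two values are `-H`, `-T` at the point `l p₀ + m n(p₀)`, and `H`, `T` have no common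
zero on that line (`KleinPt1.not_forms_eq_zero_on_line`).
The two line identities enter as hypotheses `LineIdentH`, `LineIdentT` (to be discharged by
`KleinFam7H/T`).
-/
import Mathlib
import Fermat.Agent.S52x.KleinFam7
import Fermat.Agent.S52x.KleinPt1

set_option autoImplicit false

namespace Fermat.Agent.S52x.KleinCop1

open Fermat.Agent.S52x.KleinFam7

/-- the identity for `H` along the line `lam p + mu n(p)` (shape of `KleinFam7H.H_form_sw`). -/
def LineIdentH : Prop :=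
  ∀ (K : Type) [Field K] (s w lam mu : K),
    Hsw (s * (lam + mu * G1 s w) ^ 5) (w * (lam - mu * G2 s w) ^ 5) =
      hForm (Hsw s w) (Tsw s w) lam mu

/-- the identity for `T` along the line `lam p + mu n(p)` (shape of `KleinFam7T.T_form_sw`). -/
def LineIdentT : Prop :=
  ∀ (K : Type) [Field K] (s w lam mu : K),
    Tsw (s * (lam + mu * G1 s w) ^ 5) (w * (lam - mu * G2 s w) ^ 5) =
      tForm (Hsw s w) (Tsw s w) lam mu

section Map

variable {R R' : Type*} [CommRing R] [CommRing R'] (g : R →+* R')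

theorem map_hForm (h τ lam mu : R) :
    g (hForm h τ lam mu) = hForm (g h) (g τ) (g lam) (g mu) := by
  simp only [hForm, hc0, hc1, hc2, hc3, hc4, hc5, hc6, hc7, hc8, hc9, hc10, hc11, hc12, hc13, hc14, hc15, hc16, hc17, hc18, hc19, hc20, map_add, map_mul, map_pow, map_neg, map_ofNat, map_one]

theorem map_tForm (h τ lam mu : R) :
    g (tForm h τ lam mu) = tForm (g h) (g τ) (g lam) (g mu) := by
  simp only [tForm, tc0, tc1, tc2, tc3, tc4, tc5, tc6, tc7, tc8, tc9, tc10, tc11, tc12, tc13, tc14, tc15, tc16, tc17, tc18, tc19, tc20, tc21, tc22, tc23, tc24, tc25, tc26, tc27, tc28, tc29, tc30, map_add, map_mul, map_pow, map_neg, map_ofNat, map_one]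

end Map

theorem Hsw_eq (R : Type*) [CommRing R] (s w : R) : Hsw s w = KleinPt1.Hs s w := rfl

theorem Tsw_eq (R : Type*) [CommRing R] (s w : R) : Tsw s w = KleinPt1.Ts s w := rfl

theorem G1_eq (R : Type*) [CommRing R] (s w : R) : G1 s w = KleinPt1.G1 s w := rfl

theorem G2_eq (R : Type*) [CommRing R] (s w : R) : G2 s w = KleinPt1.G2 s w := rfl

/-- the core of `hcop`, over an algebraically closed field of characteristic `p`. -/
theorem not_dvd_forms_aux (hH : LineIdentH) (hT : LineIdentT) (K : Type) [Field K]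
    [IsAlgClosed K] (p : ℕ) [CharP K p] (c4 c6 : ℤ) (l m : ℤ) (hlm : IsCoprime l m)
    (hpD : ¬ (p : ℤ) ∣ 30 * (c4 ^ 3 - c6 ^ 2))
    (h1 : (p : ℤ) ∣ hForm (-c4) (-c6) l m) (h2 : (p : ℤ) ∣ tForm (-c4) (-c6) l m) : False := by
  have hcast : ∀ n : ℤ, ((n : ℤ) : K) = 0 ↔ (p : ℤ) ∣ n := fun n => CharP.intCast_eq_zero_iff K p n
  have h30 : (30 : K) ≠ 0 := by
    intro h0
    have : (((30 : ℤ) : ℤ) : K) = 0 := by push_cast; exact h0
    exact hpD (Dvd.dvd.mul_right ((hcast 30).mp this) _)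
  have hD : ((c4 ^ 3 - c6 ^ 2 : ℤ) : K) ≠ 0 := by
    intro h0
    exact hpD (Dvd.dvd.mul_left ((hcast _).mp h0) 30)
  have hab : (-(c4 : K)) ^ 3 + (-(c6 : K)) ^ 2 ≠ 0 := by
    have e : (-(c4 : K)) ^ 3 + (-(c6 : K)) ^ 2 = -((c4 ^ 3 - c6 ^ 2 : ℤ) : K) := by
      push_cast; ring
    rw [e]
    exact neg_ne_zero.mpr hD
  obtain ⟨s, w, hs, hw⟩ := KleinPt1.exists_forms_eq_of_thirty h30 _ _ hab
  have hf : s * w * (s ^ 2 + 11 * s * w - w ^ 2) ≠ 0 := KleinPt1.klein_point_nondeg hab hs hw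
  have hlm' : ((l : ℤ) : K) ≠ 0 ∨ ((m : ℤ) : K) ≠ 0 := by
    by_contra hcon
    push Not at hcon
    obtain ⟨x, y, hxy⟩ := hlm
    have : ((x * l + y * m : ℤ) : K) = ((1 : ℤ) : K) := by rw [hxy]
    push_cast at this
    rw [hcon.1, hcon.2, mul_zero, mul_zero, add_zero] at this
    exact zero_ne_one this
  have e1 : hForm (-(c4 : K)) (-(c6 : K)) (l : K) (m : K) = 0 := by
    have h := map_hForm (Int.castRingHom K) (-c4) (-c6) l m
    simp only [eq_intCast, Int.cast_neg] at h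
    rw [← h]
    exact (hcast _).mpr h1
  have e2 : tForm (-(c4 : K)) (-(c6 : K)) (l : K) (m : K) = 0 := by
    have h := map_tForm (Int.castRingHom K) (-c4) (-c6) l m
    simp only [eq_intCast, Int.cast_neg] at h
    rw [← h]
    exact (hcast _).mpr h2
  have i1 := hH K s w (l : K) (m : K)
  have i2 := hT K s w (l : K) (m : K)
  rw [Hsw_eq, Hsw_eq, Tsw_eq, G1_eq, G2_eq, hs, hw, e1] at i1
  rw [Tsw_eq, Hsw_eq, Tsw_eq, G1_eq, G2_eq, hs, hw, e2] at i2
  exact KleinPt1.not_forms_eq_zero_on_line_sw h30 hf hlm' i1 i2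

/-- **`hcop`**: no prime `p ∤ 30 (c₄³ - c₆²)` divides both family values at coprime `(l, m)`. -/
theorem not_dvd_forms (hH : LineIdentH) (hT : LineIdentT) (c4 c6 : ℤ) (l m : ℤ)
    (hlm : IsCoprime l m) (p : ℕ) (hp : p.Prime) (hpD : ¬ (p : ℤ) ∣ 30 * (c4 ^ 3 - c6 ^ 2)) :
    ¬ ((p : ℤ) ∣ hForm (-c4) (-c6) l m ∧ (p : ℤ) ∣ tForm (-c4) (-c6) l m) := by
  rintro ⟨h1, h2⟩
  have : Fact p.Prime := ⟨hp⟩
  have : CharP (AlgebraicClosure (ZMod p)) p :=
    charP_of_injective_algebraMap (algebraMap (ZMod p) (AlgebraicClosure (ZMod p))).injective p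
  exact not_dvd_forms_aux hH hT (AlgebraicClosure (ZMod p)) p c4 c6 l m hlm hpD h1 h2

end Fermat.Agent.S52x.KleinCop1
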