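/-
S52 (3–5 switch) (helper4): `Final4.HasKleinFamily W` for every `W` with `Δ ≠ 0`, from the three
parametrisation identities of `KleinFam7` (`GId`, `HId`, `TId`; their heavy `ring` proofs live in
`KleinFam7F/H/T`).  Assembles: `FamPoly4` (degrees, values, discriminant identity, `hom` link),
`FamSq9` (helper9: squarefree / coprime / degree of the cusp polynomial), `KleinCop1` (helper1:
`hcop`), `KleinPt1` (helper1: the Klein point over `ℚ̄`).
-/
import Mathlib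
import Fermat.Agent.S52x.FamPoly4
import Fermat.Agent.S52x.KleinCop1
import Fermat.Agent.S52x.Final4

set_option autoImplicit false

open Polynomial WeierstrassCurve

namespace Fermat.Agent.S52x.FamAll4

open Fermat.Agent.S52x.KleinFam7 Fermat.Agent.S52x.FamSq9 Fermat.Agent.S52x.FamPoly4
open Fermat.Agent.S52x.Hit4C Fermat.Agent.S52x.Switch4 Fermat.Agent.S52x.Final4

local notation "Qb" => AlgebraicClosure ℚ

/-- the `T`-identity of `KleinFam7T` over the ring `R`. -/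
def TId (R : Type*) [CommRing R] : Prop :=
  ∀ s w lam mu : R, Tsw (s * (lam + mu * G1 s w) ^ 5) (w * (lam - mu * G2 s w) ^ 5) =
    tForm (Hsw s w) (Tsw s w) lam mu

/-- the three parametrisation identities. -/
def Ids : Prop :=
  (∀ (R : Type) [CommRing R], GId R) ∧ (∀ (R : Type) [CommRing R], HId R) ∧
    (∀ (R : Type) [CommRing R], TId R)

theorem tForm_one {R : Type*} [CommRing R] (h τ t : R) : tForm h τ 1 t = tPoly h τ t := by
  unfold tForm tPoly; ring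

/-- the three family polynomials over `ℤ`. -/
noncomputable def C4fam (c4 c6 : ℤ) : ℤ[X] := -(hX (-c4) (-c6))

noncomputable def C6fam (c4 c6 : ℤ) : ℤ[X] := -(tX (-c4) (-c6))

noncomputable def Ffam (c4 c6 : ℤ) : ℤ[X] := rhoX (-c4) (-c6)

/-- **the algebraic facts about the family.** -/
theorem familyFacts (ids : Ids) (c4 c6 : ℤ) (hD : c4 ^ 3 ≠ c6 ^ 2) :
    FamilyFacts c4 c6 (C4fam c4 c6) (C6fam c4 c6) (Ffam c4 c6) := by
  obtain ⟨hG, hH, hT⟩ := ids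
  have hneq : ((Int.castRingHom ℚ) (-c4)) ^ 3 + ((Int.castRingHom ℚ) (-c6)) ^ 2 ≠ 0 := by
    intro h
    apply hD
    have : ((c4 ^ 3 : ℤ) : ℚ) = ((c6 ^ 2 : ℤ) : ℚ) := by
      simp only [eq_intCast, Int.cast_neg] at h
      push_cast
      linear_combination (-1 : ℚ) * h
    exact_mod_cast this
  refine ⟨?_, ?_, ?_, ?_, ?_, ?_, ?_, ?_, ?_⟩
  · rw [C4fam, natDegree_neg]
    exact natDegree_hX_le _ _
  · rw [C6fam, natDegree_neg]
    exact natDegree_tX_le _ _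
  · rw [C4fam, eval_neg, eval_zero_hX, neg_neg]
  · rw [C6fam, eval_neg, eval_zero_tX, neg_neg]
  · have := disc_X (-c4) (-c6)
    have e : (C ((-c4) ^ 3 + (-c6) ^ 2) : ℤ[X]) = -C (c4 ^ 3 - c6 ^ 2) := by
      rw [← C_neg]
      congr 1
      ring
    rw [e] at this
    rw [C4fam, C6fam, Ffam]
    linear_combination (-1 : ℤ[X]) * this
  · rw [Ffam, map_rhoX]
    exact (separable_rhoX (hG _) _ _ hneq).squarefree
  · rw [C4fam, Ffam, Polynomial.map_neg, map_rhoX, map_hX]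
    exact (isCoprime_hX_rhoX (hG _) (hH _) _ _ hneq).neg_left
  · rw [Ffam, map_rhoX]
    exact le_trans (by norm_num) (natDegree_rhoX_ge _ _ hneq)
  · intro l m hlm p hp hpD
    rw [C4fam, C6fam, hom_neg, hom_neg, hom_hX, hom_tX, dvd_neg, dvd_neg]
    exact KleinCop1.not_dvd_forms (fun K _ s w lam mu => hH K s w lam mu)
      (fun K _ s w lam mu => hT K s w lam mu) c4 c6 l m hlm p hp hpD

/-- **the Klein parametrisation of the family over `ℚ̄[t]`.** -/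
theorem exists_klein_param (ids : Ids) (c4 c6 : ℤ) (hD : c4 ^ 3 ≠ c6 ^ 2) :
    ∃ S T : Qb[X],
      ((C4fam c4 c6).map (Int.castRingHom ℚ)).map (algebraMap ℚ Qb) = -Spec3.kH S T ∧
      ((C6fam c4 c6).map (Int.castRingHom ℚ)).map (algebraMap ℚ Qb) = -Spec3.kT S T := by
  obtain ⟨-, hH, hT⟩ := ids
  set a : Qb := algebraMap ℚ Qb ((Int.castRingHom ℚ) (-c4)) with ha
  set b : Qb := algebraMap ℚ Qb ((Int.castRingHom ℚ) (-c6)) with hb
  have hab : a ^ 3 + b ^ 2 ≠ 0 := by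
    intro h
    apply hD
    have h1 : algebraMap ℚ Qb (((Int.castRingHom ℚ) (-c4)) ^ 3 + ((Int.castRingHom ℚ) (-c6)) ^ 2)
        = 0 := by
      rw [map_add, map_pow, map_pow]
      exact h
    have h2 := (map_eq_zero_iff _ (algebraMap ℚ Qb).injective).mp h1
    have : ((c4 ^ 3 : ℤ) : ℚ) = ((c6 ^ 2 : ℤ) : ℚ) := by
      simp only [eq_intCast, Int.cast_neg] at h2
      push_cast
      linear_combination (-1 : ℚ) * h2
    exact_mod_cast this
  obtain ⟨s₀, w₀, hs, hw⟩ := KleinPt1.exists_forms_eq (k := Qb) a b hab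
  have hs' : Hsw s₀ w₀ = a := hs
  have hw' : Tsw s₀ w₀ = b := hw
  refine ⟨C s₀ * (1 + X * C (G1 s₀ w₀)) ^ 5, C w₀ * (1 - X * C (G2 s₀ w₀)) ^ 5, ?_, ?_⟩
  · have h1 := hH (Qb[X]) (C s₀) (C w₀) 1 X
    rw [G1_C, G2_C, Hsw_C, Tsw_C, hs', hw', FamSq9.hForm_one] at h1
    show _ = -Hsw (C s₀ * (1 + X * C (G1 s₀ w₀)) ^ 5) (C w₀ * (1 - X * C (G2 s₀ w₀)) ^ 5)
    rw [h1, C4fam, Polynomial.map_neg, Polynomial.map_neg, map_hX, map_hX, hX]
  · have h1 := hT (Qb[X]) (C s₀) (C w₀) 1 X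
    rw [G1_C, G2_C, Hsw_C, Tsw_C, hs', hw', FamAll4.tForm_one] at h1
    show _ = -Tsw (C s₀ * (1 + X * C (G1 s₀ w₀)) ^ 5) (C w₀ * (1 - X * C (G2 s₀ w₀)) ^ 5)
    rw [h1, C6fam, Polynomial.map_neg, Polynomial.map_neg, map_tX, map_tX, tX]

/-- **`HasKleinFamily W`.** -/
theorem hasKleinFamily (ids : Ids) (W : WeierstrassCurve ℤ) (hΔ : W.Δ ≠ 0) : HasKleinFamily W := by
  have hD : W.c₄ ^ 3 ≠ W.c₆ ^ 2 := by
    intro h
    apply hΔ
    have : 1728 * W.Δ = 0 := by rw [W.c_relation, h, sub_self]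
    exact (mul_eq_zero.mp this).resolve_left (by norm_num)
  obtain ⟨S, T, hS, hT⟩ := exists_klein_param ids W.c₄ W.c₆ hD
  exact ⟨C4fam W.c₄ W.c₆, C6fam W.c₄ W.c₆, Ffam W.c₄ W.c₆, familyFacts ids W.c₄ W.c₆ hD, S, T, hS, hT⟩

/-- **S52 from the three parametrisation identities.** -/
theorem s52_of_ids (ids : Ids) (W : WeierstrassCurve ℤ) (hΔ : W.Δ ≠ 0) (hW : W.IsSemistableModel)
    (h5 : W.ModRepIsIrreducible 5) :
    ∃ W' : WeierstrassCurve ℤ, W'.Δ ≠ 0 ∧ W'.IsSemistableModel ∧ W'.ModRepIsIrreducible 3 ∧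
      ∀ ℓ : ℕ, ℓ.Prime → W.IsGoodPrimeFor ℓ → W'.IsGoodPrimeFor ℓ → ℓ ≠ 5 →
        (5 : ℤ) ∣ (W'.apOfModel ℓ - W.apOfModel ℓ) :=
  s52_of_kleinFamily (fun W hΔ _ => hasKleinFamily ids W hΔ) W hΔ hW h5

end Fermat.Agent.S52x.FamAll4
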