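/-
S52 chunk B1b (helper7): Klein family, heavy `ring` identity (f), affine form (`lam = 1`).
The homogeneous forms are deduced in `KleinFam7Main`.
-/
import Fermat.Agent.S52x.KleinFam7

set_option autoImplicit false
set_option maxHeartbeats 0
set_option maxRecDepth 100000

namespace Fermat.Agent.S52x.KleinFam7

variable {R : Type*} [CommRing R]

theorem g_param_sw (s w t : R) :
    (1 + t * G1 s w) * (1 - t * G2 s w) *
        gsw (s * (1 + t * G1 s w) ^ 5) (w * (1 - t * G2 s w) ^ 5) =
      gsw s w * rhoPoly (Hsw s w) (Tsw s w) t := by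
  simp only [rhoPoly, rc0, rc1, rc2, rc3, rc4, rc5, rc6, rc7, rc8, rc9, rc10, rc11, rc12, Hsw, Tsw, G1, G2, gsw]
  ring

end Fermat.Agent.S52x.KleinFam7
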