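/-
S52 (3–5 switch), helper9: staged proof of the Klein parametrisation identity `H_form_sw9`
(light on memory: one sparse 6-variable expansion, then one small 2-variable identity per
coefficient).  Generated file.
-/
import Mathlib
import Fermat.Agent.S52x.KleinFam7

set_option autoImplicit false
set_option linter.unusedVariables false
set_option linter.unusedSimpArgs false

namespace Fermat.Agent.S52x.KleinH9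

open Fermat.Agent.S52x.KleinFam7

variable {R : Type*} [CommRing R]

def hk0 (s w g1 g2 : R) : R :=
  (-1) * (s ^ 4) * ((1)) +
  (-1) * (w ^ 4) * ((1)) +
  (228) * (s ^ 3 * w) * ((1)) +
  (-228) * (s * w ^ 3) * ((1)) +
  (-494) * (s ^ 2 * w ^ 2) * ((1))

def hk1 (s w g1 g2 : R) : R :=
  (-1) * (s ^ 4) * ((20) * g1) +
  (-1) * (w ^ 4) * ((-20) * g2) +
  (228) * (s ^ 3 * w) * ((-5) * g2 + (15) * g1) +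
  (-228) * (s * w ^ 3) * ((-15) * g2 + (5) * g1) +
  (-494) * (s ^ 2 * w ^ 2) * ((-10) * g2 + (10) * g1)

def hk2 (s w g1 g2 : R) : R :=
  (-1) * (s ^ 4) * ((190) * g1 ^ 2) +
  (-1) * (w ^ 4) * ((190) * g2 ^ 2) +
  (228) * (s ^ 3 * w) * ((10) * g2 ^ 2 + (-75) * g1 * g2 + (105) * g1 ^ 2) +
  (-228) * (s * w ^ 3) * ((105) * g2 ^ 2 + (-75) * g1 * g2 + (10) * g1 ^ 2) +
  (-494) * (s ^ 2 * w ^ 2) * ((45) * g2 ^ 2 + (-100) * g1 * g2 + (45) * g1 ^ 2)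

def hk3 (s w g1 g2 : R) : R :=
  (-1) * (s ^ 4) * ((1140) * g1 ^ 3) +
  (-1) * (w ^ 4) * ((-1140) * g2 ^ 3) +
  (228) * (s ^ 3 * w) * ((-10) * g2 ^ 3 + (150) * g1 * g2 ^ 2 + (-525) * g1 ^ 2 * g2 + (455) * g1 ^ 3) +
  (-228) * (s * w ^ 3) * ((-455) * g2 ^ 3 + (525) * g1 * g2 ^ 2 + (-150) * g1 ^ 2 * g2 + (10) * g1 ^ 3) +
  (-494) * (s ^ 2 * w ^ 2) * ((-120) * g2 ^ 3 + (450) * g1 * g2 ^ 2 + (-450) * g1 ^ 2 * g2 + (120) * g1 ^ 3)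

def hk4 (s w g1 g2 : R) : R :=
  (-1) * (s ^ 4) * ((4845) * g1 ^ 4) +
  (-1) * (w ^ 4) * ((4845) * g2 ^ 4) +
  (228) * (s ^ 3 * w) * ((5) * g2 ^ 4 + (-150) * g1 * g2 ^ 3 + (1050) * g1 ^ 2 * g2 ^ 2 + (-2275) * g1 ^ 3 * g2 + (1365) * g1 ^ 4) +
  (-228) * (s * w ^ 3) * ((1365) * g2 ^ 4 + (-2275) * g1 * g2 ^ 3 + (1050) * g1 ^ 2 * g2 ^ 2 + (-150) * g1 ^ 3 * g2 + (5) * g1 ^ 4) +
  (-494) * (s ^ 2 * w ^ 2) * ((210) * g2 ^ 4 + (-1200) * g1 * g2 ^ 3 + (2025) * g1 ^ 2 * g2 ^ 2 + (-1200) * g1 ^ 3 * g2 + (210) * g1 ^ 4)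

def hk5 (s w g1 g2 : R) : R :=
  (-1) * (s ^ 4) * ((15504) * g1 ^ 5) +
  (-1) * (w ^ 4) * ((-15504) * g2 ^ 5) +
  (228) * (s ^ 3 * w) * ((-1) * g2 ^ 5 + (75) * g1 * g2 ^ 4 + (-1050) * g1 ^ 2 * g2 ^ 3 + (4550) * g1 ^ 3 * g2 ^ 2 + (-6825) * g1 ^ 4 * g2 + (3003) * g1 ^ 5) +
  (-228) * (s * w ^ 3) * ((-3003) * g2 ^ 5 + (6825) * g1 * g2 ^ 4 + (-4550) * g1 ^ 2 * g2 ^ 3 + (1050) * g1 ^ 3 * g2 ^ 2 + (-75) * g1 ^ 4 * g2 + (1) * g1 ^ 5) +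
  (-494) * (s ^ 2 * w ^ 2) * ((-252) * g2 ^ 5 + (2100) * g1 * g2 ^ 4 + (-5400) * g1 ^ 2 * g2 ^ 3 + (5400) * g1 ^ 3 * g2 ^ 2 + (-2100) * g1 ^ 4 * g2 + (252) * g1 ^ 5)

def hk6 (s w g1 g2 : R) : R :=
  (-1) * (s ^ 4) * ((38760) * g1 ^ 6) +
  (-1) * (w ^ 4) * ((38760) * g2 ^ 6) +
  (228) * (s ^ 3 * w) * ((-15) * g1 * g2 ^ 5 + (525) * g1 ^ 2 * g2 ^ 4 + (-4550) * g1 ^ 3 * g2 ^ 3 + (13650) * g1 ^ 4 * g2 ^ 2 + (-15015) * g1 ^ 5 * g2 + (5005) * g1 ^ 6) +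
  (-228) * (s * w ^ 3) * ((5005) * g2 ^ 6 + (-15015) * g1 * g2 ^ 5 + (13650) * g1 ^ 2 * g2 ^ 4 + (-4550) * g1 ^ 3 * g2 ^ 3 + (525) * g1 ^ 4 * g2 ^ 2 + (-15) * g1 ^ 5 * g2) +
  (-494) * (s ^ 2 * w ^ 2) * ((210) * g2 ^ 6 + (-2520) * g1 * g2 ^ 5 + (9450) * g1 ^ 2 * g2 ^ 4 + (-14400) * g1 ^ 3 * g2 ^ 3 + (9450) * g1 ^ 4 * g2 ^ 2 + (-2520) * g1 ^ 5 * g2 + (210) * g1 ^ 6)

def hk7 (s w g1 g2 : R) : R :=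
  (-1) * (s ^ 4) * ((77520) * g1 ^ 7) +
  (-1) * (w ^ 4) * ((-77520) * g2 ^ 7) +
  (228) * (s ^ 3 * w) * ((-105) * g1 ^ 2 * g2 ^ 5 + (2275) * g1 ^ 3 * g2 ^ 4 + (-13650) * g1 ^ 4 * g2 ^ 3 + (30030) * g1 ^ 5 * g2 ^ 2 + (-25025) * g1 ^ 6 * g2 + (6435) * g1 ^ 7) +
  (-228) * (s * w ^ 3) * ((-6435) * g2 ^ 7 + (25025) * g1 * g2 ^ 6 + (-30030) * g1 ^ 2 * g2 ^ 5 + (13650) * g1 ^ 3 * g2 ^ 4 + (-2275) * g1 ^ 4 * g2 ^ 3 + (105) * g1 ^ 5 * g2 ^ 2) +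
  (-494) * (s ^ 2 * w ^ 2) * ((-120) * g2 ^ 7 + (2100) * g1 * g2 ^ 6 + (-11340) * g1 ^ 2 * g2 ^ 5 + (25200) * g1 ^ 3 * g2 ^ 4 + (-25200) * g1 ^ 4 * g2 ^ 3 + (11340) * g1 ^ 5 * g2 ^ 2 + (-2100) * g1 ^ 6 * g2 + (120) * g1 ^ 7)

def hk8 (s w g1 g2 : R) : R :=
  (-1) * (s ^ 4) * ((125970) * g1 ^ 8) +
  (-1) * (w ^ 4) * ((125970) * g2 ^ 8) +
  (228) * (s ^ 3 * w) * ((-455) * g1 ^ 3 * g2 ^ 5 + (6825) * g1 ^ 4 * g2 ^ 4 + (-30030) * g1 ^ 5 * g2 ^ 3 + (50050) * g1 ^ 6 * g2 ^ 2 + (-32175) * g1 ^ 7 * g2 + (6435) * g1 ^ 8) +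
  (-228) * (s * w ^ 3) * ((6435) * g2 ^ 8 + (-32175) * g1 * g2 ^ 7 + (50050) * g1 ^ 2 * g2 ^ 6 + (-30030) * g1 ^ 3 * g2 ^ 5 + (6825) * g1 ^ 4 * g2 ^ 4 + (-455) * g1 ^ 5 * g2 ^ 3) +
  (-494) * (s ^ 2 * w ^ 2) * ((45) * g2 ^ 8 + (-1200) * g1 * g2 ^ 7 + (9450) * g1 ^ 2 * g2 ^ 6 + (-30240) * g1 ^ 3 * g2 ^ 5 + (44100) * g1 ^ 4 * g2 ^ 4 + (-30240) * g1 ^ 5 * g2 ^ 3 + (9450) * g1 ^ 6 * g2 ^ 2 + (-1200) * g1 ^ 7 * g2 + (45) * g1 ^ 8)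

def hk9 (s w g1 g2 : R) : R :=
  (-1) * (s ^ 4) * ((167960) * g1 ^ 9) +
  (-1) * (w ^ 4) * ((-167960) * g2 ^ 9) +
  (228) * (s ^ 3 * w) * ((-1365) * g1 ^ 4 * g2 ^ 5 + (15015) * g1 ^ 5 * g2 ^ 4 + (-50050) * g1 ^ 6 * g2 ^ 3 + (64350) * g1 ^ 7 * g2 ^ 2 + (-32175) * g1 ^ 8 * g2 + (5005) * g1 ^ 9) +
  (-228) * (s * w ^ 3) * ((-5005) * g2 ^ 9 + (32175) * g1 * g2 ^ 8 + (-64350) * g1 ^ 2 * g2 ^ 7 + (50050) * g1 ^ 3 * g2 ^ 6 + (-15015) * g1 ^ 4 * g2 ^ 5 + (1365) * g1 ^ 5 * g2 ^ 4) +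
  (-494) * (s ^ 2 * w ^ 2) * ((-10) * g2 ^ 9 + (450) * g1 * g2 ^ 8 + (-5400) * g1 ^ 2 * g2 ^ 7 + (25200) * g1 ^ 3 * g2 ^ 6 + (-52920) * g1 ^ 4 * g2 ^ 5 + (52920) * g1 ^ 5 * g2 ^ 4 + (-25200) * g1 ^ 6 * g2 ^ 3 + (5400) * g1 ^ 7 * g2 ^ 2 + (-450) * g1 ^ 8 * g2 + (10) * g1 ^ 9)

def hk10 (s w g1 g2 : R) : R :=
  (-1) * (s ^ 4) * ((184756) * g1 ^ 10) +
  (-1) * (w ^ 4) * ((184756) * g2 ^ 10) +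
  (228) * (s ^ 3 * w) * ((-3003) * g1 ^ 5 * g2 ^ 5 + (25025) * g1 ^ 6 * g2 ^ 4 + (-64350) * g1 ^ 7 * g2 ^ 3 + (64350) * g1 ^ 8 * g2 ^ 2 + (-25025) * g1 ^ 9 * g2 + (3003) * g1 ^ 10) +
  (-228) * (s * w ^ 3) * ((3003) * g2 ^ 10 + (-25025) * g1 * g2 ^ 9 + (64350) * g1 ^ 2 * g2 ^ 8 + (-64350) * g1 ^ 3 * g2 ^ 7 + (25025) * g1 ^ 4 * g2 ^ 6 + (-3003) * g1 ^ 5 * g2 ^ 5) +
  (-494) * (s ^ 2 * w ^ 2) * ((1) * g2 ^ 10 + (-100) * g1 * g2 ^ 9 + (2025) * g1 ^ 2 * g2 ^ 8 + (-14400) * g1 ^ 3 * g2 ^ 7 + (44100) * g1 ^ 4 * g2 ^ 6 + (-63504) * g1 ^ 5 * g2 ^ 5 + (44100) * g1 ^ 6 * g2 ^ 4 + (-14400) * g1 ^ 7 * g2 ^ 3 + (2025) * g1 ^ 8 * g2 ^ 2 + (-100) * g1 ^ 9 * g2 + (1) * g1 ^ 10)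

def hk11 (s w g1 g2 : R) : R :=
  (-1) * (s ^ 4) * ((167960) * g1 ^ 11) +
  (-1) * (w ^ 4) * ((-167960) * g2 ^ 11) +
  (228) * (s ^ 3 * w) * ((-5005) * g1 ^ 6 * g2 ^ 5 + (32175) * g1 ^ 7 * g2 ^ 4 + (-64350) * g1 ^ 8 * g2 ^ 3 + (50050) * g1 ^ 9 * g2 ^ 2 + (-15015) * g1 ^ 10 * g2 + (1365) * g1 ^ 11) +
  (-228) * (s * w ^ 3) * ((-1365) * g2 ^ 11 + (15015) * g1 * g2 ^ 10 + (-50050) * g1 ^ 2 * g2 ^ 9 + (64350) * g1 ^ 3 * g2 ^ 8 + (-32175) * g1 ^ 4 * g2 ^ 7 + (5005) * g1 ^ 5 * g2 ^ 6) +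
  (-494) * (s ^ 2 * w ^ 2) * ((10) * g1 * g2 ^ 10 + (-450) * g1 ^ 2 * g2 ^ 9 + (5400) * g1 ^ 3 * g2 ^ 8 + (-25200) * g1 ^ 4 * g2 ^ 7 + (52920) * g1 ^ 5 * g2 ^ 6 + (-52920) * g1 ^ 6 * g2 ^ 5 + (25200) * g1 ^ 7 * g2 ^ 4 + (-5400) * g1 ^ 8 * g2 ^ 3 + (450) * g1 ^ 9 * g2 ^ 2 + (-10) * g1 ^ 10 * g2)

def hk12 (s w g1 g2 : R) : R :=
  (-1) * (s ^ 4) * ((125970) * g1 ^ 12) +
  (-1) * (w ^ 4) * ((125970) * g2 ^ 12) +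
  (228) * (s ^ 3 * w) * ((-6435) * g1 ^ 7 * g2 ^ 5 + (32175) * g1 ^ 8 * g2 ^ 4 + (-50050) * g1 ^ 9 * g2 ^ 3 + (30030) * g1 ^ 10 * g2 ^ 2 + (-6825) * g1 ^ 11 * g2 + (455) * g1 ^ 12) +
  (-228) * (s * w ^ 3) * ((455) * g2 ^ 12 + (-6825) * g1 * g2 ^ 11 + (30030) * g1 ^ 2 * g2 ^ 10 + (-50050) * g1 ^ 3 * g2 ^ 9 + (32175) * g1 ^ 4 * g2 ^ 8 + (-6435) * g1 ^ 5 * g2 ^ 7) +
  (-494) * (s ^ 2 * w ^ 2) * ((45) * g1 ^ 2 * g2 ^ 10 + (-1200) * g1 ^ 3 * g2 ^ 9 + (9450) * g1 ^ 4 * g2 ^ 8 + (-30240) * g1 ^ 5 * g2 ^ 7 + (44100) * g1 ^ 6 * g2 ^ 6 + (-30240) * g1 ^ 7 * g2 ^ 5 + (9450) * g1 ^ 8 * g2 ^ 4 + (-1200) * g1 ^ 9 * g2 ^ 3 + (45) * g1 ^ 10 * g2 ^ 2)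

def hk13 (s w g1 g2 : R) : R :=
  (-1) * (s ^ 4) * ((77520) * g1 ^ 13) +
  (-1) * (w ^ 4) * ((-77520) * g2 ^ 13) +
  (228) * (s ^ 3 * w) * ((-6435) * g1 ^ 8 * g2 ^ 5 + (25025) * g1 ^ 9 * g2 ^ 4 + (-30030) * g1 ^ 10 * g2 ^ 3 + (13650) * g1 ^ 11 * g2 ^ 2 + (-2275) * g1 ^ 12 * g2 + (105) * g1 ^ 13) +
  (-228) * (s * w ^ 3) * ((-105) * g2 ^ 13 + (2275) * g1 * g2 ^ 12 + (-13650) * g1 ^ 2 * g2 ^ 11 + (30030) * g1 ^ 3 * g2 ^ 10 + (-25025) * g1 ^ 4 * g2 ^ 9 + (6435) * g1 ^ 5 * g2 ^ 8) +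
  (-494) * (s ^ 2 * w ^ 2) * ((120) * g1 ^ 3 * g2 ^ 10 + (-2100) * g1 ^ 4 * g2 ^ 9 + (11340) * g1 ^ 5 * g2 ^ 8 + (-25200) * g1 ^ 6 * g2 ^ 7 + (25200) * g1 ^ 7 * g2 ^ 6 + (-11340) * g1 ^ 8 * g2 ^ 5 + (2100) * g1 ^ 9 * g2 ^ 4 + (-120) * g1 ^ 10 * g2 ^ 3)

def hk14 (s w g1 g2 : R) : R :=
  (-1) * (s ^ 4) * ((38760) * g1 ^ 14) +
  (-1) * (w ^ 4) * ((38760) * g2 ^ 14) +
  (228) * (s ^ 3 * w) * ((-5005) * g1 ^ 9 * g2 ^ 5 + (15015) * g1 ^ 10 * g2 ^ 4 + (-13650) * g1 ^ 11 * g2 ^ 3 + (4550) * g1 ^ 12 * g2 ^ 2 + (-525) * g1 ^ 13 * g2 + (15) * g1 ^ 14) +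
  (-228) * (s * w ^ 3) * ((15) * g2 ^ 14 + (-525) * g1 * g2 ^ 13 + (4550) * g1 ^ 2 * g2 ^ 12 + (-13650) * g1 ^ 3 * g2 ^ 11 + (15015) * g1 ^ 4 * g2 ^ 10 + (-5005) * g1 ^ 5 * g2 ^ 9) +
  (-494) * (s ^ 2 * w ^ 2) * ((210) * g1 ^ 4 * g2 ^ 10 + (-2520) * g1 ^ 5 * g2 ^ 9 + (9450) * g1 ^ 6 * g2 ^ 8 + (-14400) * g1 ^ 7 * g2 ^ 7 + (9450) * g1 ^ 8 * g2 ^ 6 + (-2520) * g1 ^ 9 * g2 ^ 5 + (210) * g1 ^ 10 * g2 ^ 4)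

def hk15 (s w g1 g2 : R) : R :=
  (-1) * (s ^ 4) * ((15504) * g1 ^ 15) +
  (-1) * (w ^ 4) * ((-15504) * g2 ^ 15) +
  (228) * (s ^ 3 * w) * ((-3003) * g1 ^ 10 * g2 ^ 5 + (6825) * g1 ^ 11 * g2 ^ 4 + (-4550) * g1 ^ 12 * g2 ^ 3 + (1050) * g1 ^ 13 * g2 ^ 2 + (-75) * g1 ^ 14 * g2 + (1) * g1 ^ 15) +
  (-228) * (s * w ^ 3) * ((-1) * g2 ^ 15 + (75) * g1 * g2 ^ 14 + (-1050) * g1 ^ 2 * g2 ^ 13 + (4550) * g1 ^ 3 * g2 ^ 12 + (-6825) * g1 ^ 4 * g2 ^ 11 + (3003) * g1 ^ 5 * g2 ^ 10) +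
  (-494) * (s ^ 2 * w ^ 2) * ((252) * g1 ^ 5 * g2 ^ 10 + (-2100) * g1 ^ 6 * g2 ^ 9 + (5400) * g1 ^ 7 * g2 ^ 8 + (-5400) * g1 ^ 8 * g2 ^ 7 + (2100) * g1 ^ 9 * g2 ^ 6 + (-252) * g1 ^ 10 * g2 ^ 5)

def hk16 (s w g1 g2 : R) : R :=
  (-1) * (s ^ 4) * ((4845) * g1 ^ 16) +
  (-1) * (w ^ 4) * ((4845) * g2 ^ 16) +
  (228) * (s ^ 3 * w) * ((-1365) * g1 ^ 11 * g2 ^ 5 + (2275) * g1 ^ 12 * g2 ^ 4 + (-1050) * g1 ^ 13 * g2 ^ 3 + (150) * g1 ^ 14 * g2 ^ 2 + (-5) * g1 ^ 15 * g2) +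
  (-228) * (s * w ^ 3) * ((-5) * g1 * g2 ^ 15 + (150) * g1 ^ 2 * g2 ^ 14 + (-1050) * g1 ^ 3 * g2 ^ 13 + (2275) * g1 ^ 4 * g2 ^ 12 + (-1365) * g1 ^ 5 * g2 ^ 11) +
  (-494) * (s ^ 2 * w ^ 2) * ((210) * g1 ^ 6 * g2 ^ 10 + (-1200) * g1 ^ 7 * g2 ^ 9 + (2025) * g1 ^ 8 * g2 ^ 8 + (-1200) * g1 ^ 9 * g2 ^ 7 + (210) * g1 ^ 10 * g2 ^ 6)

def hk17 (s w g1 g2 : R) : R :=
  (-1) * (s ^ 4) * ((1140) * g1 ^ 17) +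
  (-1) * (w ^ 4) * ((-1140) * g2 ^ 17) +
  (228) * (s ^ 3 * w) * ((-455) * g1 ^ 12 * g2 ^ 5 + (525) * g1 ^ 13 * g2 ^ 4 + (-150) * g1 ^ 14 * g2 ^ 3 + (10) * g1 ^ 15 * g2 ^ 2) +
  (-228) * (s * w ^ 3) * ((-10) * g1 ^ 2 * g2 ^ 15 + (150) * g1 ^ 3 * g2 ^ 14 + (-525) * g1 ^ 4 * g2 ^ 13 + (455) * g1 ^ 5 * g2 ^ 12) +
  (-494) * (s ^ 2 * w ^ 2) * ((120) * g1 ^ 7 * g2 ^ 10 + (-450) * g1 ^ 8 * g2 ^ 9 + (450) * g1 ^ 9 * g2 ^ 8 + (-120) * g1 ^ 10 * g2 ^ 7)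

def hk18 (s w g1 g2 : R) : R :=
  (-1) * (s ^ 4) * ((190) * g1 ^ 18) +
  (-1) * (w ^ 4) * ((190) * g2 ^ 18) +
  (228) * (s ^ 3 * w) * ((-105) * g1 ^ 13 * g2 ^ 5 + (75) * g1 ^ 14 * g2 ^ 4 + (-10) * g1 ^ 15 * g2 ^ 3) +
  (-228) * (s * w ^ 3) * ((-10) * g1 ^ 3 * g2 ^ 15 + (75) * g1 ^ 4 * g2 ^ 14 + (-105) * g1 ^ 5 * g2 ^ 13) +
  (-494) * (s ^ 2 * w ^ 2) * ((45) * g1 ^ 8 * g2 ^ 10 + (-100) * g1 ^ 9 * g2 ^ 9 + (45) * g1 ^ 10 * g2 ^ 8)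

def hk19 (s w g1 g2 : R) : R :=
  (-1) * (s ^ 4) * ((20) * g1 ^ 19) +
  (-1) * (w ^ 4) * ((-20) * g2 ^ 19) +
  (228) * (s ^ 3 * w) * ((-15) * g1 ^ 14 * g2 ^ 5 + (5) * g1 ^ 15 * g2 ^ 4) +
  (-228) * (s * w ^ 3) * ((-5) * g1 ^ 4 * g2 ^ 15 + (15) * g1 ^ 5 * g2 ^ 14) +
  (-494) * (s ^ 2 * w ^ 2) * ((10) * g1 ^ 9 * g2 ^ 10 + (-10) * g1 ^ 10 * g2 ^ 9)

def hk20 (s w g1 g2 : R) : R :=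
  (-1) * (s ^ 4) * ((1) * g1 ^ 20) +
  (-1) * (w ^ 4) * ((1) * g2 ^ 20) +
  (228) * (s ^ 3 * w) * ((-1) * g1 ^ 15 * g2 ^ 5) +
  (-228) * (s * w ^ 3) * ((-1) * g1 ^ 5 * g2 ^ 15) +
  (-494) * (s ^ 2 * w ^ 2) * ((1) * g1 ^ 10 * g2 ^ 10)

/-- step 1: the sparse expansion in `(lam, mu)` with `G₁`, `G₂` as free variables. -/
theorem expand9 (s w lam mu g1 g2 : R) :
    Hsw (s * (lam + mu * g1) ^ 5) (w * (lam - mu * g2) ^ 5) =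
      lam ^ 20 * mu ^ 0 * hk0 s w g1 g2 +
      lam ^ 19 * mu ^ 1 * hk1 s w g1 g2 +
      lam ^ 18 * mu ^ 2 * hk2 s w g1 g2 +
      lam ^ 17 * mu ^ 3 * hk3 s w g1 g2 +
      lam ^ 16 * mu ^ 4 * hk4 s w g1 g2 +
      lam ^ 15 * mu ^ 5 * hk5 s w g1 g2 +
      lam ^ 14 * mu ^ 6 * hk6 s w g1 g2 +
      lam ^ 13 * mu ^ 7 * hk7 s w g1 g2 +
      lam ^ 12 * mu ^ 8 * hk8 s w g1 g2 +
      lam ^ 11 * mu ^ 9 * hk9 s w g1 g2 +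
      lam ^ 10 * mu ^ 10 * hk10 s w g1 g2 +
      lam ^ 9 * mu ^ 11 * hk11 s w g1 g2 +
      lam ^ 8 * mu ^ 12 * hk12 s w g1 g2 +
      lam ^ 7 * mu ^ 13 * hk13 s w g1 g2 +
      lam ^ 6 * mu ^ 14 * hk14 s w g1 g2 +
      lam ^ 5 * mu ^ 15 * hk15 s w g1 g2 +
      lam ^ 4 * mu ^ 16 * hk16 s w g1 g2 +
      lam ^ 3 * mu ^ 17 * hk17 s w g1 g2 +
      lam ^ 2 * mu ^ 18 * hk18 s w g1 g2 +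
      lam ^ 1 * mu ^ 19 * hk19 s w g1 g2 +
      lam ^ 0 * mu ^ 20 * hk20 s w g1 g2 := by
  unfold Hsw hk0 hk1 hk2 hk3 hk4 hk5 hk6 hk7 hk8 hk9 hk10 hk11 hk12 hk13 hk14 hk15 hk16 hk17 hk18 hk19 hk20
  ring

theorem hk0_eq (s w : R) : hk0 s w (G1 s w) (G2 s w) = hc0 (Hsw s w) (Tsw s w) := by
  simp only [hk0, hc0, G1, G2, Hsw, Tsw]
  ring

theorem hk1_eq (s w : R) : hk1 s w (G1 s w) (G2 s w) = hc1 (Hsw s w) (Tsw s w) := by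
  simp only [hk1, hc1, G1, G2, Hsw, Tsw]
  ring

theorem hk2_eq (s w : R) : hk2 s w (G1 s w) (G2 s w) = hc2 (Hsw s w) (Tsw s w) := by
  simp only [hk2, hc2, G1, G2, Hsw, Tsw]
  ring

theorem hk3_eq (s w : R) : hk3 s w (G1 s w) (G2 s w) = hc3 (Hsw s w) (Tsw s w) := by
  simp only [hk3, hc3, G1, G2, Hsw, Tsw]
  ring

theorem hk4_eq (s w : R) : hk4 s w (G1 s w) (G2 s w) = hc4 (Hsw s w) (Tsw s w) := by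
  simp only [hk4, hc4, G1, G2, Hsw, Tsw]
  ring

theorem hk5_eq (s w : R) : hk5 s w (G1 s w) (G2 s w) = hc5 (Hsw s w) (Tsw s w) := by
  simp only [hk5, hc5, G1, G2, Hsw, Tsw]
  ring

theorem hk6_eq (s w : R) : hk6 s w (G1 s w) (G2 s w) = hc6 (Hsw s w) (Tsw s w) := by
  simp only [hk6, hc6, G1, G2, Hsw, Tsw]
  ring

theorem hk7_eq (s w : R) : hk7 s w (G1 s w) (G2 s w) = hc7 (Hsw s w) (Tsw s w) := by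
  simp only [hk7, hc7, G1, G2, Hsw, Tsw]
  ring

theorem hk8_eq (s w : R) : hk8 s w (G1 s w) (G2 s w) = hc8 (Hsw s w) (Tsw s w) := by
  simp only [hk8, hc8, G1, G2, Hsw, Tsw]
  ring

theorem hk9_eq (s w : R) : hk9 s w (G1 s w) (G2 s w) = hc9 (Hsw s w) (Tsw s w) := by
  simp only [hk9, hc9, G1, G2, Hsw, Tsw]
  ring

theorem hk10_eq (s w : R) : hk10 s w (G1 s w) (G2 s w) = hc10 (Hsw s w) (Tsw s w) := by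
  simp only [hk10, hc10, G1, G2, Hsw, Tsw]
  ring

theorem hk11_eq (s w : R) : hk11 s w (G1 s w) (G2 s w) = hc11 (Hsw s w) (Tsw s w) := by
  simp only [hk11, hc11, G1, G2, Hsw, Tsw]
  ring

theorem hk12_eq (s w : R) : hk12 s w (G1 s w) (G2 s w) = hc12 (Hsw s w) (Tsw s w) := by
  simp only [hk12, hc12, G1, G2, Hsw, Tsw]
  ring

theorem hk13_eq (s w : R) : hk13 s w (G1 s w) (G2 s w) = hc13 (Hsw s w) (Tsw s w) := by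
  simp only [hk13, hc13, G1, G2, Hsw, Tsw]
  ring

theorem hk14_eq (s w : R) : hk14 s w (G1 s w) (G2 s w) = hc14 (Hsw s w) (Tsw s w) := by
  simp only [hk14, hc14, G1, G2, Hsw, Tsw]
  ring

theorem hk15_eq (s w : R) : hk15 s w (G1 s w) (G2 s w) = hc15 (Hsw s w) (Tsw s w) := by
  simp only [hk15, hc15, G1, G2, Hsw, Tsw]
  ring

theorem hk16_eq (s w : R) : hk16 s w (G1 s w) (G2 s w) = hc16 (Hsw s w) (Tsw s w) := by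
  simp only [hk16, hc16, G1, G2, Hsw, Tsw]
  ring

theorem hk17_eq (s w : R) : hk17 s w (G1 s w) (G2 s w) = hc17 (Hsw s w) (Tsw s w) := by
  simp only [hk17, hc17, G1, G2, Hsw, Tsw]
  ring

theorem hk18_eq (s w : R) : hk18 s w (G1 s w) (G2 s w) = hc18 (Hsw s w) (Tsw s w) := by
  simp only [hk18, hc18, G1, G2, Hsw, Tsw]
  ring

theorem hk19_eq (s w : R) : hk19 s w (G1 s w) (G2 s w) = hc19 (Hsw s w) (Tsw s w) := by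
  simp only [hk19, hc19, G1, G2, Hsw, Tsw]
  ring

theorem hk20_eq (s w : R) : hk20 s w (G1 s w) (G2 s w) = hc20 (Hsw s w) (Tsw s w) := by
  simp only [hk20, hc20, G1, G2, Hsw, Tsw]
  ring

/-- **the parametrisation identity.** -/
theorem H_form_sw9 (s w lam mu : R) :
    Hsw (s * (lam + mu * G1 s w) ^ 5) (w * (lam - mu * G2 s w) ^ 5) =
      hForm (Hsw s w) (Tsw s w) lam mu := by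
  rw [expand9 s w lam mu (G1 s w) (G2 s w), hk0_eq, hk1_eq, hk2_eq, hk3_eq, hk4_eq, hk5_eq, hk6_eq, hk7_eq, hk8_eq, hk9_eq, hk10_eq, hk11_eq, hk12_eq, hk13_eq, hk14_eq, hk15_eq, hk16_eq, hk17_eq, hk18_eq, hk19_eq, hk20_eq]
  unfold hForm
  ring

end Fermat.Agent.S52x.KleinH9
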