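/-
S52 chunk B1b (helper7): Klein family, the `H` identity, affine form (`lam = 1`).
Re-pointed to helper9's staged low-memory proof `KleinH9.H_form_sw9` (the original one-shot
`ring` proof needed ~8 GB and ~10 minutes).
-/
import Fermat.Agent.S52x.KleinFam7Poly
import Fermat.Agent.S52x.KleinH9

set_option autoImplicit false

namespace Fermat.Agent.S52x.KleinFam7

variable {R : Type*} [CommRing R]

theorem H_param_sw (s w t : R) :
    Hsw (s * (1 + t * G1 s w) ^ 5) (w * (1 - t * G2 s w) ^ 5) =
      hPoly (Hsw s w) (Tsw s w) t := by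
  rw [← hForm_one]
  exact Fermat.Agent.S52x.KleinH9.H_form_sw9 s w 1 t

end Fermat.Agent.S52x.KleinFam7
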