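/-
S52 chunk B1b (helper7): Klein family, main identities.

* homogeneous versions `H_form_sw`, `T_form_sw`, `g_form_sw` of the heavy identities of
  `KleinFam7H/T/F` (deduced from the affine ones through the fraction field of `ℤ[s,w,lam,mu]`);
* `(u, v)`-level versions `H_form`, `T_form`, `f_form` along the line `lam • p + mu • n(p)`;
* links with the one-variable polynomials `C4fam`, `C6fam`, `Ffam`.
-/
import Fermat.Agent.S52x.KleinFam7Poly
import Fermat.Agent.S52x.KleinFam7H
import Fermat.Agent.S52x.KleinFam7T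
import Fermat.Agent.S52x.KleinFam7F

set_option autoImplicit false

open Polynomial

namespace Fermat.Agent.S52x.KleinFam7

variable {R : Type*} [CommRing R]

/-! ### Homogeneity -/

theorem Hsw_smul (c s w : R) : Hsw (c * s) (c * w) = c ^ 4 * Hsw s w := by
  unfold Hsw; ring

theorem Tsw_smul (c s w : R) : Tsw (c * s) (c * w) = c ^ 6 * Tsw s w := by
  unfold Tsw; ring

theorem gsw_smul (c s w : R) : gsw (c * s) (c * w) = c ^ 2 * gsw s w := by
  unfold gsw; ring

/-! ### Homogeneous forms over a field, `lam ≠ 0` -/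

section Field

variable {K : Type*} [Field K]

theorem hForm_eq_of_ne (h τ lam mu : K) (hl : lam ≠ 0) :
    hForm h τ lam mu = lam ^ 20 * hPoly h τ (mu / lam) := by
  rw [hForm_eq_sum, hPoly_eq_sum, Finset.mul_sum]
  refine Finset.sum_congr rfl fun k hk => ?_
  have hk' : k ≤ 20 := by
    simp only [Finset.mem_range] at hk; omega
  have : lam ^ 20 = lam ^ (20 - k) * lam ^ k := by
    rw [← pow_add]; congr 1; omega
  rw [this, div_pow]
  field_simp

theorem tForm_eq_of_ne (h τ lam mu : K) (hl : lam ≠ 0) :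
    tForm h τ lam mu = lam ^ 30 * tPoly h τ (mu / lam) := by
  rw [tForm_eq_sum, tPoly_eq_sum, Finset.mul_sum]
  refine Finset.sum_congr rfl fun k hk => ?_
  have hk' : k ≤ 30 := by
    simp only [Finset.mem_range] at hk; omega
  have : lam ^ 30 = lam ^ (30 - k) * lam ^ k := by
    rw [← pow_add]; congr 1; omega
  rw [this, div_pow]
  field_simp

theorem rhoForm_eq_of_ne (h τ lam mu : K) (hl : lam ≠ 0) :
    rhoForm h τ lam mu = lam ^ 12 * rhoPoly h τ (mu / lam) := by
  rw [rhoForm_eq_sum, rhoPoly_eq_sum, Finset.mul_sum]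
  refine Finset.sum_congr rfl fun k hk => ?_
  have hk' : k ≤ 12 := by
    simp only [Finset.mem_range] at hk; omega
  have : lam ^ 12 = lam ^ (12 - k) * lam ^ k := by
    rw [← pow_add]; congr 1; omega
  rw [this, div_pow]
  field_simp

theorem H_form_sw_field (s w lam mu : K) (hl : lam ≠ 0) :
    Hsw (s * (lam + mu * G1 s w) ^ 5) (w * (lam - mu * G2 s w) ^ 5) =
      hForm (Hsw s w) (Tsw s w) lam mu := by
  rw [hForm_eq_of_ne _ _ _ _ hl, ← H_param_sw]
  have : lam ^ 20 = (lam ^ 5) ^ 4 := by rw [← pow_mul]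
  rw [this, ← Hsw_smul]
  congr 1 <;> field_simp

theorem T_form_sw_field (s w lam mu : K) (hl : lam ≠ 0) :
    Tsw (s * (lam + mu * G1 s w) ^ 5) (w * (lam - mu * G2 s w) ^ 5) =
      tForm (Hsw s w) (Tsw s w) lam mu := by
  rw [tForm_eq_of_ne _ _ _ _ hl, ← T_param_sw]
  have : lam ^ 30 = (lam ^ 5) ^ 6 := by rw [← pow_mul]
  rw [this, ← Tsw_smul]
  congr 1 <;> field_simp

theorem g_form_sw_field (s w lam mu : K) (hl : lam ≠ 0) :
    (lam + mu * G1 s w) * (lam - mu * G2 s w) *
        gsw (s * (lam + mu * G1 s w) ^ 5) (w * (lam - mu * G2 s w) ^ 5) =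
      gsw s w * rhoForm (Hsw s w) (Tsw s w) lam mu := by
  rw [rhoForm_eq_of_ne _ _ _ _ hl]
  have key := g_param_sw s w (mu / lam)
  have e1 : s * (lam + mu * G1 s w) ^ 5 = lam ^ 5 * (s * (1 + mu / lam * G1 s w) ^ 5) := by
    field_simp
  have e2 : w * (lam - mu * G2 s w) ^ 5 = lam ^ 5 * (w * (1 - mu / lam * G2 s w) ^ 5) := by
    field_simp
  have e3 : (lam + mu * G1 s w) * (lam - mu * G2 s w) =
      lam ^ 2 * ((1 + mu / lam * G1 s w) * (1 - mu / lam * G2 s w)) := by
    field_simp
  rw [e1, e2, e3, gsw_smul]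
  linear_combination lam ^ 12 * key

end Field

/-! ### Transfer to arbitrary commutative rings -/

/-- The generic ring `ℤ[s, w, lam, mu]`. -/
private abbrev GenRing := MvPolynomial (Fin 4) ℤ

private noncomputable def genEval (s w lam mu : R) : GenRing →+* R :=
  (MvPolynomial.aeval (R := ℤ) (![s, w, lam, mu] : Fin 4 → R)).toRingHom

private theorem genEval_X0 (s w lam mu : R) : genEval s w lam mu (MvPolynomial.X 0) = s := by
  simp [genEval]

private theorem genEval_X1 (s w lam mu : R) : genEval s w lam mu (MvPolynomial.X 1) = w := by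
  simp [genEval]

private theorem genEval_X2 (s w lam mu : R) : genEval s w lam mu (MvPolynomial.X 2) = lam := by
  simp [genEval]

private theorem genEval_X3 (s w lam mu : R) : genEval s w lam mu (MvPolynomial.X 3) = mu := by
  simp [genEval]

private theorem gen_X2_ne :
    algebraMap GenRing (FractionRing GenRing) (MvPolynomial.X 2) ≠ 0 := by
  intro h
  have := (IsFractionRing.injective GenRing (FractionRing GenRing))
    (h.trans (map_zero _).symm)
  exact MvPolynomial.X_ne_zero (R := ℤ) (2 : Fin 4) this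

theorem H_form_sw (s w lam mu : R) :
    Hsw (s * (lam + mu * G1 s w) ^ 5) (w * (lam - mu * G2 s w) ^ 5) =
      hForm (Hsw s w) (Tsw s w) lam mu := by
  have hgen : Hsw ((MvPolynomial.X 0 : GenRing) *
        (MvPolynomial.X 2 + MvPolynomial.X 3 * G1 (MvPolynomial.X 0) (MvPolynomial.X 1)) ^ 5)
        (MvPolynomial.X 1 *
        (MvPolynomial.X 2 - MvPolynomial.X 3 * G2 (MvPolynomial.X 0) (MvPolynomial.X 1)) ^ 5) =
      hForm (Hsw (MvPolynomial.X 0) (MvPolynomial.X 1)) (Tsw (MvPolynomial.X 0) (MvPolynomial.X 1))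
        (MvPolynomial.X 2) (MvPolynomial.X 3) := by
    apply IsFractionRing.injective GenRing (FractionRing GenRing)
    simp only [map_Hsw, map_Tsw, map_hForm, map_G1, map_G2, map_mul, map_add, map_sub, map_pow]
    exact H_form_sw_field _ _ _ _ gen_X2_ne
  have := congrArg (genEval s w lam mu) hgen
  simpa only [map_Hsw, map_Tsw, map_hForm, map_G1, map_G2, map_mul, map_add, map_sub, map_pow,
    genEval_X0, genEval_X1, genEval_X2, genEval_X3] using this

theorem T_form_sw (s w lam mu : R) :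
    Tsw (s * (lam + mu * G1 s w) ^ 5) (w * (lam - mu * G2 s w) ^ 5) =
      tForm (Hsw s w) (Tsw s w) lam mu := by
  have hgen : Tsw ((MvPolynomial.X 0 : GenRing) *
        (MvPolynomial.X 2 + MvPolynomial.X 3 * G1 (MvPolynomial.X 0) (MvPolynomial.X 1)) ^ 5)
        (MvPolynomial.X 1 *
        (MvPolynomial.X 2 - MvPolynomial.X 3 * G2 (MvPolynomial.X 0) (MvPolynomial.X 1)) ^ 5) =
      tForm (Hsw (MvPolynomial.X 0) (MvPolynomial.X 1)) (Tsw (MvPolynomial.X 0) (MvPolynomial.X 1))
        (MvPolynomial.X 2) (MvPolynomial.X 3) := by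
    apply IsFractionRing.injective GenRing (FractionRing GenRing)
    simp only [map_Hsw, map_Tsw, map_tForm, map_G1, map_G2, map_mul, map_add, map_sub, map_pow]
    exact T_form_sw_field _ _ _ _ gen_X2_ne
  have := congrArg (genEval s w lam mu) hgen
  simpa only [map_Hsw, map_Tsw, map_tForm, map_G1, map_G2, map_mul, map_add, map_sub, map_pow,
    genEval_X0, genEval_X1, genEval_X2, genEval_X3] using this

theorem g_form_sw (s w lam mu : R) :
    (lam + mu * G1 s w) * (lam - mu * G2 s w) *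
        gsw (s * (lam + mu * G1 s w) ^ 5) (w * (lam - mu * G2 s w) ^ 5) =
      gsw s w * rhoForm (Hsw s w) (Tsw s w) lam mu := by
  have hgen : ((MvPolynomial.X 2 : GenRing) +
          MvPolynomial.X 3 * G1 (MvPolynomial.X 0) (MvPolynomial.X 1)) *
        (MvPolynomial.X 2 - MvPolynomial.X 3 * G2 (MvPolynomial.X 0) (MvPolynomial.X 1)) *
      gsw ((MvPolynomial.X 0 : GenRing) *
        (MvPolynomial.X 2 + MvPolynomial.X 3 * G1 (MvPolynomial.X 0) (MvPolynomial.X 1)) ^ 5)
        (MvPolynomial.X 1 *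
        (MvPolynomial.X 2 - MvPolynomial.X 3 * G2 (MvPolynomial.X 0) (MvPolynomial.X 1)) ^ 5) =
      gsw (MvPolynomial.X 0) (MvPolynomial.X 1) *
      rhoForm (Hsw (MvPolynomial.X 0) (MvPolynomial.X 1))
        (Tsw (MvPolynomial.X 0) (MvPolynomial.X 1))
        (MvPolynomial.X 2) (MvPolynomial.X 3) := by
    apply IsFractionRing.injective GenRing (FractionRing GenRing)
    simp only [map_Hsw, map_Tsw, map_gsw, map_rhoForm, map_G1, map_G2, map_mul, map_add, map_sub,
      map_pow]
    exact g_form_sw_field _ _ _ _ gen_X2_ne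
  have := congrArg (genEval s w lam mu) hgen
  simpa only [map_Hsw, map_Tsw, map_gsw, map_rhoForm, map_G1, map_G2, map_mul, map_add, map_sub,
    map_pow, genEval_X0, genEval_X1, genEval_X2, genEval_X3] using this

/-! ### `(u, v)`-level -/

/-- Klein's `H(u, v)` (degree 20). -/
def Huv (u v : R) : R := Hsw (u ^ 5) (v ^ 5)

/-- Klein's `T(u, v)` (degree 30). -/
def Tuv (u v : R) : R := Tsw (u ^ 5) (v ^ 5)

/-- Klein's `f(u, v) = u v (u¹⁰ + 11 u⁵ v⁵ - v¹⁰)` (degree 12). -/
def fuv (u v : R) : R := u * v * gsw (u ^ 5) (v ^ 5)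

/-- First component of the covariant `n(p) = (f_v, -f_u)` (up to the factor `1`). -/
def nu (u v : R) : R := u * G1 (u ^ 5) (v ^ 5)

/-- Second component of the covariant `n(p) = (f_v, -f_u)`. -/
def nv (u v : R) : R := -(v * G2 (u ^ 5) (v ^ 5))

theorem syzygy_uv (u v : R) : Tuv u v ^ 2 + Huv u v ^ 3 = 1728 * fuv u v ^ 5 := by
  unfold Tuv Huv fuv
  rw [syzygy_sw]; ring

/-- `det (p, n(p)) = -12 f(p)`. -/
theorem det_nu_nv (u v : R) : u * nv u v - v * nu u v = -12 * fuv u v := by
  unfold nu nv fuv G1 G2 gsw; ring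

theorem line_u (u v lam mu : R) :
    lam * u + mu * nu u v = u * (lam + mu * G1 (u ^ 5) (v ^ 5)) := by
  unfold nu; ring

theorem line_v (u v lam mu : R) :
    lam * v + mu * nv u v = v * (lam - mu * G2 (u ^ 5) (v ^ 5)) := by
  unfold nv; ring

theorem H_form (u v lam mu : R) :
    Huv (lam * u + mu * nu u v) (lam * v + mu * nv u v) =
      hForm (Huv u v) (Tuv u v) lam mu := by
  rw [line_u, line_v]
  unfold Huv Tuv
  rw [mul_pow, mul_pow, H_form_sw]

theorem T_form (u v lam mu : R) :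
    Tuv (lam * u + mu * nu u v) (lam * v + mu * nv u v) =
      tForm (Huv u v) (Tuv u v) lam mu := by
  rw [line_u, line_v]
  unfold Huv Tuv
  rw [mul_pow, mul_pow, T_form_sw]

theorem f_form (u v lam mu : R) :
    fuv (lam * u + mu * nu u v) (lam * v + mu * nv u v) =
      fuv u v * rhoForm (Huv u v) (Tuv u v) lam mu := by
  rw [line_u, line_v]
  unfold Huv Tuv fuv
  rw [mul_pow, mul_pow]
  linear_combination (u * v) * g_form_sw (u ^ 5) (v ^ 5) lam mu

theorem H_param (u v t : R) :
    Huv (u + t * nu u v) (v + t * nv u v) = hPoly (Huv u v) (Tuv u v) t := by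
  have := H_form u v 1 t
  rwa [one_mul, one_mul, hForm_one] at this

theorem T_param (u v t : R) :
    Tuv (u + t * nu u v) (v + t * nv u v) = tPoly (Huv u v) (Tuv u v) t := by
  have := T_form u v 1 t
  rwa [one_mul, one_mul, tForm_one] at this

theorem f_param (u v t : R) :
    fuv (u + t * nu u v) (v + t * nv u v) = fuv u v * rhoPoly (Huv u v) (Tuv u v) t := by
  have := f_form u v 1 t
  rwa [one_mul, one_mul, rhoForm_one] at this

/-! ### Links with `C4fam`, `C6fam`, `Ffam` -/

theorem eval_C4fam_point (u v t : R) :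
    (C4fam (-Huv u v) (-Tuv u v)).eval t = -Huv (u + t * nu u v) (v + t * nv u v) := by
  rw [eval_C4fam, neg_neg, neg_neg, H_param]

theorem eval_C6fam_point (u v t : R) :
    (C6fam (-Huv u v) (-Tuv u v)).eval t = -Tuv (u + t * nu u v) (v + t * nv u v) := by
  rw [eval_C6fam, neg_neg, neg_neg, T_param]

theorem eval_Ffam_point (u v t : R) :
    fuv u v * (Ffam (-Huv u v) (-Tuv u v)).eval t = fuv (u + t * nu u v) (v + t * nv u v) := by
  rw [eval_Ffam, neg_neg, neg_neg, f_param]

/-- Polynomial form (for `KleinLink`): with `S = s (1 + t G₁)⁵`, `T = w (1 - t G₂)⁵` in `R[t]`,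
`C4fam = -H(S, T)`. -/
theorem C4fam_eq_neg_Hsw (s w : R) :
    C4fam (-Hsw s w) (-Tsw s w) =
      -Hsw (C s * (1 + X * C (G1 s w)) ^ 5) (C w * (1 - X * C (G2 s w)) ^ 5) := by
  have := H_param_sw (C s) (C w) (X : R[X])
  rw [← map_G1 (C : R →+* R[X]), ← map_G2 (C : R →+* R[X]), ← map_Hsw (C : R →+* R[X]),
    ← map_Tsw (C : R →+* R[X])] at this
  rw [C4fam, map_neg, map_neg, neg_neg, neg_neg, this]

theorem C6fam_eq_neg_Tsw (s w : R) :
    C6fam (-Hsw s w) (-Tsw s w) =
      -Tsw (C s * (1 + X * C (G1 s w)) ^ 5) (C w * (1 - X * C (G2 s w)) ^ 5) := by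
  have := T_param_sw (C s) (C w) (X : R[X])
  rw [← map_G1 (C : R →+* R[X]), ← map_G2 (C : R →+* R[X]), ← map_Hsw (C : R →+* R[X]),
    ← map_Tsw (C : R →+* R[X])] at this
  rw [C6fam, map_neg, map_neg, neg_neg, neg_neg, this]

end Fermat.Agent.S52x.KleinFam7
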