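/-
S52 (3–5 switch), helper9: the `F`-facts of `Switch4.FamilyFacts` for integer invariants
`(c₄, c₆)`, `c₄³ ≠ c₆²`, for the polynomials `-hX (-c₄) (-c₆)`, `rhoX (-c₄) (-c₆) : ℤ[X]`
(`= C4fam c₄ c₆`, `Ffam c₄ c₆` of `KleinFam7Main`), modulo the identities `GId`, `HId`.
-/
import Mathlib
import Fermat.Agent.S52x.FamSq9

set_option autoImplicit false

open Polynomial

namespace Fermat.Agent.S52x.FamSq9

open Fermat.Agent.S52x.KleinFam7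

local notation "Qb" => AlgebraicClosure ℚ

theorem hne_of_int9 {c4 c6 : ℤ} (hD : c4 ^ 3 ≠ c6 ^ 2) :
    (-(c4 : ℚ)) ^ 3 + (-(c6 : ℚ)) ^ 2 ≠ 0 := by
  intro h
  apply hD
  have h1 : ((c4 ^ 3 : ℤ) : ℚ) = ((c6 ^ 2 : ℤ) : ℚ) := by
    push_cast
    linear_combination -h
  exact_mod_cast h1

theorem map_rhoX_int9 (c4 c6 : ℤ) :
    (rhoX (-c4) (-c6) : ℤ[X]).map (Int.castRingHom ℚ) = rhoX (-(c4 : ℚ)) (-(c6 : ℚ)) := by
  rw [map_rhoX]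
  simp

theorem map_hX_int9 (c4 c6 : ℤ) :
    (hX (-c4) (-c6) : ℤ[X]).map (Int.castRingHom ℚ) = hX (-(c4 : ℚ)) (-(c6 : ℚ)) := by
  rw [map_hX]
  simp

/-- `Squarefree (F.map (Int.castRingHom ℚ))`. -/
theorem squarefree_map_rhoX_int (hG : GId Qb[X]) {c4 c6 : ℤ} (hD : c4 ^ 3 ≠ c6 ^ 2) :
    Squarefree ((rhoX (-c4) (-c6) : ℤ[X]).map (Int.castRingHom ℚ)) := by
  rw [map_rhoX_int9]
  exact (separable_rhoX hG _ _ (hne_of_int9 hD)).squarefree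

/-- `IsCoprime (C4.map (Int.castRingHom ℚ)) (F.map (Int.castRingHom ℚ))`. -/
theorem isCoprime_map_int (hG : GId Qb[X]) (hH : HId Qb[X]) {c4 c6 : ℤ}
    (hD : c4 ^ 3 ≠ c6 ^ 2) :
    IsCoprime ((-(hX (-c4) (-c6)) : ℤ[X]).map (Int.castRingHom ℚ))
      ((rhoX (-c4) (-c6) : ℤ[X]).map (Int.castRingHom ℚ)) := by
  rw [Polynomial.map_neg, map_rhoX_int9, map_hX_int9]
  exact (isCoprime_hX_rhoX hG hH _ _ (hne_of_int9 hD)).neg_left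

/-- `7 ≤ (F.map (Int.castRingHom ℚ)).natDegree`. -/
theorem natDegree_map_int {c4 c6 : ℤ} (hD : c4 ^ 3 ≠ c6 ^ 2) :
    7 ≤ ((rhoX (-c4) (-c6) : ℤ[X]).map (Int.castRingHom ℚ)).natDegree := by
  rw [map_rhoX_int9]
  exact natDegree_rhoX_ge _ _ (hne_of_int9 hD)

end Fermat.Agent.S52x.FamSq9
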