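/-
S52 (3–5 switch), helper9: the Klein parametrisation identity for the vertex form `g`
(`g_form_sw9`), by plain `ring`.
-/
import Mathlib
import Fermat.Agent.S52x.KleinFam7

set_option autoImplicit false

namespace Fermat.Agent.S52x.KleinG9

open Fermat.Agent.S52x.KleinFam7

variable {R : Type*} [CommRing R]

set_option maxHeartbeats 4000000 in
/-- **the parametrisation identity for `g`.** -/
theorem g_form_sw9 (s w lam mu : R) : (lam + mu * G1 s w) * (lam - mu * G2 s w) *
      gsw (s * (lam + mu * G1 s w) ^ 5) (w * (lam - mu * G2 s w) ^ 5) =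
    gsw s w * rhoForm (Hsw s w) (Tsw s w) lam mu := by
  unfold rhoForm rc0 rc1 rc2 rc3 rc4 rc5 rc6 rc7 rc8 rc9 rc10 rc11 rc12 gsw G1 G2 Hsw Tsw
  ring

end Fermat.Agent.S52x.KleinG9
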