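/-
S52 (3–5 switch), helper9: the `F`-facts of `Switch4.FamilyFacts`, unconditional
(`FamSq9Int` + the parametrisation identities `KleinG9.g_form_sw9`, `KleinH9.H_form_sw9`).
-/
import Mathlib
import Fermat.Agent.S52x.FamSq9Int
import Fermat.Agent.S52x.KleinG9
import Fermat.Agent.S52x.KleinH9

set_option autoImplicit false

open Polynomial

namespace Fermat.Agent.S52x.FamSq9

open Fermat.Agent.S52x.KleinFam7

theorem gId9 (R : Type*) [CommRing R] : GId R :=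
  fun s w lam mu => Fermat.Agent.S52x.KleinG9.g_form_sw9 s w lam mu

theorem hId9 (R : Type*) [CommRing R] : HId R :=
  fun s w lam mu => Fermat.Agent.S52x.KleinH9.H_form_sw9 s w lam mu

/-- `Squarefree (F.map (Int.castRingHom ℚ))` for `F = rhoPoly (C (-c₄)) (C (-c₆)) X`. -/
theorem squarefree_F {c4 c6 : ℤ} (hD : c4 ^ 3 ≠ c6 ^ 2) :
    Squarefree ((rhoPoly (C (-c4)) (C (-c6)) X : ℤ[X]).map (Int.castRingHom ℚ)) :=
  squarefree_map_rhoX_int (gId9 _) hD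

/-- `IsCoprime (C4.map (Int.castRingHom ℚ)) (F.map (Int.castRingHom ℚ))` for
`C4 = -hPoly (C (-c₄)) (C (-c₆)) X`, `F = rhoPoly (C (-c₄)) (C (-c₆)) X`. -/
theorem isCoprime_C4_F {c4 c6 : ℤ} (hD : c4 ^ 3 ≠ c6 ^ 2) :
    IsCoprime ((-(hPoly (C (-c4)) (C (-c6)) X) : ℤ[X]).map (Int.castRingHom ℚ))
      ((rhoPoly (C (-c4)) (C (-c6)) X : ℤ[X]).map (Int.castRingHom ℚ)) :=
  isCoprime_map_int (gId9 _) (hId9 _) hD

/-- `7 ≤ (F.map (Int.castRingHom ℚ)).natDegree`. -/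
theorem natDegree_F {c4 c6 : ℤ} (hD : c4 ^ 3 ≠ c6 ^ 2) :
    7 ≤ ((rhoPoly (C (-c4)) (C (-c6)) X : ℤ[X]).map (Int.castRingHom ℚ)).natDegree :=
  natDegree_map_int hD

end Fermat.Agent.S52x.FamSq9
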