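/-
S52 (3–5 switch), chunk B3 (helper7): Hilbert-irreducibility-lite, algebraic core (H4).

The modular equation of `X₀(3)`, `(s + 27)(s + 3)³ = j s`, has no solution `s` in the rational
function field `ℂ(x)` when `j = Nt / Dt` with `Dt = κ F⁵`, `F` squarefree and non-constant,
`F` coprime to `Nt` and `deg Nt ≤ deg Dt`.

`no_ratfunc_root` : there are no coprime `A B : ℂ[X]`, `B ≠ 0`, with
`(A + 27 B)(A + 3 B)³ Dt = Nt A B³`.
-/
import Mathlib

set_option autoImplicit false

open Polynomial

namespace Fermat.Agent.S52x.Hit7Alg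

/-- `rootMultiplicity` of a power (for a nonzero polynomial). -/
theorem rootMultiplicity_pow' {K : Type*} [Field K] {p : K[X]} (hp : p ≠ 0) (z : K) (n : ℕ) :
    rootMultiplicity z (p ^ n) = n * rootMultiplicity z p := by
  induction n with
  | zero => simp
  | succ n ih =>
    rw [pow_succ, rootMultiplicity_mul (mul_ne_zero (pow_ne_zero n hp) hp), ih]
    ring

theorem eval_ne_zero_of_isCoprime_of_isRoot {K : Type*} [Field K] {A B : K[X]}
    (h : IsCoprime A B) {z : K} (hz : B.IsRoot z) : A.eval z ≠ 0 := by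
  obtain ⟨u, v, huv⟩ := h
  intro hA
  have := congrArg (Polynomial.eval z) huv
  simp only [eval_add, eval_mul, eval_one, hA, hz.eq_zero, mul_zero, add_zero] at this
  exact zero_ne_one this

/-- **(H4)** -/
theorem no_ratfunc_root {Nt Dt F : ℂ[X]} {κ : ℂ} (hκ : κ ≠ 0)
    (hD : Dt = C κ * F ^ 5) (hF : Squarefree F) (hFdeg : 0 < F.natDegree)
    (hcop : IsCoprime F Nt) (hdeg : Nt.natDegree ≤ Dt.natDegree)
    (A B : ℂ[X]) (hAB : IsCoprime A B) (hB : B ≠ 0)
    (h : (A + 27 * B) * (A + 3 * B) ^ 3 * Dt = Nt * A * B ^ 3) : False := by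
  have hF0 : F ≠ 0 := by
    rintro rfl
    simp at hFdeg
  have hD0 : Dt ≠ 0 := by
    rw [hD]
    exact mul_ne_zero (C_ne_zero.mpr hκ) (pow_ne_zero 5 hF0)
  have hFnu : ¬ IsUnit F := by
    intro hu
    have := natDegree_eq_zero_of_isUnit hu
    omega
  have hNt0 : Nt ≠ 0 := by
    rintro rfl
    exact hFnu (isCoprime_zero_right.mp hcop)
  -- Step 1: `B` has no root.
  have hBroot : ∀ z : ℂ, ¬ B.IsRoot z := by
    intro z hz
    have hAz : A.eval z ≠ 0 := eval_ne_zero_of_isCoprime_of_isRoot hAB hz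
    have hA0 : A ≠ 0 := by
      rintro rfl
      simp at hAz
    have h27 : (A + 27 * B).eval z ≠ 0 := by
      simpa [hz.eq_zero] using hAz
    have h3 : (A + 3 * B).eval z ≠ 0 := by
      simpa [hz.eq_zero] using hAz
    have h27' : A + 27 * B ≠ 0 := by
      intro h0
      rw [h0] at h27
      simp at h27
    have h3' : A + 3 * B ≠ 0 := by
      intro h0
      rw [h0] at h3
      simp at h3
    -- `Dt` vanishes at `z`
    have hDz : Dt.eval z = 0 := by
      have := congrArg (Polynomial.eval z) h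
      simp only [eval_mul, eval_pow, hz.eq_zero] at this
      have h4 : (A + 27 * B).eval z * (A + 3 * B).eval z ^ 3 ≠ 0 :=
        mul_ne_zero h27 (pow_ne_zero 3 h3)
      have : (A + 27 * B).eval z * (A + 3 * B).eval z ^ 3 * Dt.eval z = 0 := by
        rw [this]; ring
      exact (mul_eq_zero.mp this).resolve_left h4
    have hFz : F.IsRoot z := by
      rw [hD] at hDz
      simp only [eval_mul, eval_C, eval_pow] at hDz
      rcases mul_eq_zero.mp hDz with h1 | h1
      · exact absurd h1 hκ
      · exact pow_eq_zero_iff (by norm_num) |>.mp h1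
    have hNz : ¬ Nt.IsRoot z := by
      intro hN
      exact eval_ne_zero_of_isCoprime_of_isRoot hcop hN hFz
    -- multiplicities
    have hmF : rootMultiplicity z F = 1 := by
      have h1 : rootMultiplicity z F ≤ 1 :=
        rootMultiplicity_le_one_of_separable
          ((PerfectField.separable_iff_squarefree).mpr hF) z
      have h2 : 0 < rootMultiplicity z F := (rootMultiplicity_pos hF0).mpr hFz
      omega
    have hmD : rootMultiplicity z Dt = 5 := by
      rw [hD, rootMultiplicity_mul (by rw [← hD]; exact hD0), rootMultiplicity_pow' hF0, hmF,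
        rootMultiplicity_C]
    have hL0 : (A + 27 * B) * (A + 3 * B) ^ 3 * Dt ≠ 0 :=
      mul_ne_zero (mul_ne_zero h27' (pow_ne_zero 3 h3')) hD0
    have hR0 : Nt * A * B ^ 3 ≠ 0 := by rw [← h]; exact hL0
    have hL : rootMultiplicity z ((A + 27 * B) * (A + 3 * B) ^ 3 * Dt) = 5 := by
      rw [rootMultiplicity_mul hL0, rootMultiplicity_mul (left_ne_zero_of_mul hL0),
        rootMultiplicity_pow' h3', rootMultiplicity_eq_zero (p := A + 27 * B) (by simpa [IsRoot] using h27),
        rootMultiplicity_eq_zero (p := A + 3 * B) (by simpa [IsRoot] using h3), hmD]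
    have hR : rootMultiplicity z (Nt * A * B ^ 3) = 3 * rootMultiplicity z B := by
      rw [rootMultiplicity_mul hR0, rootMultiplicity_mul (left_ne_zero_of_mul hR0),
        rootMultiplicity_pow' hB, rootMultiplicity_eq_zero hNz,
        rootMultiplicity_eq_zero (p := A) (by simpa [IsRoot] using hAz)]
      ring
    rw [h] at hL
    omega
  -- hence `B` is constant
  have hBdeg : B.natDegree = 0 := by
    by_contra hne
    have hdeg' : B.degree ≠ 0 := by
      intro h0
      exact hne (natDegree_eq_of_degree_eq_some h0)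
    obtain ⟨z, hz⟩ := IsAlgClosed.exists_root B hdeg'
    exact hBroot z hz
  obtain ⟨b, hb⟩ : ∃ b : ℂ, B = C b := ⟨B.coeff 0, eq_C_of_natDegree_eq_zero hBdeg⟩
  have hb0 : b ≠ 0 := by
    rintro rfl
    exact hB (by simpa using hb)
  subst hb
  -- Step 2: degrees
  have hA0 : A ≠ 0 := by
    rintro rfl
    have h1 : ((0 : ℂ[X]) + 27 * C b) * (0 + 3 * C b) ^ 3 * Dt = 0 := by rw [h]; ring
    have h2 : ((0 : ℂ[X]) + 27 * C b) * (0 + 3 * C b) ^ 3 = C (27 * b * (3 * b) ^ 3) := by
      simp only [zero_add, map_mul, map_pow]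
      congr 1
    rw [h2] at h1
    rcases mul_eq_zero.mp h1 with h3 | h3
    · rw [C_eq_zero] at h3
      have : (27 : ℂ) * b * (3 * b) ^ 3 ≠ 0 := by
        apply mul_ne_zero (mul_ne_zero (by norm_num) hb0) (pow_ne_zero 3 (mul_ne_zero (by norm_num) hb0))
      exact this h3
    · exact hD0 h3
  by_cases hAdeg : A.natDegree = 0
  · -- `A` constant
    obtain ⟨c, hc⟩ : ∃ c : ℂ, A = C c := ⟨A.coeff 0, eq_C_of_natDegree_eq_zero hAdeg⟩
    subst hc
    have hc0 : c ≠ 0 := by
      rintro rfl
      exact hA0 (by simp)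
    have hL : (C c + 27 * C b) * (C c + 3 * C b) ^ 3 = C ((c + 27 * b) * (c + 3 * b) ^ 3) := by
      simp only [map_mul, map_pow, map_add]
      congr 1
    have hR : Nt * C c * C b ^ 3 = C (c * b ^ 3) * Nt := by
      simp only [map_mul, map_pow]; ring
    rw [hL, hR] at h
    -- `F ∣ C _ * Nt`
    have hcb : c * b ^ 3 ≠ 0 := mul_ne_zero hc0 (pow_ne_zero 3 hb0)
    have hFdvd : F ∣ C (c * b ^ 3) * Nt := by
      rw [← h, hD]
      exact ⟨C ((c + 27 * b) * (c + 3 * b) ^ 3) * C κ * F ^ 4, by ring⟩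
    have hFN : F ∣ Nt := by
      have hu : IsUnit (C (c * b ^ 3) : ℂ[X]) := isUnit_C.mpr (isUnit_iff_ne_zero.mpr hcb)
      exact (hu.dvd_mul_left).mp hFdvd
    exact hFnu (hcop.isUnit_of_dvd' dvd_rfl hFN)
  · -- `A` non-constant: degree contradiction
    have hpos : 0 < A.natDegree := Nat.pos_of_ne_zero hAdeg
    have hd27 : (A + 27 * C b).natDegree = A.natDegree := by
      have : (27 * C b : ℂ[X]) = C (27 * b) := by
        rw [show (27 : ℂ[X]) = C 27 from (map_ofNat C 27).symm, ← C_mul]
      rw [this]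
      exact natDegree_add_C
    have hd3 : (A + 3 * C b).natDegree = A.natDegree := by
      have : (3 * C b : ℂ[X]) = C (3 * b) := by
        rw [show (3 : ℂ[X]) = C 3 from (map_ofNat C 3).symm, ← C_mul]
      rw [this]
      exact natDegree_add_C
    have h27' : A + 27 * C b ≠ 0 := by
      intro h0
      rw [h0] at hd27
      simp at hd27
      omega
    have h3' : A + 3 * C b ≠ 0 := by
      intro h0
      rw [h0] at hd3
      simp at hd3
      omega
    have hLdeg : ((A + 27 * C b) * (A + 3 * C b) ^ 3 * Dt).natDegree =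
        4 * A.natDegree + Dt.natDegree := by
      rw [natDegree_mul (mul_ne_zero h27' (pow_ne_zero 3 h3')) hD0,
        natDegree_mul h27' (pow_ne_zero 3 h3'), natDegree_pow, hd27, hd3]
      ring
    have hRdeg : (Nt * A * C b ^ 3).natDegree = Nt.natDegree + A.natDegree := by
      have : (C b ^ 3 : ℂ[X]) = C (b ^ 3) := by simp
      rw [this, natDegree_mul_C (pow_ne_zero 3 hb0), natDegree_mul hNt0 hA0]
    rw [h] at hLdeg
    omega

end Fermat.Agent.S52x.Hit7Alg
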