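/-
S52 (3–5 switch), chapter B3 (Hilbert irreducibility, lite), part A (helper8):
**a polynomial which is arbitrarily close to integers on `d + 1` clustered integer nodes has
rational coefficients with bounded denominator.**

`P : ℂ[X]` of degree `≤ d`; if for every `ε > 0` there are `d + 1` integers in a window of length
`L` at which `P` is `ε`-close to `ℤ`, then `K • P ∈ ℤ[X]` for some `K ≠ 0`
(leading coefficient by the divided-difference formula, induction on `d`).
-/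
import Mathlib

set_option autoImplicit false

namespace Fermat.Agent.S52x.Hit8A

open Polynomial Finset

/-- `P` is arbitrarily close to integers on `d + 1` integer nodes clustered in a window of
length `L`. -/
def NearInt (P : ℂ[X]) (L d : ℕ) : Prop :=
  ∀ ε : ℝ, 0 < ε → ∃ (T : ℤ) (s : Finset ℤ), s ⊆ Finset.Ico T (T + L) ∧ s.card = d + 1 ∧
    ∀ a ∈ s, ∃ z : ℤ, ‖P.eval (a : ℂ) - z‖ < ε

/-- `K • P` has integer coefficients. -/
def IntCoeffs (K : ℕ) (P : ℂ[X]) : Prop := ∀ k : ℕ, ∃ z : ℤ, (K : ℂ) * P.coeff k = z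

/-- a complex number arbitrarily close to integers is an integer. -/
theorem eq_intCast_of_near {c : ℂ} (h : ∀ ε : ℝ, 0 < ε → ∃ z : ℤ, ‖c - z‖ < ε) :
    ∃ z : ℤ, c = z := by
  obtain ⟨z0, hz0⟩ := h (1 / 2) (by norm_num)
  refine ⟨z0, ?_⟩
  by_contra hne
  have hpos : 0 < ‖c - z0‖ := norm_pos_iff.mpr (sub_ne_zero.mpr hne)
  obtain ⟨z, hz⟩ := h (min (1 / 2) ‖c - z0‖) (lt_min (by norm_num) hpos)
  have h1 : ‖((z - z0 : ℤ) : ℂ)‖ < 1 := by
    have : ((z - z0 : ℤ) : ℂ) = (c - z0) - (c - z) := by push_cast; ring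
    rw [this]
    calc ‖(c - z0) - (c - z)‖ ≤ ‖c - z0‖ + ‖c - z‖ := norm_sub_le _ _
      _ < 1 / 2 + 1 / 2 := add_lt_add hz0 (lt_of_lt_of_le hz (min_le_left _ _))
      _ = 1 := by norm_num
  have h2 : z - z0 = 0 := by
    by_contra hne'
    have : (1 : ℝ) ≤ ‖((z - z0 : ℤ) : ℂ)‖ := by
      rw [Complex.norm_intCast]
      exact_mod_cast Int.one_le_abs hne'
    linarith
  have h3 : z = z0 := by linarith
  rw [h3] at hz
  exact absurd hz (not_lt.mpr (min_le_right _ _))

/-- the integer weights of the divided difference divide a power of `L !`. -/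
theorem exists_weight {T : ℤ} {L : ℕ} {s : Finset ℤ} (hs : s ⊆ Finset.Ico T (T + L)) {a : ℤ}
    (ha : a ∈ s) :
    ∃ q : ℤ, (∏ b ∈ s.erase a, (a - b)) * q = ((L.factorial ^ (s.erase a).card : ℕ) : ℤ) ∧
      (∏ b ∈ s.erase a, (a - b)) ≠ 0 ∧ |q| ≤ ((L.factorial ^ (s.erase a).card : ℕ) : ℤ) := by
  have hfac : ∀ b ∈ s.erase a, (a - b) ∣ (L.factorial : ℤ) ∧ a - b ≠ 0 := by
    intro b hb
    have hba : b ≠ a := (Finset.mem_erase.mp hb).1
    have hbs : b ∈ s := (Finset.mem_erase.mp hb).2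
    have h1 := Finset.mem_Ico.mp (hs ha)
    have h2 := Finset.mem_Ico.mp (hs hbs)
    have hne : a - b ≠ 0 := sub_ne_zero.mpr (Ne.symm hba)
    refine ⟨?_, hne⟩
    have hlt : (a - b).natAbs ≤ L := by
      have : |a - b| < L := by rw [abs_lt]; constructor <;> linarith
      omega
    have hpos : 0 < (a - b).natAbs := Int.natAbs_pos.mpr hne
    have := Nat.dvd_factorial hpos hlt
    exact Int.natAbs_dvd.mp (Int.natCast_dvd_natCast.mpr this)
  have hdvd : (∏ b ∈ s.erase a, (a - b)) ∣ ((L.factorial ^ (s.erase a).card : ℕ) : ℤ) := by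
    have := Finset.prod_dvd_prod_of_dvd (s := s.erase a) (fun b : ℤ => a - b)
      (fun _ => (L.factorial : ℤ)) (fun b hb => (hfac b hb).1)
    rw [Finset.prod_const] at this
    push_cast
    exact this
  have hne : (∏ b ∈ s.erase a, (a - b)) ≠ 0 :=
    Finset.prod_ne_zero_iff.mpr fun b hb => (hfac b hb).2
  obtain ⟨q, hq⟩ := hdvd
  refine ⟨q, hq.symm, hne, ?_⟩
  have hKpos : (0 : ℤ) < ((L.factorial ^ (s.erase a).card : ℕ) : ℤ) := by
    exact_mod_cast pow_pos (Nat.factorial_pos L) _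
  have hq0 : q ≠ 0 := by
    rintro rfl
    rw [mul_zero] at hq
    exact absurd hq hKpos.ne'
  have h1 : (1 : ℤ) ≤ |∏ b ∈ s.erase a, (a - b)| := Int.one_le_abs hne
  calc |q| = 1 * |q| := (one_mul _).symm
    _ ≤ |∏ b ∈ s.erase a, (a - b)| * |q| := by gcongr
    _ = |((L.factorial ^ (s.erase a).card : ℕ) : ℤ)| := by rw [← abs_mul, ← hq]
    _ = ((L.factorial ^ (s.erase a).card : ℕ) : ℤ) := abs_of_pos hKpos

/-- **the `d`-th coefficient of a near-integral polynomial of degree `≤ d` is rational with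
denominator dividing `(L !) ^ d`.** -/
theorem coeff_near_int {P : ℂ[X]} {L d : ℕ} (hdeg : P.natDegree ≤ d) (h : NearInt P L d) :
    ∃ z : ℤ, ((L.factorial ^ d : ℕ) : ℂ) * P.coeff d = z := by
  apply eq_intCast_of_near
  intro ε hε
  set K0 : ℕ := L.factorial ^ d with hK0
  have hK0pos : 0 < K0 := pow_pos (Nat.factorial_pos L) d
  have hK0pos' : (0 : ℝ) < K0 := by exact_mod_cast hK0pos
  obtain ⟨T, s, hsub, hcard, hnear⟩ := h (ε / (2 * (d + 1) * K0)) (by positivity)
  choose! zf hzf using hnear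
  have hinj : Set.InjOn (fun a : ℤ => (a : ℂ)) s := fun a _ b _ hab => by
    simpa using hab
  have hcoeff := Lagrange.coeff_eq_sum (s := s) (v := fun a : ℤ => (a : ℂ)) hinj (P := P) (by
    rw [hcard]
    exact lt_of_le_of_lt degree_le_natDegree (by exact_mod_cast Nat.lt_succ_of_le hdeg))
  rw [hcard, Nat.add_sub_cancel] at hcoeff
  have hcard' : ∀ a ∈ s, (s.erase a).card = d := fun a ha => by
    rw [Finset.card_erase_of_mem ha, hcard, Nat.add_sub_cancel]
  have hw : ∀ a ∈ s, ∃ q : ℤ, (∏ b ∈ s.erase a, (a - b)) * q = (K0 : ℤ) ∧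
      (∏ b ∈ s.erase a, (a - b)) ≠ 0 ∧ |q| ≤ (K0 : ℤ) := by
    intro a ha
    have := exists_weight hsub ha
    rwa [hcard' a ha] at this
  choose! q hq using hw
  refine ⟨∑ a ∈ s, zf a * q a, ?_⟩
  have hterm : ∀ a ∈ s, (K0 : ℂ) * (P.eval (a : ℂ) / ∏ b ∈ s.erase a, ((a : ℂ) - (b : ℂ))) =
      P.eval (a : ℂ) * (q a : ℂ) := by
    intro a ha
    obtain ⟨h1, h2, -⟩ := hq a ha
    have hW : (∏ b ∈ s.erase a, ((a : ℂ) - (b : ℂ))) = ((∏ b ∈ s.erase a, (a - b) : ℤ) : ℂ) := by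
      push_cast; rfl
    have hW0 : ((∏ b ∈ s.erase a, (a - b) : ℤ) : ℂ) ≠ 0 := by exact_mod_cast h2
    have hK : (K0 : ℂ) = ((∏ b ∈ s.erase a, (a - b) : ℤ) : ℂ) * (q a : ℂ) := by
      rw [← Int.cast_mul, h1]; norm_cast
    rw [hW, hK]
    field_simp
  have hexp : (K0 : ℂ) * P.coeff d - ((∑ a ∈ s, zf a * q a : ℤ) : ℂ) =
      ∑ a ∈ s, (P.eval (a : ℂ) - zf a) * (q a : ℂ) := by
    rw [hcoeff, Finset.mul_sum, Finset.sum_congr rfl hterm]
    push_cast
    rw [← Finset.sum_sub_distrib]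
    exact Finset.sum_congr rfl fun a _ => by ring
  rw [hexp]
  calc ‖∑ a ∈ s, (P.eval (a : ℂ) - zf a) * (q a : ℂ)‖
      ≤ ∑ a ∈ s, ‖(P.eval (a : ℂ) - zf a) * (q a : ℂ)‖ := norm_sum_le _ _
    _ ≤ ∑ _a ∈ s, ε / (2 * (d + 1) * K0) * K0 := by
        apply Finset.sum_le_sum
        intro a ha
        rw [norm_mul]
        have hqa : ‖(q a : ℂ)‖ ≤ K0 := by
          rw [Complex.norm_intCast]
          exact_mod_cast (hq a ha).2.2
        exact mul_le_mul (hzf a ha).le hqa (norm_nonneg _) (by positivity)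
    _ = (d + 1) * (ε / (2 * (d + 1) * K0) * K0) := by
        rw [Finset.sum_const, hcard, nsmul_eq_mul]; push_cast; ring
    _ = ε / 2 := by field_simp
    _ < ε := half_lt_self hε

/-- **a near-integral polynomial has rational coefficients with a common denominator.** -/
theorem exists_intCoeffs (L : ℕ) :
    ∀ (d : ℕ) (P : ℂ[X]), P.natDegree ≤ d → NearInt P L d → ∃ K : ℕ, 0 < K ∧ IntCoeffs K P := by
  intro d
  induction d with
  | zero =>
    intro P hdeg h
    obtain ⟨z, hz⟩ := coeff_near_int hdeg h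
    refine ⟨1, one_pos, fun k => ?_⟩
    rcases Nat.eq_zero_or_pos k with rfl | hk
    · exact ⟨z, by simpa using hz⟩
    · exact ⟨0, by
        rw [coeff_eq_zero_of_natDegree_lt (lt_of_le_of_lt hdeg hk)]; simp⟩
  | succ d ih =>
    intro P hdeg h
    obtain ⟨z, hz⟩ := coeff_near_int hdeg h
    set K0 : ℕ := L.factorial ^ (d + 1) with hK0
    have hK0pos : 0 < K0 := pow_pos (Nat.factorial_pos L) _
    have hK0pos' : (0 : ℝ) < K0 := by exact_mod_cast hK0pos
    set P₁ : ℂ[X] := C (K0 : ℂ) * P - C (z : ℂ) * X ^ (d + 1) with hP₁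
    have hcoeff : ∀ k, P₁.coeff k = (K0 : ℂ) * P.coeff k - if k = d + 1 then (z : ℂ) else 0 := by
      intro k
      rw [hP₁, coeff_sub, coeff_C_mul, coeff_C_mul, coeff_X_pow]
      split_ifs <;> simp
    have hdeg₁ : P₁.natDegree ≤ d := by
      rw [natDegree_le_iff_coeff_eq_zero]
      intro k hk
      rw [hcoeff]
      rcases Nat.lt_or_ge (d + 1) k with h1 | h1
      · rw [coeff_eq_zero_of_natDegree_lt (lt_of_le_of_lt hdeg h1), if_neg (by omega)]
        simp
      · have : k = d + 1 := by omega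
        rw [if_pos this, this, hz, sub_self]
    have hnear₁ : NearInt P₁ L d := by
      intro ε hε
      obtain ⟨T, s, hsub, hcard, hnear⟩ := h (ε / K0) (by positivity)
      obtain ⟨s', hs's, hs'card⟩ := Finset.exists_subset_card_eq (s := s) (n := d + 1)
        (by rw [hcard]; omega)
      refine ⟨T, s', hs's.trans hsub, hs'card, fun a ha => ?_⟩
      obtain ⟨za, hza⟩ := hnear a (hs's ha)
      refine ⟨K0 * za - z * a ^ (d + 1), ?_⟩
      have : P₁.eval (a : ℂ) - ((K0 * za - z * a ^ (d + 1) : ℤ) : ℂ) =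
          (K0 : ℂ) * (P.eval (a : ℂ) - za) := by
        rw [hP₁]
        simp only [eval_sub, eval_mul, eval_C, eval_pow, eval_X]
        push_cast
        ring
      rw [this, norm_mul, Complex.norm_natCast]
      calc (K0 : ℝ) * ‖P.eval (a : ℂ) - za‖ < K0 * (ε / K0) := by gcongr
        _ = ε := by field_simp
    obtain ⟨K1, hK1pos, hK1⟩ := ih P₁ hdeg₁ hnear₁
    refine ⟨K1 * K0, Nat.mul_pos hK1pos hK0pos, fun k => ?_⟩
    obtain ⟨w, hw⟩ := hK1 k
    rw [hcoeff] at hw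
    refine ⟨w + K1 * (if k = d + 1 then z else 0), ?_⟩
    push_cast
    rw [← hw]
    ring

end Fermat.Agent.S52x.Hit8A
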