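/-
S52 (3–5 switch), chapter B3 (Hilbert irreducibility, lite), part B (helper8):
**finitely many analytic branches one of which is integral at every large `n`: one branch is a
polynomial.**

`h i : ℂ → ℂ` (`i` in a finite type) analytic at `0`, `d : ℕ`; if for all large `n : ℕ` some branch
has `n ^ d * h i (1 / n) ∈ ℤ`, then some `h i` coincides near `0` with a polynomial of degree `≤ d`
with rational coefficients.
-/
import Fermat.Agent.S52x.Hit8A

set_option autoImplicit false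

namespace Fermat.Agent.S52x.Hit8B

open Polynomial Finset Filter Topology
open Fermat.Agent.S52x.Hit8A

/-! ### Taylor polynomial and its reversal -/

/-- the Taylor polynomial of degree `≤ d` attached to a coefficient sequence. -/
noncomputable def taylorPoly (a : ℕ → ℂ) (d : ℕ) : ℂ[X] := ∑ k ∈ range (d + 1), C (a k) * X ^ k

/-- the reversed polynomial `t ^ d * T (1 / t)`. -/
noncomputable def revPoly (a : ℕ → ℂ) (d : ℕ) : ℂ[X] :=
  ∑ k ∈ range (d + 1), C (a k) * X ^ (d - k)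

theorem natDegree_taylorPoly_le (a : ℕ → ℂ) (d : ℕ) : (taylorPoly a d).natDegree ≤ d := by
  unfold taylorPoly
  refine natDegree_sum_le_of_forall_le _ _ fun k hk => ?_
  refine (natDegree_C_mul_X_pow_le _ _).trans ?_
  have := mem_range.mp hk
  omega

theorem natDegree_revPoly_le (a : ℕ → ℂ) (d : ℕ) : (revPoly a d).natDegree ≤ d := by
  unfold revPoly
  refine natDegree_sum_le_of_forall_le _ _ fun k _ => ?_
  refine (natDegree_C_mul_X_pow_le _ _).trans ?_
  omega

theorem eval_revPoly (a : ℕ → ℂ) (d : ℕ) {t : ℂ} (ht : t ≠ 0) :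
    (revPoly a d).eval t = t ^ d * (taylorPoly a d).eval t⁻¹ := by
  unfold revPoly taylorPoly
  rw [eval_finsetSum, eval_finsetSum, Finset.mul_sum]
  refine Finset.sum_congr rfl fun k hk => ?_
  have hk' : k ≤ d := by have := mem_range.mp hk; omega
  simp only [eval_mul, eval_C, eval_pow, eval_X]
  have : t ^ d = t ^ (d - k) * t ^ k := by rw [← pow_add, Nat.sub_add_cancel hk']
  rw [this, inv_pow]
  field_simp

theorem coeff_taylorPoly (a : ℕ → ℂ) (d k : ℕ) :
    (taylorPoly a d).coeff k = if k ≤ d then a k else 0 := by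
  unfold taylorPoly
  rw [finsetSum_coeff]
  simp only [coeff_C_mul, coeff_X_pow]
  split_ifs with h
  · rw [Finset.sum_eq_single k]
    · simp
    · intro b _ hb; simp [Ne.symm hb]
    · intro hk; exact absurd (mem_range.mpr (by omega)) hk
  · refine Finset.sum_eq_zero fun b hb => ?_
    have := mem_range.mp hb
    rw [if_neg (by omega), mul_zero]

theorem coeff_revPoly (a : ℕ → ℂ) (d k : ℕ) (hk : k ≤ d) :
    (revPoly a d).coeff (d - k) = a k := by
  unfold revPoly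
  rw [finsetSum_coeff]
  simp only [coeff_C_mul, coeff_X_pow]
  rw [Finset.sum_eq_single k]
  · simp
  · intro b hb hbk
    have := mem_range.mp hb
    rw [if_neg (by omega), mul_zero]
  · intro hk'; exact absurd (mem_range.mpr (by omega)) hk'

/-- the Taylor estimate for a function analytic at `0`. -/
theorem exists_taylor {h : ℂ → ℂ} (hh : AnalyticAt ℂ h 0) (d : ℕ) :
    ∃ (a : ℕ → ℂ) (Cst ρ : ℝ), 0 < ρ ∧ 0 ≤ Cst ∧
      ∀ x : ℂ, ‖x‖ < ρ → ‖h x - (taylorPoly a d).eval x‖ ≤ Cst * ‖x‖ ^ (d + 1) := by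
  obtain ⟨p, hp⟩ := hh
  have hO := hp.isBigO_sub_partialSum_pow (d + 1)
  obtain ⟨Cst, hCst0, hCst⟩ := hO.exists_nonneg
  rw [Asymptotics.IsBigOWith, Metric.eventually_nhds_iff] at hCst
  obtain ⟨ρ, hρ, hball⟩ := hCst
  refine ⟨fun k => p.coeff k, Cst, ρ, hρ, hCst0, fun x hx => ?_⟩
  have := hball (y := x) (by simpa using hx)
  rw [zero_add, norm_pow, norm_norm] at this
  have e : (taylorPoly (fun k => p.coeff k) d).eval x = p.partialSum (d + 1) x := by
    unfold taylorPoly FormalMultilinearSeries.partialSum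
    rw [eval_finsetSum]
    refine Finset.sum_congr rfl fun k _ => ?_
    rw [eval_mul, eval_C, eval_pow, eval_X, FormalMultilinearSeries.apply_eq_pow_smul_coeff,
      smul_eq_mul, mul_comm]
  rw [e]
  exact this

/-! ### pigeonhole over windows -/

/-- among finitely many branches, one occupies `d + 1` places in infinitely many windows of
length `#ι * d + 1`. -/
theorem exists_branch_windows {ι : Type*} [Fintype ι] (br : ℕ → ι) (d : ℕ) :
    ∃ i : ι, ∃ᶠ T : ℕ in atTop, ∃ s : Finset ℕ,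
      s ⊆ Finset.Ico T (T + (Fintype.card ι * d + 1)) ∧ s.card = d + 1 ∧ ∀ n ∈ s, br n = i := by
  classical
  by_contra hcon
  have h1 : ∀ i : ι, ∀ᶠ T : ℕ in atTop, ¬ ∃ s : Finset ℕ,
      s ⊆ Finset.Ico T (T + (Fintype.card ι * d + 1)) ∧ s.card = d + 1 ∧ ∀ n ∈ s, br n = i :=
    fun i => not_frequently.mp fun hi => hcon ⟨i, hi⟩
  obtain ⟨T, hT⟩ := (eventually_all.mpr h1).exists
  have hcard : Fintype.card ι * d < (Finset.Ico T (T + (Fintype.card ι * d + 1))).card := by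
    rw [Nat.card_Ico]; omega
  obtain ⟨i, -, hi⟩ := Finset.exists_lt_card_fiber_of_mul_lt_card_of_maps_to
    (s := Finset.Ico T (T + (Fintype.card ι * d + 1))) (t := Finset.univ) (f := br)
    (fun _ _ => Finset.mem_univ _) (by rwa [Finset.card_univ])
  obtain ⟨s, hs, hscard⟩ := Finset.exists_subset_card_eq (n := d + 1) (Nat.succ_le_of_lt hi)
  refine hT i ⟨s, fun n hn => (Finset.mem_filter.mp (hs hn)).1, hscard, fun n hn =>
    (Finset.mem_filter.mp (hs hn)).2⟩

/-! ### one branch -/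

/-- an integer-coefficient polynomial (up to the denominator `K`) takes values in `(1 / K) ℤ` at
natural numbers. -/
theorem intCoeffs_eval {K : ℕ} {P : ℂ[X]} (hP : IntCoeffs K P) (n : ℕ) :
    ∃ z : ℤ, (K : ℂ) * P.eval (n : ℂ) = z := by
  choose zf hzf using hP
  refine ⟨∑ k ∈ range (P.natDegree + 1), zf k * (n : ℤ) ^ k, ?_⟩
  rw [eval_eq_sum_range, Finset.mul_sum]
  push_cast
  refine Finset.sum_congr rfl fun k _ => ?_
  rw [← hzf k]
  ring

/-- the remainder estimate `‖n ^ d h (1 / n) - P̃ (n)‖ ≤ C / n`. -/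
theorem norm_sub_revPoly_le {h : ℂ → ℂ} {a : ℕ → ℂ} {d : ℕ} {Cst ρ : ℝ}
    (hT : ∀ x : ℂ, ‖x‖ < ρ → ‖h x - (taylorPoly a d).eval x‖ ≤ Cst * ‖x‖ ^ (d + 1))
    {n : ℕ} (hn : 1 ≤ n) (hnρ : ((n : ℝ))⁻¹ < ρ) :
    ‖(n : ℂ) ^ d * h ((n : ℂ)⁻¹) - (revPoly a d).eval (n : ℂ)‖ ≤ Cst / n := by
  have hn0 : (n : ℂ) ≠ 0 := by exact_mod_cast (by omega : n ≠ 0)
  have hnpos : (0 : ℝ) < n := by exact_mod_cast hn
  have hnorm : ‖((n : ℂ))⁻¹‖ = ((n : ℝ))⁻¹ := by rw [norm_inv, Complex.norm_natCast]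
  have h1 := hT ((n : ℂ)⁻¹) (by rw [hnorm]; exact hnρ)
  rw [eval_revPoly a d hn0, ← mul_sub, norm_mul, norm_pow, Complex.norm_natCast]
  rw [hnorm] at h1
  calc (n : ℝ) ^ d * ‖h ((n : ℂ)⁻¹) - (taylorPoly a d).eval ((n : ℂ)⁻¹)‖
      ≤ (n : ℝ) ^ d * (Cst * ((n : ℝ))⁻¹ ^ (d + 1)) := by gcongr
    _ = Cst / n := by
        rw [pow_succ, inv_pow]
        field_simp

/-- **one analytic branch, integral on a set of naturals which fills `d + 1` places of infinitely
many windows of bounded length, is a polynomial with rational coefficients.** -/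
theorem polynomial_of_integral {h : ℂ → ℂ} (hh : AnalyticAt ℂ h 0) (d L : ℕ) (A : Set ℕ)
    (hA : ∀ n ∈ A, ∃ z : ℤ, (n : ℂ) ^ d * h ((n : ℂ)⁻¹) = z)
    (hfreq : ∃ᶠ T : ℕ in atTop, ∃ s : Finset ℕ, s ⊆ Finset.Ico T (T + L) ∧ s.card = d + 1 ∧
      ∀ n ∈ s, n ∈ A) :
    ∃ Tq : ℚ[X], Tq.natDegree ≤ d ∧
      ∀ᶠ x in 𝓝 (0 : ℂ), h x = (Tq.map (algebraMap ℚ ℂ)).eval x := by
  obtain ⟨a, Cst, ρ, hρ, hCst, hT⟩ := exists_taylor hh d
  -- the reversed Taylor polynomial is near-integral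
  have hnear : NearInt (revPoly a d) L d := by
    intro ε hε
    obtain ⟨T, ⟨s, hsub, hcard, hsA⟩, hTbig⟩ :=
      (hfreq.and_eventually (eventually_gt_atTop (⌈ρ⁻¹⌉₊ + ⌈Cst / ε⌉₊ + 1))).exists
    have hT1 : 1 ≤ T := by omega
    have hTρ : ρ⁻¹ < T := by
      have : (⌈ρ⁻¹⌉₊ : ℝ) < T := by exact_mod_cast (by omega : ⌈ρ⁻¹⌉₊ < T)
      exact lt_of_le_of_lt (Nat.le_ceil _) this
    have hTε : Cst / ε < T := by
      have : (⌈Cst / ε⌉₊ : ℝ) < T := by exact_mod_cast (by omega : ⌈Cst / ε⌉₊ < T)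
      exact lt_of_le_of_lt (Nat.le_ceil _) this
    have hTpos : (0 : ℝ) < T := by exact_mod_cast hT1
    refine ⟨(T : ℤ), s.map Nat.castEmbedding, ?_, by rw [Finset.card_map, hcard], ?_⟩
    · intro b hb
      obtain ⟨n, hn, rfl⟩ := Finset.mem_map.mp hb
      have := Finset.mem_Ico.mp (hsub hn)
      rw [Finset.mem_Ico]
      simp only [Nat.castEmbedding_apply]
      constructor
      · exact_mod_cast this.1
      · exact_mod_cast this.2
    · intro b hb
      obtain ⟨n, hn, rfl⟩ := Finset.mem_map.mp hb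
      have hnT : T ≤ n := (Finset.mem_Ico.mp (hsub hn)).1
      have hnT' : (T : ℝ) ≤ n := by exact_mod_cast hnT
      have hnpos : (0 : ℝ) < n := lt_of_lt_of_le hTpos hnT'
      obtain ⟨z, hz⟩ := hA n (hsA n hn)
      refine ⟨z, ?_⟩
      have hnρ : ((n : ℝ))⁻¹ < ρ := by
        rw [inv_lt_comm₀ hnpos hρ]
        exact lt_of_lt_of_le hTρ hnT'
      have hle := norm_sub_revPoly_le hT (le_trans hT1 hnT) hnρ
      simp only [Nat.castEmbedding_apply, Int.cast_natCast]
      rw [← hz, norm_sub_rev]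
      calc _ ≤ Cst / n := hle
        _ ≤ Cst / T := by gcongr
        _ < ε := by rw [div_lt_iff₀ hTpos]; rwa [div_lt_iff₀ hε, mul_comm] at hTε
  obtain ⟨K, hKpos, hK⟩ := exists_intCoeffs L d _ (natDegree_revPoly_le a d) hnear
  have hKpos' : (0 : ℝ) < K := by exact_mod_cast hKpos
  -- the remainder vanishes on `A`, eventually
  have hzero : ∀ n ∈ A, ⌈ρ⁻¹⌉₊ + ⌈K * Cst⌉₊ + 1 < n →
      h ((n : ℂ)⁻¹) = (taylorPoly a d).eval ((n : ℂ)⁻¹) := by
    intro n hnA hn
    have hn1 : 1 ≤ n := by omega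
    have hn0 : (n : ℂ) ≠ 0 := by exact_mod_cast (by omega : n ≠ 0)
    have hnpos : (0 : ℝ) < n := by exact_mod_cast hn1
    have hnρ : ((n : ℝ))⁻¹ < ρ := by
      rw [inv_lt_comm₀ hnpos hρ]
      have : (⌈ρ⁻¹⌉₊ : ℝ) < n := by exact_mod_cast (by omega : ⌈ρ⁻¹⌉₊ < n)
      exact lt_of_le_of_lt (Nat.le_ceil _) this
    have hnK : K * Cst < n := by
      have : (⌈K * Cst⌉₊ : ℝ) < n := by exact_mod_cast (by omega : ⌈K * Cst⌉₊ < n)
      exact lt_of_le_of_lt (Nat.le_ceil _) this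
    obtain ⟨z, hz⟩ := hA n hnA
    obtain ⟨w, hw⟩ := intCoeffs_eval hK n
    have hle := norm_sub_revPoly_le hT hn1 hnρ
    have hint : (K : ℂ) * ((n : ℂ) ^ d * h ((n : ℂ)⁻¹) - (revPoly a d).eval (n : ℂ)) =
        ((K * z - w : ℤ) : ℂ) := by
      rw [mul_sub, hw, hz]; push_cast; ring
    have hsmall : ‖((K * z - w : ℤ) : ℂ)‖ < 1 := by
      rw [← hint, norm_mul, Complex.norm_natCast]
      calc (K : ℝ) * ‖(n : ℂ) ^ d * h ((n : ℂ)⁻¹) - (revPoly a d).eval (n : ℂ)‖
          ≤ K * (Cst / n) := by gcongr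
        _ = K * Cst / n := by ring
        _ < 1 := by rw [div_lt_one hnpos]; exact hnK
    have hz0 : K * z - w = 0 := by
      by_contra hne
      have : (1 : ℝ) ≤ ‖((K * z - w : ℤ) : ℂ)‖ := by
        rw [Complex.norm_intCast]; exact_mod_cast Int.one_le_abs hne
      linarith
    rw [hz0, Int.cast_zero] at hint
    have hK0 : (K : ℂ) ≠ 0 := by exact_mod_cast hKpos.ne'
    have h2 := (mul_eq_zero.mp hint).resolve_left hK0
    rw [eval_revPoly a d hn0, ← mul_sub] at h2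
    exact sub_eq_zero.mp ((mul_eq_zero.mp h2).resolve_left (pow_ne_zero _ hn0))
  -- `A` is infinite
  have hAfreq : ∃ᶠ n : ℕ in atTop, n ∈ A := by
    rw [frequently_atTop]
    intro N
    obtain ⟨T, ⟨s, hsub, hcard, hsA⟩, hTN⟩ := (hfreq.and_eventually (eventually_ge_atTop N)).exists
    have hne : s.Nonempty := Finset.card_pos.mp (by rw [hcard]; omega)
    obtain ⟨n, hn⟩ := hne
    exact ⟨n, le_trans hTN (Finset.mem_Ico.mp (hsub hn)).1, hsA n hn⟩
  -- identity theorem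
  have hfreq0 : ∃ᶠ n : ℕ in atTop,
      h ((n : ℂ)⁻¹) - (taylorPoly a d).eval ((n : ℂ)⁻¹) = 0 := by
    refine (hAfreq.and_eventually (eventually_gt_atTop (⌈ρ⁻¹⌉₊ + ⌈K * Cst⌉₊ + 1))).mono ?_
    rintro n ⟨hnA, hn⟩
    exact sub_eq_zero.mpr (hzero n hnA hn)
  have htend : Tendsto (fun n : ℕ => ((n : ℂ))⁻¹) atTop (𝓝[≠] 0) := by
    rw [tendsto_nhdsWithin_iff]
    refine ⟨tendsto_inv_atTop_nhds_zero_nat, ?_⟩
    filter_upwards [eventually_ge_atTop 1] with n hn
    have : (n : ℂ) ≠ 0 := by exact_mod_cast (by omega : n ≠ 0)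
    simpa using this
  have hg : AnalyticAt ℂ (fun x => h x - (taylorPoly a d).eval x) 0 :=
    hh.sub ((taylorPoly a d).differentiable.analyticAt 0)
  have hev := hg.frequently_zero_iff_eventually_zero.mp (htend.frequently hfreq0)
  -- rational coefficients
  choose zf hzf using hK
  have ha : ∀ k, k ≤ d → a k = ((zf (d - k) : ℚ) / K : ℚ) := by
    intro k hk
    have := hzf (d - k)
    rw [coeff_revPoly a d k hk] at this
    have hK0 : (K : ℂ) ≠ 0 := by exact_mod_cast hKpos.ne'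
    push_cast
    rw [← this]
    field_simp
  refine ⟨∑ k ∈ range (d + 1), C ((zf (d - k) : ℚ) / K) * X ^ k, ?_, ?_⟩
  · refine natDegree_sum_le_of_forall_le _ _ fun k hk => ?_
    refine (natDegree_C_mul_X_pow_le _ _).trans ?_
    have := mem_range.mp hk
    omega
  · have hmap : (∑ k ∈ range (d + 1), C ((zf (d - k) : ℚ) / K) * X ^ k : ℚ[X]).map
        (algebraMap ℚ ℂ) = taylorPoly a d := by
      unfold taylorPoly
      rw [Polynomial.map_sum]
      refine Finset.sum_congr rfl fun k hk => ?_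
      have hk' : k ≤ d := by have := mem_range.mp hk; omega
      rw [Polynomial.map_mul, Polynomial.map_pow, map_X, map_C, ha k hk']
      rfl
    rw [hmap]
    filter_upwards [hev] with x hx
    exact sub_eq_zero.mp hx

/-! ### finitely many branches -/

/-- **finitely many analytic branches, one of which is integral at every large `n`: one of them is a
polynomial of degree `≤ d` with rational coefficients.** -/
theorem exists_branch_polynomial {ι : Type*} [Fintype ι] (h : ι → ℂ → ℂ)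
    (hh : ∀ i, AnalyticAt ℂ (h i) 0) (d : ℕ)
    (H : ∀ᶠ n : ℕ in atTop, ∃ i, ∃ z : ℤ, (n : ℂ) ^ d * h i ((n : ℂ)⁻¹) = z) :
    ∃ i, ∃ Tq : ℚ[X], Tq.natDegree ≤ d ∧
      ∀ᶠ x in 𝓝 (0 : ℂ), h i x = (Tq.map (algebraMap ℚ ℂ)).eval x := by
  classical
  obtain ⟨n0, hn0⟩ := eventually_atTop.mp H
  obtain ⟨i0, -⟩ := hn0 n0 le_rfl
  let br : ℕ → ι := fun n => if hn : n0 ≤ n then (hn0 n hn).choose else i0
  have hbr : ∀ n, n0 ≤ n → ∃ z : ℤ, (n : ℂ) ^ d * h (br n) ((n : ℂ)⁻¹) = z := by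
    intro n hn
    have : br n = (hn0 n hn).choose := dif_pos hn
    rw [this]
    exact (hn0 n hn).choose_spec
  obtain ⟨i, hi⟩ := exists_branch_windows br d
  refine ⟨i, polynomial_of_integral (hh i) d (Fintype.card ι * d + 1) {n | n0 ≤ n ∧ br n = i}
    ?_ ?_⟩
  · rintro n ⟨hn, hni⟩
    have := hbr n hn
    rwa [hni] at this
  · refine (hi.and_eventually (eventually_ge_atTop n0)).mono ?_
    rintro T ⟨⟨s, hsub, hcard, hs⟩, hT⟩
    exact ⟨s, hsub, hcard, fun n hn => ⟨le_trans hT (Finset.mem_Ico.mp (hsub hn)).1, hs n hn⟩⟩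

end Fermat.Agent.S52x.Hit8B
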