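/-
S52 (3–5 switch), chapter B3 (Hilbert irreducibility, lite), part C (helper8):
**a monic polynomial `G(x, e) ∈ ℚ[x][e]` with separable fibre at `x = 0`, having for every large `n`
a root `e` of `G(1 / n, ·)` with `n ^ d * e ∈ ℤ`, has a polynomial root `e = P(x)`, `deg P ≤ d`.**

The roots of `G(x, ·)` for `x` near `0` are `m = deg_e G` analytic branches (analytic implicit
function theorem over `ℂ` + counting); then `Hit8B.exists_branch_polynomial`.
-/
import Fermat.Agent.S52x.Hit8B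

set_option autoImplicit false

namespace Fermat.Agent.S52x.Hit8C

open Polynomial Filter Topology
open scoped ContDiff

variable (G : Polynomial (Polynomial ℚ))

/-- the complexification of `G`. -/
noncomputable def Gc : Polynomial (Polynomial ℂ) := G.map (mapRingHom (algebraMap ℚ ℂ))

/-- the fibre of `G` at `x`. -/
noncomputable def fib (x : ℂ) : ℂ[X] := (Gc G).map (evalRingHom x)

/-- `G` as a function of two complex variables. -/
noncomputable def fn (v : ℂ × ℂ) : ℂ := (fib G v.1).eval v.2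

theorem fn_eq_sum (v : ℂ × ℂ) :
    fn G v = ∑ i ∈ Finset.range ((Gc G).natDegree + 1), ((Gc G).coeff i).eval v.1 * v.2 ^ i := by
  unfold fn fib
  rw [eval_map, eval₂_eq_sum_range]
  rfl

theorem analyticAt_fn (u : ℂ × ℂ) : AnalyticAt ℂ (fn G) u := by
  have : fn G = fun v : ℂ × ℂ =>
      ∑ i ∈ Finset.range ((Gc G).natDegree + 1), ((Gc G).coeff i).eval v.1 * v.2 ^ i :=
    funext (fn_eq_sum G)
  rw [this]
  refine Finset.analyticAt_fun_sum _ fun i _ => ?_
  refine AnalyticAt.mul ?_ ((analyticAt_snd).pow i)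
  have h1 := (analyticAt_fst (𝕜 := ℂ) (E := ℂ) (F := ℂ) (p := u)).aeval_polynomial ((Gc G).coeff i)
  simpa using h1

/-- the partial derivative of `G` with respect to `e`. -/
theorem hasDerivAt_fn_right (x e : ℂ) :
    HasDerivAt (fun e' => fn G (x, e')) ((fib G x).derivative.eval e) e :=
  (fib G x).hasDerivAt e

/-- **an analytic branch through a simple root.** -/
theorem exists_branch {z : ℂ} (hz : (fib G 0).eval z = 0) (hz' : (fib G 0).derivative.eval z ≠ 0) :
    ∃ ψ : ℂ → ℂ, AnalyticAt ℂ ψ 0 ∧ ψ 0 = z ∧ ∀ᶠ x in 𝓝 (0 : ℂ), (fib G x).eval (ψ x) = 0 := by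
  have cdf : ContDiffAt ℂ ω (fn G) ((0 : ℂ), z) := (analyticAt_fn G _).contDiffAt
  have pn : (ω : ℕ∞ω) ≠ 0 := by simp
  have hdiff : HasFDerivAt (fn G) (fderiv ℂ (fn G) ((0 : ℂ), z)) ((0 : ℂ), z) :=
    (analyticAt_fn G _).differentiableAt.hasFDerivAt
  have hcomp : HasFDerivAt (fun e' : ℂ => fn G ((0 : ℂ), e'))
      (fderiv ℂ (fn G) ((0 : ℂ), z) ∘L ContinuousLinearMap.inr ℂ ℂ ℂ) z :=
    hdiff.comp z (hasFDerivAt_prodMk_right (0 : ℂ) z)
  have hval : (fderiv ℂ (fn G) ((0 : ℂ), z) ∘L ContinuousLinearMap.inr ℂ ℂ ℂ) 1 =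
      (fib G 0).derivative.eval z :=
    hcomp.hasDerivAt.unique (hasDerivAt_fn_right G 0 z)
  have if₂ : (fderiv ℂ (fn G) ((0 : ℂ), z) ∘L ContinuousLinearMap.inr ℂ ℂ ℂ).IsInvertible := by
    refine ⟨ContinuousLinearEquiv.unitsEquivAut ℂ (Units.mk0 _ hz'), ?_⟩
    apply ContinuousLinearMap.ext_ring
    rw [hval]
    simp
  refine ⟨cdf.implicitFunction pn if₂, (cdf.contDiffAt_implicitFunction pn if₂).analyticAt,
    cdf.implicitFunction_apply_self pn if₂, ?_⟩
  have h1 := cdf.eventually_apply_implicitFunction pn if₂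
  have h0 : fn G ((0 : ℂ), z) = 0 := hz
  simp only [h0] at h1
  exact h1

/-! ### the fibres -/

variable {G}

theorem monic_fib (hmonic : G.Monic) (x : ℂ) : (fib G x).Monic :=
  (hmonic.map _).map _

theorem natDegree_fib (hmonic : G.Monic) (x : ℂ) : (fib G x).natDegree = G.natDegree := by
  unfold fib Gc
  rw [((hmonic.map _).natDegree_map), hmonic.natDegree_map]

theorem fib_zero :
    fib G 0 = (G.map (evalRingHom (0 : ℚ))).map (algebraMap ℚ ℂ) := by
  unfold fib Gc
  rw [Polynomial.map_map, Polynomial.map_map]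
  congr 1
  refine RingHom.ext fun p => ?_
  simp only [RingHom.comp_apply, coe_evalRingHom, coe_mapRingHom, eval_map, eval₂_at_zero,
    coeff_zero_eq_eval_zero]

theorem separable_fib_zero (hsep : (G.map (evalRingHom (0 : ℚ))).Separable) :
    (fib G 0).Separable := by
  rw [fib_zero]
  exact hsep.map

/-- the compatibility of substitution with evaluation. -/
theorem eval_map_eval (P : ℚ[X]) (x : ℂ) :
    ((G.eval P).map (algebraMap ℚ ℂ)).eval x =
      (fib G x).eval ((P.map (algebraMap ℚ ℂ)).eval x) := by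
  have h1 : (G.eval P).map (algebraMap ℚ ℂ) = (Gc G).eval (P.map (algebraMap ℚ ℂ)) := by
    have := hom_eval₂ G (RingHom.id ℚ[X]) (mapRingHom (algebraMap ℚ ℂ)) P
    rw [RingHom.comp_id] at this
    unfold Gc
    rw [eval_map]
    exact this
  rw [h1]
  have h2 := hom_eval₂ (Gc G) (RingHom.id ℂ[X]) (evalRingHom x) (P.map (algebraMap ℚ ℂ))
  rw [RingHom.comp_id] at h2
  unfold fib
  rw [eval_map]
  exact h2

/-! ### all roots near `x = 0` are on the branches -/

/-- **the roots of `G(x, ·)` for `x` near `0` are the values of `deg G` analytic branches.** -/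
theorem exists_branches (hmonic : G.Monic) (hsep : (G.map (evalRingHom (0 : ℚ))).Separable) :
    ∃ (ι : Type) (_ : Fintype ι) (ψ : ι → ℂ → ℂ), (∀ i, AnalyticAt ℂ (ψ i) 0) ∧
      (∀ᶠ x in 𝓝 (0 : ℂ), ∀ i, (fib G x).eval (ψ i x) = 0) ∧
      ∀ᶠ x in 𝓝 (0 : ℂ), ∀ e : ℂ, (fib G x).eval e = 0 → ∃ i, e = ψ i x := by
  classical
  have hsep0 := separable_fib_zero hsep
  have hmon0 := monic_fib hmonic 0
  set R : Finset ℂ := (fib G 0).roots.toFinset with hR
  have hRcard : R.card = G.natDegree := by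
    rw [hR, Multiset.toFinset_card_of_nodup (nodup_roots hsep0),
      splits_iff_card_roots.mp (IsAlgClosed.splits _), natDegree_fib hmonic]
  have hroot : ∀ z : R, (fib G 0).eval (z : ℂ) = 0 ∧ (fib G 0).derivative.eval (z : ℂ) ≠ 0 := by
    intro z
    have hz : (z : ℂ) ∈ (fib G 0).roots := Multiset.mem_toFinset.mp z.2
    have hz0 : (fib G 0).eval (z : ℂ) = 0 := (mem_roots hmon0.ne_zero).mp hz
    refine ⟨hz0, ?_⟩
    have := hsep0.eval₂_derivative_ne_zero (RingHom.id ℂ) (x := (z : ℂ)) (by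
      rw [eval₂_id]; exact hz0)
    rwa [eval₂_id] at this
  choose ψ hψan hψ0 hψroot using fun z : R => exists_branch G (hroot z).1 (hroot z).2
  refine ⟨R, inferInstance, ψ, hψan, eventually_all.mpr hψroot, ?_⟩
  -- distinctness of the branches near `0`
  have hdist : ∀ᶠ x in 𝓝 (0 : ℂ), ∀ p : R × R, p.1 ≠ p.2 → ψ p.1 x ≠ ψ p.2 x := by
    rw [eventually_all]
    rintro ⟨z, z'⟩
    by_cases hzz : z = z'
    · exact Eventually.of_forall fun x h => absurd hzz h
    · have hcont : ContinuousAt (fun x => ψ z x - ψ z' x) 0 :=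
        ((hψan z).continuousAt).sub ((hψan z').continuousAt)
      have hne : ψ z 0 - ψ z' 0 ≠ 0 := by
        rw [hψ0, hψ0, sub_ne_zero]
        exact fun h => hzz (Subtype.ext h)
      filter_upwards [hcont.eventually_ne hne] with x hx _
      exact sub_ne_zero.mp hx
  filter_upwards [eventually_all.mpr hψroot, hdist] with x hx1 hx2 e he
  have hmonx := monic_fib hmonic x
  have hinj : Function.Injective fun z : R => ψ z x := by
    intro z z' hzz
    by_contra hne
    exact hx2 (z, z') hne hzz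
  have himg : (Finset.univ.image fun z : R => ψ z x) ⊆ (fib G x).roots.toFinset := by
    intro w hw
    obtain ⟨z, -, rfl⟩ := Finset.mem_image.mp hw
    exact Multiset.mem_toFinset.mpr ((mem_roots hmonx.ne_zero).mpr (hx1 z))
  have hcard : (fib G x).roots.toFinset.card ≤ (Finset.univ.image fun z : R => ψ z x).card := by
    rw [Finset.card_image_of_injective _ hinj, Finset.card_univ, Fintype.card_coe, hRcard]
    calc (fib G x).roots.toFinset.card ≤ Multiset.card (fib G x).roots :=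
          Multiset.toFinset_card_le _
      _ ≤ (fib G x).natDegree := card_roots' _
      _ = G.natDegree := natDegree_fib hmonic x
  have heq := Finset.eq_of_subset_of_card_le himg hcard
  have hemem : e ∈ (fib G x).roots.toFinset :=
    Multiset.mem_toFinset.mpr ((mem_roots hmonx.ne_zero).mpr he)
  rw [← heq] at hemem
  obtain ⟨z, -, hz⟩ := Finset.mem_image.mp hemem
  exact ⟨z, hz.symm⟩

/-! ### the main theorem -/

/-- **Hilbert irreducibility, lite (roots version).**  Let `G ∈ ℚ[x][e]` be monic in `e` with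
separable fibre at `x = 0`.  If for every large `n` the fibre at `x = 1 / n` has a root `e` with
`n ^ d * e ∈ ℤ`, then `G` has a polynomial root `e = P(x)` with `deg P ≤ d`. -/
theorem exists_polynomial_root (hmonic : G.Monic)
    (hsep : (G.map (evalRingHom (0 : ℚ))).Separable) (d : ℕ)
    (H : ∀ᶠ n : ℕ in atTop, ∃ e : ℂ, (fib G ((n : ℂ)⁻¹)).eval e = 0 ∧
      ∃ z : ℤ, (n : ℂ) ^ d * e = z) :
    ∃ P : ℚ[X], P.natDegree ≤ d ∧ G.eval P = 0 := by
  obtain ⟨ι, _, ψ, hψan, hψroot, hψall⟩ := exists_branches hmonic hsep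
  have htend : Tendsto (fun n : ℕ => ((n : ℂ))⁻¹) atTop (𝓝 0) := tendsto_inv_atTop_nhds_zero_nat
  have H' : ∀ᶠ n : ℕ in atTop, ∃ i, ∃ z : ℤ, (n : ℂ) ^ d * ψ i ((n : ℂ)⁻¹) = z := by
    filter_upwards [H, htend.eventually hψall] with n ⟨e, he, z, hz⟩ hall
    obtain ⟨i, rfl⟩ := hall e he
    exact ⟨i, z, hz⟩
  obtain ⟨i, P, hPdeg, hP⟩ := Hit8B.exists_branch_polynomial ψ hψan d H'
  refine ⟨P, hPdeg, ?_⟩
  have hzero : ∀ᶠ x in 𝓝 (0 : ℂ), ((G.eval P).map (algebraMap ℚ ℂ)).eval x = 0 := by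
    filter_upwards [hψroot, hP] with x hx1 hx2
    rw [eval_map_eval, ← hx2]
    exact hx1 i
  have hinf : Set.Infinite {x : ℂ | IsRoot ((G.eval P).map (algebraMap ℚ ℂ)) x} :=
    infinite_of_mem_nhds (0 : ℂ) hzero
  have h0 := eq_zero_of_infinite_isRoot _ hinf
  exact (Polynomial.map_eq_zero (algebraMap ℚ ℂ)).mp h0

/-- the same with rational roots and rational evaluation: for every large `n` there is `e : ℚ` with
`G(1 / n, e) = 0` and `n ^ d * e ∈ ℤ`. -/
theorem exists_polynomial_root_rat (hmonic : G.Monic)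
    (hsep : (G.map (evalRingHom (0 : ℚ))).Separable) (d : ℕ)
    (H : ∀ᶠ n : ℕ in atTop, ∃ e : ℚ, (G.map (evalRingHom ((n : ℚ)⁻¹))).eval e = 0 ∧
      ∃ z : ℤ, (n : ℚ) ^ d * e = z) :
    ∃ P : ℚ[X], P.natDegree ≤ d ∧ G.eval P = 0 := by
  refine exists_polynomial_root hmonic hsep d ?_
  filter_upwards [H] with n ⟨e, he, z, hz⟩
  refine ⟨(e : ℂ), ?_, z, by exact_mod_cast congrArg (fun q : ℚ => (q : ℂ)) hz⟩
  have hfib : fib G ((n : ℂ)⁻¹) = (G.map (evalRingHom ((n : ℚ)⁻¹))).map (algebraMap ℚ ℂ) := by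
    unfold fib Gc
    rw [Polynomial.map_map, Polynomial.map_map]
    congr 1
    refine RingHom.ext fun p => ?_
    simp only [RingHom.comp_apply, coe_evalRingHom, coe_mapRingHom, eval_map]
    rw [← Polynomial.eval₂_hom] 
    simp
  rw [hfib]
  have : ((e : ℚ) : ℂ) = algebraMap ℚ ℂ e := rfl
  rw [this, eval_map_algebraMap, aeval_algebraMap_apply, coe_aeval_eq_eval, he, map_zero]

end Fermat.Agent.S52x.Hit8C
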