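/-
S52 (3–5 switch), chapter B3 (helper3): mod-3 irreducibility from two auxiliary primes.
Brick L: quadratic symbols.

If every prime `q ≥ 5` divides `X` to an even power, then `X = ± 2^a 3^b s²`, so the Legendre symbol
`(X / l)` at a prime `l ≥ 5` not dividing `X` depends only on `l mod 24`.
-/
import Mathlib

set_option autoImplicit false

open NumberTheorySymbols

namespace Fermat.Agent.S52x.Irr3Leg3

/-- A squarefree natural number all of whose prime factors are `< 5` divides `6`. -/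
theorem dvd_six_of_squarefree {a : ℕ} (ha : Squarefree a)
    (hp : ∀ q : ℕ, q.Prime → q ∣ a → q < 5) : a ∣ 6 := by
  have h0 : a ≠ 0 := ha.ne_zero
  have hsub : a.primeFactors ⊆ ({2, 3} : Finset ℕ) := by
    intro q hq
    have hqp : q.Prime := Nat.prime_of_mem_primeFactors hq
    have hqa : q ∣ a := Nat.dvd_of_mem_primeFactors hq
    have hlt := hp q hqp hqa
    have h2 := hqp.two_le
    interval_cases q
    · simp
    · simp
    · exact absurd hqp (by decide)
  have h1 : ∏ p ∈ a.primeFactors, p = a := Nat.prod_primeFactors_of_squarefree ha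
  have h2 : ∏ p ∈ a.primeFactors, p ∣ ∏ p ∈ ({2, 3} : Finset ℕ), p :=
    Finset.prod_dvd_prod_of_subset _ _ _ hsub
  rw [h1] at h2
  simpa using h2

/-- The even-valuation hypothesis. -/
def EvenAway (X : ℤ) : Prop :=
  ∀ q : ℕ, q.Prime → 5 ≤ q → ∃ (k : ℕ) (X' : ℤ), ¬ (q : ℤ) ∣ X' ∧ X = (q : ℤ) ^ (2 * k) * X'

/-- Under `EvenAway`, `|X| = b² a` with `a ∣ 6`. -/
theorem exists_sq_mul_of_evenAway {X : ℤ} (hX0 : X ≠ 0) (hX : EvenAway X) :
    ∃ a b : ℕ, b ^ 2 * a = X.natAbs ∧ a ∣ 6 := by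
  obtain ⟨a, b, hab, hsq⟩ := Nat.sq_mul_squarefree X.natAbs
  refine ⟨a, b, hab, dvd_six_of_squarefree hsq ?_⟩
  intro q hq hqa
  by_contra hlt
  have h5 : 5 ≤ q := by omega
  obtain ⟨k, X', hX', hXk⟩ := hX q hq h5
  have hn0 : X.natAbs ≠ 0 := Int.natAbs_ne_zero.mpr hX0
  have ha0 : a ≠ 0 := hsq.ne_zero
  have hb0 : b ≠ 0 := by
    rintro rfl
    simp at hab
    exact hn0 hab.symm
  -- valuation of `|X|` at `q`, computed in two ways
  have hX'0 : X'.natAbs ≠ 0 := by
    rw [Int.natAbs_ne_zero]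
    rintro rfl
    exact hX' (dvd_zero _)
  have h1 : X.natAbs.factorization q = 2 * k := by
    have : X.natAbs = q ^ (2 * k) * X'.natAbs := by
      rw [hXk, Int.natAbs_mul, Int.natAbs_pow, Int.natAbs_natCast]
    rw [this, Nat.factorization_mul (pow_ne_zero _ hq.ne_zero) hX'0, Nat.factorization_pow]
    simp only [Finsupp.coe_add, Finsupp.coe_smul, Pi.add_apply, Pi.smul_apply, smul_eq_mul]
    rw [hq.factorization_self]
    have : X'.natAbs.factorization q = 0 := by
      apply Nat.factorization_eq_zero_of_not_dvd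
      intro h
      exact hX' (Int.natCast_dvd.mpr h)
    rw [this]
    ring
  have h2 : X.natAbs.factorization q = 2 * b.factorization q + a.factorization q := by
    rw [← hab, Nat.factorization_mul (pow_ne_zero _ hb0) ha0, Nat.factorization_pow]
    simp only [Finsupp.coe_add, Finsupp.coe_smul, Pi.add_apply, Pi.smul_apply, smul_eq_mul]
  have h3 : a.factorization q = 1 := by
    have hle := hsq.natFactorization_le_one q
    have hpos := hq.factorization_pos_of_dvd ha0 hqa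
    omega
  omega

/-- **Key lemma.** Under `EvenAway`, the Legendre symbol of `X` at a prime `l ≥ 5` not dividing
`X` depends only on `l mod 24`. -/
theorem legendreSym_eq_of_mod_24 {X : ℤ} (hX0 : X ≠ 0) (hX : EvenAway X)
    {l₁ l₂ : ℕ} [Fact l₁.Prime] [Fact l₂.Prime] (h5₁ : 5 ≤ l₁) (h5₂ : 5 ≤ l₂)
    (h24 : l₁ % 24 = l₂ % 24) (hl₁ : ¬ (l₁ : ℤ) ∣ X) (hl₂ : ¬ (l₂ : ℤ) ∣ X) :
    legendreSym l₁ X = legendreSym l₂ X := by
  obtain ⟨a, b, hab, ha6⟩ := exists_sq_mul_of_evenAway hX0 hX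
  -- `X = m * b²` with `m = ± a`
  obtain ⟨m, hm, hXm⟩ : ∃ m : ℤ, m.natAbs = a ∧ X = m * (b : ℤ) ^ 2 := by
    rcases Int.natAbs_eq X with h | h
    · refine ⟨a, Int.natAbs_natCast a, ?_⟩
      rw [h, ← hab]; push_cast; ring
    · refine ⟨-a, by simp, ?_⟩
      rw [h, ← hab]; push_cast; ring
  have key : ∀ (l : ℕ) [Fact l.Prime], 5 ≤ l → ¬ (l : ℤ) ∣ X →
      legendreSym l X = jacobiSym m (l % (4 * a)) := by
    intro l hl h5 hlX
    have hlodd : Odd l := hl.out.odd_of_ne_two (by omega)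
    have hlb : ¬ (l : ℤ) ∣ (b : ℤ) := by
      intro h
      apply hlX
      rw [hXm]
      exact Dvd.dvd.mul_left (dvd_pow h (by norm_num)) _
    have hb0 : ((b : ℤ) : ZMod l) ≠ 0 := by
      rw [Ne, ZMod.intCast_zmod_eq_zero_iff_dvd]
      exact hlb
    rw [hXm, legendreSym.mul, legendreSym.sq_one' l hb0, mul_one, jacobiSym.legendreSym.to_jacobiSym,
      jacobiSym.mod_right m hlodd, hm]
  rw [key l₁ h5₁ hl₁, key l₂ h5₂ hl₂]
  congr 1
  -- `l₁ ≡ l₂ mod 4a` since `4a ∣ 24`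
  have hdvd : 4 * a ∣ 24 := Nat.mul_dvd_mul_left 4 ha6
  have : l₁ ≡ l₂ [MOD 24] := h24
  exact (Nat.ModEq.of_dvd hdvd this)

end Fermat.Agent.S52x.Irr3Leg3
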