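/-
S52 (3–5 switch), chapter B3 (helper3): mod-3 irreducibility from two auxiliary primes.
Brick V: elementary valuation lemmas.

`c₄ c₆ Δ X : ℤ` with `c₄³ - c₆² = 1728 Δ` and
`G(X) = X⁴ - 54 c₄ X² - 216 c₆ X - 243 c₄² = 0`
(`X = 36 x + 3 b₂` for a rational root `x` of the 3-division polynomial).

* `even_val` : at a prime `q ≥ 5` with (`q ∣ Δ → q ∤ c₄`), `v_q(X)` is even.
* `cong_of_mult` : at a prime `l ≥ 5` with `l ∣ Δ`, `l ∤ c₄`, `3 ∤ v_l(Δ)`: `c₄ X ≡ 9 c₆ (mod l)`.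
-/
import Mathlib

set_option autoImplicit false

namespace Fermat.Agent.S52x.Irr3Val3

/-- `n = q ^ k * m` with `q ∤ m`, for `n ≠ 0`. -/
theorem exists_eq_pow_mul (q : ℕ) (hq : q.Prime) (n : ℤ) (hn : n ≠ 0) :
    ∃ (k : ℕ) (m : ℤ), ¬ (q : ℤ) ∣ m ∧ n = (q : ℤ) ^ k * m := by
  have hfin : FiniteMultiplicity (q : ℤ) n :=
    Int.finiteMultiplicity_iff.mpr ⟨by simpa using hq.ne_one, hn⟩
  obtain ⟨m, hm, hndvd⟩ := hfin.exists_eq_pow_mul_and_not_dvd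
  exact ⟨_, m, hndvd, hm⟩

/-- A prime `q ≥ 5` does not divide a number of the form `2 ^ a * 3 ^ b`. -/
theorem not_dvd_two_pow_mul_three_pow (q : ℕ) (hq : q.Prime) (h5 : 5 ≤ q) (a b : ℕ) :
    ¬ (q : ℤ) ∣ (2 : ℤ) ^ a * 3 ^ b := by
  intro h
  have hq' : Prime (q : ℤ) := Nat.prime_iff_prime_int.mp hq
  rcases hq'.dvd_or_dvd h with h | h
  · have := hq'.dvd_of_dvd_pow h
    have : q ∣ 2 := by exact_mod_cast this
    have := Nat.le_of_dvd (by norm_num) this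
    omega
  · have := hq'.dvd_of_dvd_pow h
    have : q ∣ 3 := by exact_mod_cast this
    have := Nat.le_of_dvd (by norm_num) this
    omega

theorem dvd_term (q : ℤ) {N e : ℕ} (h : N + 1 ≤ e) (m : ℤ) : q ^ (N + 1) ∣ q ^ e * m :=
  Dvd.dvd.mul_right (pow_dvd_pow q h) m

theorem not_dvd_term {q : ℤ} (hq0 : q ≠ 0) (N : ℕ) {m : ℤ} (hm : ¬ q ∣ m) :
    ¬ q ^ (N + 1) ∣ q ^ N * m := by
  rw [pow_succ]
  exact fun h => hm ((mul_dvd_mul_iff_left (pow_ne_zero N hq0)).mp h)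

theorem ne_zero_of_min {q : ℤ} (N : ℕ) {t r : ℤ} (ht : ¬ q ^ (N + 1) ∣ t)
    (hr : q ^ (N + 1) ∣ r) : t + r ≠ 0 := by
  intro h
  apply ht
  have : t = -r := by linear_combination h
  rw [this]
  exact (dvd_neg).mpr hr

section

variable {q : ℕ} (hq : q.Prime) (h5 : 5 ≤ q) {c₄ c₆ Δ X : ℤ}
  (hrel : c₄ ^ 3 - c₆ ^ 2 = 1728 * Δ)
  (hG : X ^ 4 - 54 * c₄ * X ^ 2 - 216 * c₆ * X - 243 * c₄ ^ 2 = 0)

include hq h5 hrel in
/-- If `q ∣ c₄` and `q ∤ Δ` then `q ∤ c₆`. -/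
theorem not_dvd_c₆ (hc₄ : (q : ℤ) ∣ c₄) (hΔ : ¬ (q : ℤ) ∣ Δ) : ¬ (q : ℤ) ∣ c₆ := by
  intro h6
  have hq' : Prime (q : ℤ) := Nat.prime_iff_prime_int.mp hq
  have h1 : (q : ℤ) ∣ 1728 * Δ := by
    rw [← hrel]
    exact dvd_sub (dvd_pow hc₄ (by norm_num)) (dvd_pow h6 (by norm_num))
  rcases hq'.dvd_or_dvd h1 with h | h
  · have h1728 : (1728 : ℤ) = 2 ^ 6 * 3 ^ 3 := by norm_num
    rw [h1728] at h
    exact not_dvd_two_pow_mul_three_pow q hq h5 6 3 h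
  · exact hΔ h

include hq hrel in
/-- If `q ∣ Δ` and `q ∤ c₄` then `q ∤ c₆`. -/
theorem not_dvd_c₆' (hΔ : (q : ℤ) ∣ Δ) (hc₄ : ¬ (q : ℤ) ∣ c₄) : ¬ (q : ℤ) ∣ c₆ := by
  intro h6
  have hq' : Prime (q : ℤ) := Nat.prime_iff_prime_int.mp hq
  have h1 : (q : ℤ) ∣ c₄ ^ 3 := by
    have : c₄ ^ 3 = 1728 * Δ + c₆ ^ 2 := by linear_combination hrel
    rw [this]
    exact dvd_add (Dvd.dvd.mul_left hΔ _) (dvd_pow h6 (by norm_num))
  exact hc₄ (hq'.dvd_of_dvd_pow h1)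

include hq h5 hG in
/-- If `q ∣ X` then `q ∣ c₄`. -/
theorem dvd_c₄_of_dvd_X (hX : (q : ℤ) ∣ X) : (q : ℤ) ∣ c₄ := by
  have hq' : Prime (q : ℤ) := Nat.prime_iff_prime_int.mp hq
  have h1 : (q : ℤ) ∣ 243 * c₄ ^ 2 := by
    have : 243 * c₄ ^ 2 = X * (X ^ 3 - 54 * c₄ * X - 216 * c₆) := by linear_combination -hG
    rw [this]
    exact Dvd.dvd.mul_right hX _
  rcases hq'.dvd_or_dvd h1 with h | h
  · have h243 : (243 : ℤ) = 2 ^ 0 * 3 ^ 5 := by norm_num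
    rw [h243] at h
    exact absurd h (not_dvd_two_pow_mul_three_pow q hq h5 0 5)
  · exact hq'.dvd_of_dvd_pow h

include hq h5 hrel hG in
/-- **Even valuation.** At a prime `q ≥ 5` where the curve is semistable, `v_q(X)` is even. -/
theorem even_val (hss : (q : ℤ) ∣ Δ → ¬ (q : ℤ) ∣ c₄) (hc₄0 : c₄ ≠ 0) (hX0 : X ≠ 0) :
    ∃ (k : ℕ) (X' : ℤ), ¬ (q : ℤ) ∣ X' ∧ X = (q : ℤ) ^ (2 * k) * X' := by
  have hq' : Prime (q : ℤ) := Nat.prime_iff_prime_int.mp hq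
  have hq0 : (q : ℤ) ≠ 0 := hq'.ne_zero
  by_cases hqX : (q : ℤ) ∣ X
  · have hqc₄ : (q : ℤ) ∣ c₄ := dvd_c₄_of_dvd_X hq h5 hG hqX
    have hqΔ : ¬ (q : ℤ) ∣ Δ := fun h => hss h hqc₄
    have hqc₆ : ¬ (q : ℤ) ∣ c₆ := not_dvd_c₆ hq h5 hrel hqc₄ hqΔ
    obtain ⟨k, X', hX', rfl⟩ := exists_eq_pow_mul q hq X hX0
    obtain ⟨a, c', hc', rfl⟩ := exists_eq_pow_mul q hq c₄ hc₄0
    have hk : 1 ≤ k := by
      rcases Nat.eq_zero_or_pos k with h | h
      · subst h; simp at hqX; exact absurd hqX hX'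
      · exact h
    have ha : 1 ≤ a := by
      rcases Nat.eq_zero_or_pos a with h | h
      · subst h; simp at hqc₄; exact absurd hqc₄ hc'
      · exact h
    have h216 : ¬ (q : ℤ) ∣ 216 * c₆ * X' := by
      intro h
      rcases hq'.dvd_or_dvd h with h | h
      · rcases hq'.dvd_or_dvd h with h | h
        · have h216 : (216 : ℤ) = 2 ^ 3 * 3 ^ 3 := by norm_num
          rw [h216] at h
          exact not_dvd_two_pow_mul_three_pow q hq h5 3 3 h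
        · exact hqc₆ h
      · exact hX' h
    have h243 : ¬ (q : ℤ) ∣ 243 * c' ^ 2 := by
      intro h
      rcases hq'.dvd_or_dvd h with h | h
      · have h243 : (243 : ℤ) = 2 ^ 0 * 3 ^ 5 := by norm_num
        rw [h243] at h
        exact not_dvd_two_pow_mul_three_pow q hq h5 0 5 h
      · exact hc' (hq'.dvd_of_dvd_pow h)
    rcases lt_trichotomy k (2 * a) with h | h | h
    · exfalso
      have key : (q : ℤ) ^ k * (216 * c₆ * X') +
          (-((q : ℤ) ^ (4 * k) * X' ^ 4) + (q : ℤ) ^ (a + 2 * k) * (54 * c' * X' ^ 2) +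
            (q : ℤ) ^ (2 * a) * (243 * c' ^ 2)) = 0 := by
        linear_combination -hG
      refine ne_zero_of_min k (not_dvd_term hq0 k h216) ?_ key
      refine dvd_add (dvd_add ?_ ?_) ?_
      · exact (dvd_neg).mpr (dvd_term _ (by omega) _)
      · exact dvd_term _ (by omega) _
      · exact dvd_term _ (by omega) _
    · exact ⟨a, X', hX', by rw [h]⟩
    · exfalso
      have key : (q : ℤ) ^ (2 * a) * (243 * c' ^ 2) +
          (-((q : ℤ) ^ (4 * k) * X' ^ 4) + (q : ℤ) ^ (a + 2 * k) * (54 * c' * X' ^ 2) +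
            (q : ℤ) ^ k * (216 * c₆ * X')) = 0 := by
        linear_combination -hG
      refine ne_zero_of_min (2 * a) (not_dvd_term hq0 (2 * a) h243) ?_ key
      refine dvd_add (dvd_add ?_ ?_) ?_
      · exact (dvd_neg).mpr (dvd_term _ (by omega) _)
      · exact dvd_term _ (by omega) _
      · exact dvd_term _ (by omega) _
  · exact ⟨0, X, hqX, by simp⟩

include hq h5 hrel hG in
/-- **The root at a multiplicative prime.** At a prime `l = q ≥ 5` with `q ∣ Δ`, `q ∤ c₄` and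
`3 ∤ v_q(Δ)` (here: `Δ = q ^ n * Δ'`, `q ∤ Δ'`, `3 ∤ n`), the root `X` is the one away from the
node: `c₄ X ≡ 9 c₆ (mod q)`. -/
theorem cong_of_mult (hc₄ : ¬ (q : ℤ) ∣ c₄) {n : ℕ} {Δ' : ℤ} (hΔ : Δ = (q : ℤ) ^ n * Δ')
    (hΔ' : ¬ (q : ℤ) ∣ Δ') (hn1 : 1 ≤ n) (hn3 : ¬ 3 ∣ n) :
    (q : ℤ) ∣ c₄ * X - 9 * c₆ := by
  have hq' : Prime (q : ℤ) := Nat.prime_iff_prime_int.mp hq
  have hq0 : (q : ℤ) ≠ 0 := hq'.ne_zero
  have hqΔ : (q : ℤ) ∣ Δ := by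
    rw [hΔ]; exact Dvd.dvd.mul_right (dvd_pow_self _ (by omega)) _
  have hc₆ : ¬ (q : ℤ) ∣ c₆ := not_dvd_c₆' hq hrel hqΔ hc₄
  -- the shifted equation in `z = c₄ X + 3 c₆`
  set z : ℤ := c₄ * X + 3 * c₆ with hz
  have hE : 3 * z ^ 4 - 36 * c₆ * z ^ 3 - 279936 * Δ * z ^ 2 + 559872 * c₆ * Δ * z
      - 1679616 * c₆ ^ 2 * Δ - 2176782336 * Δ ^ 2 = 0 := by
    rw [hz]
    linear_combination (3 * c₄ ^ 4) * hG +
      (729 * c₄ ^ 3 + 162 * c₄ ^ 2 * X ^ 2 + 648 * c₄ * c₆ * X + 729 * c₆ ^ 2 + 1259712 * Δ) *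
        hrel
  have h2a3b : ∀ a b : ℕ, ∀ m : ℤ, ¬ (q : ℤ) ∣ m → ¬ (q : ℤ) ∣ (2 : ℤ) ^ a * 3 ^ b * m := by
    intro a b m hm h
    rcases hq'.dvd_or_dvd h with h | h
    · exact not_dvd_two_pow_mul_three_pow q hq h5 a b h
    · exact hm h
  -- `q ∤ z`
  have hqz : ¬ (q : ℤ) ∣ z := by
    intro hdz
    have hz0 : z ≠ 0 := by
      intro h0
      rw [h0] at hE
      -- `Δ (1679616 c₆² + 2176782336 Δ) = 0`
      have h1 : Δ * (1679616 * c₆ ^ 2 + 2176782336 * Δ) = 0 := by linear_combination -hE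
      have hΔ0 : Δ ≠ 0 := by
        rw [hΔ]
        exact mul_ne_zero (pow_ne_zero n hq0) (fun h => hΔ' (h ▸ dvd_zero _))
      have h2 : 1679616 * c₆ ^ 2 + 2176782336 * Δ = 0 := by
        rcases mul_eq_zero.mp h1 with h | h
        · exact absurd h hΔ0
        · exact h
      have h3 : (q : ℤ) ∣ (2 : ℤ) ^ 8 * 3 ^ 8 * c₆ ^ 2 := by
        have : (2 : ℤ) ^ 8 * 3 ^ 8 * c₆ ^ 2 = -(2176782336 * Δ) := by linear_combination h2
        rw [this]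
        exact (dvd_neg).mpr (Dvd.dvd.mul_left hqΔ _)
      exact h2a3b 8 8 _ (fun h => hc₆ (hq'.dvd_of_dvd_pow h)) h3
    obtain ⟨k, z', hz', hzk⟩ := exists_eq_pow_mul q hq z hz0
    have hk : 1 ≤ k := by
      rcases Nat.eq_zero_or_pos k with h | h
      · subst h; rw [hzk] at hdz; simp at hdz; exact absurd hdz hz'
      · exact h
    rw [hzk, hΔ] at hE
    have hmin1 : ¬ (q : ℤ) ∣ 36 * c₆ * z' ^ 3 := by
      have : (36 : ℤ) * c₆ * z' ^ 3 = (2 : ℤ) ^ 2 * 3 ^ 2 * (c₆ * z' ^ 3) := by ring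
      rw [this]
      refine h2a3b 2 2 _ (fun h => ?_)
      rcases hq'.dvd_or_dvd h with h | h
      · exact hc₆ h
      · exact hz' (hq'.dvd_of_dvd_pow h)
    have hmin2 : ¬ (q : ℤ) ∣ Δ' * (1679616 * c₆ ^ 2 + 2176782336 * ((q : ℤ) ^ n * Δ')) := by
      intro h
      rcases hq'.dvd_or_dvd h with h | h
      · exact hΔ' h
      · have h3 : (q : ℤ) ∣ (2 : ℤ) ^ 8 * 3 ^ 8 * c₆ ^ 2 := by
          have : (2 : ℤ) ^ 8 * 3 ^ 8 * c₆ ^ 2 =
              (1679616 * c₆ ^ 2 + 2176782336 * ((q : ℤ) ^ n * Δ')) -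
                (q : ℤ) ^ n * (2176782336 * Δ') := by ring
          rw [this]
          exact dvd_sub h (Dvd.dvd.mul_right (dvd_pow_self _ (by omega)) _)
        exact h2a3b 8 8 _ (fun h => hc₆ (hq'.dvd_of_dvd_pow h)) h3
    rcases lt_trichotomy (3 * k) n with h | h | h
    · -- the `z³` term is the unique minimum
      have key : (q : ℤ) ^ (3 * k) * (36 * c₆ * z' ^ 3) +
          (-((q : ℤ) ^ (4 * k) * (3 * z' ^ 4)) + (q : ℤ) ^ (n + 2 * k) * (279936 * Δ' * z' ^ 2) +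
            -((q : ℤ) ^ (n + k) * (559872 * c₆ * Δ' * z')) +
            (q : ℤ) ^ n * (Δ' * (1679616 * c₆ ^ 2 + 2176782336 * ((q : ℤ) ^ n * Δ')))) = 0 := by
        linear_combination -hE
      refine ne_zero_of_min (3 * k) (not_dvd_term hq0 (3 * k) hmin1) ?_ key
      refine dvd_add (dvd_add (dvd_add ?_ ?_) ?_) ?_
      · exact (dvd_neg).mpr (dvd_term _ (by omega) _)
      · exact dvd_term _ (by omega) _
      · exact (dvd_neg).mpr (dvd_term _ (by omega) _)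
      · exact dvd_term _ (by omega) _
    · exact hn3 ⟨k, h.symm⟩
    · -- the constant term is the unique minimum
      have key : (q : ℤ) ^ n * (Δ' * (1679616 * c₆ ^ 2 + 2176782336 * ((q : ℤ) ^ n * Δ'))) +
          (-((q : ℤ) ^ (4 * k) * (3 * z' ^ 4)) + (q : ℤ) ^ (n + 2 * k) * (279936 * Δ' * z' ^ 2) +
            -((q : ℤ) ^ (n + k) * (559872 * c₆ * Δ' * z')) +
            (q : ℤ) ^ (3 * k) * (36 * c₆ * z' ^ 3)) = 0 := by
        linear_combination -hE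
      refine ne_zero_of_min n (not_dvd_term hq0 n hmin2) ?_ key
      refine dvd_add (dvd_add (dvd_add ?_ ?_) ?_) ?_
      · exact (dvd_neg).mpr (dvd_term _ (by omega) _)
      · exact dvd_term _ (by omega) _
      · exact (dvd_neg).mpr (dvd_term _ (by omega) _)
      · exact dvd_term _ (by omega) _
  -- reduce modulo `q`
  have h1 : (q : ℤ) ∣ 3 * z ^ 3 * (z - 12 * c₆) := by
    have : 3 * z ^ 3 * (z - 12 * c₆) =
        Δ * (279936 * z ^ 2 - 559872 * c₆ * z + 1679616 * c₆ ^ 2 + 2176782336 * Δ) := by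
      linear_combination hE
    rw [this]
    exact Dvd.dvd.mul_right hqΔ _
  have h2 : (q : ℤ) ∣ z - 12 * c₆ := by
    rcases hq'.dvd_or_dvd h1 with h | h
    · exfalso
      have : (3 : ℤ) * z ^ 3 = (2 : ℤ) ^ 0 * 3 ^ 1 * z ^ 3 := by ring
      rw [this] at h
      exact h2a3b 0 1 _ (fun h => hqz (hq'.dvd_of_dvd_pow h)) h
    · exact h
  have : c₄ * X - 9 * c₆ = z - 12 * c₆ := by rw [hz]; ring
  rw [this]
  exact h2

end

end Fermat.Agent.S52x.Irr3Val3
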