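/-
S52 (3–5 switch), chapter B3 (helper3): **mod-3 irreducibility from two auxiliary primes.**

Let `W` be an integral Weierstrass model which is semistable at every prime `q ≥ 5`
(`q ∣ Δ → q ∤ c₄`).  Suppose there are primes `l₁, l₂ ≥ 5`, `l₁ ≡ l₂ mod 24`, of multiplicative
reduction with `3 ∤ v_{l_i}(Δ)`, such that `-c₄ c₆` is a non-square modulo `l₁` (non-split) and a
square modulo `l₂` (split).  Then the `3`-division polynomial of `W` has no rational root, hence the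
mod-`3` representation of `W` is irreducible.

Proof (elementary).  A rational root `x` gives the integer `X = 36 x + 3 b₂` with
`X⁴ - 54 c₄ X² - 216 c₆ X - 243 c₄² = 0`.  At every prime `q ≥ 5` the valuation `v_q(X)` is even
(`Irr3Val3.even_val`), so `(X / l)` depends only on `l mod 24` (`Irr3Leg3`).  At `l = l_i` the root
is the one away from the node, `c₄ X ≡ 9 c₆` (`Irr3Val3.cong_of_mult`), so
`(X / l) = (c₄ c₆ / l) = (-1 / l) (-c₄ c₆ / l)`: the two symbols differ. Contradiction.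
-/
import Mathlib
import Fermat.Prelude.Def_FLTPrelim_ModularRep
import Fermat.Agent.S51.GaloisDescent
import Fermat.Agent.S52x.Irr3Val3
import Fermat.Agent.S52x.Irr3Leg3

set_option autoImplicit false

open Polynomial

namespace Fermat.Agent.S52x.Irr3Main3

open Fermat.Agent.S52x.Irr3Val3 Fermat.Agent.S52x.Irr3Leg3

/-- A rational root of the monic quartic `G` is an integer. -/
theorem exists_int_of_root (c₄ c₆ : ℤ) (r : ℚ)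
    (hr : r ^ 4 - 54 * (c₄ : ℚ) * r ^ 2 - 216 * (c₆ : ℚ) * r - 243 * (c₄ : ℚ) ^ 2 = 0) :
    ∃ X : ℤ, (X : ℚ) = r ∧ X ^ 4 - 54 * c₄ * X ^ 2 - 216 * c₆ * X - 243 * c₄ ^ 2 = 0 := by
  set p : ℤ[X] := X ^ 4 - C (54 * c₄) * X ^ 2 - C (216 * c₆) * X - C (243 * c₄ ^ 2) with hp
  have hmonic : p.Monic := by
    rw [hp]
    monicity!
  have hroot : aeval r p = 0 := by
    rw [hp]
    simp only [map_sub, map_mul, map_pow, aeval_X, eq_intCast, map_ofNat, map_intCast]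
    linear_combination hr
  obtain ⟨X, hX⟩ := isInteger_of_is_root_of_monic hmonic hroot
  refine ⟨X, by simpa using hX, ?_⟩
  have hX' : (X : ℚ) = r := by simpa using hX
  have : ((X ^ 4 - 54 * c₄ * X ^ 2 - 216 * c₆ * X - 243 * c₄ ^ 2 : ℤ) : ℚ) = 0 := by
    push_cast
    rw [hX']
    exact hr
  exact_mod_cast this

/-- The Legendre symbol of the root at a multiplicative prime. -/
theorem legendreSym_root {l : ℕ} [hl : Fact l.Prime] (h5 : 5 ≤ l) {c₄ c₆ X : ℤ}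
    (hdiv : (l : ℤ) ∣ c₄ * X - 9 * c₆) (hc₄ : ¬ (l : ℤ) ∣ c₄) :
    legendreSym l X = legendreSym l (c₄ * c₆) := by
  have h3 : ((3 : ℤ) : ZMod l) ≠ 0 := by
    rw [Ne, ZMod.intCast_zmod_eq_zero_iff_dvd]
    intro h
    have : l ∣ 3 := by exact_mod_cast h
    have := Nat.le_of_dvd (by norm_num) this
    omega
  have hc₄' : ((c₄ : ℤ) : ZMod l) ≠ 0 := by
    rw [Ne, ZMod.intCast_zmod_eq_zero_iff_dvd]
    exact hc₄
  have h1 : legendreSym l (c₄ * X) = legendreSym l (9 * c₆) := by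
    rw [legendreSym.mod l (c₄ * X), legendreSym.mod l (9 * c₆)]
    congr 1
    exact (Int.modEq_iff_dvd.mpr (by
      have : 9 * c₆ - c₄ * X = -(c₄ * X - 9 * c₆) := by ring
      rw [this]
      exact (dvd_neg).mpr hdiv) : c₄ * X ≡ 9 * c₆ [ZMOD l])
  rw [legendreSym.mul, legendreSym.mul, show (9 : ℤ) = 3 ^ 2 by norm_num,
    legendreSym.sq_one' l h3, one_mul] at h1
  have h2 := legendreSym.sq_one l hc₄'
  rw [legendreSym.mul]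
  calc legendreSym l X = legendreSym l c₄ ^ 2 * legendreSym l X := by rw [h2, one_mul]
    _ = legendreSym l c₄ * (legendreSym l c₄ * legendreSym l X) := by ring
    _ = legendreSym l c₄ * legendreSym l c₆ := by rw [h1]

/-- `-1` satisfies the even-valuation hypothesis. -/
theorem evenAway_neg_one : EvenAway (-1) := by
  intro q hq _
  refine ⟨0, -1, ?_, by simp⟩
  intro h
  have : (q : ℤ) ∣ 1 := (dvd_neg).mp h
  have : q ∣ 1 := by exact_mod_cast this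
  exact hq.one_lt.ne' (Nat.dvd_one.mp this)

/-- **Elementary core**: no integer root of `G` under the two-prime hypothesis. -/
theorem no_int_root {c₄ c₆ Δ : ℤ} (hrel : c₄ ^ 3 - c₆ ^ 2 = 1728 * Δ)
    (hss : ∀ q : ℕ, q.Prime → 5 ≤ q → (q : ℤ) ∣ Δ → ¬ (q : ℤ) ∣ c₄)
    {l₁ l₂ : ℕ} (hl₁ : l₁.Prime) (hl₂ : l₂.Prime) (h5₁ : 5 ≤ l₁) (h5₂ : 5 ≤ l₂)
    (h24 : l₁ % 24 = l₂ % 24)
    {n₁ n₂ : ℕ} {D₁ D₂ : ℤ}
    (hD₁ : Δ = (l₁ : ℤ) ^ n₁ * D₁) (hD₁' : ¬ (l₁ : ℤ) ∣ D₁) (hn₁ : 1 ≤ n₁) (h3n₁ : ¬ 3 ∣ n₁)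
    (hD₂ : Δ = (l₂ : ℤ) ^ n₂ * D₂) (hD₂' : ¬ (l₂ : ℤ) ∣ D₂) (hn₂ : 1 ≤ n₂) (h3n₂ : ¬ 3 ∣ n₂)
    (hns : ¬ IsSquare (((-(c₄ * c₆) : ℤ)) : ZMod l₁))
    (hs : IsSquare (((-(c₄ * c₆) : ℤ)) : ZMod l₂))
    (X : ℤ) : X ^ 4 - 54 * c₄ * X ^ 2 - 216 * c₆ * X - 243 * c₄ ^ 2 ≠ 0 := by
  intro hG
  have : Fact l₁.Prime := ⟨hl₁⟩
  have : Fact l₂.Prime := ⟨hl₂⟩
  have hlΔ₁ : (l₁ : ℤ) ∣ Δ := by
    rw [hD₁]; exact Dvd.dvd.mul_right (dvd_pow_self _ (by omega)) _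
  have hlΔ₂ : (l₂ : ℤ) ∣ Δ := by
    rw [hD₂]; exact Dvd.dvd.mul_right (dvd_pow_self _ (by omega)) _
  have hc₄₁ : ¬ (l₁ : ℤ) ∣ c₄ := hss l₁ hl₁ h5₁ hlΔ₁
  have hc₄₂ : ¬ (l₂ : ℤ) ∣ c₄ := hss l₂ hl₂ h5₂ hlΔ₂
  have hc₄0 : c₄ ≠ 0 := by
    rintro rfl
    exact hc₄₁ (dvd_zero _)
  have hX0 : X ≠ 0 := by
    rintro rfl
    apply hc₄0
    have : 243 * c₄ ^ 2 = 0 := by linear_combination -hG
    have : c₄ ^ 2 = 0 := by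
      rcases mul_eq_zero.mp this with h | h
      · norm_num at h
      · exact h
    exact pow_eq_zero_iff (by norm_num) |>.mp this
  -- even valuations
  have hEven : EvenAway X := fun q hq h5 =>
    even_val hq h5 hrel hG (hss q hq h5) hc₄0 hX0
  -- the root at `l₁`, `l₂`
  have hdiv₁ := cong_of_mult hl₁ h5₁ hrel hG hc₄₁ hD₁ hD₁' hn₁ h3n₁
  have hdiv₂ := cong_of_mult hl₂ h5₂ hrel hG hc₄₂ hD₂ hD₂' hn₂ h3n₂
  have hc₆₁ : ¬ (l₁ : ℤ) ∣ c₆ := not_dvd_c₆' hl₁ hrel hlΔ₁ hc₄₁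
  have hc₆₂ : ¬ (l₂ : ℤ) ∣ c₆ := not_dvd_c₆' hl₂ hrel hlΔ₂ hc₄₂
  have hnd : ∀ (l : ℕ), l.Prime → 5 ≤ l → (l : ℤ) ∣ c₄ * X - 9 * c₆ → ¬ (l : ℤ) ∣ c₆ →
      ¬ (l : ℤ) ∣ X := by
    intro l hl h5 hdiv hc₆ hX
    have hl' : Prime (l : ℤ) := Nat.prime_iff_prime_int.mp hl
    have h1 : (l : ℤ) ∣ (2 : ℤ) ^ 0 * 3 ^ 2 * c₆ := by
      have : (2 : ℤ) ^ 0 * 3 ^ 2 * c₆ = c₄ * X - (c₄ * X - 9 * c₆) := by ring
      rw [this]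
      exact dvd_sub (Dvd.dvd.mul_left hX _) hdiv
    rcases hl'.dvd_or_dvd h1 with h | h
    · exact not_dvd_two_pow_mul_three_pow l hl h5 0 2 h
    · exact hc₆ h
  have hlX₁ : ¬ (l₁ : ℤ) ∣ X := hnd l₁ hl₁ h5₁ hdiv₁ hc₆₁
  have hlX₂ : ¬ (l₂ : ℤ) ∣ X := hnd l₂ hl₂ h5₂ hdiv₂ hc₆₂
  -- Legendre symbols
  have hX₁ := legendreSym_root h5₁ hdiv₁ hc₄₁
  have hX₂ := legendreSym_root h5₂ hdiv₂ hc₄₂
  have hXX : legendreSym l₁ X = legendreSym l₂ X :=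
    legendreSym_eq_of_mod_24 hX0 hEven h5₁ h5₂ h24 hlX₁ hlX₂
  have hnn : ∀ l : ℕ, l.Prime → ¬ (l : ℤ) ∣ (-1 : ℤ) := by
    intro l hl h
    have : (l : ℤ) ∣ 1 := (dvd_neg).mp h
    have : l ∣ 1 := by exact_mod_cast this
    exact hl.one_lt.ne' (Nat.dvd_one.mp this)
  have hee : legendreSym l₁ (-1) = legendreSym l₂ (-1) :=
    legendreSym_eq_of_mod_24 (by norm_num) evenAway_neg_one h5₁ h5₂ h24 (hnn l₁ hl₁) (hnn l₂ hl₂)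
  -- split / non-split
  have hs₂ : legendreSym l₂ (-(c₄ * c₆)) = 1 := by
    rw [legendreSym.eq_one_iff]
    · exact hs
    · rw [Ne, ZMod.intCast_zmod_eq_zero_iff_dvd]
      intro h
      have hl' : Prime (l₂ : ℤ) := Nat.prime_iff_prime_int.mp hl₂
      rcases hl'.dvd_or_dvd ((dvd_neg).mp h) with h | h
      · exact hc₄₂ h
      · exact hc₆₂ h
  have hs₁ : legendreSym l₁ (-(c₄ * c₆)) = -1 := by
    rw [legendreSym.eq_neg_one_iff]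
    exact hns
  have hneg : ∀ (l : ℕ) [Fact l.Prime], legendreSym l (-(c₄ * c₆)) =
      legendreSym l (-1) * legendreSym l (c₄ * c₆) := by
    intro l _
    rw [← legendreSym.mul]
    congr 1
    ring
  rw [hneg l₂, ← hX₂] at hs₂
  rw [hneg l₁, ← hX₁, hXX, hee] at hs₁
  -- `e * t = 1` and `e * t = -1`
  rw [hs₂] at hs₁
  norm_num at hs₁

/-- **Mod-3 irreducibility from two auxiliary primes.**  `W` an integral Weierstrass model,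
semistable at all primes `≥ 5`; `l₁ ≡ l₂ mod 24` primes `≥ 5` of multiplicative reduction with
`3 ∤ v_{l_i}(Δ)`, non-split at `l₁` (`-c₄c₆` a non-square mod `l₁`), split at `l₂`.  Then the
mod-`3` representation of `W` is irreducible. -/
theorem modRepIsIrreducible_three (W : WeierstrassCurve ℤ) (hΔ : W.Δ ≠ 0)
    (hss : ∀ q : ℕ, q.Prime → 5 ≤ q → (q : ℤ) ∣ W.Δ → ¬ (q : ℤ) ∣ W.c₄)
    {l₁ l₂ : ℕ} (hl₁ : l₁.Prime) (hl₂ : l₂.Prime) (h5₁ : 5 ≤ l₁) (h5₂ : 5 ≤ l₂)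
    (h24 : l₁ % 24 = l₂ % 24)
    {n₁ n₂ : ℕ} {D₁ D₂ : ℤ}
    (hD₁ : W.Δ = (l₁ : ℤ) ^ n₁ * D₁) (hD₁' : ¬ (l₁ : ℤ) ∣ D₁) (hn₁ : 1 ≤ n₁) (h3n₁ : ¬ 3 ∣ n₁)
    (hD₂ : W.Δ = (l₂ : ℤ) ^ n₂ * D₂) (hD₂' : ¬ (l₂ : ℤ) ∣ D₂) (hn₂ : 1 ≤ n₂) (h3n₂ : ¬ 3 ∣ n₂)
    (hns : ¬ IsSquare (((-(W.c₄ * W.c₆) : ℤ)) : ZMod l₁))
    (hs : IsSquare (((-(W.c₄ * W.c₆) : ℤ)) : ZMod l₂)) :
    W.ModRepIsIrreducible 3 := by
  by_contra h
  unfold WeierstrassCurve.ModRepIsIrreducible at h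
  have hΔq : (W.map (Int.castRingHom ℚ)).Δ ≠ 0 := by
    rw [WeierstrassCurve.map_Δ]
    simpa using hΔ
  obtain ⟨x, -, hx2⟩ :=
    Fermat.Agent.S51.Galois.rational_root_of_not_irreducible_three
      (W.map (Int.castRingHom ℚ)) hΔq h
  unfold Fermat.Agent.S51.phi2 Fermat.Agent.S51.psi2 at hx2
  simp only [WeierstrassCurve.map_b₂, WeierstrassCurve.map_b₄, WeierstrassCurve.map_b₆,
    WeierstrassCurve.map_b₈, eq_intCast] at hx2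
  have hb : (4 : ℚ) * (W.b₈ : ℚ) = (W.b₂ : ℚ) * (W.b₆ : ℚ) - (W.b₄ : ℚ) ^ 2 := by
    exact_mod_cast W.b_relation
  have hc₄ : (W.c₄ : ℚ) = (W.b₂ : ℚ) ^ 2 - 24 * (W.b₄ : ℚ) := by
    rw [WeierstrassCurve.c₄]; push_cast; ring
  have hc₆ : (W.c₆ : ℚ) = -(W.b₂ : ℚ) ^ 3 + 36 * (W.b₂ : ℚ) * (W.b₄ : ℚ) - 216 * (W.b₆ : ℚ) := by
    rw [WeierstrassCurve.c₆]; push_cast; ring
  obtain ⟨X, -, hG⟩ := exists_int_of_root W.c₄ W.c₆ (36 * x + 3 * (W.b₂ : ℚ)) (by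
    rw [hc₄, hc₆]
    linear_combination (-559872 : ℚ) * hx2 + (-139968 : ℚ) * hb)
  have hrel : W.c₄ ^ 3 - W.c₆ ^ 2 = 1728 * W.Δ := by linear_combination -W.c_relation
  exact no_int_root hrel hss hl₁ hl₂ h5₁ h5₂ h24 hD₁ hD₁' hn₁ h3n₁ hD₂ hD₂' hn₂ h3n₂ hns hs X hG

end Fermat.Agent.S52x.Irr3Main3

namespace Fermat.Agent.S52x.Irr3Main3

/-- Version for a semistable model. -/
theorem modRepIsIrreducible_three_of_isSemistableModel (W : WeierstrassCurve ℤ) (hΔ : W.Δ ≠ 0)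
    (hW : W.IsSemistableModel)
    {l₁ l₂ : ℕ} (hl₁ : l₁.Prime) (hl₂ : l₂.Prime) (h5₁ : 5 ≤ l₁) (h5₂ : 5 ≤ l₂)
    (h24 : l₁ % 24 = l₂ % 24)
    {n₁ n₂ : ℕ} {D₁ D₂ : ℤ}
    (hD₁ : W.Δ = (l₁ : ℤ) ^ n₁ * D₁) (hD₁' : ¬ (l₁ : ℤ) ∣ D₁) (hn₁ : 1 ≤ n₁) (h3n₁ : ¬ 3 ∣ n₁)
    (hD₂ : W.Δ = (l₂ : ℤ) ^ n₂ * D₂) (hD₂' : ¬ (l₂ : ℤ) ∣ D₂) (hn₂ : 1 ≤ n₂) (h3n₂ : ¬ 3 ∣ n₂)
    (hns : ¬ IsSquare (((-(W.c₄ * W.c₆) : ℤ)) : ZMod l₁))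
    (hs : IsSquare (((-(W.c₄ * W.c₆) : ℤ)) : ZMod l₂)) :
    W.ModRepIsIrreducible 3 :=
  modRepIsIrreducible_three W hΔ (fun q hq _ hqΔ => hW q hq hqΔ) hl₁ hl₂ h5₁ h5₂ h24
    hD₁ hD₁' hn₁ h3n₁ hD₂ hD₂' hn₂ h3n₂ hns hs

end Fermat.Agent.S52x.Irr3Main3
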