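import Fermat.Agent.S52x.KleinForms5

/-!
# S52 (B1a): the cyclic subgroup of the universal curve at the vertex pair `{0, ∞}`

Over a field `K` of characteristic zero containing `r` with `r² = 5`, the universal curve
`E : y² = x³ + 27 Hs(s,w) x + 54 Ts(s,w)` has the points with `x`-coordinates
`x₊ = xP r s w`, `x₋ = xP (-r) s w`, forming (with `0`) a cyclic subgroup of order `5`:
`x(2P₊) = x₋`, `x(2P₋) = x₊`.  The `y`-coordinate of `P₊` is
`yP r ι s w = (54/5)(3+r) ι L₁² L₂` with `ι² = -(5+r)/2`, `L₁ L₂ = gs s w`.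

Everything here is a polynomial identity modulo `r² = 5` (and `ι² = -(5+r)/2`), proved by
`linear_combination` with explicit cofactors.
-/

set_option autoImplicit false

namespace Fermat.Agent.S52x.Klein5

variable {K : Type*} [Field K] [CharZero K]

/-- The cubic `x³ + a₄ x + a₆` of the universal curve in the variables `s, w`. -/
def cubS (s w x : K) : K := x ^ 3 + 27 * Hs s w * x + 54 * Ts s w

/-- Numerator of the duplication map of the universal curve in the variables `s, w`. -/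
def phi2S (s w x : K) : K :=
  x ^ 4 - 2 * (27 * Hs s w) * x ^ 2 - 8 * (54 * Ts s w) * x + (27 * Hs s w) ^ 2

/-- The `x`-coordinate `x₊` (and `x₋ = xP (-r)`). -/
def xP (r s w : K) : K :=
  -((15 + 18 / 5 * r) * s ^ 2 + 198 / 5 * r * s * w + (15 - 18 / 5 * r) * w ^ 2)

/-- The linear form `L₁ = s - φ⁻⁵ w` (and `L₂ = lin1 (-r) = s + φ⁵ w`). -/
def lin1 (r s w : K) : K := s + (11 - 5 * r) / 2 * w

/-- The `y`-coordinate of `P₊`. -/
def yP (r ι s w : K) : K := 54 / 5 * (3 + r) * ι * lin1 r s w ^ 2 * lin1 (-r) s w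

theorem lin1_mul {r : K} (hr : r ^ 2 = 5) (s w : K) : lin1 r s w * lin1 (-r) s w = gs s w := by
  simp only [lin1, gs]
  linear_combination (-(25 / 4) * w ^ 2) * hr

theorem xP_sub {r : K} (s w : K) : xP r s w - xP (-r) s w = -(36 / 5) * r * gs s w := by
  simp only [xP, gs]; ring

/-- `x₊³ + a₄ x₊ + a₆` is a constant times `L₁⁴ L₂²`. -/
theorem cubS_xP {r : K} (hr : r ^ 2 = 5) (s w : K) :
    cubS s w (xP r s w) =
      (54 / 5) ^ 2 * (3 + r) ^ 2 * (-(5 + r) / 2) * lin1 r s w ^ 4 * lin1 (-r) s w ^ 2 := by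
  simp only [cubS, xP, lin1, Hs, Ts]
  linear_combination
    ((1458/125)*s^6*r + (1458/25)*s^6 - (1458/5)*s^5*w*r^2 - (352836/125)*s^5*w*r -
        (112266/25)*s^5*w - (729/2)*s^4*w^2*r^3 - (24057/2)*s^4*w^2*r^2 -
        (4729023/50)*s^4*w^2*r - (1681803/10)*s^4*w^2 + 3645*s^3*w^3*r^4 + 32076*s^3*w^3*r^3 -
        16038*s^3*w^3*r^2 - (20589876/25)*s^3*w^3*r - (8732691/5)*s^3*w^3 -
        (18225/8)*s^2*w^4*r^5 + (280665/8)*s^2*w^4*r^4 + (1980693/4)*s^2*w^4*r^3 +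
        (4822335/4)*s^2*w^4*r^2 - (383437233/200)*s^2*w^4*r - (285379443/40)*s^2*w^4 -
        (91125/8)*s*w^5*r^6 - (601425/4)*s*w^5*r^5 - (3568455/8)*s*w^5*r^4 +
        (2308743/2)*s*w^5*r^3 + (44321013/8)*s*w^5*r^2 - (859754169/500)*s*w^5*r -
        (3172532913/200)*s*w^5 + (455625/32)*w^6*r^7 + (3007125/32)*w^6*r^6 -
        (4209975/32)*w^6*r^5 - (47497995/32)*w^6*r^4 + (5525091/32)*w^6*r^3 +
        (1278697347/160)*w^6*r^2 + (2463663519/4000)*w^6*r - (11622745161/800)*w^6) * hr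

/-- `P₊ = (x₊, y₊)` lies on the universal curve. -/
theorem yP_sq {r ι : K} (hr : r ^ 2 = 5) (hι : ι ^ 2 = -(5 + r) / 2) (s w : K) :
    yP r ι s w ^ 2 = cubS s w (xP r s w) := by
  rw [cubS_xP hr, yP]
  linear_combination
    ((54 / 5) ^ 2 * (3 + r) ^ 2 * lin1 r s w ^ 4 * lin1 (-r) s w ^ 2) * hι

/-- `x(2 P₊) = x₋` (cleared of denominators). -/
theorem phi2S_xP {r : K} (hr : r ^ 2 = 5) (s w : K) :
    phi2S s w (xP r s w) = xP (-r) s w * (4 * cubS s w (xP r s w)) := by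
  simp only [phi2S, cubS, xP, Hs, Ts]
  linear_combination
    ((104976/125)*s^8*r^2 + (209952/25)*s^8*r + (104976/5)*s^8 + (4618944/125)*s^7*w*r^2 +
        (6928416/25)*s^7*w*r + (3569184/5)*s^7*w + (75792672/125)*s^6*w^2*r^2 +
        (75792672/25)*s^6*w^2*r + (41150592/5)*s^6*w^2 + (545035392/125)*s^5*w^3*r^2 +
        (272517696/25)*s^5*w^3*r + (167121792/5)*s^5*w^3 + (277031664/25)*s^4*w^4*r^2 +
        11442384*s^4*w^4 - (545035392/125)*s^3*w^5*r^2 + (272517696/25)*s^3*w^5*r -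
        (167121792/5)*s^3*w^5 + (75792672/125)*s^2*w^6*r^2 - (75792672/25)*s^2*w^6*r +
        (41150592/5)*s^2*w^6 - (4618944/125)*s*w^7*r^2 + (6928416/25)*s*w^7*r -
        (3569184/5)*s*w^7 + (104976/125)*w^8*r^2 - (209952/25)*w^8*r + (104976/5)*w^8) * hr

end Fermat.Agent.S52x.Klein5
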