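/-
S52 (3–5 switch): **the Rubin–Silverberg family in Klein coordinates** (helper3), definitions.

`s = u⁵`, `w = v⁵`; the covariant of degree 11 is `n(p) = (u·kG1, -v·kG2)`, so the line `p + t n(p)`
has `s`-coordinate `s (1 + t kG1)⁵` and `w`-coordinate `w (1 - t kG2)⁵`.
`hser H T t`, `tser H T t`, `rhoser H T t` are the expansions of Klein's forms `kH`, `kT` and of
`f(p + t n(p)) / f(p)` along this line, as polynomials in `H = kH p`, `T = kT p`, `t` with integer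
coefficients (computed by exact linear algebra).
-/
import Mathlib
import Fermat.Agent.S52x.Spec3Klein

set_option autoImplicit false

namespace Fermat.Agent.S52x.Spec3

variable {R : Type*} [CommRing R]

/-- `s`-part of the covariant `n(p) = (u·kG1, -v·kG2)`. -/
def kG1 (s w : R) : R := s ^ 2 + 66 * s * w - 11 * w ^ 2

/-- `w`-part of the covariant. -/
def kG2 (s w : R) : R := 11 * s ^ 2 + 66 * s * w - w ^ 2

/-- `f(u, v) = u v · kg(u⁵, v⁵)`. -/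
def kg (s w : R) : R := s ^ 2 + 11 * s * w - w ^ 2

/-- `kH` along the covariant line, as a polynomial in `H = kH p`, `T = kT p`, `t`. -/
def hser (H T t : R) : R :=
    (1 * H) +
    ((-20) * T) * t +
    ((-190) * H ^ 2) * t ^ 2 +
    (1140 * H * T) * t ^ 3 +
    ((-855) * H ^ 3 + (-5700) * T ^ 2) * t ^ 4 +
    ((-15504) * H ^ 2 * T) * t ^ 5 +
    ((-102600) * H ^ 4 + (-63840) * H * T ^ 2) * t ^ 6 +
    (259920 * H ^ 3 * T + 182400 * T ^ 3) * t ^ 7 +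
    ((-1000350) * H ^ 5 + (-1126320) * H ^ 2 * T ^ 2) * t ^ 8 +
    (7736040 * H ^ 4 * T + 7904000 * H * T ^ 3) * t ^ 9 +
    (10003500 * H ^ 6 + (-5619744) * H ^ 3 * T ^ 2 + (-15808000) * T ^ 4) * t ^ 10 +
    ((-54685800) * H ^ 5 * T + (-54853760) * H ^ 2 * T ^ 3) * t ^ 11 +
    ((-45015750) * H ^ 7 + (-7202520) * H ^ 4 * T ^ 2 + 37939200 * H * T ^ 4) * t ^ 12 +
    (35089200 * H ^ 6 * T + (-23201280) * H ^ 3 * T ^ 3 + (-58368000) * T ^ 5) * t ^ 13 +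
    ((-207765000) * H ^ 8 + (-495188640) * H ^ 5 * T ^ 2 + (-287462400) * H ^ 2 * T ^ 4) * t ^ 14 +
    (415530000 * H ^ 7 * T + 882458496 * H ^ 4 * T ^ 3 + 466944000 * H * T ^ 5) * t ^ 15 +
    ((-77911875) * H ^ 9 + (-714711600) * H ^ 6 * T ^ 2 + (-1220474880) * H ^ 3 * T ^ 4 + (-583680000) * T ^ 6) * t ^ 16 +
    ((-353200500) * H ^ 8 * T + (-715080960) * H ^ 5 * T ^ 3 + (-361881600) * H ^ 2 * T ^ 5) * t ^ 17 +
    ((-779118750) * H ^ 10 + (-2182917600) * H ^ 7 * T ^ 2 + (-2026391040) * H ^ 4 * T ^ 4 + (-622592000) * H * T ^ 6) * t ^ 18 +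
    (694372500 * H ^ 9 * T + 2044414080 * H ^ 6 * T ^ 3 + 2005401600 * H ^ 3 * T ^ 5 + 655360000 * T ^ 7) * t ^ 19 +
    (184528125 * H ^ 11 + 549301500 * H ^ 8 * T ^ 2 + 544997376 * H ^ 5 * T ^ 4 + 180224000 * H ^ 2 * T ^ 6) * t ^ 20

/-- `kT` along the covariant line. -/
def tser (H T t : R) : R :=
    (1 * T) +
    (30 * H ^ 2) * t +
    ((-435) * H * T) * t ^ 2 +
    ((-1160) * H ^ 3 + 2900 * T ^ 2) * t ^ 3 +
    (27405 * H ^ 2 * T) * t ^ 4 +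
    (95526 * H ^ 4 + (-46980) * H * T ^ 2) * t ^ 5 +
    ((-437175) * H ^ 3 * T + 156600 * T ^ 3) * t ^ 6 +
    (1879200 * H ^ 5 + 3915000 * H ^ 2 * T ^ 2) * t ^ 7 +
    ((-8554275) * H ^ 4 * T + (-14407200) * H * T ^ 3) * t ^ 8 +
    (24312150 * H ^ 6 + 42021000 * H ^ 3 * T ^ 2 + 32016000 * T ^ 4) * t ^ 9 +
    ((-246633255) * H ^ 5 * T + (-216588240) * H ^ 2 * T ^ 3) * t ^ 10 +
    ((-162081000) * H ^ 7 + 1352475900 * H ^ 4 * T ^ 2 + 1459929600 * H * T ^ 4) * t ^ 11 +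
    (4131714825 * H ^ 6 * T + 1612005600 * H ^ 3 * T ^ 3 + (-2433216000) * T ^ 5) * t ^ 12 +
    (6928962750 * H ^ 8 + (-5235216300) * H ^ 5 * T ^ 2 + (-12044419200) * H ^ 2 * T ^ 4) * t ^ 13 +
    ((-43190534475) * H ^ 7 * T + (-43045111800) * H ^ 4 * T ^ 3) * t ^ 14 +
    (79575287760 * H ^ 6 * T ^ 2 + 79420170240 * H ^ 3 * T ^ 4) * t ^ 15 +
    ((-176688550125) * H ^ 8 * T + (-474659611200) * H ^ 5 * T ^ 3 + (-297825638400) * H ^ 2 * T ^ 5) * t ^ 16 +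
    ((-311803323750) * H ^ 10 + (-77604382800) * H ^ 7 * T ^ 2 + 935084908800 * H ^ 4 * T ^ 4 + 700766208000 * H * T ^ 6) * t ^ 17 +
    (1694131392375 * H ^ 9 * T + 2776512362400 * H ^ 6 * T ^ 3 + 303665356800 * H ^ 3 * T ^ 5 + (-778629120000) * T ^ 7) * t ^ 18 +
    (328214025000 * H ^ 11 + (-3481840250100) * H ^ 8 * T ^ 2 + (-8100765158400) * H ^ 5 * T ^ 4 + (-4290656256000) * H ^ 2 * T ^ 6) * t ^ 19 +
    ((-2874607835625) * H ^ 10 * T + (-2424887357760) * H ^ 7 * T ^ 3 + 3892110842880 * H ^ 4 * T ^ 5 + 3442360320000 * H * T ^ 7) * t ^ 20 +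
    ((-2215444668750) * H ^ 12 + (-3077188825500) * H ^ 9 * T ^ 2 + (-2709129888000) * H ^ 6 * T ^ 4 + (-5125838438400) * H ^ 3 * T ^ 6 + (-3278438400000) * T ^ 8) * t ^ 21 +
    (1403114956875 * H ^ 11 * T + (-1724509423800) * H ^ 8 * T ^ 3 + (-7701051801600) * H ^ 5 * T ^ 5 + (-4573421568000) * H ^ 2 * T ^ 7) * t ^ 22 +
    ((-7705894500000) * H ^ 13 + (-33414470973000) * H ^ 10 * T ^ 2 + (-49888700928000) * H ^ 7 * T ^ 4 + (-30337884979200) * H ^ 4 * T ^ 6 + (-6157762560000) * H * T ^ 8) * t ^ 23 +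
    (5089101159375 * H ^ 12 * T + 22687218914400 * H ^ 9 * T ^ 3 + 35246094796800 * H ^ 6 * T ^ 5 + 22779445248000 * H ^ 3 * T ^ 7 + 5131468800000 * T ^ 9) * t ^ 24 +
    ((-17627233668750) * H ^ 14 + (-70097953635000) * H ^ 11 * T ^ 2 + (-105528606261120) * H ^ 8 * T ^ 4 + (-71274600677376) * H ^ 5 * T ^ 6 + (-18216714240000) * H ^ 2 * T ^ 8) * t ^ 25 +
    (40985726371875 * H ^ 13 * T + 163672057566000 * H ^ 10 * T ^ 3 + 245438120632320 * H ^ 7 * T ^ 5 + 163803539865600 * H ^ 4 * T ^ 7 + 41051750400000 * H * T ^ 9) * t ^ 26 +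
    (9632368125000 * H ^ 15 + 8104032382500 * H ^ 12 * T ^ 2 + (-63806176396800) * H ^ 9 * T ^ 4 + (-143803576074240) * H ^ 6 * T ^ 6 + (-111934439424000) * H ^ 3 * T ^ 8 + (-30408704000000) * T ^ 10) * t ^ 27 +
    ((-21432019078125) * H ^ 14 * T + (-85719228804000) * H ^ 11 * T ^ 3 + (-128580522647040) * H ^ 8 * T ^ 5 + (-85731449241600) * H ^ 5 * T ^ 7 + (-21438136320000) * H ^ 2 * T ^ 9) * t ^ 28 +
    ((-11210083593750) * H ^ 16 + (-49873523512500) * H ^ 13 * T ^ 2 + (-87394892457600) * H ^ 10 * T ^ 4 + (-75042714746880) * H ^ 7 * T ^ 6 + (-31344427008000) * H ^ 4 * T ^ 8 + (-5033164800000) * H * T ^ 10) * t ^ 29 +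
    (4110363984375 * H ^ 15 * T + 19796866155000 * H ^ 12 * T ^ 3 + 38083944628224 * H ^ 9 * T ^ 5 + 36574189977600 * H ^ 6 * T ^ 7 + 17532190720000 * H ^ 3 * T ^ 9 + 3355443200000 * T ^ 11) * t ^ 30

/-- `f(p + t n(p)) / f(p)` along the covariant line. -/
def rhoser (H T t : R) : R :=
    (1) +
    (66 * H) * t ^ 2 +
    ((-440) * T) * t ^ 3 +
    ((-1485) * H ^ 2) * t ^ 4 +
    (3168 * H * T) * t ^ 5 +
    ((-5940) * H ^ 3 + (-10560) * T ^ 2) * t ^ 6 +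
    ((-4752) * H ^ 2 * T) * t ^ 7 +
    ((-66825) * H ^ 4 + (-63360) * H * T ^ 2) * t ^ 8 +
    (142560 * H ^ 3 * T + 140800 * T ^ 3) * t ^ 9 +
    (133650 * H ^ 5 + 133056 * H ^ 2 * T ^ 2) * t ^ 10 +
    ((-61560) * H ^ 4 * T + (-61440) * H * T ^ 3) * t ^ 11 +
    (91125 * H ^ 6 + 193536 * H ^ 3 * T ^ 2 + 102400 * T ^ 4) * t ^ 12

end Fermat.Agent.S52x.Spec3
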