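/-
S52 (3–5 switch): the Rubin–Silverberg family in Klein coordinates (helper3): `f(p + t n(p)) / f(p)` along the line.
The identity is proved coefficientwise in `t` to keep `ring` small: first with `kG1, kG2` as atoms
(`r_expand`), then one two-variable identity per coefficient (`rL_eq_k`, following files).
-/
import Mathlib
import Fermat.Agent.S52x.KleinFam3Defs

set_option autoImplicit false
set_option maxHeartbeats 0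
set_option maxRecDepth 100000
set_option linter.unusedSimpArgs false
set_option linter.unusedVariables false

namespace Fermat.Agent.S52x.Spec3

variable {R : Type*} [CommRing R]

/-- coefficient of `t^0` (with `kG1`, `kG2` as atoms). -/
def rL0 (s w g1 g2 : R) : R :=
    1 * s ^ 2 + 11 * s * w + (-1) * w ^ 2

/-- coefficient of `t^1` (with `kG1`, `kG2` as atoms). -/
def rL1 (s w g1 g2 : R) : R :=
    11 * s ^ 2 * g1 + (-1) * s ^ 2 * g2 + 66 * s * w * g1 + (-66) * s * w * g2 +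
    (-1) * w ^ 2 * g1 + 11 * w ^ 2 * g2

/-- coefficient of `t^2` (with `kG1`, `kG2` as atoms). -/
def rL2 (s w g1 g2 : R) : R :=
    55 * s ^ 2 * g1 ^ 2 + (-11) * s ^ 2 * g1 * g2 + 165 * s * w * g1 ^ 2 + (-396) * s * w * g1 * g2 +
    165 * s * w * g2 ^ 2 + 11 * w ^ 2 * g1 * g2 + (-55) * w ^ 2 * g2 ^ 2

/-- coefficient of `t^3` (with `kG1`, `kG2` as atoms). -/
def rL3 (s w g1 g2 : R) : R :=
    165 * s ^ 2 * g1 ^ 3 + (-55) * s ^ 2 * g1 ^ 2 * g2 + 220 * s * w * g1 ^ 3 + (-990) * s * w * g1 ^ 2 * g2 +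
    990 * s * w * g1 * g2 ^ 2 + (-220) * s * w * g2 ^ 3 + (-55) * w ^ 2 * g1 * g2 ^ 2 + 165 * w ^ 2 * g2 ^ 3

/-- coefficient of `t^4` (with `kG1`, `kG2` as atoms). -/
def rL4 (s w g1 g2 : R) : R :=
    330 * s ^ 2 * g1 ^ 4 + (-165) * s ^ 2 * g1 ^ 3 * g2 + 165 * s * w * g1 ^ 4 + (-1320) * s * w * g1 ^ 3 * g2 +
    2475 * s * w * g1 ^ 2 * g2 ^ 2 + (-1320) * s * w * g1 * g2 ^ 3 + 165 * s * w * g2 ^ 4 + 165 * w ^ 2 * g1 * g2 ^ 3 +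
    (-330) * w ^ 2 * g2 ^ 4

/-- coefficient of `t^5` (with `kG1`, `kG2` as atoms). -/
def rL5 (s w g1 g2 : R) : R :=
    462 * s ^ 2 * g1 ^ 5 + (-330) * s ^ 2 * g1 ^ 4 * g2 + 66 * s * w * g1 ^ 5 + (-990) * s * w * g1 ^ 4 * g2 +
    3300 * s * w * g1 ^ 3 * g2 ^ 2 + (-3300) * s * w * g1 ^ 2 * g2 ^ 3 + 990 * s * w * g1 * g2 ^ 4 + (-66) * s * w * g2 ^ 5 +
    (-330) * w ^ 2 * g1 * g2 ^ 4 + 462 * w ^ 2 * g2 ^ 5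

/-- coefficient of `t^6` (with `kG1`, `kG2` as atoms). -/
def rL6 (s w g1 g2 : R) : R :=
    462 * s ^ 2 * g1 ^ 6 + (-462) * s ^ 2 * g1 ^ 5 * g2 + 11 * s * w * g1 ^ 6 + (-396) * s * w * g1 ^ 5 * g2 +
    2475 * s * w * g1 ^ 4 * g2 ^ 2 + (-4400) * s * w * g1 ^ 3 * g2 ^ 3 + 2475 * s * w * g1 ^ 2 * g2 ^ 4 + (-396) * s * w * g1 * g2 ^ 5 +
    11 * s * w * g2 ^ 6 + 462 * w ^ 2 * g1 * g2 ^ 5 + (-462) * w ^ 2 * g2 ^ 6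

/-- coefficient of `t^7` (with `kG1`, `kG2` as atoms). -/
def rL7 (s w g1 g2 : R) : R :=
    330 * s ^ 2 * g1 ^ 7 + (-462) * s ^ 2 * g1 ^ 6 * g2 + (-66) * s * w * g1 ^ 6 * g2 + 990 * s * w * g1 ^ 5 * g2 ^ 2 +
    (-3300) * s * w * g1 ^ 4 * g2 ^ 3 + 3300 * s * w * g1 ^ 3 * g2 ^ 4 + (-990) * s * w * g1 ^ 2 * g2 ^ 5 + 66 * s * w * g1 * g2 ^ 6 +
    (-462) * w ^ 2 * g1 * g2 ^ 6 + 330 * w ^ 2 * g2 ^ 7

/-- coefficient of `t^8` (with `kG1`, `kG2` as atoms). -/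
def rL8 (s w g1 g2 : R) : R :=
    165 * s ^ 2 * g1 ^ 8 + (-330) * s ^ 2 * g1 ^ 7 * g2 + 165 * s * w * g1 ^ 6 * g2 ^ 2 + (-1320) * s * w * g1 ^ 5 * g2 ^ 3 +
    2475 * s * w * g1 ^ 4 * g2 ^ 4 + (-1320) * s * w * g1 ^ 3 * g2 ^ 5 + 165 * s * w * g1 ^ 2 * g2 ^ 6 + 330 * w ^ 2 * g1 * g2 ^ 7 +
    (-165) * w ^ 2 * g2 ^ 8

/-- coefficient of `t^9` (with `kG1`, `kG2` as atoms). -/
def rL9 (s w g1 g2 : R) : R :=
    55 * s ^ 2 * g1 ^ 9 + (-165) * s ^ 2 * g1 ^ 8 * g2 + (-220) * s * w * g1 ^ 6 * g2 ^ 3 + 990 * s * w * g1 ^ 5 * g2 ^ 4 +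
    (-990) * s * w * g1 ^ 4 * g2 ^ 5 + 220 * s * w * g1 ^ 3 * g2 ^ 6 + (-165) * w ^ 2 * g1 * g2 ^ 8 + 55 * w ^ 2 * g2 ^ 9

/-- coefficient of `t^10` (with `kG1`, `kG2` as atoms). -/
def rL10 (s w g1 g2 : R) : R :=
    11 * s ^ 2 * g1 ^ 10 + (-55) * s ^ 2 * g1 ^ 9 * g2 + 165 * s * w * g1 ^ 6 * g2 ^ 4 + (-396) * s * w * g1 ^ 5 * g2 ^ 5 +
    165 * s * w * g1 ^ 4 * g2 ^ 6 + 55 * w ^ 2 * g1 * g2 ^ 9 + (-11) * w ^ 2 * g2 ^ 10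

/-- coefficient of `t^11` (with `kG1`, `kG2` as atoms). -/
def rL11 (s w g1 g2 : R) : R :=
    1 * s ^ 2 * g1 ^ 11 + (-11) * s ^ 2 * g1 ^ 10 * g2 + (-66) * s * w * g1 ^ 6 * g2 ^ 5 + 66 * s * w * g1 ^ 5 * g2 ^ 6 +
    (-11) * w ^ 2 * g1 * g2 ^ 10 + 1 * w ^ 2 * g2 ^ 11

/-- coefficient of `t^12` (with `kG1`, `kG2` as atoms). -/
def rL12 (s w g1 g2 : R) : R :=
    (-1) * s ^ 2 * g1 ^ 11 * g2 + 11 * s * w * g1 ^ 6 * g2 ^ 6 + 1 * w ^ 2 * g1 * g2 ^ 11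

theorem r_expand (s w t g1 g2 : R) :
    (1 + t * g1) * (1 - t * g2) * kg (s * (1 + t * g1) ^ 5) (w * (1 - t * g2) ^ 5) =
    rL0 s w g1 g2 +
    rL1 s w g1 g2 * t +
    rL2 s w g1 g2 * t ^ 2 +
    rL3 s w g1 g2 * t ^ 3 +
    rL4 s w g1 g2 * t ^ 4 +
    rL5 s w g1 g2 * t ^ 5 +
    rL6 s w g1 g2 * t ^ 6 +
    rL7 s w g1 g2 * t ^ 7 +
    rL8 s w g1 g2 * t ^ 8 +
    rL9 s w g1 g2 * t ^ 9 +
    rL10 s w g1 g2 * t ^ 10 +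
    rL11 s w g1 g2 * t ^ 11 +
    rL12 s w g1 g2 * t ^ 12 := by
  simp only [kg, rL0, rL1, rL2, rL3, rL4, rL5, rL6, rL7, rL8, rL9, rL10, rL11, rL12]
  ring

end Fermat.Agent.S52x.Spec3
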