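/- S52: Klein family (helper3), coefficient identities `rL_eq_k`, k = 0..12. -/
import Mathlib
import Fermat.Agent.S52x.KleinFam3G0

set_option autoImplicit false
set_option maxHeartbeats 0
set_option maxRecDepth 100000
set_option linter.unusedSimpArgs false
set_option linter.unusedVariables false

namespace Fermat.Agent.S52x.Spec3

variable {R : Type*} [CommRing R]

theorem rL_eq_0 (s w : R) :
    rL0 s w (kG1 s w) (kG2 s w) = kg s w * (1) := by
  simp only [rL0, kG1, kG2, kH, kT, kg]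
  ring

theorem rL_eq_1 (s w : R) :
    rL1 s w (kG1 s w) (kG2 s w) = kg s w * (0) := by
  simp only [rL1, kG1, kG2, kH, kT, kg]
  ring

theorem rL_eq_2 (s w : R) :
    rL2 s w (kG1 s w) (kG2 s w) = kg s w * (66 * kH s w) := by
  simp only [rL2, kG1, kG2, kH, kT, kg]
  ring

theorem rL_eq_3 (s w : R) :
    rL3 s w (kG1 s w) (kG2 s w) = kg s w * ((-440) * kT s w) := by
  simp only [rL3, kG1, kG2, kH, kT, kg]
  ring

theorem rL_eq_4 (s w : R) :
    rL4 s w (kG1 s w) (kG2 s w) = kg s w * ((-1485) * kH s w ^ 2) := by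
  simp only [rL4, kG1, kG2, kH, kT, kg]
  ring

theorem rL_eq_5 (s w : R) :
    rL5 s w (kG1 s w) (kG2 s w) = kg s w * (3168 * kH s w * kT s w) := by
  simp only [rL5, kG1, kG2, kH, kT, kg]
  ring

theorem rL_eq_6 (s w : R) :
    rL6 s w (kG1 s w) (kG2 s w) = kg s w * ((-5940) * kH s w ^ 3 + (-10560) * kT s w ^ 2) := by
  simp only [rL6, kG1, kG2, kH, kT, kg]
  ring

theorem rL_eq_7 (s w : R) :
    rL7 s w (kG1 s w) (kG2 s w) = kg s w * ((-4752) * kH s w ^ 2 * kT s w) := by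
  simp only [rL7, kG1, kG2, kH, kT, kg]
  ring

theorem rL_eq_8 (s w : R) :
    rL8 s w (kG1 s w) (kG2 s w) = kg s w * ((-66825) * kH s w ^ 4 + (-63360) * kH s w * kT s w ^ 2) := by
  simp only [rL8, kG1, kG2, kH, kT, kg]
  ring

theorem rL_eq_9 (s w : R) :
    rL9 s w (kG1 s w) (kG2 s w) = kg s w * (142560 * kH s w ^ 3 * kT s w + 140800 * kT s w ^ 3) := by
  simp only [rL9, kG1, kG2, kH, kT, kg]
  ring

theorem rL_eq_10 (s w : R) :
    rL10 s w (kG1 s w) (kG2 s w) = kg s w * (133650 * kH s w ^ 5 + 133056 * kH s w ^ 2 * kT s w ^ 2) := by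
  simp only [rL10, kG1, kG2, kH, kT, kg]
  ring

theorem rL_eq_11 (s w : R) :
    rL11 s w (kG1 s w) (kG2 s w) = kg s w * ((-61560) * kH s w ^ 4 * kT s w + (-61440) * kH s w * kT s w ^ 3) := by
  simp only [rL11, kG1, kG2, kH, kT, kg]
  ring

theorem rL_eq_12 (s w : R) :
    rL12 s w (kG1 s w) (kG2 s w) = kg s w * (91125 * kH s w ^ 6 + 193536 * kH s w ^ 3 * kT s w ^ 2 + 102400 * kT s w ^ 4) := by
  simp only [rL12, kG1, kG2, kH, kT, kg]
  ring

theorem kg_param (s w t : R) :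
    (1 + t * kG1 s w) * (1 - t * kG2 s w) *
      kg (s * (1 + t * kG1 s w) ^ 5) (w * (1 - t * kG2 s w) ^ 5) =
      kg s w * rhoser (kH s w) (kT s w) t := by
  rw [r_expand, rL_eq_0, rL_eq_1, rL_eq_2, rL_eq_3, rL_eq_4, rL_eq_5, rL_eq_6, rL_eq_7, rL_eq_8, rL_eq_9, rL_eq_10, rL_eq_11, rL_eq_12]
  simp only [rhoser] <;> ring

end Fermat.Agent.S52x.Spec3
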