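/-
S52 (3–5 switch): the Rubin–Silverberg family in Klein coordinates (helper3): `kH` along the line.
The identity is proved coefficientwise in `t` to keep `ring` small: first with `kG1, kG2` as atoms
(`h_expand`), then one two-variable identity per coefficient (`hL_eq_k`, following files).
-/
import Mathlib
import Fermat.Agent.S52x.KleinFam3G1

set_option autoImplicit false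
set_option maxHeartbeats 0
set_option maxRecDepth 100000
set_option linter.unusedSimpArgs false
set_option linter.unusedVariables false

namespace Fermat.Agent.S52x.Spec3

variable {R : Type*} [CommRing R]

/-- coefficient of `t^0` (with `kG1`, `kG2` as atoms). -/
def hL0 (s w g1 g2 : R) : R :=
    (-1) * s ^ 4 + 228 * s ^ 3 * w + (-494) * s ^ 2 * w ^ 2 + (-228) * s * w ^ 3 +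
    (-1) * w ^ 4

/-- coefficient of `t^1` (with `kG1`, `kG2` as atoms). -/
def hL1 (s w g1 g2 : R) : R :=
    (-20) * s ^ 4 * g1 + 3420 * s ^ 3 * w * g1 + (-1140) * s ^ 3 * w * g2 + (-4940) * s ^ 2 * w ^ 2 * g1 +
    4940 * s ^ 2 * w ^ 2 * g2 + (-1140) * s * w ^ 3 * g1 + 3420 * s * w ^ 3 * g2 + 20 * w ^ 4 * g2

/-- coefficient of `t^2` (with `kG1`, `kG2` as atoms). -/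
def hL2 (s w g1 g2 : R) : R :=
    (-190) * s ^ 4 * g1 ^ 2 + 23940 * s ^ 3 * w * g1 ^ 2 + (-17100) * s ^ 3 * w * g1 * g2 + 2280 * s ^ 3 * w * g2 ^ 2 +
    (-22230) * s ^ 2 * w ^ 2 * g1 ^ 2 + 49400 * s ^ 2 * w ^ 2 * g1 * g2 + (-22230) * s ^ 2 * w ^ 2 * g2 ^ 2 + (-2280) * s * w ^ 3 * g1 ^ 2 +
    17100 * s * w ^ 3 * g1 * g2 + (-23940) * s * w ^ 3 * g2 ^ 2 + (-190) * w ^ 4 * g2 ^ 2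

/-- coefficient of `t^3` (with `kG1`, `kG2` as atoms). -/
def hL3 (s w g1 g2 : R) : R :=
    (-1140) * s ^ 4 * g1 ^ 3 + 103740 * s ^ 3 * w * g1 ^ 3 + (-119700) * s ^ 3 * w * g1 ^ 2 * g2 + 34200 * s ^ 3 * w * g1 * g2 ^ 2 +
    (-2280) * s ^ 3 * w * g2 ^ 3 + (-59280) * s ^ 2 * w ^ 2 * g1 ^ 3 + 222300 * s ^ 2 * w ^ 2 * g1 ^ 2 * g2 + (-222300) * s ^ 2 * w ^ 2 * g1 * g2 ^ 2 +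
    59280 * s ^ 2 * w ^ 2 * g2 ^ 3 + (-2280) * s * w ^ 3 * g1 ^ 3 + 34200 * s * w ^ 3 * g1 ^ 2 * g2 + (-119700) * s * w ^ 3 * g1 * g2 ^ 2 +
    103740 * s * w ^ 3 * g2 ^ 3 + 1140 * w ^ 4 * g2 ^ 3

/-- coefficient of `t^4` (with `kG1`, `kG2` as atoms). -/
def hL4 (s w g1 g2 : R) : R :=
    (-4845) * s ^ 4 * g1 ^ 4 + 311220 * s ^ 3 * w * g1 ^ 4 + (-518700) * s ^ 3 * w * g1 ^ 3 * g2 + 239400 * s ^ 3 * w * g1 ^ 2 * g2 ^ 2 +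
    (-34200) * s ^ 3 * w * g1 * g2 ^ 3 + 1140 * s ^ 3 * w * g2 ^ 4 + (-103740) * s ^ 2 * w ^ 2 * g1 ^ 4 + 592800 * s ^ 2 * w ^ 2 * g1 ^ 3 * g2 +
    (-1000350) * s ^ 2 * w ^ 2 * g1 ^ 2 * g2 ^ 2 + 592800 * s ^ 2 * w ^ 2 * g1 * g2 ^ 3 + (-103740) * s ^ 2 * w ^ 2 * g2 ^ 4 + (-1140) * s * w ^ 3 * g1 ^ 4 +
    34200 * s * w ^ 3 * g1 ^ 3 * g2 + (-239400) * s * w ^ 3 * g1 ^ 2 * g2 ^ 2 + 518700 * s * w ^ 3 * g1 * g2 ^ 3 + (-311220) * s * w ^ 3 * g2 ^ 4 +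
    (-4845) * w ^ 4 * g2 ^ 4

/-- coefficient of `t^5` (with `kG1`, `kG2` as atoms). -/
def hL5 (s w g1 g2 : R) : R :=
    (-15504) * s ^ 4 * g1 ^ 5 + 684684 * s ^ 3 * w * g1 ^ 5 + (-1556100) * s ^ 3 * w * g1 ^ 4 * g2 + 1037400 * s ^ 3 * w * g1 ^ 3 * g2 ^ 2 +
    (-239400) * s ^ 3 * w * g1 ^ 2 * g2 ^ 3 + 17100 * s ^ 3 * w * g1 * g2 ^ 4 + (-228) * s ^ 3 * w * g2 ^ 5 + (-124488) * s ^ 2 * w ^ 2 * g1 ^ 5 +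
    1037400 * s ^ 2 * w ^ 2 * g1 ^ 4 * g2 + (-2667600) * s ^ 2 * w ^ 2 * g1 ^ 3 * g2 ^ 2 + 2667600 * s ^ 2 * w ^ 2 * g1 ^ 2 * g2 ^ 3 + (-1037400) * s ^ 2 * w ^ 2 * g1 * g2 ^ 4 +
    124488 * s ^ 2 * w ^ 2 * g2 ^ 5 + (-228) * s * w ^ 3 * g1 ^ 5 + 17100 * s * w ^ 3 * g1 ^ 4 * g2 + (-239400) * s * w ^ 3 * g1 ^ 3 * g2 ^ 2 +
    1037400 * s * w ^ 3 * g1 ^ 2 * g2 ^ 3 + (-1556100) * s * w ^ 3 * g1 * g2 ^ 4 + 684684 * s * w ^ 3 * g2 ^ 5 + 15504 * w ^ 4 * g2 ^ 5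

/-- coefficient of `t^6` (with `kG1`, `kG2` as atoms). -/
def hL6 (s w g1 g2 : R) : R :=
    (-38760) * s ^ 4 * g1 ^ 6 + 1141140 * s ^ 3 * w * g1 ^ 6 + (-3423420) * s ^ 3 * w * g1 ^ 5 * g2 + 3112200 * s ^ 3 * w * g1 ^ 4 * g2 ^ 2 +
    (-1037400) * s ^ 3 * w * g1 ^ 3 * g2 ^ 3 + 119700 * s ^ 3 * w * g1 ^ 2 * g2 ^ 4 + (-3420) * s ^ 3 * w * g1 * g2 ^ 5 + (-103740) * s ^ 2 * w ^ 2 * g1 ^ 6 +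
    1244880 * s ^ 2 * w ^ 2 * g1 ^ 5 * g2 + (-4668300) * s ^ 2 * w ^ 2 * g1 ^ 4 * g2 ^ 2 + 7113600 * s ^ 2 * w ^ 2 * g1 ^ 3 * g2 ^ 3 + (-4668300) * s ^ 2 * w ^ 2 * g1 ^ 2 * g2 ^ 4 +
    1244880 * s ^ 2 * w ^ 2 * g1 * g2 ^ 5 + (-103740) * s ^ 2 * w ^ 2 * g2 ^ 6 + 3420 * s * w ^ 3 * g1 ^ 5 * g2 + (-119700) * s * w ^ 3 * g1 ^ 4 * g2 ^ 2 +
    1037400 * s * w ^ 3 * g1 ^ 3 * g2 ^ 3 + (-3112200) * s * w ^ 3 * g1 ^ 2 * g2 ^ 4 + 3423420 * s * w ^ 3 * g1 * g2 ^ 5 + (-1141140) * s * w ^ 3 * g2 ^ 6 +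
    (-38760) * w ^ 4 * g2 ^ 6

/-- coefficient of `t^7` (with `kG1`, `kG2` as atoms). -/
def hL7 (s w g1 g2 : R) : R :=
    (-77520) * s ^ 4 * g1 ^ 7 + 1467180 * s ^ 3 * w * g1 ^ 7 + (-5705700) * s ^ 3 * w * g1 ^ 6 * g2 + 6846840 * s ^ 3 * w * g1 ^ 5 * g2 ^ 2 +
    (-3112200) * s ^ 3 * w * g1 ^ 4 * g2 ^ 3 + 518700 * s ^ 3 * w * g1 ^ 3 * g2 ^ 4 + (-23940) * s ^ 3 * w * g1 ^ 2 * g2 ^ 5 + (-59280) * s ^ 2 * w ^ 2 * g1 ^ 7 +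
    1037400 * s ^ 2 * w ^ 2 * g1 ^ 6 * g2 + (-5601960) * s ^ 2 * w ^ 2 * g1 ^ 5 * g2 ^ 2 + 12448800 * s ^ 2 * w ^ 2 * g1 ^ 4 * g2 ^ 3 + (-12448800) * s ^ 2 * w ^ 2 * g1 ^ 3 * g2 ^ 4 +
    5601960 * s ^ 2 * w ^ 2 * g1 ^ 2 * g2 ^ 5 + (-1037400) * s ^ 2 * w ^ 2 * g1 * g2 ^ 6 + 59280 * s ^ 2 * w ^ 2 * g2 ^ 7 + (-23940) * s * w ^ 3 * g1 ^ 5 * g2 ^ 2 +
    518700 * s * w ^ 3 * g1 ^ 4 * g2 ^ 3 + (-3112200) * s * w ^ 3 * g1 ^ 3 * g2 ^ 4 + 6846840 * s * w ^ 3 * g1 ^ 2 * g2 ^ 5 + (-5705700) * s * w ^ 3 * g1 * g2 ^ 6 +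
    1467180 * s * w ^ 3 * g2 ^ 7 + 77520 * w ^ 4 * g2 ^ 7

/-- coefficient of `t^8` (with `kG1`, `kG2` as atoms). -/
def hL8 (s w g1 g2 : R) : R :=
    (-125970) * s ^ 4 * g1 ^ 8 + 1467180 * s ^ 3 * w * g1 ^ 8 + (-7335900) * s ^ 3 * w * g1 ^ 7 * g2 + 11411400 * s ^ 3 * w * g1 ^ 6 * g2 ^ 2 +
    (-6846840) * s ^ 3 * w * g1 ^ 5 * g2 ^ 3 + 1556100 * s ^ 3 * w * g1 ^ 4 * g2 ^ 4 + (-103740) * s ^ 3 * w * g1 ^ 3 * g2 ^ 5 + (-22230) * s ^ 2 * w ^ 2 * g1 ^ 8 +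
    592800 * s ^ 2 * w ^ 2 * g1 ^ 7 * g2 + (-4668300) * s ^ 2 * w ^ 2 * g1 ^ 6 * g2 ^ 2 + 14938560 * s ^ 2 * w ^ 2 * g1 ^ 5 * g2 ^ 3 + (-21785400) * s ^ 2 * w ^ 2 * g1 ^ 4 * g2 ^ 4 +
    14938560 * s ^ 2 * w ^ 2 * g1 ^ 3 * g2 ^ 5 + (-4668300) * s ^ 2 * w ^ 2 * g1 ^ 2 * g2 ^ 6 + 592800 * s ^ 2 * w ^ 2 * g1 * g2 ^ 7 + (-22230) * s ^ 2 * w ^ 2 * g2 ^ 8 +
    103740 * s * w ^ 3 * g1 ^ 5 * g2 ^ 3 + (-1556100) * s * w ^ 3 * g1 ^ 4 * g2 ^ 4 + 6846840 * s * w ^ 3 * g1 ^ 3 * g2 ^ 5 + (-11411400) * s * w ^ 3 * g1 ^ 2 * g2 ^ 6 +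
    7335900 * s * w ^ 3 * g1 * g2 ^ 7 + (-1467180) * s * w ^ 3 * g2 ^ 8 + (-125970) * w ^ 4 * g2 ^ 8

/-- coefficient of `t^9` (with `kG1`, `kG2` as atoms). -/
def hL9 (s w g1 g2 : R) : R :=
    (-167960) * s ^ 4 * g1 ^ 9 + 1141140 * s ^ 3 * w * g1 ^ 9 + (-7335900) * s ^ 3 * w * g1 ^ 8 * g2 + 14671800 * s ^ 3 * w * g1 ^ 7 * g2 ^ 2 +
    (-11411400) * s ^ 3 * w * g1 ^ 6 * g2 ^ 3 + 3423420 * s ^ 3 * w * g1 ^ 5 * g2 ^ 4 + (-311220) * s ^ 3 * w * g1 ^ 4 * g2 ^ 5 + (-4940) * s ^ 2 * w ^ 2 * g1 ^ 9 +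
    222300 * s ^ 2 * w ^ 2 * g1 ^ 8 * g2 + (-2667600) * s ^ 2 * w ^ 2 * g1 ^ 7 * g2 ^ 2 + 12448800 * s ^ 2 * w ^ 2 * g1 ^ 6 * g2 ^ 3 + (-26142480) * s ^ 2 * w ^ 2 * g1 ^ 5 * g2 ^ 4 +
    26142480 * s ^ 2 * w ^ 2 * g1 ^ 4 * g2 ^ 5 + (-12448800) * s ^ 2 * w ^ 2 * g1 ^ 3 * g2 ^ 6 + 2667600 * s ^ 2 * w ^ 2 * g1 ^ 2 * g2 ^ 7 + (-222300) * s ^ 2 * w ^ 2 * g1 * g2 ^ 8 +
    4940 * s ^ 2 * w ^ 2 * g2 ^ 9 + (-311220) * s * w ^ 3 * g1 ^ 5 * g2 ^ 4 + 3423420 * s * w ^ 3 * g1 ^ 4 * g2 ^ 5 + (-11411400) * s * w ^ 3 * g1 ^ 3 * g2 ^ 6 +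
    14671800 * s * w ^ 3 * g1 ^ 2 * g2 ^ 7 + (-7335900) * s * w ^ 3 * g1 * g2 ^ 8 + 1141140 * s * w ^ 3 * g2 ^ 9 + 167960 * w ^ 4 * g2 ^ 9

/-- coefficient of `t^10` (with `kG1`, `kG2` as atoms). -/
def hL10 (s w g1 g2 : R) : R :=
    (-184756) * s ^ 4 * g1 ^ 10 + 684684 * s ^ 3 * w * g1 ^ 10 + (-5705700) * s ^ 3 * w * g1 ^ 9 * g2 + 14671800 * s ^ 3 * w * g1 ^ 8 * g2 ^ 2 +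
    (-14671800) * s ^ 3 * w * g1 ^ 7 * g2 ^ 3 + 5705700 * s ^ 3 * w * g1 ^ 6 * g2 ^ 4 + (-684684) * s ^ 3 * w * g1 ^ 5 * g2 ^ 5 + (-494) * s ^ 2 * w ^ 2 * g1 ^ 10 +
    49400 * s ^ 2 * w ^ 2 * g1 ^ 9 * g2 + (-1000350) * s ^ 2 * w ^ 2 * g1 ^ 8 * g2 ^ 2 + 7113600 * s ^ 2 * w ^ 2 * g1 ^ 7 * g2 ^ 3 + (-21785400) * s ^ 2 * w ^ 2 * g1 ^ 6 * g2 ^ 4 +
    31370976 * s ^ 2 * w ^ 2 * g1 ^ 5 * g2 ^ 5 + (-21785400) * s ^ 2 * w ^ 2 * g1 ^ 4 * g2 ^ 6 + 7113600 * s ^ 2 * w ^ 2 * g1 ^ 3 * g2 ^ 7 + (-1000350) * s ^ 2 * w ^ 2 * g1 ^ 2 * g2 ^ 8 +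
    49400 * s ^ 2 * w ^ 2 * g1 * g2 ^ 9 + (-494) * s ^ 2 * w ^ 2 * g2 ^ 10 + 684684 * s * w ^ 3 * g1 ^ 5 * g2 ^ 5 + (-5705700) * s * w ^ 3 * g1 ^ 4 * g2 ^ 6 +
    14671800 * s * w ^ 3 * g1 ^ 3 * g2 ^ 7 + (-14671800) * s * w ^ 3 * g1 ^ 2 * g2 ^ 8 + 5705700 * s * w ^ 3 * g1 * g2 ^ 9 + (-684684) * s * w ^ 3 * g2 ^ 10 +
    (-184756) * w ^ 4 * g2 ^ 10

/-- coefficient of `t^11` (with `kG1`, `kG2` as atoms). -/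
def hL11 (s w g1 g2 : R) : R :=
    (-167960) * s ^ 4 * g1 ^ 11 + 311220 * s ^ 3 * w * g1 ^ 11 + (-3423420) * s ^ 3 * w * g1 ^ 10 * g2 + 11411400 * s ^ 3 * w * g1 ^ 9 * g2 ^ 2 +
    (-14671800) * s ^ 3 * w * g1 ^ 8 * g2 ^ 3 + 7335900 * s ^ 3 * w * g1 ^ 7 * g2 ^ 4 + (-1141140) * s ^ 3 * w * g1 ^ 6 * g2 ^ 5 + 4940 * s ^ 2 * w ^ 2 * g1 ^ 10 * g2 +
    (-222300) * s ^ 2 * w ^ 2 * g1 ^ 9 * g2 ^ 2 + 2667600 * s ^ 2 * w ^ 2 * g1 ^ 8 * g2 ^ 3 + (-12448800) * s ^ 2 * w ^ 2 * g1 ^ 7 * g2 ^ 4 + 26142480 * s ^ 2 * w ^ 2 * g1 ^ 6 * g2 ^ 5 +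
    (-26142480) * s ^ 2 * w ^ 2 * g1 ^ 5 * g2 ^ 6 + 12448800 * s ^ 2 * w ^ 2 * g1 ^ 4 * g2 ^ 7 + (-2667600) * s ^ 2 * w ^ 2 * g1 ^ 3 * g2 ^ 8 + 222300 * s ^ 2 * w ^ 2 * g1 ^ 2 * g2 ^ 9 +
    (-4940) * s ^ 2 * w ^ 2 * g1 * g2 ^ 10 + (-1141140) * s * w ^ 3 * g1 ^ 5 * g2 ^ 6 + 7335900 * s * w ^ 3 * g1 ^ 4 * g2 ^ 7 + (-14671800) * s * w ^ 3 * g1 ^ 3 * g2 ^ 8 +
    11411400 * s * w ^ 3 * g1 ^ 2 * g2 ^ 9 + (-3423420) * s * w ^ 3 * g1 * g2 ^ 10 + 311220 * s * w ^ 3 * g2 ^ 11 + 167960 * w ^ 4 * g2 ^ 11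

/-- coefficient of `t^12` (with `kG1`, `kG2` as atoms). -/
def hL12 (s w g1 g2 : R) : R :=
    (-125970) * s ^ 4 * g1 ^ 12 + 103740 * s ^ 3 * w * g1 ^ 12 + (-1556100) * s ^ 3 * w * g1 ^ 11 * g2 + 6846840 * s ^ 3 * w * g1 ^ 10 * g2 ^ 2 +
    (-11411400) * s ^ 3 * w * g1 ^ 9 * g2 ^ 3 + 7335900 * s ^ 3 * w * g1 ^ 8 * g2 ^ 4 + (-1467180) * s ^ 3 * w * g1 ^ 7 * g2 ^ 5 + (-22230) * s ^ 2 * w ^ 2 * g1 ^ 10 * g2 ^ 2 +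
    592800 * s ^ 2 * w ^ 2 * g1 ^ 9 * g2 ^ 3 + (-4668300) * s ^ 2 * w ^ 2 * g1 ^ 8 * g2 ^ 4 + 14938560 * s ^ 2 * w ^ 2 * g1 ^ 7 * g2 ^ 5 + (-21785400) * s ^ 2 * w ^ 2 * g1 ^ 6 * g2 ^ 6 +
    14938560 * s ^ 2 * w ^ 2 * g1 ^ 5 * g2 ^ 7 + (-4668300) * s ^ 2 * w ^ 2 * g1 ^ 4 * g2 ^ 8 + 592800 * s ^ 2 * w ^ 2 * g1 ^ 3 * g2 ^ 9 + (-22230) * s ^ 2 * w ^ 2 * g1 ^ 2 * g2 ^ 10 +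
    1467180 * s * w ^ 3 * g1 ^ 5 * g2 ^ 7 + (-7335900) * s * w ^ 3 * g1 ^ 4 * g2 ^ 8 + 11411400 * s * w ^ 3 * g1 ^ 3 * g2 ^ 9 + (-6846840) * s * w ^ 3 * g1 ^ 2 * g2 ^ 10 +
    1556100 * s * w ^ 3 * g1 * g2 ^ 11 + (-103740) * s * w ^ 3 * g2 ^ 12 + (-125970) * w ^ 4 * g2 ^ 12

/-- coefficient of `t^13` (with `kG1`, `kG2` as atoms). -/
def hL13 (s w g1 g2 : R) : R :=
    (-77520) * s ^ 4 * g1 ^ 13 + 23940 * s ^ 3 * w * g1 ^ 13 + (-518700) * s ^ 3 * w * g1 ^ 12 * g2 + 3112200 * s ^ 3 * w * g1 ^ 11 * g2 ^ 2 +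
    (-6846840) * s ^ 3 * w * g1 ^ 10 * g2 ^ 3 + 5705700 * s ^ 3 * w * g1 ^ 9 * g2 ^ 4 + (-1467180) * s ^ 3 * w * g1 ^ 8 * g2 ^ 5 + 59280 * s ^ 2 * w ^ 2 * g1 ^ 10 * g2 ^ 3 +
    (-1037400) * s ^ 2 * w ^ 2 * g1 ^ 9 * g2 ^ 4 + 5601960 * s ^ 2 * w ^ 2 * g1 ^ 8 * g2 ^ 5 + (-12448800) * s ^ 2 * w ^ 2 * g1 ^ 7 * g2 ^ 6 + 12448800 * s ^ 2 * w ^ 2 * g1 ^ 6 * g2 ^ 7 +
    (-5601960) * s ^ 2 * w ^ 2 * g1 ^ 5 * g2 ^ 8 + 1037400 * s ^ 2 * w ^ 2 * g1 ^ 4 * g2 ^ 9 + (-59280) * s ^ 2 * w ^ 2 * g1 ^ 3 * g2 ^ 10 + (-1467180) * s * w ^ 3 * g1 ^ 5 * g2 ^ 8 +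
    5705700 * s * w ^ 3 * g1 ^ 4 * g2 ^ 9 + (-6846840) * s * w ^ 3 * g1 ^ 3 * g2 ^ 10 + 3112200 * s * w ^ 3 * g1 ^ 2 * g2 ^ 11 + (-518700) * s * w ^ 3 * g1 * g2 ^ 12 +
    23940 * s * w ^ 3 * g2 ^ 13 + 77520 * w ^ 4 * g2 ^ 13

/-- coefficient of `t^14` (with `kG1`, `kG2` as atoms). -/
def hL14 (s w g1 g2 : R) : R :=
    (-38760) * s ^ 4 * g1 ^ 14 + 3420 * s ^ 3 * w * g1 ^ 14 + (-119700) * s ^ 3 * w * g1 ^ 13 * g2 + 1037400 * s ^ 3 * w * g1 ^ 12 * g2 ^ 2 +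
    (-3112200) * s ^ 3 * w * g1 ^ 11 * g2 ^ 3 + 3423420 * s ^ 3 * w * g1 ^ 10 * g2 ^ 4 + (-1141140) * s ^ 3 * w * g1 ^ 9 * g2 ^ 5 + (-103740) * s ^ 2 * w ^ 2 * g1 ^ 10 * g2 ^ 4 +
    1244880 * s ^ 2 * w ^ 2 * g1 ^ 9 * g2 ^ 5 + (-4668300) * s ^ 2 * w ^ 2 * g1 ^ 8 * g2 ^ 6 + 7113600 * s ^ 2 * w ^ 2 * g1 ^ 7 * g2 ^ 7 + (-4668300) * s ^ 2 * w ^ 2 * g1 ^ 6 * g2 ^ 8 +
    1244880 * s ^ 2 * w ^ 2 * g1 ^ 5 * g2 ^ 9 + (-103740) * s ^ 2 * w ^ 2 * g1 ^ 4 * g2 ^ 10 + 1141140 * s * w ^ 3 * g1 ^ 5 * g2 ^ 9 + (-3423420) * s * w ^ 3 * g1 ^ 4 * g2 ^ 10 +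
    3112200 * s * w ^ 3 * g1 ^ 3 * g2 ^ 11 + (-1037400) * s * w ^ 3 * g1 ^ 2 * g2 ^ 12 + 119700 * s * w ^ 3 * g1 * g2 ^ 13 + (-3420) * s * w ^ 3 * g2 ^ 14 +
    (-38760) * w ^ 4 * g2 ^ 14

/-- coefficient of `t^15` (with `kG1`, `kG2` as atoms). -/
def hL15 (s w g1 g2 : R) : R :=
    (-15504) * s ^ 4 * g1 ^ 15 + 228 * s ^ 3 * w * g1 ^ 15 + (-17100) * s ^ 3 * w * g1 ^ 14 * g2 + 239400 * s ^ 3 * w * g1 ^ 13 * g2 ^ 2 +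
    (-1037400) * s ^ 3 * w * g1 ^ 12 * g2 ^ 3 + 1556100 * s ^ 3 * w * g1 ^ 11 * g2 ^ 4 + (-684684) * s ^ 3 * w * g1 ^ 10 * g2 ^ 5 + 124488 * s ^ 2 * w ^ 2 * g1 ^ 10 * g2 ^ 5 +
    (-1037400) * s ^ 2 * w ^ 2 * g1 ^ 9 * g2 ^ 6 + 2667600 * s ^ 2 * w ^ 2 * g1 ^ 8 * g2 ^ 7 + (-2667600) * s ^ 2 * w ^ 2 * g1 ^ 7 * g2 ^ 8 + 1037400 * s ^ 2 * w ^ 2 * g1 ^ 6 * g2 ^ 9 +
    (-124488) * s ^ 2 * w ^ 2 * g1 ^ 5 * g2 ^ 10 + (-684684) * s * w ^ 3 * g1 ^ 5 * g2 ^ 10 + 1556100 * s * w ^ 3 * g1 ^ 4 * g2 ^ 11 + (-1037400) * s * w ^ 3 * g1 ^ 3 * g2 ^ 12 +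
    239400 * s * w ^ 3 * g1 ^ 2 * g2 ^ 13 + (-17100) * s * w ^ 3 * g1 * g2 ^ 14 + 228 * s * w ^ 3 * g2 ^ 15 + 15504 * w ^ 4 * g2 ^ 15

/-- coefficient of `t^16` (with `kG1`, `kG2` as atoms). -/
def hL16 (s w g1 g2 : R) : R :=
    (-4845) * s ^ 4 * g1 ^ 16 + (-1140) * s ^ 3 * w * g1 ^ 15 * g2 + 34200 * s ^ 3 * w * g1 ^ 14 * g2 ^ 2 + (-239400) * s ^ 3 * w * g1 ^ 13 * g2 ^ 3 +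
    518700 * s ^ 3 * w * g1 ^ 12 * g2 ^ 4 + (-311220) * s ^ 3 * w * g1 ^ 11 * g2 ^ 5 + (-103740) * s ^ 2 * w ^ 2 * g1 ^ 10 * g2 ^ 6 + 592800 * s ^ 2 * w ^ 2 * g1 ^ 9 * g2 ^ 7 +
    (-1000350) * s ^ 2 * w ^ 2 * g1 ^ 8 * g2 ^ 8 + 592800 * s ^ 2 * w ^ 2 * g1 ^ 7 * g2 ^ 9 + (-103740) * s ^ 2 * w ^ 2 * g1 ^ 6 * g2 ^ 10 + 311220 * s * w ^ 3 * g1 ^ 5 * g2 ^ 11 +
    (-518700) * s * w ^ 3 * g1 ^ 4 * g2 ^ 12 + 239400 * s * w ^ 3 * g1 ^ 3 * g2 ^ 13 + (-34200) * s * w ^ 3 * g1 ^ 2 * g2 ^ 14 + 1140 * s * w ^ 3 * g1 * g2 ^ 15 +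
    (-4845) * w ^ 4 * g2 ^ 16

/-- coefficient of `t^17` (with `kG1`, `kG2` as atoms). -/
def hL17 (s w g1 g2 : R) : R :=
    (-1140) * s ^ 4 * g1 ^ 17 + 2280 * s ^ 3 * w * g1 ^ 15 * g2 ^ 2 + (-34200) * s ^ 3 * w * g1 ^ 14 * g2 ^ 3 + 119700 * s ^ 3 * w * g1 ^ 13 * g2 ^ 4 +
    (-103740) * s ^ 3 * w * g1 ^ 12 * g2 ^ 5 + 59280 * s ^ 2 * w ^ 2 * g1 ^ 10 * g2 ^ 7 + (-222300) * s ^ 2 * w ^ 2 * g1 ^ 9 * g2 ^ 8 + 222300 * s ^ 2 * w ^ 2 * g1 ^ 8 * g2 ^ 9 +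
    (-59280) * s ^ 2 * w ^ 2 * g1 ^ 7 * g2 ^ 10 + (-103740) * s * w ^ 3 * g1 ^ 5 * g2 ^ 12 + 119700 * s * w ^ 3 * g1 ^ 4 * g2 ^ 13 + (-34200) * s * w ^ 3 * g1 ^ 3 * g2 ^ 14 +
    2280 * s * w ^ 3 * g1 ^ 2 * g2 ^ 15 + 1140 * w ^ 4 * g2 ^ 17

/-- coefficient of `t^18` (with `kG1`, `kG2` as atoms). -/
def hL18 (s w g1 g2 : R) : R :=
    (-190) * s ^ 4 * g1 ^ 18 + (-2280) * s ^ 3 * w * g1 ^ 15 * g2 ^ 3 + 17100 * s ^ 3 * w * g1 ^ 14 * g2 ^ 4 + (-23940) * s ^ 3 * w * g1 ^ 13 * g2 ^ 5 +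
    (-22230) * s ^ 2 * w ^ 2 * g1 ^ 10 * g2 ^ 8 + 49400 * s ^ 2 * w ^ 2 * g1 ^ 9 * g2 ^ 9 + (-22230) * s ^ 2 * w ^ 2 * g1 ^ 8 * g2 ^ 10 + 23940 * s * w ^ 3 * g1 ^ 5 * g2 ^ 13 +
    (-17100) * s * w ^ 3 * g1 ^ 4 * g2 ^ 14 + 2280 * s * w ^ 3 * g1 ^ 3 * g2 ^ 15 + (-190) * w ^ 4 * g2 ^ 18

/-- coefficient of `t^19` (with `kG1`, `kG2` as atoms). -/
def hL19 (s w g1 g2 : R) : R :=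
    (-20) * s ^ 4 * g1 ^ 19 + 1140 * s ^ 3 * w * g1 ^ 15 * g2 ^ 4 + (-3420) * s ^ 3 * w * g1 ^ 14 * g2 ^ 5 + 4940 * s ^ 2 * w ^ 2 * g1 ^ 10 * g2 ^ 9 +
    (-4940) * s ^ 2 * w ^ 2 * g1 ^ 9 * g2 ^ 10 + (-3420) * s * w ^ 3 * g1 ^ 5 * g2 ^ 14 + 1140 * s * w ^ 3 * g1 ^ 4 * g2 ^ 15 + 20 * w ^ 4 * g2 ^ 19

/-- coefficient of `t^20` (with `kG1`, `kG2` as atoms). -/
def hL20 (s w g1 g2 : R) : R :=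
    (-1) * s ^ 4 * g1 ^ 20 + (-228) * s ^ 3 * w * g1 ^ 15 * g2 ^ 5 + (-494) * s ^ 2 * w ^ 2 * g1 ^ 10 * g2 ^ 10 + 228 * s * w ^ 3 * g1 ^ 5 * g2 ^ 15 +
    (-1) * w ^ 4 * g2 ^ 20

theorem h_expand (s w t g1 g2 : R) :
    kH (s * (1 + t * g1) ^ 5) (w * (1 - t * g2) ^ 5) =
    hL0 s w g1 g2 +
    hL1 s w g1 g2 * t +
    hL2 s w g1 g2 * t ^ 2 +
    hL3 s w g1 g2 * t ^ 3 +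
    hL4 s w g1 g2 * t ^ 4 +
    hL5 s w g1 g2 * t ^ 5 +
    hL6 s w g1 g2 * t ^ 6 +
    hL7 s w g1 g2 * t ^ 7 +
    hL8 s w g1 g2 * t ^ 8 +
    hL9 s w g1 g2 * t ^ 9 +
    hL10 s w g1 g2 * t ^ 10 +
    hL11 s w g1 g2 * t ^ 11 +
    hL12 s w g1 g2 * t ^ 12 +
    hL13 s w g1 g2 * t ^ 13 +
    hL14 s w g1 g2 * t ^ 14 +
    hL15 s w g1 g2 * t ^ 15 +
    hL16 s w g1 g2 * t ^ 16 +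
    hL17 s w g1 g2 * t ^ 17 +
    hL18 s w g1 g2 * t ^ 18 +
    hL19 s w g1 g2 * t ^ 19 +
    hL20 s w g1 g2 * t ^ 20 := by
  simp only [kH, hL0, hL1, hL2, hL3, hL4, hL5, hL6, hL7, hL8, hL9, hL10, hL11, hL12, hL13, hL14, hL15, hL16, hL17, hL18, hL19, hL20]
  ring

end Fermat.Agent.S52x.Spec3
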