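/- S52: Klein family (helper3), coefficient identities `hL_eq_k`, k = 0..13. -/
import Mathlib
import Fermat.Agent.S52x.KleinFam3H0

set_option autoImplicit false
set_option maxHeartbeats 0
set_option maxRecDepth 100000
set_option linter.unusedSimpArgs false
set_option linter.unusedVariables false

namespace Fermat.Agent.S52x.Spec3

variable {R : Type*} [CommRing R]

theorem hL_eq_0 (s w : R) :
    hL0 s w (kG1 s w) (kG2 s w) = (1 * kH s w) := by
  simp only [hL0, kG1, kG2, kH, kT]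
  ring

theorem hL_eq_1 (s w : R) :
    hL1 s w (kG1 s w) (kG2 s w) = ((-20) * kT s w) := by
  simp only [hL1, kG1, kG2, kH, kT]
  ring

theorem hL_eq_2 (s w : R) :
    hL2 s w (kG1 s w) (kG2 s w) = ((-190) * kH s w ^ 2) := by
  simp only [hL2, kG1, kG2, kH, kT]
  ring

theorem hL_eq_3 (s w : R) :
    hL3 s w (kG1 s w) (kG2 s w) = (1140 * kH s w * kT s w) := by
  simp only [hL3, kG1, kG2, kH, kT]
  ring

theorem hL_eq_4 (s w : R) :
    hL4 s w (kG1 s w) (kG2 s w) = ((-855) * kH s w ^ 3 + (-5700) * kT s w ^ 2) := by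
  simp only [hL4, kG1, kG2, kH, kT]
  ring

theorem hL_eq_5 (s w : R) :
    hL5 s w (kG1 s w) (kG2 s w) = ((-15504) * kH s w ^ 2 * kT s w) := by
  simp only [hL5, kG1, kG2, kH, kT]
  ring

theorem hL_eq_6 (s w : R) :
    hL6 s w (kG1 s w) (kG2 s w) = ((-102600) * kH s w ^ 4 + (-63840) * kH s w * kT s w ^ 2) := by
  simp only [hL6, kG1, kG2, kH, kT]
  ring

theorem hL_eq_7 (s w : R) :
    hL7 s w (kG1 s w) (kG2 s w) = (259920 * kH s w ^ 3 * kT s w + 182400 * kT s w ^ 3) := by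
  simp only [hL7, kG1, kG2, kH, kT]
  ring

theorem hL_eq_8 (s w : R) :
    hL8 s w (kG1 s w) (kG2 s w) = ((-1000350) * kH s w ^ 5 + (-1126320) * kH s w ^ 2 * kT s w ^ 2) := by
  simp only [hL8, kG1, kG2, kH, kT]
  ring

theorem hL_eq_9 (s w : R) :
    hL9 s w (kG1 s w) (kG2 s w) = (7736040 * kH s w ^ 4 * kT s w + 7904000 * kH s w * kT s w ^ 3) := by
  simp only [hL9, kG1, kG2, kH, kT]
  ring

theorem hL_eq_10 (s w : R) :
    hL10 s w (kG1 s w) (kG2 s w) = (10003500 * kH s w ^ 6 + (-5619744) * kH s w ^ 3 * kT s w ^ 2 + (-15808000) * kT s w ^ 4) := by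
  simp only [hL10, kG1, kG2, kH, kT]
  ring

theorem hL_eq_11 (s w : R) :
    hL11 s w (kG1 s w) (kG2 s w) = ((-54685800) * kH s w ^ 5 * kT s w + (-54853760) * kH s w ^ 2 * kT s w ^ 3) := by
  simp only [hL11, kG1, kG2, kH, kT]
  ring

theorem hL_eq_12 (s w : R) :
    hL12 s w (kG1 s w) (kG2 s w) = ((-45015750) * kH s w ^ 7 + (-7202520) * kH s w ^ 4 * kT s w ^ 2 + 37939200 * kH s w * kT s w ^ 4) := by
  simp only [hL12, kG1, kG2, kH, kT]
  ring

theorem hL_eq_13 (s w : R) :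
    hL13 s w (kG1 s w) (kG2 s w) = (35089200 * kH s w ^ 6 * kT s w + (-23201280) * kH s w ^ 3 * kT s w ^ 3 + (-58368000) * kT s w ^ 5) := by
  simp only [hL13, kG1, kG2, kH, kT]
  ring

end Fermat.Agent.S52x.Spec3
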