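/- S52: Klein family (helper3), coefficient identities `hL_eq_k`, k = 14..20. -/
import Mathlib
import Fermat.Agent.S52x.KleinFam3H1

set_option autoImplicit false
set_option maxHeartbeats 0
set_option maxRecDepth 100000
set_option linter.unusedSimpArgs false
set_option linter.unusedVariables false

namespace Fermat.Agent.S52x.Spec3

variable {R : Type*} [CommRing R]

theorem hL_eq_14 (s w : R) :
    hL14 s w (kG1 s w) (kG2 s w) = ((-207765000) * kH s w ^ 8 + (-495188640) * kH s w ^ 5 * kT s w ^ 2 + (-287462400) * kH s w ^ 2 * kT s w ^ 4) := by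
  simp only [hL14, kG1, kG2, kH, kT]
  ring

theorem hL_eq_15 (s w : R) :
    hL15 s w (kG1 s w) (kG2 s w) = (415530000 * kH s w ^ 7 * kT s w + 882458496 * kH s w ^ 4 * kT s w ^ 3 + 466944000 * kH s w * kT s w ^ 5) := by
  simp only [hL15, kG1, kG2, kH, kT]
  ring

theorem hL_eq_16 (s w : R) :
    hL16 s w (kG1 s w) (kG2 s w) = ((-77911875) * kH s w ^ 9 + (-714711600) * kH s w ^ 6 * kT s w ^ 2 + (-1220474880) * kH s w ^ 3 * kT s w ^ 4 + (-583680000) * kT s w ^ 6) := by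
  simp only [hL16, kG1, kG2, kH, kT]
  ring

theorem hL_eq_17 (s w : R) :
    hL17 s w (kG1 s w) (kG2 s w) = ((-353200500) * kH s w ^ 8 * kT s w + (-715080960) * kH s w ^ 5 * kT s w ^ 3 + (-361881600) * kH s w ^ 2 * kT s w ^ 5) := by
  simp only [hL17, kG1, kG2, kH, kT]
  ring

theorem hL_eq_18 (s w : R) :
    hL18 s w (kG1 s w) (kG2 s w) = ((-779118750) * kH s w ^ 10 + (-2182917600) * kH s w ^ 7 * kT s w ^ 2 + (-2026391040) * kH s w ^ 4 * kT s w ^ 4 + (-622592000) * kH s w * kT s w ^ 6) := by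
  simp only [hL18, kG1, kG2, kH, kT]
  ring

theorem hL_eq_19 (s w : R) :
    hL19 s w (kG1 s w) (kG2 s w) = (694372500 * kH s w ^ 9 * kT s w + 2044414080 * kH s w ^ 6 * kT s w ^ 3 + 2005401600 * kH s w ^ 3 * kT s w ^ 5 + 655360000 * kT s w ^ 7) := by
  simp only [hL19, kG1, kG2, kH, kT]
  ring

theorem hL_eq_20 (s w : R) :
    hL20 s w (kG1 s w) (kG2 s w) = (184528125 * kH s w ^ 11 + 549301500 * kH s w ^ 8 * kT s w ^ 2 + 544997376 * kH s w ^ 5 * kT s w ^ 4 + 180224000 * kH s w ^ 2 * kT s w ^ 6) := by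
  simp only [hL20, kG1, kG2, kH, kT]
  ring

theorem kH_param (s w t : R) :
    kH (s * (1 + t * kG1 s w) ^ 5) (w * (1 - t * kG2 s w) ^ 5) = hser (kH s w) (kT s w) t := by
  rw [h_expand, hL_eq_0, hL_eq_1, hL_eq_2, hL_eq_3, hL_eq_4, hL_eq_5, hL_eq_6, hL_eq_7, hL_eq_8, hL_eq_9, hL_eq_10, hL_eq_11, hL_eq_12, hL_eq_13, hL_eq_14, hL_eq_15, hL_eq_16, hL_eq_17, hL_eq_18, hL_eq_19, hL_eq_20]
  simp only [hser] <;> ring

end Fermat.Agent.S52x.Spec3
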