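/-
S52 (3–5 switch): the Rubin–Silverberg family in Klein coordinates (helper3): `kT` along the line.
The identity is proved coefficientwise in `t` to keep `ring` small: first with `kG1, kG2` as atoms
(`t_expand`), then one two-variable identity per coefficient (`tL_eq_k`, following files).
-/
import Mathlib
import Fermat.Agent.S52x.KleinFam3H2

set_option autoImplicit false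
set_option maxHeartbeats 0
set_option maxRecDepth 100000
set_option linter.unusedSimpArgs false
set_option linter.unusedVariables false

namespace Fermat.Agent.S52x.Spec3

variable {R : Type*} [CommRing R]

/-- coefficient of `t^0` (with `kG1`, `kG2` as atoms). -/
def tL0 (s w g1 g2 : R) : R :=
    1 * s ^ 6 + 522 * s ^ 5 * w + (-10005) * s ^ 4 * w ^ 2 + (-10005) * s ^ 2 * w ^ 4 +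
    (-522) * s * w ^ 5 + 1 * w ^ 6

/-- coefficient of `t^1` (with `kG1`, `kG2` as atoms). -/
def tL1 (s w g1 g2 : R) : R :=
    30 * s ^ 6 * g1 + 13050 * s ^ 5 * w * g1 + (-2610) * s ^ 5 * w * g2 + (-200100) * s ^ 4 * w ^ 2 * g1 +
    100050 * s ^ 4 * w ^ 2 * g2 + (-100050) * s ^ 2 * w ^ 4 * g1 + 200100 * s ^ 2 * w ^ 4 * g2 + (-2610) * s * w ^ 5 * g1 +
    13050 * s * w ^ 5 * g2 + (-30) * w ^ 6 * g2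

/-- coefficient of `t^2` (with `kG1`, `kG2` as atoms). -/
def tL2 (s w g1 g2 : R) : R :=
    435 * s ^ 6 * g1 ^ 2 + 156600 * s ^ 5 * w * g1 ^ 2 + (-65250) * s ^ 5 * w * g1 * g2 + 5220 * s ^ 5 * w * g2 ^ 2 +
    (-1900950) * s ^ 4 * w ^ 2 * g1 ^ 2 + 2001000 * s ^ 4 * w ^ 2 * g1 * g2 + (-450225) * s ^ 4 * w ^ 2 * g2 ^ 2 + (-450225) * s ^ 2 * w ^ 4 * g1 ^ 2 +
    2001000 * s ^ 2 * w ^ 4 * g1 * g2 + (-1900950) * s ^ 2 * w ^ 4 * g2 ^ 2 + (-5220) * s * w ^ 5 * g1 ^ 2 + 65250 * s * w ^ 5 * g1 * g2 +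
    (-156600) * s * w ^ 5 * g2 ^ 2 + 435 * w ^ 6 * g2 ^ 2

/-- coefficient of `t^3` (with `kG1`, `kG2` as atoms). -/
def tL3 (s w g1 g2 : R) : R :=
    4060 * s ^ 6 * g1 ^ 3 + 1200600 * s ^ 5 * w * g1 ^ 3 + (-783000) * s ^ 5 * w * g1 ^ 2 * g2 + 130500 * s ^ 5 * w * g1 * g2 ^ 2 +
    (-5220) * s ^ 5 * w * g2 ^ 3 + (-11405700) * s ^ 4 * w ^ 2 * g1 ^ 3 + 19009500 * s ^ 4 * w ^ 2 * g1 ^ 2 * g2 + (-9004500) * s ^ 4 * w ^ 2 * g1 * g2 ^ 2 +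
    1200600 * s ^ 4 * w ^ 2 * g2 ^ 3 + (-1200600) * s ^ 2 * w ^ 4 * g1 ^ 3 + 9004500 * s ^ 2 * w ^ 4 * g1 ^ 2 * g2 + (-19009500) * s ^ 2 * w ^ 4 * g1 * g2 ^ 2 +
    11405700 * s ^ 2 * w ^ 4 * g2 ^ 3 + (-5220) * s * w ^ 5 * g1 ^ 3 + 130500 * s * w ^ 5 * g1 ^ 2 * g2 + (-783000) * s * w ^ 5 * g1 * g2 ^ 2 +
    1200600 * s * w ^ 5 * g2 ^ 3 + (-4060) * w ^ 6 * g2 ^ 3

/-- coefficient of `t^4` (with `kG1`, `kG2` as atoms). -/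
def tL4 (s w g1 g2 : R) : R :=
    27405 * s ^ 6 * g1 ^ 4 + 6603300 * s ^ 5 * w * g1 ^ 4 + (-6003000) * s ^ 5 * w * g1 ^ 3 * g2 + 1566000 * s ^ 5 * w * g1 ^ 2 * g2 ^ 2 +
    (-130500) * s ^ 5 * w * g1 * g2 ^ 3 + 2610 * s ^ 5 * w * g2 ^ 4 + (-48474225) * s ^ 4 * w ^ 2 * g1 ^ 4 + 114057000 * s ^ 4 * w ^ 2 * g1 ^ 3 * g2 +
    (-85542750) * s ^ 4 * w ^ 2 * g1 ^ 2 * g2 ^ 2 + 24012000 * s ^ 4 * w ^ 2 * g1 * g2 ^ 3 + (-2101050) * s ^ 4 * w ^ 2 * g2 ^ 4 + (-2101050) * s ^ 2 * w ^ 4 * g1 ^ 4 +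
    24012000 * s ^ 2 * w ^ 4 * g1 ^ 3 * g2 + (-85542750) * s ^ 2 * w ^ 4 * g1 ^ 2 * g2 ^ 2 + 114057000 * s ^ 2 * w ^ 4 * g1 * g2 ^ 3 + (-48474225) * s ^ 2 * w ^ 4 * g2 ^ 4 +
    (-2610) * s * w ^ 5 * g1 ^ 4 + 130500 * s * w ^ 5 * g1 ^ 3 * g2 + (-1566000) * s * w ^ 5 * g1 ^ 2 * g2 ^ 2 + 6003000 * s * w ^ 5 * g1 * g2 ^ 3 +
    (-6603300) * s * w ^ 5 * g2 ^ 4 + 27405 * w ^ 6 * g2 ^ 4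

/-- coefficient of `t^5` (with `kG1`, `kG2` as atoms). -/
def tL5 (s w g1 g2 : R) : R :=
    142506 * s ^ 6 * g1 ^ 5 + 27733860 * s ^ 5 * w * g1 ^ 5 + (-33016500) * s ^ 5 * w * g1 ^ 4 * g2 + 12006000 * s ^ 5 * w * g1 ^ 3 * g2 ^ 2 +
    (-1566000) * s ^ 5 * w * g1 ^ 2 * g2 ^ 3 + 65250 * s ^ 5 * w * g1 * g2 ^ 4 + (-522) * s ^ 5 * w * g2 ^ 5 + (-155117520) * s ^ 4 * w ^ 2 * g1 ^ 5 +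
    484742250 * s ^ 4 * w ^ 2 * g1 ^ 4 * g2 + (-513256500) * s ^ 4 * w ^ 2 * g1 ^ 3 * g2 ^ 2 + 228114000 * s ^ 4 * w ^ 2 * g1 ^ 2 * g2 ^ 3 + (-42021000) * s ^ 4 * w ^ 2 * g1 * g2 ^ 4 +
    2521260 * s ^ 4 * w ^ 2 * g2 ^ 5 + (-2521260) * s ^ 2 * w ^ 4 * g1 ^ 5 + 42021000 * s ^ 2 * w ^ 4 * g1 ^ 4 * g2 + (-228114000) * s ^ 2 * w ^ 4 * g1 ^ 3 * g2 ^ 2 +
    513256500 * s ^ 2 * w ^ 4 * g1 ^ 2 * g2 ^ 3 + (-484742250) * s ^ 2 * w ^ 4 * g1 * g2 ^ 4 + 155117520 * s ^ 2 * w ^ 4 * g2 ^ 5 + (-522) * s * w ^ 5 * g1 ^ 5 +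
    65250 * s * w ^ 5 * g1 ^ 4 * g2 + (-1566000) * s * w ^ 5 * g1 ^ 3 * g2 ^ 2 + 12006000 * s * w ^ 5 * g1 ^ 2 * g2 ^ 3 + (-33016500) * s * w ^ 5 * g1 * g2 ^ 4 +
    27733860 * s * w ^ 5 * g2 ^ 5 + (-142506) * w ^ 6 * g2 ^ 5

/-- coefficient of `t^6` (with `kG1`, `kG2` as atoms). -/
def tL6 (s w g1 g2 : R) : R :=
    593775 * s ^ 6 * g1 ^ 6 + 92446200 * s ^ 5 * w * g1 ^ 6 + (-138669300) * s ^ 5 * w * g1 ^ 5 * g2 + 66033000 * s ^ 5 * w * g1 ^ 4 * g2 ^ 2 +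
    (-12006000) * s ^ 5 * w * g1 ^ 3 * g2 ^ 3 + 783000 * s ^ 5 * w * g1 ^ 2 * g2 ^ 4 + (-13050) * s ^ 5 * w * g1 * g2 ^ 5 + (-387793800) * s ^ 4 * w ^ 2 * g1 ^ 6 +
    1551175200 * s ^ 4 * w ^ 2 * g1 ^ 5 * g2 + (-2181340125) * s ^ 4 * w ^ 2 * g1 ^ 4 * g2 ^ 2 + 1368684000 * s ^ 4 * w ^ 2 * g1 ^ 3 * g2 ^ 3 + (-399199500) * s ^ 4 * w ^ 2 * g1 ^ 2 * g2 ^ 4 +
    50425200 * s ^ 4 * w ^ 2 * g1 * g2 ^ 5 + (-2101050) * s ^ 4 * w ^ 2 * g2 ^ 6 + (-2101050) * s ^ 2 * w ^ 4 * g1 ^ 6 + 50425200 * s ^ 2 * w ^ 4 * g1 ^ 5 * g2 +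
    (-399199500) * s ^ 2 * w ^ 4 * g1 ^ 4 * g2 ^ 2 + 1368684000 * s ^ 2 * w ^ 4 * g1 ^ 3 * g2 ^ 3 + (-2181340125) * s ^ 2 * w ^ 4 * g1 ^ 2 * g2 ^ 4 + 1551175200 * s ^ 2 * w ^ 4 * g1 * g2 ^ 5 +
    (-387793800) * s ^ 2 * w ^ 4 * g2 ^ 6 + 13050 * s * w ^ 5 * g1 ^ 5 * g2 + (-783000) * s * w ^ 5 * g1 ^ 4 * g2 ^ 2 + 12006000 * s * w ^ 5 * g1 ^ 3 * g2 ^ 3 +
    (-66033000) * s * w ^ 5 * g1 ^ 2 * g2 ^ 4 + 138669300 * s * w ^ 5 * g1 * g2 ^ 5 + (-92446200) * s * w ^ 5 * g2 ^ 6 + 593775 * w ^ 6 * g2 ^ 6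

/-- coefficient of `t^7` (with `kG1`, `kG2` as atoms). -/
def tL7 (s w g1 g2 : R) : R :=
    2035800 * s ^ 6 * g1 ^ 7 + 250925400 * s ^ 5 * w * g1 ^ 7 + (-462231000) * s ^ 5 * w * g1 ^ 6 * g2 + 277338600 * s ^ 5 * w * g1 ^ 5 * g2 ^ 2 +
    (-66033000) * s ^ 5 * w * g1 ^ 4 * g2 ^ 3 + 6003000 * s ^ 5 * w * g1 ^ 3 * g2 ^ 4 + (-156600) * s ^ 5 * w * g1 ^ 2 * g2 ^ 5 + (-775587600) * s ^ 4 * w ^ 2 * g1 ^ 7 +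
    3877938000 * s ^ 4 * w ^ 2 * g1 ^ 6 * g2 + (-6980288400) * s ^ 4 * w ^ 2 * g1 ^ 5 * g2 ^ 2 + 5816907000 * s ^ 4 * w ^ 2 * g1 ^ 4 * g2 ^ 3 + (-2395197000) * s ^ 4 * w ^ 2 * g1 ^ 3 * g2 ^ 4 +
    479039400 * s ^ 4 * w ^ 2 * g1 ^ 2 * g2 ^ 5 + (-42021000) * s ^ 4 * w ^ 2 * g1 * g2 ^ 6 + 1200600 * s ^ 4 * w ^ 2 * g2 ^ 7 + (-1200600) * s ^ 2 * w ^ 4 * g1 ^ 7 +
    42021000 * s ^ 2 * w ^ 4 * g1 ^ 6 * g2 + (-479039400) * s ^ 2 * w ^ 4 * g1 ^ 5 * g2 ^ 2 + 2395197000 * s ^ 2 * w ^ 4 * g1 ^ 4 * g2 ^ 3 + (-5816907000) * s ^ 2 * w ^ 4 * g1 ^ 3 * g2 ^ 4 +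
    6980288400 * s ^ 2 * w ^ 4 * g1 ^ 2 * g2 ^ 5 + (-3877938000) * s ^ 2 * w ^ 4 * g1 * g2 ^ 6 + 775587600 * s ^ 2 * w ^ 4 * g2 ^ 7 + (-156600) * s * w ^ 5 * g1 ^ 5 * g2 ^ 2 +
    6003000 * s * w ^ 5 * g1 ^ 4 * g2 ^ 3 + (-66033000) * s * w ^ 5 * g1 ^ 3 * g2 ^ 4 + 277338600 * s * w ^ 5 * g1 ^ 2 * g2 ^ 5 + (-462231000) * s * w ^ 5 * g1 * g2 ^ 6 +
    250925400 * s * w ^ 5 * g2 ^ 7 + (-2035800) * w ^ 6 * g2 ^ 7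

/-- coefficient of `t^8` (with `kG1`, `kG2` as atoms). -/
def tL8 (s w g1 g2 : R) : R :=
    5852925 * s ^ 6 * g1 ^ 8 + 564582150 * s ^ 5 * w * g1 ^ 8 + (-1254627000) * s ^ 5 * w * g1 ^ 7 * g2 + 924462000 * s ^ 5 * w * g1 ^ 6 * g2 ^ 2 +
    (-277338600) * s ^ 5 * w * g1 ^ 5 * g2 ^ 3 + 33016500 * s ^ 5 * w * g1 ^ 4 * g2 ^ 4 + (-1200600) * s ^ 5 * w * g1 ^ 3 * g2 ^ 5 + (-1260329850) * s ^ 4 * w ^ 2 * g1 ^ 8 +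
    7755876000 * s ^ 4 * w ^ 2 * g1 ^ 7 * g2 + (-17450721000) * s ^ 4 * w ^ 2 * g1 ^ 6 * g2 ^ 2 + 18614102400 * s ^ 4 * w ^ 2 * g1 ^ 5 * g2 ^ 3 + (-10179587250) * s ^ 4 * w ^ 2 * g1 ^ 4 * g2 ^ 4 +
    2874236400 * s ^ 4 * w ^ 2 * g1 ^ 3 * g2 ^ 5 + (-399199500) * s ^ 4 * w ^ 2 * g1 ^ 2 * g2 ^ 6 + 24012000 * s ^ 4 * w ^ 2 * g1 * g2 ^ 7 + (-450225) * s ^ 4 * w ^ 2 * g2 ^ 8 +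
    (-450225) * s ^ 2 * w ^ 4 * g1 ^ 8 + 24012000 * s ^ 2 * w ^ 4 * g1 ^ 7 * g2 + (-399199500) * s ^ 2 * w ^ 4 * g1 ^ 6 * g2 ^ 2 + 2874236400 * s ^ 2 * w ^ 4 * g1 ^ 5 * g2 ^ 3 +
    (-10179587250) * s ^ 2 * w ^ 4 * g1 ^ 4 * g2 ^ 4 + 18614102400 * s ^ 2 * w ^ 4 * g1 ^ 3 * g2 ^ 5 + (-17450721000) * s ^ 2 * w ^ 4 * g1 ^ 2 * g2 ^ 6 + 7755876000 * s ^ 2 * w ^ 4 * g1 * g2 ^ 7 +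
    (-1260329850) * s ^ 2 * w ^ 4 * g2 ^ 8 + 1200600 * s * w ^ 5 * g1 ^ 5 * g2 ^ 3 + (-33016500) * s * w ^ 5 * g1 ^ 4 * g2 ^ 4 + 277338600 * s * w ^ 5 * g1 ^ 3 * g2 ^ 5 +
    (-924462000) * s * w ^ 5 * g1 ^ 2 * g2 ^ 6 + 1254627000 * s * w ^ 5 * g1 * g2 ^ 7 + (-564582150) * s * w ^ 5 * g2 ^ 8 + 5852925 * w ^ 6 * g2 ^ 8

/-- coefficient of `t^9` (with `kG1`, `kG2` as atoms). -/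
def tL9 (s w g1 g2 : R) : R :=
    14307150 * s ^ 6 * g1 ^ 9 + 1066432950 * s ^ 5 * w * g1 ^ 9 + (-2822910750) * s ^ 5 * w * g1 ^ 8 * g2 + 2509254000 * s ^ 5 * w * g1 ^ 7 * g2 ^ 2 +
    (-924462000) * s ^ 5 * w * g1 ^ 6 * g2 ^ 3 + 138669300 * s ^ 5 * w * g1 ^ 5 * g2 ^ 4 + (-6603300) * s ^ 5 * w * g1 ^ 4 * g2 ^ 5 + (-1680439800) * s ^ 4 * w ^ 2 * g1 ^ 9 +
    12603298500 * s ^ 4 * w ^ 2 * g1 ^ 8 * g2 + (-34901442000) * s ^ 4 * w ^ 2 * g1 ^ 7 * g2 ^ 2 + 46535256000 * s ^ 4 * w ^ 2 * g1 ^ 6 * g2 ^ 3 + (-32574679200) * s ^ 4 * w ^ 2 * g1 ^ 5 * g2 ^ 4 +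
    12215504700 * s ^ 4 * w ^ 2 * g1 ^ 4 * g2 ^ 5 + (-2395197000) * s ^ 4 * w ^ 2 * g1 ^ 3 * g2 ^ 6 + 228114000 * s ^ 4 * w ^ 2 * g1 ^ 2 * g2 ^ 7 + (-9004500) * s ^ 4 * w ^ 2 * g1 * g2 ^ 8 +
    100050 * s ^ 4 * w ^ 2 * g2 ^ 9 + (-100050) * s ^ 2 * w ^ 4 * g1 ^ 9 + 9004500 * s ^ 2 * w ^ 4 * g1 ^ 8 * g2 + (-228114000) * s ^ 2 * w ^ 4 * g1 ^ 7 * g2 ^ 2 +
    2395197000 * s ^ 2 * w ^ 4 * g1 ^ 6 * g2 ^ 3 + (-12215504700) * s ^ 2 * w ^ 4 * g1 ^ 5 * g2 ^ 4 + 32574679200 * s ^ 2 * w ^ 4 * g1 ^ 4 * g2 ^ 5 + (-46535256000) * s ^ 2 * w ^ 4 * g1 ^ 3 * g2 ^ 6 +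
    34901442000 * s ^ 2 * w ^ 4 * g1 ^ 2 * g2 ^ 7 + (-12603298500) * s ^ 2 * w ^ 4 * g1 * g2 ^ 8 + 1680439800 * s ^ 2 * w ^ 4 * g2 ^ 9 + (-6603300) * s * w ^ 5 * g1 ^ 5 * g2 ^ 4 +
    138669300 * s * w ^ 5 * g1 ^ 4 * g2 ^ 5 + (-924462000) * s * w ^ 5 * g1 ^ 3 * g2 ^ 6 + 2509254000 * s * w ^ 5 * g1 ^ 2 * g2 ^ 7 + (-2822910750) * s * w ^ 5 * g1 * g2 ^ 8 +
    1066432950 * s * w ^ 5 * g2 ^ 9 + (-14307150) * w ^ 6 * g2 ^ 9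

/-- coefficient of `t^10` (with `kG1`, `kG2` as atoms). -/
def tL10 (s w g1 g2 : R) : R :=
    30045015 * s ^ 6 * g1 ^ 10 + 1706292720 * s ^ 5 * w * g1 ^ 10 + (-5332164750) * s ^ 5 * w * g1 ^ 9 * g2 + 5645821500 * s ^ 5 * w * g1 ^ 8 * g2 ^ 2 +
    (-2509254000) * s ^ 5 * w * g1 ^ 7 * g2 ^ 3 + 462231000 * s ^ 5 * w * g1 ^ 6 * g2 ^ 4 + (-27733860) * s ^ 5 * w * g1 ^ 5 * g2 ^ 5 + (-1848483780) * s ^ 4 * w ^ 2 * g1 ^ 10 +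
    16804398000 * s ^ 4 * w ^ 2 * g1 ^ 9 * g2 + (-56714843250) * s ^ 4 * w ^ 2 * g1 ^ 8 * g2 ^ 2 + 93070512000 * s ^ 4 * w ^ 2 * g1 ^ 7 * g2 ^ 3 + (-81436698000) * s ^ 4 * w ^ 2 * g1 ^ 6 * g2 ^ 4 +
    39089615040 * s ^ 4 * w ^ 2 * g1 ^ 5 * g2 ^ 5 + (-10179587250) * s ^ 4 * w ^ 2 * g1 ^ 4 * g2 ^ 6 + 1368684000 * s ^ 4 * w ^ 2 * g1 ^ 3 * g2 ^ 7 + (-85542750) * s ^ 4 * w ^ 2 * g1 ^ 2 * g2 ^ 8 +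
    2001000 * s ^ 4 * w ^ 2 * g1 * g2 ^ 9 + (-10005) * s ^ 4 * w ^ 2 * g2 ^ 10 + (-10005) * s ^ 2 * w ^ 4 * g1 ^ 10 + 2001000 * s ^ 2 * w ^ 4 * g1 ^ 9 * g2 +
    (-85542750) * s ^ 2 * w ^ 4 * g1 ^ 8 * g2 ^ 2 + 1368684000 * s ^ 2 * w ^ 4 * g1 ^ 7 * g2 ^ 3 + (-10179587250) * s ^ 2 * w ^ 4 * g1 ^ 6 * g2 ^ 4 + 39089615040 * s ^ 2 * w ^ 4 * g1 ^ 5 * g2 ^ 5 +
    (-81436698000) * s ^ 2 * w ^ 4 * g1 ^ 4 * g2 ^ 6 + 93070512000 * s ^ 2 * w ^ 4 * g1 ^ 3 * g2 ^ 7 + (-56714843250) * s ^ 2 * w ^ 4 * g1 ^ 2 * g2 ^ 8 + 16804398000 * s ^ 2 * w ^ 4 * g1 * g2 ^ 9 +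
    (-1848483780) * s ^ 2 * w ^ 4 * g2 ^ 10 + 27733860 * s * w ^ 5 * g1 ^ 5 * g2 ^ 5 + (-462231000) * s * w ^ 5 * g1 ^ 4 * g2 ^ 6 + 2509254000 * s * w ^ 5 * g1 ^ 3 * g2 ^ 7 +
    (-5645821500) * s * w ^ 5 * g1 ^ 2 * g2 ^ 8 + 5332164750 * s * w ^ 5 * g1 * g2 ^ 9 + (-1706292720) * s * w ^ 5 * g2 ^ 10 + 30045015 * w ^ 6 * g2 ^ 10

/-- coefficient of `t^11` (with `kG1`, `kG2` as atoms). -/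
def tL11 (s w g1 g2 : R) : R :=
    54627300 * s ^ 6 * g1 ^ 11 + 2326762800 * s ^ 5 * w * g1 ^ 11 + (-8531463600) * s ^ 5 * w * g1 ^ 10 * g2 + 10664329500 * s ^ 5 * w * g1 ^ 9 * g2 ^ 2 +
    (-5645821500) * s ^ 5 * w * g1 ^ 8 * g2 ^ 3 + 1254627000 * s ^ 5 * w * g1 ^ 7 * g2 ^ 4 + (-92446200) * s ^ 5 * w * g1 ^ 6 * g2 ^ 5 + (-1680439800) * s ^ 4 * w ^ 2 * g1 ^ 11 +
    18484837800 * s ^ 4 * w ^ 2 * g1 ^ 10 * g2 + (-75619791000) * s ^ 4 * w ^ 2 * g1 ^ 9 * g2 ^ 2 + 151239582000 * s ^ 4 * w ^ 2 * g1 ^ 8 * g2 ^ 3 + (-162873396000) * s ^ 4 * w ^ 2 * g1 ^ 7 * g2 ^ 4 +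
    97724037600 * s ^ 4 * w ^ 2 * g1 ^ 6 * g2 ^ 5 + (-32574679200) * s ^ 4 * w ^ 2 * g1 ^ 5 * g2 ^ 6 + 5816907000 * s ^ 4 * w ^ 2 * g1 ^ 4 * g2 ^ 7 + (-513256500) * s ^ 4 * w ^ 2 * g1 ^ 3 * g2 ^ 8 +
    19009500 * s ^ 4 * w ^ 2 * g1 ^ 2 * g2 ^ 9 + (-200100) * s ^ 4 * w ^ 2 * g1 * g2 ^ 10 + 200100 * s ^ 2 * w ^ 4 * g1 ^ 10 * g2 + (-19009500) * s ^ 2 * w ^ 4 * g1 ^ 9 * g2 ^ 2 +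
    513256500 * s ^ 2 * w ^ 4 * g1 ^ 8 * g2 ^ 3 + (-5816907000) * s ^ 2 * w ^ 4 * g1 ^ 7 * g2 ^ 4 + 32574679200 * s ^ 2 * w ^ 4 * g1 ^ 6 * g2 ^ 5 + (-97724037600) * s ^ 2 * w ^ 4 * g1 ^ 5 * g2 ^ 6 +
    162873396000 * s ^ 2 * w ^ 4 * g1 ^ 4 * g2 ^ 7 + (-151239582000) * s ^ 2 * w ^ 4 * g1 ^ 3 * g2 ^ 8 + 75619791000 * s ^ 2 * w ^ 4 * g1 ^ 2 * g2 ^ 9 + (-18484837800) * s ^ 2 * w ^ 4 * g1 * g2 ^ 10 +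
    1680439800 * s ^ 2 * w ^ 4 * g2 ^ 11 + (-92446200) * s * w ^ 5 * g1 ^ 5 * g2 ^ 6 + 1254627000 * s * w ^ 5 * g1 ^ 4 * g2 ^ 7 + (-5645821500) * s * w ^ 5 * g1 ^ 3 * g2 ^ 8 +
    10664329500 * s * w ^ 5 * g1 ^ 2 * g2 ^ 9 + (-8531463600) * s * w ^ 5 * g1 * g2 ^ 10 + 2326762800 * s * w ^ 5 * g2 ^ 11 + (-54627300) * w ^ 6 * g2 ^ 11

/-- coefficient of `t^12` (with `kG1`, `kG2` as atoms). -/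
def tL12 (s w g1 g2 : R) : R :=
    86493225 * s ^ 6 * g1 ^ 12 + 2714556600 * s ^ 5 * w * g1 ^ 12 + (-11633814000) * s ^ 5 * w * g1 ^ 11 * g2 + 17062927200 * s ^ 5 * w * g1 ^ 10 * g2 ^ 2 +
    (-10664329500) * s ^ 5 * w * g1 ^ 9 * g2 ^ 3 + 2822910750 * s ^ 5 * w * g1 ^ 8 * g2 ^ 4 + (-250925400) * s ^ 5 * w * g1 ^ 7 * g2 ^ 5 + (-1260329850) * s ^ 4 * w ^ 2 * g1 ^ 12 +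
    16804398000 * s ^ 4 * w ^ 2 * g1 ^ 11 * g2 + (-83181770100) * s ^ 4 * w ^ 2 * g1 ^ 10 * g2 ^ 2 + 201652776000 * s ^ 4 * w ^ 2 * g1 ^ 9 * g2 ^ 3 + (-264669268500) * s ^ 4 * w ^ 2 * g1 ^ 8 * g2 ^ 4 +
    195448075200 * s ^ 4 * w ^ 2 * g1 ^ 7 * g2 ^ 5 + (-81436698000) * s ^ 4 * w ^ 2 * g1 ^ 6 * g2 ^ 6 + 18614102400 * s ^ 4 * w ^ 2 * g1 ^ 5 * g2 ^ 7 + (-2181340125) * s ^ 4 * w ^ 2 * g1 ^ 4 * g2 ^ 8 +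
    114057000 * s ^ 4 * w ^ 2 * g1 ^ 3 * g2 ^ 9 + (-1900950) * s ^ 4 * w ^ 2 * g1 ^ 2 * g2 ^ 10 + (-1900950) * s ^ 2 * w ^ 4 * g1 ^ 10 * g2 ^ 2 + 114057000 * s ^ 2 * w ^ 4 * g1 ^ 9 * g2 ^ 3 +
    (-2181340125) * s ^ 2 * w ^ 4 * g1 ^ 8 * g2 ^ 4 + 18614102400 * s ^ 2 * w ^ 4 * g1 ^ 7 * g2 ^ 5 + (-81436698000) * s ^ 2 * w ^ 4 * g1 ^ 6 * g2 ^ 6 + 195448075200 * s ^ 2 * w ^ 4 * g1 ^ 5 * g2 ^ 7 +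
    (-264669268500) * s ^ 2 * w ^ 4 * g1 ^ 4 * g2 ^ 8 + 201652776000 * s ^ 2 * w ^ 4 * g1 ^ 3 * g2 ^ 9 + (-83181770100) * s ^ 2 * w ^ 4 * g1 ^ 2 * g2 ^ 10 + 16804398000 * s ^ 2 * w ^ 4 * g1 * g2 ^ 11 +
    (-1260329850) * s ^ 2 * w ^ 4 * g2 ^ 12 + 250925400 * s * w ^ 5 * g1 ^ 5 * g2 ^ 7 + (-2822910750) * s * w ^ 5 * g1 ^ 4 * g2 ^ 8 + 10664329500 * s * w ^ 5 * g1 ^ 3 * g2 ^ 9 +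
    (-17062927200) * s * w ^ 5 * g1 ^ 2 * g2 ^ 10 + 11633814000 * s * w ^ 5 * g1 * g2 ^ 11 + (-2714556600) * s * w ^ 5 * g2 ^ 12 + 86493225 * w ^ 6 * g2 ^ 12

/-- coefficient of `t^13` (with `kG1`, `kG2` as atoms). -/
def tL13 (s w g1 g2 : R) : R :=
    119759850 * s ^ 6 * g1 ^ 13 + 2714556600 * s ^ 5 * w * g1 ^ 13 + (-13572783000) * s ^ 5 * w * g1 ^ 12 * g2 + 23267628000 * s ^ 5 * w * g1 ^ 11 * g2 ^ 2 +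
    (-17062927200) * s ^ 5 * w * g1 ^ 10 * g2 ^ 3 + 5332164750 * s ^ 5 * w * g1 ^ 9 * g2 ^ 4 + (-564582150) * s ^ 5 * w * g1 ^ 8 * g2 ^ 5 + (-775587600) * s ^ 4 * w ^ 2 * g1 ^ 13 +
    12603298500 * s ^ 4 * w ^ 2 * g1 ^ 12 * g2 + (-75619791000) * s ^ 4 * w ^ 2 * g1 ^ 11 * g2 ^ 2 + 221818053600 * s ^ 4 * w ^ 2 * g1 ^ 10 * g2 ^ 3 + (-352892358000) * s ^ 4 * w ^ 2 * g1 ^ 9 * g2 ^ 4 +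
    317603122200 * s ^ 4 * w ^ 2 * g1 ^ 8 * g2 ^ 5 + (-162873396000) * s ^ 4 * w ^ 2 * g1 ^ 7 * g2 ^ 6 + 46535256000 * s ^ 4 * w ^ 2 * g1 ^ 6 * g2 ^ 7 + (-6980288400) * s ^ 4 * w ^ 2 * g1 ^ 5 * g2 ^ 8 +
    484742250 * s ^ 4 * w ^ 2 * g1 ^ 4 * g2 ^ 9 + (-11405700) * s ^ 4 * w ^ 2 * g1 ^ 3 * g2 ^ 10 + 11405700 * s ^ 2 * w ^ 4 * g1 ^ 10 * g2 ^ 3 + (-484742250) * s ^ 2 * w ^ 4 * g1 ^ 9 * g2 ^ 4 +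
    6980288400 * s ^ 2 * w ^ 4 * g1 ^ 8 * g2 ^ 5 + (-46535256000) * s ^ 2 * w ^ 4 * g1 ^ 7 * g2 ^ 6 + 162873396000 * s ^ 2 * w ^ 4 * g1 ^ 6 * g2 ^ 7 + (-317603122200) * s ^ 2 * w ^ 4 * g1 ^ 5 * g2 ^ 8 +
    352892358000 * s ^ 2 * w ^ 4 * g1 ^ 4 * g2 ^ 9 + (-221818053600) * s ^ 2 * w ^ 4 * g1 ^ 3 * g2 ^ 10 + 75619791000 * s ^ 2 * w ^ 4 * g1 ^ 2 * g2 ^ 11 + (-12603298500) * s ^ 2 * w ^ 4 * g1 * g2 ^ 12 +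
    775587600 * s ^ 2 * w ^ 4 * g2 ^ 13 + (-564582150) * s * w ^ 5 * g1 ^ 5 * g2 ^ 8 + 5332164750 * s * w ^ 5 * g1 ^ 4 * g2 ^ 9 + (-17062927200) * s * w ^ 5 * g1 ^ 3 * g2 ^ 10 +
    23267628000 * s * w ^ 5 * g1 ^ 2 * g2 ^ 11 + (-13572783000) * s * w ^ 5 * g1 * g2 ^ 12 + 2714556600 * s * w ^ 5 * g2 ^ 13 + (-119759850) * w ^ 6 * g2 ^ 13

/-- coefficient of `t^14` (with `kG1`, `kG2` as atoms). -/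
def tL14 (s w g1 g2 : R) : R :=
    145422675 * s ^ 6 * g1 ^ 14 + 2326762800 * s ^ 5 * w * g1 ^ 14 + (-13572783000) * s ^ 5 * w * g1 ^ 13 * g2 + 27145566000 * s ^ 5 * w * g1 ^ 12 * g2 ^ 2 +
    (-23267628000) * s ^ 5 * w * g1 ^ 11 * g2 ^ 3 + 8531463600 * s ^ 5 * w * g1 ^ 10 * g2 ^ 4 + (-1066432950) * s ^ 5 * w * g1 ^ 9 * g2 ^ 5 + (-387793800) * s ^ 4 * w ^ 2 * g1 ^ 14 +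
    7755876000 * s ^ 4 * w ^ 2 * g1 ^ 13 * g2 + (-56714843250) * s ^ 4 * w ^ 2 * g1 ^ 12 * g2 ^ 2 + 201652776000 * s ^ 4 * w ^ 2 * g1 ^ 11 * g2 ^ 3 + (-388181593800) * s ^ 4 * w ^ 2 * g1 ^ 10 * g2 ^ 4 +
    423470829600 * s ^ 4 * w ^ 2 * g1 ^ 9 * g2 ^ 5 + (-264669268500) * s ^ 4 * w ^ 2 * g1 ^ 8 * g2 ^ 6 + 93070512000 * s ^ 4 * w ^ 2 * g1 ^ 7 * g2 ^ 7 + (-17450721000) * s ^ 4 * w ^ 2 * g1 ^ 6 * g2 ^ 8 +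
    1551175200 * s ^ 4 * w ^ 2 * g1 ^ 5 * g2 ^ 9 + (-48474225) * s ^ 4 * w ^ 2 * g1 ^ 4 * g2 ^ 10 + (-48474225) * s ^ 2 * w ^ 4 * g1 ^ 10 * g2 ^ 4 + 1551175200 * s ^ 2 * w ^ 4 * g1 ^ 9 * g2 ^ 5 +
    (-17450721000) * s ^ 2 * w ^ 4 * g1 ^ 8 * g2 ^ 6 + 93070512000 * s ^ 2 * w ^ 4 * g1 ^ 7 * g2 ^ 7 + (-264669268500) * s ^ 2 * w ^ 4 * g1 ^ 6 * g2 ^ 8 + 423470829600 * s ^ 2 * w ^ 4 * g1 ^ 5 * g2 ^ 9 +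
    (-388181593800) * s ^ 2 * w ^ 4 * g1 ^ 4 * g2 ^ 10 + 201652776000 * s ^ 2 * w ^ 4 * g1 ^ 3 * g2 ^ 11 + (-56714843250) * s ^ 2 * w ^ 4 * g1 ^ 2 * g2 ^ 12 + 7755876000 * s ^ 2 * w ^ 4 * g1 * g2 ^ 13 +
    (-387793800) * s ^ 2 * w ^ 4 * g2 ^ 14 + 1066432950 * s * w ^ 5 * g1 ^ 5 * g2 ^ 9 + (-8531463600) * s * w ^ 5 * g1 ^ 4 * g2 ^ 10 + 23267628000 * s * w ^ 5 * g1 ^ 3 * g2 ^ 11 +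
    (-27145566000) * s * w ^ 5 * g1 ^ 2 * g2 ^ 12 + 13572783000 * s * w ^ 5 * g1 * g2 ^ 13 + (-2326762800) * s * w ^ 5 * g2 ^ 14 + 145422675 * w ^ 6 * g2 ^ 14

/-- coefficient of `t^15` (with `kG1`, `kG2` as atoms). -/
def tL15 (s w g1 g2 : R) : R :=
    155117520 * s ^ 6 * g1 ^ 15 + 1706292720 * s ^ 5 * w * g1 ^ 15 + (-11633814000) * s ^ 5 * w * g1 ^ 14 * g2 + 27145566000 * s ^ 5 * w * g1 ^ 13 * g2 ^ 2 +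
    (-27145566000) * s ^ 5 * w * g1 ^ 12 * g2 ^ 3 + 11633814000 * s ^ 5 * w * g1 ^ 11 * g2 ^ 4 + (-1706292720) * s ^ 5 * w * g1 ^ 10 * g2 ^ 5 + (-155117520) * s ^ 4 * w ^ 2 * g1 ^ 15 +
    3877938000 * s ^ 4 * w ^ 2 * g1 ^ 14 * g2 + (-34901442000) * s ^ 4 * w ^ 2 * g1 ^ 13 * g2 ^ 2 + 151239582000 * s ^ 4 * w ^ 2 * g1 ^ 12 * g2 ^ 3 + (-352892358000) * s ^ 4 * w ^ 2 * g1 ^ 11 * g2 ^ 4 +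
    465817912560 * s ^ 4 * w ^ 2 * g1 ^ 10 * g2 ^ 5 + (-352892358000) * s ^ 4 * w ^ 2 * g1 ^ 9 * g2 ^ 6 + 151239582000 * s ^ 4 * w ^ 2 * g1 ^ 8 * g2 ^ 7 + (-34901442000) * s ^ 4 * w ^ 2 * g1 ^ 7 * g2 ^ 8 +
    3877938000 * s ^ 4 * w ^ 2 * g1 ^ 6 * g2 ^ 9 + (-155117520) * s ^ 4 * w ^ 2 * g1 ^ 5 * g2 ^ 10 + 155117520 * s ^ 2 * w ^ 4 * g1 ^ 10 * g2 ^ 5 + (-3877938000) * s ^ 2 * w ^ 4 * g1 ^ 9 * g2 ^ 6 +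
    34901442000 * s ^ 2 * w ^ 4 * g1 ^ 8 * g2 ^ 7 + (-151239582000) * s ^ 2 * w ^ 4 * g1 ^ 7 * g2 ^ 8 + 352892358000 * s ^ 2 * w ^ 4 * g1 ^ 6 * g2 ^ 9 + (-465817912560) * s ^ 2 * w ^ 4 * g1 ^ 5 * g2 ^ 10 +
    352892358000 * s ^ 2 * w ^ 4 * g1 ^ 4 * g2 ^ 11 + (-151239582000) * s ^ 2 * w ^ 4 * g1 ^ 3 * g2 ^ 12 + 34901442000 * s ^ 2 * w ^ 4 * g1 ^ 2 * g2 ^ 13 + (-3877938000) * s ^ 2 * w ^ 4 * g1 * g2 ^ 14 +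
    155117520 * s ^ 2 * w ^ 4 * g2 ^ 15 + (-1706292720) * s * w ^ 5 * g1 ^ 5 * g2 ^ 10 + 11633814000 * s * w ^ 5 * g1 ^ 4 * g2 ^ 11 + (-27145566000) * s * w ^ 5 * g1 ^ 3 * g2 ^ 12 +
    27145566000 * s * w ^ 5 * g1 ^ 2 * g2 ^ 13 + (-11633814000) * s * w ^ 5 * g1 * g2 ^ 14 + 1706292720 * s * w ^ 5 * g2 ^ 15 + (-155117520) * w ^ 6 * g2 ^ 15

/-- coefficient of `t^16` (with `kG1`, `kG2` as atoms). -/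
def tL16 (s w g1 g2 : R) : R :=
    145422675 * s ^ 6 * g1 ^ 16 + 1066432950 * s ^ 5 * w * g1 ^ 16 + (-8531463600) * s ^ 5 * w * g1 ^ 15 * g2 + 23267628000 * s ^ 5 * w * g1 ^ 14 * g2 ^ 2 +
    (-27145566000) * s ^ 5 * w * g1 ^ 13 * g2 ^ 3 + 13572783000 * s ^ 5 * w * g1 ^ 12 * g2 ^ 4 + (-2326762800) * s ^ 5 * w * g1 ^ 11 * g2 ^ 5 + (-48474225) * s ^ 4 * w ^ 2 * g1 ^ 16 +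
    1551175200 * s ^ 4 * w ^ 2 * g1 ^ 15 * g2 + (-17450721000) * s ^ 4 * w ^ 2 * g1 ^ 14 * g2 ^ 2 + 93070512000 * s ^ 4 * w ^ 2 * g1 ^ 13 * g2 ^ 3 + (-264669268500) * s ^ 4 * w ^ 2 * g1 ^ 12 * g2 ^ 4 +
    423470829600 * s ^ 4 * w ^ 2 * g1 ^ 11 * g2 ^ 5 + (-388181593800) * s ^ 4 * w ^ 2 * g1 ^ 10 * g2 ^ 6 + 201652776000 * s ^ 4 * w ^ 2 * g1 ^ 9 * g2 ^ 7 + (-56714843250) * s ^ 4 * w ^ 2 * g1 ^ 8 * g2 ^ 8 +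
    7755876000 * s ^ 4 * w ^ 2 * g1 ^ 7 * g2 ^ 9 + (-387793800) * s ^ 4 * w ^ 2 * g1 ^ 6 * g2 ^ 10 + (-387793800) * s ^ 2 * w ^ 4 * g1 ^ 10 * g2 ^ 6 + 7755876000 * s ^ 2 * w ^ 4 * g1 ^ 9 * g2 ^ 7 +
    (-56714843250) * s ^ 2 * w ^ 4 * g1 ^ 8 * g2 ^ 8 + 201652776000 * s ^ 2 * w ^ 4 * g1 ^ 7 * g2 ^ 9 + (-388181593800) * s ^ 2 * w ^ 4 * g1 ^ 6 * g2 ^ 10 + 423470829600 * s ^ 2 * w ^ 4 * g1 ^ 5 * g2 ^ 11 +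
    (-264669268500) * s ^ 2 * w ^ 4 * g1 ^ 4 * g2 ^ 12 + 93070512000 * s ^ 2 * w ^ 4 * g1 ^ 3 * g2 ^ 13 + (-17450721000) * s ^ 2 * w ^ 4 * g1 ^ 2 * g2 ^ 14 + 1551175200 * s ^ 2 * w ^ 4 * g1 * g2 ^ 15 +
    (-48474225) * s ^ 2 * w ^ 4 * g2 ^ 16 + 2326762800 * s * w ^ 5 * g1 ^ 5 * g2 ^ 11 + (-13572783000) * s * w ^ 5 * g1 ^ 4 * g2 ^ 12 + 27145566000 * s * w ^ 5 * g1 ^ 3 * g2 ^ 13 +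
    (-23267628000) * s * w ^ 5 * g1 ^ 2 * g2 ^ 14 + 8531463600 * s * w ^ 5 * g1 * g2 ^ 15 + (-1066432950) * s * w ^ 5 * g2 ^ 16 + 145422675 * w ^ 6 * g2 ^ 16

/-- coefficient of `t^17` (with `kG1`, `kG2` as atoms). -/
def tL17 (s w g1 g2 : R) : R :=
    119759850 * s ^ 6 * g1 ^ 17 + 564582150 * s ^ 5 * w * g1 ^ 17 + (-5332164750) * s ^ 5 * w * g1 ^ 16 * g2 + 17062927200 * s ^ 5 * w * g1 ^ 15 * g2 ^ 2 +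
    (-23267628000) * s ^ 5 * w * g1 ^ 14 * g2 ^ 3 + 13572783000 * s ^ 5 * w * g1 ^ 13 * g2 ^ 4 + (-2714556600) * s ^ 5 * w * g1 ^ 12 * g2 ^ 5 + (-11405700) * s ^ 4 * w ^ 2 * g1 ^ 17 +
    484742250 * s ^ 4 * w ^ 2 * g1 ^ 16 * g2 + (-6980288400) * s ^ 4 * w ^ 2 * g1 ^ 15 * g2 ^ 2 + 46535256000 * s ^ 4 * w ^ 2 * g1 ^ 14 * g2 ^ 3 + (-162873396000) * s ^ 4 * w ^ 2 * g1 ^ 13 * g2 ^ 4 +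
    317603122200 * s ^ 4 * w ^ 2 * g1 ^ 12 * g2 ^ 5 + (-352892358000) * s ^ 4 * w ^ 2 * g1 ^ 11 * g2 ^ 6 + 221818053600 * s ^ 4 * w ^ 2 * g1 ^ 10 * g2 ^ 7 + (-75619791000) * s ^ 4 * w ^ 2 * g1 ^ 9 * g2 ^ 8 +
    12603298500 * s ^ 4 * w ^ 2 * g1 ^ 8 * g2 ^ 9 + (-775587600) * s ^ 4 * w ^ 2 * g1 ^ 7 * g2 ^ 10 + 775587600 * s ^ 2 * w ^ 4 * g1 ^ 10 * g2 ^ 7 + (-12603298500) * s ^ 2 * w ^ 4 * g1 ^ 9 * g2 ^ 8 +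
    75619791000 * s ^ 2 * w ^ 4 * g1 ^ 8 * g2 ^ 9 + (-221818053600) * s ^ 2 * w ^ 4 * g1 ^ 7 * g2 ^ 10 + 352892358000 * s ^ 2 * w ^ 4 * g1 ^ 6 * g2 ^ 11 + (-317603122200) * s ^ 2 * w ^ 4 * g1 ^ 5 * g2 ^ 12 +
    162873396000 * s ^ 2 * w ^ 4 * g1 ^ 4 * g2 ^ 13 + (-46535256000) * s ^ 2 * w ^ 4 * g1 ^ 3 * g2 ^ 14 + 6980288400 * s ^ 2 * w ^ 4 * g1 ^ 2 * g2 ^ 15 + (-484742250) * s ^ 2 * w ^ 4 * g1 * g2 ^ 16 +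
    11405700 * s ^ 2 * w ^ 4 * g2 ^ 17 + (-2714556600) * s * w ^ 5 * g1 ^ 5 * g2 ^ 12 + 13572783000 * s * w ^ 5 * g1 ^ 4 * g2 ^ 13 + (-23267628000) * s * w ^ 5 * g1 ^ 3 * g2 ^ 14 +
    17062927200 * s * w ^ 5 * g1 ^ 2 * g2 ^ 15 + (-5332164750) * s * w ^ 5 * g1 * g2 ^ 16 + 564582150 * s * w ^ 5 * g2 ^ 17 + (-119759850) * w ^ 6 * g2 ^ 17

/-- coefficient of `t^18` (with `kG1`, `kG2` as atoms). -/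
def tL18 (s w g1 g2 : R) : R :=
    86493225 * s ^ 6 * g1 ^ 18 + 250925400 * s ^ 5 * w * g1 ^ 18 + (-2822910750) * s ^ 5 * w * g1 ^ 17 * g2 + 10664329500 * s ^ 5 * w * g1 ^ 16 * g2 ^ 2 +
    (-17062927200) * s ^ 5 * w * g1 ^ 15 * g2 ^ 3 + 11633814000 * s ^ 5 * w * g1 ^ 14 * g2 ^ 4 + (-2714556600) * s ^ 5 * w * g1 ^ 13 * g2 ^ 5 + (-1900950) * s ^ 4 * w ^ 2 * g1 ^ 18 +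
    114057000 * s ^ 4 * w ^ 2 * g1 ^ 17 * g2 + (-2181340125) * s ^ 4 * w ^ 2 * g1 ^ 16 * g2 ^ 2 + 18614102400 * s ^ 4 * w ^ 2 * g1 ^ 15 * g2 ^ 3 + (-81436698000) * s ^ 4 * w ^ 2 * g1 ^ 14 * g2 ^ 4 +
    195448075200 * s ^ 4 * w ^ 2 * g1 ^ 13 * g2 ^ 5 + (-264669268500) * s ^ 4 * w ^ 2 * g1 ^ 12 * g2 ^ 6 + 201652776000 * s ^ 4 * w ^ 2 * g1 ^ 11 * g2 ^ 7 + (-83181770100) * s ^ 4 * w ^ 2 * g1 ^ 10 * g2 ^ 8 +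
    16804398000 * s ^ 4 * w ^ 2 * g1 ^ 9 * g2 ^ 9 + (-1260329850) * s ^ 4 * w ^ 2 * g1 ^ 8 * g2 ^ 10 + (-1260329850) * s ^ 2 * w ^ 4 * g1 ^ 10 * g2 ^ 8 + 16804398000 * s ^ 2 * w ^ 4 * g1 ^ 9 * g2 ^ 9 +
    (-83181770100) * s ^ 2 * w ^ 4 * g1 ^ 8 * g2 ^ 10 + 201652776000 * s ^ 2 * w ^ 4 * g1 ^ 7 * g2 ^ 11 + (-264669268500) * s ^ 2 * w ^ 4 * g1 ^ 6 * g2 ^ 12 + 195448075200 * s ^ 2 * w ^ 4 * g1 ^ 5 * g2 ^ 13 +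
    (-81436698000) * s ^ 2 * w ^ 4 * g1 ^ 4 * g2 ^ 14 + 18614102400 * s ^ 2 * w ^ 4 * g1 ^ 3 * g2 ^ 15 + (-2181340125) * s ^ 2 * w ^ 4 * g1 ^ 2 * g2 ^ 16 + 114057000 * s ^ 2 * w ^ 4 * g1 * g2 ^ 17 +
    (-1900950) * s ^ 2 * w ^ 4 * g2 ^ 18 + 2714556600 * s * w ^ 5 * g1 ^ 5 * g2 ^ 13 + (-11633814000) * s * w ^ 5 * g1 ^ 4 * g2 ^ 14 + 17062927200 * s * w ^ 5 * g1 ^ 3 * g2 ^ 15 +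
    (-10664329500) * s * w ^ 5 * g1 ^ 2 * g2 ^ 16 + 2822910750 * s * w ^ 5 * g1 * g2 ^ 17 + (-250925400) * s * w ^ 5 * g2 ^ 18 + 86493225 * w ^ 6 * g2 ^ 18

/-- coefficient of `t^19` (with `kG1`, `kG2` as atoms). -/
def tL19 (s w g1 g2 : R) : R :=
    54627300 * s ^ 6 * g1 ^ 19 + 92446200 * s ^ 5 * w * g1 ^ 19 + (-1254627000) * s ^ 5 * w * g1 ^ 18 * g2 + 5645821500 * s ^ 5 * w * g1 ^ 17 * g2 ^ 2 +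
    (-10664329500) * s ^ 5 * w * g1 ^ 16 * g2 ^ 3 + 8531463600 * s ^ 5 * w * g1 ^ 15 * g2 ^ 4 + (-2326762800) * s ^ 5 * w * g1 ^ 14 * g2 ^ 5 + (-200100) * s ^ 4 * w ^ 2 * g1 ^ 19 +
    19009500 * s ^ 4 * w ^ 2 * g1 ^ 18 * g2 + (-513256500) * s ^ 4 * w ^ 2 * g1 ^ 17 * g2 ^ 2 + 5816907000 * s ^ 4 * w ^ 2 * g1 ^ 16 * g2 ^ 3 + (-32574679200) * s ^ 4 * w ^ 2 * g1 ^ 15 * g2 ^ 4 +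
    97724037600 * s ^ 4 * w ^ 2 * g1 ^ 14 * g2 ^ 5 + (-162873396000) * s ^ 4 * w ^ 2 * g1 ^ 13 * g2 ^ 6 + 151239582000 * s ^ 4 * w ^ 2 * g1 ^ 12 * g2 ^ 7 + (-75619791000) * s ^ 4 * w ^ 2 * g1 ^ 11 * g2 ^ 8 +
    18484837800 * s ^ 4 * w ^ 2 * g1 ^ 10 * g2 ^ 9 + (-1680439800) * s ^ 4 * w ^ 2 * g1 ^ 9 * g2 ^ 10 + 1680439800 * s ^ 2 * w ^ 4 * g1 ^ 10 * g2 ^ 9 + (-18484837800) * s ^ 2 * w ^ 4 * g1 ^ 9 * g2 ^ 10 +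
    75619791000 * s ^ 2 * w ^ 4 * g1 ^ 8 * g2 ^ 11 + (-151239582000) * s ^ 2 * w ^ 4 * g1 ^ 7 * g2 ^ 12 + 162873396000 * s ^ 2 * w ^ 4 * g1 ^ 6 * g2 ^ 13 + (-97724037600) * s ^ 2 * w ^ 4 * g1 ^ 5 * g2 ^ 14 +
    32574679200 * s ^ 2 * w ^ 4 * g1 ^ 4 * g2 ^ 15 + (-5816907000) * s ^ 2 * w ^ 4 * g1 ^ 3 * g2 ^ 16 + 513256500 * s ^ 2 * w ^ 4 * g1 ^ 2 * g2 ^ 17 + (-19009500) * s ^ 2 * w ^ 4 * g1 * g2 ^ 18 +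
    200100 * s ^ 2 * w ^ 4 * g2 ^ 19 + (-2326762800) * s * w ^ 5 * g1 ^ 5 * g2 ^ 14 + 8531463600 * s * w ^ 5 * g1 ^ 4 * g2 ^ 15 + (-10664329500) * s * w ^ 5 * g1 ^ 3 * g2 ^ 16 +
    5645821500 * s * w ^ 5 * g1 ^ 2 * g2 ^ 17 + (-1254627000) * s * w ^ 5 * g1 * g2 ^ 18 + 92446200 * s * w ^ 5 * g2 ^ 19 + (-54627300) * w ^ 6 * g2 ^ 19

/-- coefficient of `t^20` (with `kG1`, `kG2` as atoms). -/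
def tL20 (s w g1 g2 : R) : R :=
    30045015 * s ^ 6 * g1 ^ 20 + 27733860 * s ^ 5 * w * g1 ^ 20 + (-462231000) * s ^ 5 * w * g1 ^ 19 * g2 + 2509254000 * s ^ 5 * w * g1 ^ 18 * g2 ^ 2 +
    (-5645821500) * s ^ 5 * w * g1 ^ 17 * g2 ^ 3 + 5332164750 * s ^ 5 * w * g1 ^ 16 * g2 ^ 4 + (-1706292720) * s ^ 5 * w * g1 ^ 15 * g2 ^ 5 + (-10005) * s ^ 4 * w ^ 2 * g1 ^ 20 +
    2001000 * s ^ 4 * w ^ 2 * g1 ^ 19 * g2 + (-85542750) * s ^ 4 * w ^ 2 * g1 ^ 18 * g2 ^ 2 + 1368684000 * s ^ 4 * w ^ 2 * g1 ^ 17 * g2 ^ 3 + (-10179587250) * s ^ 4 * w ^ 2 * g1 ^ 16 * g2 ^ 4 +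
    39089615040 * s ^ 4 * w ^ 2 * g1 ^ 15 * g2 ^ 5 + (-81436698000) * s ^ 4 * w ^ 2 * g1 ^ 14 * g2 ^ 6 + 93070512000 * s ^ 4 * w ^ 2 * g1 ^ 13 * g2 ^ 7 + (-56714843250) * s ^ 4 * w ^ 2 * g1 ^ 12 * g2 ^ 8 +
    16804398000 * s ^ 4 * w ^ 2 * g1 ^ 11 * g2 ^ 9 + (-1848483780) * s ^ 4 * w ^ 2 * g1 ^ 10 * g2 ^ 10 + (-1848483780) * s ^ 2 * w ^ 4 * g1 ^ 10 * g2 ^ 10 + 16804398000 * s ^ 2 * w ^ 4 * g1 ^ 9 * g2 ^ 11 +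
    (-56714843250) * s ^ 2 * w ^ 4 * g1 ^ 8 * g2 ^ 12 + 93070512000 * s ^ 2 * w ^ 4 * g1 ^ 7 * g2 ^ 13 + (-81436698000) * s ^ 2 * w ^ 4 * g1 ^ 6 * g2 ^ 14 + 39089615040 * s ^ 2 * w ^ 4 * g1 ^ 5 * g2 ^ 15 +
    (-10179587250) * s ^ 2 * w ^ 4 * g1 ^ 4 * g2 ^ 16 + 1368684000 * s ^ 2 * w ^ 4 * g1 ^ 3 * g2 ^ 17 + (-85542750) * s ^ 2 * w ^ 4 * g1 ^ 2 * g2 ^ 18 + 2001000 * s ^ 2 * w ^ 4 * g1 * g2 ^ 19 +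
    (-10005) * s ^ 2 * w ^ 4 * g2 ^ 20 + 1706292720 * s * w ^ 5 * g1 ^ 5 * g2 ^ 15 + (-5332164750) * s * w ^ 5 * g1 ^ 4 * g2 ^ 16 + 5645821500 * s * w ^ 5 * g1 ^ 3 * g2 ^ 17 +
    (-2509254000) * s * w ^ 5 * g1 ^ 2 * g2 ^ 18 + 462231000 * s * w ^ 5 * g1 * g2 ^ 19 + (-27733860) * s * w ^ 5 * g2 ^ 20 + 30045015 * w ^ 6 * g2 ^ 20

/-- coefficient of `t^21` (with `kG1`, `kG2` as atoms). -/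
def tL21 (s w g1 g2 : R) : R :=
    14307150 * s ^ 6 * g1 ^ 21 + 6603300 * s ^ 5 * w * g1 ^ 21 + (-138669300) * s ^ 5 * w * g1 ^ 20 * g2 + 924462000 * s ^ 5 * w * g1 ^ 19 * g2 ^ 2 +
    (-2509254000) * s ^ 5 * w * g1 ^ 18 * g2 ^ 3 + 2822910750 * s ^ 5 * w * g1 ^ 17 * g2 ^ 4 + (-1066432950) * s ^ 5 * w * g1 ^ 16 * g2 ^ 5 + 100050 * s ^ 4 * w ^ 2 * g1 ^ 20 * g2 +
    (-9004500) * s ^ 4 * w ^ 2 * g1 ^ 19 * g2 ^ 2 + 228114000 * s ^ 4 * w ^ 2 * g1 ^ 18 * g2 ^ 3 + (-2395197000) * s ^ 4 * w ^ 2 * g1 ^ 17 * g2 ^ 4 + 12215504700 * s ^ 4 * w ^ 2 * g1 ^ 16 * g2 ^ 5 +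
    (-32574679200) * s ^ 4 * w ^ 2 * g1 ^ 15 * g2 ^ 6 + 46535256000 * s ^ 4 * w ^ 2 * g1 ^ 14 * g2 ^ 7 + (-34901442000) * s ^ 4 * w ^ 2 * g1 ^ 13 * g2 ^ 8 + 12603298500 * s ^ 4 * w ^ 2 * g1 ^ 12 * g2 ^ 9 +
    (-1680439800) * s ^ 4 * w ^ 2 * g1 ^ 11 * g2 ^ 10 + 1680439800 * s ^ 2 * w ^ 4 * g1 ^ 10 * g2 ^ 11 + (-12603298500) * s ^ 2 * w ^ 4 * g1 ^ 9 * g2 ^ 12 + 34901442000 * s ^ 2 * w ^ 4 * g1 ^ 8 * g2 ^ 13 +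
    (-46535256000) * s ^ 2 * w ^ 4 * g1 ^ 7 * g2 ^ 14 + 32574679200 * s ^ 2 * w ^ 4 * g1 ^ 6 * g2 ^ 15 + (-12215504700) * s ^ 2 * w ^ 4 * g1 ^ 5 * g2 ^ 16 + 2395197000 * s ^ 2 * w ^ 4 * g1 ^ 4 * g2 ^ 17 +
    (-228114000) * s ^ 2 * w ^ 4 * g1 ^ 3 * g2 ^ 18 + 9004500 * s ^ 2 * w ^ 4 * g1 ^ 2 * g2 ^ 19 + (-100050) * s ^ 2 * w ^ 4 * g1 * g2 ^ 20 + (-1066432950) * s * w ^ 5 * g1 ^ 5 * g2 ^ 16 +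
    2822910750 * s * w ^ 5 * g1 ^ 4 * g2 ^ 17 + (-2509254000) * s * w ^ 5 * g1 ^ 3 * g2 ^ 18 + 924462000 * s * w ^ 5 * g1 ^ 2 * g2 ^ 19 + (-138669300) * s * w ^ 5 * g1 * g2 ^ 20 +
    6603300 * s * w ^ 5 * g2 ^ 21 + (-14307150) * w ^ 6 * g2 ^ 21

/-- coefficient of `t^22` (with `kG1`, `kG2` as atoms). -/
def tL22 (s w g1 g2 : R) : R :=
    5852925 * s ^ 6 * g1 ^ 22 + 1200600 * s ^ 5 * w * g1 ^ 22 + (-33016500) * s ^ 5 * w * g1 ^ 21 * g2 + 277338600 * s ^ 5 * w * g1 ^ 20 * g2 ^ 2 +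
    (-924462000) * s ^ 5 * w * g1 ^ 19 * g2 ^ 3 + 1254627000 * s ^ 5 * w * g1 ^ 18 * g2 ^ 4 + (-564582150) * s ^ 5 * w * g1 ^ 17 * g2 ^ 5 + (-450225) * s ^ 4 * w ^ 2 * g1 ^ 20 * g2 ^ 2 +
    24012000 * s ^ 4 * w ^ 2 * g1 ^ 19 * g2 ^ 3 + (-399199500) * s ^ 4 * w ^ 2 * g1 ^ 18 * g2 ^ 4 + 2874236400 * s ^ 4 * w ^ 2 * g1 ^ 17 * g2 ^ 5 + (-10179587250) * s ^ 4 * w ^ 2 * g1 ^ 16 * g2 ^ 6 +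
    18614102400 * s ^ 4 * w ^ 2 * g1 ^ 15 * g2 ^ 7 + (-17450721000) * s ^ 4 * w ^ 2 * g1 ^ 14 * g2 ^ 8 + 7755876000 * s ^ 4 * w ^ 2 * g1 ^ 13 * g2 ^ 9 + (-1260329850) * s ^ 4 * w ^ 2 * g1 ^ 12 * g2 ^ 10 +
    (-1260329850) * s ^ 2 * w ^ 4 * g1 ^ 10 * g2 ^ 12 + 7755876000 * s ^ 2 * w ^ 4 * g1 ^ 9 * g2 ^ 13 + (-17450721000) * s ^ 2 * w ^ 4 * g1 ^ 8 * g2 ^ 14 + 18614102400 * s ^ 2 * w ^ 4 * g1 ^ 7 * g2 ^ 15 +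
    (-10179587250) * s ^ 2 * w ^ 4 * g1 ^ 6 * g2 ^ 16 + 2874236400 * s ^ 2 * w ^ 4 * g1 ^ 5 * g2 ^ 17 + (-399199500) * s ^ 2 * w ^ 4 * g1 ^ 4 * g2 ^ 18 + 24012000 * s ^ 2 * w ^ 4 * g1 ^ 3 * g2 ^ 19 +
    (-450225) * s ^ 2 * w ^ 4 * g1 ^ 2 * g2 ^ 20 + 564582150 * s * w ^ 5 * g1 ^ 5 * g2 ^ 17 + (-1254627000) * s * w ^ 5 * g1 ^ 4 * g2 ^ 18 + 924462000 * s * w ^ 5 * g1 ^ 3 * g2 ^ 19 +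
    (-277338600) * s * w ^ 5 * g1 ^ 2 * g2 ^ 20 + 33016500 * s * w ^ 5 * g1 * g2 ^ 21 + (-1200600) * s * w ^ 5 * g2 ^ 22 + 5852925 * w ^ 6 * g2 ^ 22

/-- coefficient of `t^23` (with `kG1`, `kG2` as atoms). -/
def tL23 (s w g1 g2 : R) : R :=
    2035800 * s ^ 6 * g1 ^ 23 + 156600 * s ^ 5 * w * g1 ^ 23 + (-6003000) * s ^ 5 * w * g1 ^ 22 * g2 + 66033000 * s ^ 5 * w * g1 ^ 21 * g2 ^ 2 +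
    (-277338600) * s ^ 5 * w * g1 ^ 20 * g2 ^ 3 + 462231000 * s ^ 5 * w * g1 ^ 19 * g2 ^ 4 + (-250925400) * s ^ 5 * w * g1 ^ 18 * g2 ^ 5 + 1200600 * s ^ 4 * w ^ 2 * g1 ^ 20 * g2 ^ 3 +
    (-42021000) * s ^ 4 * w ^ 2 * g1 ^ 19 * g2 ^ 4 + 479039400 * s ^ 4 * w ^ 2 * g1 ^ 18 * g2 ^ 5 + (-2395197000) * s ^ 4 * w ^ 2 * g1 ^ 17 * g2 ^ 6 + 5816907000 * s ^ 4 * w ^ 2 * g1 ^ 16 * g2 ^ 7 +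
    (-6980288400) * s ^ 4 * w ^ 2 * g1 ^ 15 * g2 ^ 8 + 3877938000 * s ^ 4 * w ^ 2 * g1 ^ 14 * g2 ^ 9 + (-775587600) * s ^ 4 * w ^ 2 * g1 ^ 13 * g2 ^ 10 + 775587600 * s ^ 2 * w ^ 4 * g1 ^ 10 * g2 ^ 13 +
    (-3877938000) * s ^ 2 * w ^ 4 * g1 ^ 9 * g2 ^ 14 + 6980288400 * s ^ 2 * w ^ 4 * g1 ^ 8 * g2 ^ 15 + (-5816907000) * s ^ 2 * w ^ 4 * g1 ^ 7 * g2 ^ 16 + 2395197000 * s ^ 2 * w ^ 4 * g1 ^ 6 * g2 ^ 17 +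
    (-479039400) * s ^ 2 * w ^ 4 * g1 ^ 5 * g2 ^ 18 + 42021000 * s ^ 2 * w ^ 4 * g1 ^ 4 * g2 ^ 19 + (-1200600) * s ^ 2 * w ^ 4 * g1 ^ 3 * g2 ^ 20 + (-250925400) * s * w ^ 5 * g1 ^ 5 * g2 ^ 18 +
    462231000 * s * w ^ 5 * g1 ^ 4 * g2 ^ 19 + (-277338600) * s * w ^ 5 * g1 ^ 3 * g2 ^ 20 + 66033000 * s * w ^ 5 * g1 ^ 2 * g2 ^ 21 + (-6003000) * s * w ^ 5 * g1 * g2 ^ 22 +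
    156600 * s * w ^ 5 * g2 ^ 23 + (-2035800) * w ^ 6 * g2 ^ 23

/-- coefficient of `t^24` (with `kG1`, `kG2` as atoms). -/
def tL24 (s w g1 g2 : R) : R :=
    593775 * s ^ 6 * g1 ^ 24 + 13050 * s ^ 5 * w * g1 ^ 24 + (-783000) * s ^ 5 * w * g1 ^ 23 * g2 + 12006000 * s ^ 5 * w * g1 ^ 22 * g2 ^ 2 +
    (-66033000) * s ^ 5 * w * g1 ^ 21 * g2 ^ 3 + 138669300 * s ^ 5 * w * g1 ^ 20 * g2 ^ 4 + (-92446200) * s ^ 5 * w * g1 ^ 19 * g2 ^ 5 + (-2101050) * s ^ 4 * w ^ 2 * g1 ^ 20 * g2 ^ 4 +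
    50425200 * s ^ 4 * w ^ 2 * g1 ^ 19 * g2 ^ 5 + (-399199500) * s ^ 4 * w ^ 2 * g1 ^ 18 * g2 ^ 6 + 1368684000 * s ^ 4 * w ^ 2 * g1 ^ 17 * g2 ^ 7 + (-2181340125) * s ^ 4 * w ^ 2 * g1 ^ 16 * g2 ^ 8 +
    1551175200 * s ^ 4 * w ^ 2 * g1 ^ 15 * g2 ^ 9 + (-387793800) * s ^ 4 * w ^ 2 * g1 ^ 14 * g2 ^ 10 + (-387793800) * s ^ 2 * w ^ 4 * g1 ^ 10 * g2 ^ 14 + 1551175200 * s ^ 2 * w ^ 4 * g1 ^ 9 * g2 ^ 15 +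
    (-2181340125) * s ^ 2 * w ^ 4 * g1 ^ 8 * g2 ^ 16 + 1368684000 * s ^ 2 * w ^ 4 * g1 ^ 7 * g2 ^ 17 + (-399199500) * s ^ 2 * w ^ 4 * g1 ^ 6 * g2 ^ 18 + 50425200 * s ^ 2 * w ^ 4 * g1 ^ 5 * g2 ^ 19 +
    (-2101050) * s ^ 2 * w ^ 4 * g1 ^ 4 * g2 ^ 20 + 92446200 * s * w ^ 5 * g1 ^ 5 * g2 ^ 19 + (-138669300) * s * w ^ 5 * g1 ^ 4 * g2 ^ 20 + 66033000 * s * w ^ 5 * g1 ^ 3 * g2 ^ 21 +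
    (-12006000) * s * w ^ 5 * g1 ^ 2 * g2 ^ 22 + 783000 * s * w ^ 5 * g1 * g2 ^ 23 + (-13050) * s * w ^ 5 * g2 ^ 24 + 593775 * w ^ 6 * g2 ^ 24

/-- coefficient of `t^25` (with `kG1`, `kG2` as atoms). -/
def tL25 (s w g1 g2 : R) : R :=
    142506 * s ^ 6 * g1 ^ 25 + 522 * s ^ 5 * w * g1 ^ 25 + (-65250) * s ^ 5 * w * g1 ^ 24 * g2 + 1566000 * s ^ 5 * w * g1 ^ 23 * g2 ^ 2 +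
    (-12006000) * s ^ 5 * w * g1 ^ 22 * g2 ^ 3 + 33016500 * s ^ 5 * w * g1 ^ 21 * g2 ^ 4 + (-27733860) * s ^ 5 * w * g1 ^ 20 * g2 ^ 5 + 2521260 * s ^ 4 * w ^ 2 * g1 ^ 20 * g2 ^ 5 +
    (-42021000) * s ^ 4 * w ^ 2 * g1 ^ 19 * g2 ^ 6 + 228114000 * s ^ 4 * w ^ 2 * g1 ^ 18 * g2 ^ 7 + (-513256500) * s ^ 4 * w ^ 2 * g1 ^ 17 * g2 ^ 8 + 484742250 * s ^ 4 * w ^ 2 * g1 ^ 16 * g2 ^ 9 +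
    (-155117520) * s ^ 4 * w ^ 2 * g1 ^ 15 * g2 ^ 10 + 155117520 * s ^ 2 * w ^ 4 * g1 ^ 10 * g2 ^ 15 + (-484742250) * s ^ 2 * w ^ 4 * g1 ^ 9 * g2 ^ 16 + 513256500 * s ^ 2 * w ^ 4 * g1 ^ 8 * g2 ^ 17 +
    (-228114000) * s ^ 2 * w ^ 4 * g1 ^ 7 * g2 ^ 18 + 42021000 * s ^ 2 * w ^ 4 * g1 ^ 6 * g2 ^ 19 + (-2521260) * s ^ 2 * w ^ 4 * g1 ^ 5 * g2 ^ 20 + (-27733860) * s * w ^ 5 * g1 ^ 5 * g2 ^ 20 +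
    33016500 * s * w ^ 5 * g1 ^ 4 * g2 ^ 21 + (-12006000) * s * w ^ 5 * g1 ^ 3 * g2 ^ 22 + 1566000 * s * w ^ 5 * g1 ^ 2 * g2 ^ 23 + (-65250) * s * w ^ 5 * g1 * g2 ^ 24 +
    522 * s * w ^ 5 * g2 ^ 25 + (-142506) * w ^ 6 * g2 ^ 25

/-- coefficient of `t^26` (with `kG1`, `kG2` as atoms). -/
def tL26 (s w g1 g2 : R) : R :=
    27405 * s ^ 6 * g1 ^ 26 + (-2610) * s ^ 5 * w * g1 ^ 25 * g2 + 130500 * s ^ 5 * w * g1 ^ 24 * g2 ^ 2 + (-1566000) * s ^ 5 * w * g1 ^ 23 * g2 ^ 3 +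
    6003000 * s ^ 5 * w * g1 ^ 22 * g2 ^ 4 + (-6603300) * s ^ 5 * w * g1 ^ 21 * g2 ^ 5 + (-2101050) * s ^ 4 * w ^ 2 * g1 ^ 20 * g2 ^ 6 + 24012000 * s ^ 4 * w ^ 2 * g1 ^ 19 * g2 ^ 7 +
    (-85542750) * s ^ 4 * w ^ 2 * g1 ^ 18 * g2 ^ 8 + 114057000 * s ^ 4 * w ^ 2 * g1 ^ 17 * g2 ^ 9 + (-48474225) * s ^ 4 * w ^ 2 * g1 ^ 16 * g2 ^ 10 + (-48474225) * s ^ 2 * w ^ 4 * g1 ^ 10 * g2 ^ 16 +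
    114057000 * s ^ 2 * w ^ 4 * g1 ^ 9 * g2 ^ 17 + (-85542750) * s ^ 2 * w ^ 4 * g1 ^ 8 * g2 ^ 18 + 24012000 * s ^ 2 * w ^ 4 * g1 ^ 7 * g2 ^ 19 + (-2101050) * s ^ 2 * w ^ 4 * g1 ^ 6 * g2 ^ 20 +
    6603300 * s * w ^ 5 * g1 ^ 5 * g2 ^ 21 + (-6003000) * s * w ^ 5 * g1 ^ 4 * g2 ^ 22 + 1566000 * s * w ^ 5 * g1 ^ 3 * g2 ^ 23 + (-130500) * s * w ^ 5 * g1 ^ 2 * g2 ^ 24 +
    2610 * s * w ^ 5 * g1 * g2 ^ 25 + 27405 * w ^ 6 * g2 ^ 26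

/-- coefficient of `t^27` (with `kG1`, `kG2` as atoms). -/
def tL27 (s w g1 g2 : R) : R :=
    4060 * s ^ 6 * g1 ^ 27 + 5220 * s ^ 5 * w * g1 ^ 25 * g2 ^ 2 + (-130500) * s ^ 5 * w * g1 ^ 24 * g2 ^ 3 + 783000 * s ^ 5 * w * g1 ^ 23 * g2 ^ 4 +
    (-1200600) * s ^ 5 * w * g1 ^ 22 * g2 ^ 5 + 1200600 * s ^ 4 * w ^ 2 * g1 ^ 20 * g2 ^ 7 + (-9004500) * s ^ 4 * w ^ 2 * g1 ^ 19 * g2 ^ 8 + 19009500 * s ^ 4 * w ^ 2 * g1 ^ 18 * g2 ^ 9 +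
    (-11405700) * s ^ 4 * w ^ 2 * g1 ^ 17 * g2 ^ 10 + 11405700 * s ^ 2 * w ^ 4 * g1 ^ 10 * g2 ^ 17 + (-19009500) * s ^ 2 * w ^ 4 * g1 ^ 9 * g2 ^ 18 + 9004500 * s ^ 2 * w ^ 4 * g1 ^ 8 * g2 ^ 19 +
    (-1200600) * s ^ 2 * w ^ 4 * g1 ^ 7 * g2 ^ 20 + (-1200600) * s * w ^ 5 * g1 ^ 5 * g2 ^ 22 + 783000 * s * w ^ 5 * g1 ^ 4 * g2 ^ 23 + (-130500) * s * w ^ 5 * g1 ^ 3 * g2 ^ 24 +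
    5220 * s * w ^ 5 * g1 ^ 2 * g2 ^ 25 + (-4060) * w ^ 6 * g2 ^ 27

/-- coefficient of `t^28` (with `kG1`, `kG2` as atoms). -/
def tL28 (s w g1 g2 : R) : R :=
    435 * s ^ 6 * g1 ^ 28 + (-5220) * s ^ 5 * w * g1 ^ 25 * g2 ^ 3 + 65250 * s ^ 5 * w * g1 ^ 24 * g2 ^ 4 + (-156600) * s ^ 5 * w * g1 ^ 23 * g2 ^ 5 +
    (-450225) * s ^ 4 * w ^ 2 * g1 ^ 20 * g2 ^ 8 + 2001000 * s ^ 4 * w ^ 2 * g1 ^ 19 * g2 ^ 9 + (-1900950) * s ^ 4 * w ^ 2 * g1 ^ 18 * g2 ^ 10 + (-1900950) * s ^ 2 * w ^ 4 * g1 ^ 10 * g2 ^ 18 +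
    2001000 * s ^ 2 * w ^ 4 * g1 ^ 9 * g2 ^ 19 + (-450225) * s ^ 2 * w ^ 4 * g1 ^ 8 * g2 ^ 20 + 156600 * s * w ^ 5 * g1 ^ 5 * g2 ^ 23 + (-65250) * s * w ^ 5 * g1 ^ 4 * g2 ^ 24 +
    5220 * s * w ^ 5 * g1 ^ 3 * g2 ^ 25 + 435 * w ^ 6 * g2 ^ 28

/-- coefficient of `t^29` (with `kG1`, `kG2` as atoms). -/
def tL29 (s w g1 g2 : R) : R :=
    30 * s ^ 6 * g1 ^ 29 + 2610 * s ^ 5 * w * g1 ^ 25 * g2 ^ 4 + (-13050) * s ^ 5 * w * g1 ^ 24 * g2 ^ 5 + 100050 * s ^ 4 * w ^ 2 * g1 ^ 20 * g2 ^ 9 +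
    (-200100) * s ^ 4 * w ^ 2 * g1 ^ 19 * g2 ^ 10 + 200100 * s ^ 2 * w ^ 4 * g1 ^ 10 * g2 ^ 19 + (-100050) * s ^ 2 * w ^ 4 * g1 ^ 9 * g2 ^ 20 + (-13050) * s * w ^ 5 * g1 ^ 5 * g2 ^ 24 +
    2610 * s * w ^ 5 * g1 ^ 4 * g2 ^ 25 + (-30) * w ^ 6 * g2 ^ 29

/-- coefficient of `t^30` (with `kG1`, `kG2` as atoms). -/
def tL30 (s w g1 g2 : R) : R :=
    1 * s ^ 6 * g1 ^ 30 + (-522) * s ^ 5 * w * g1 ^ 25 * g2 ^ 5 + (-10005) * s ^ 4 * w ^ 2 * g1 ^ 20 * g2 ^ 10 + (-10005) * s ^ 2 * w ^ 4 * g1 ^ 10 * g2 ^ 20 +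
    522 * s * w ^ 5 * g1 ^ 5 * g2 ^ 25 + 1 * w ^ 6 * g2 ^ 30

theorem t_expand (s w t g1 g2 : R) :
    kT (s * (1 + t * g1) ^ 5) (w * (1 - t * g2) ^ 5) =
    tL0 s w g1 g2 +
    tL1 s w g1 g2 * t +
    tL2 s w g1 g2 * t ^ 2 +
    tL3 s w g1 g2 * t ^ 3 +
    tL4 s w g1 g2 * t ^ 4 +
    tL5 s w g1 g2 * t ^ 5 +
    tL6 s w g1 g2 * t ^ 6 +
    tL7 s w g1 g2 * t ^ 7 +
    tL8 s w g1 g2 * t ^ 8 +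
    tL9 s w g1 g2 * t ^ 9 +
    tL10 s w g1 g2 * t ^ 10 +
    tL11 s w g1 g2 * t ^ 11 +
    tL12 s w g1 g2 * t ^ 12 +
    tL13 s w g1 g2 * t ^ 13 +
    tL14 s w g1 g2 * t ^ 14 +
    tL15 s w g1 g2 * t ^ 15 +
    tL16 s w g1 g2 * t ^ 16 +
    tL17 s w g1 g2 * t ^ 17 +
    tL18 s w g1 g2 * t ^ 18 +
    tL19 s w g1 g2 * t ^ 19 +
    tL20 s w g1 g2 * t ^ 20 +
    tL21 s w g1 g2 * t ^ 21 +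
    tL22 s w g1 g2 * t ^ 22 +
    tL23 s w g1 g2 * t ^ 23 +
    tL24 s w g1 g2 * t ^ 24 +
    tL25 s w g1 g2 * t ^ 25 +
    tL26 s w g1 g2 * t ^ 26 +
    tL27 s w g1 g2 * t ^ 27 +
    tL28 s w g1 g2 * t ^ 28 +
    tL29 s w g1 g2 * t ^ 29 +
    tL30 s w g1 g2 * t ^ 30 := by
  simp only [kT, tL0, tL1, tL2, tL3, tL4, tL5, tL6, tL7, tL8, tL9, tL10, tL11, tL12, tL13, tL14, tL15, tL16, tL17, tL18, tL19, tL20, tL21, tL22, tL23, tL24, tL25, tL26, tL27, tL28, tL29, tL30]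
  ring

end Fermat.Agent.S52x.Spec3
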