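/- S52: Klein family (helper3), coefficient identities `tL_eq_k`, k = 0..15. -/
import Mathlib
import Fermat.Agent.S52x.KleinFam3T0

set_option autoImplicit false
set_option maxHeartbeats 0
set_option maxRecDepth 100000
set_option linter.unusedSimpArgs false
set_option linter.unusedVariables false

namespace Fermat.Agent.S52x.Spec3

variable {R : Type*} [CommRing R]

theorem tL_eq_0 (s w : R) :
    tL0 s w (kG1 s w) (kG2 s w) = (1 * kT s w) := by
  simp only [tL0, kG1, kG2, kH, kT]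
  ring

theorem tL_eq_1 (s w : R) :
    tL1 s w (kG1 s w) (kG2 s w) = (30 * kH s w ^ 2) := by
  simp only [tL1, kG1, kG2, kH, kT]
  ring

theorem tL_eq_2 (s w : R) :
    tL2 s w (kG1 s w) (kG2 s w) = ((-435) * kH s w * kT s w) := by
  simp only [tL2, kG1, kG2, kH, kT]
  ring

theorem tL_eq_3 (s w : R) :
    tL3 s w (kG1 s w) (kG2 s w) = ((-1160) * kH s w ^ 3 + 2900 * kT s w ^ 2) := by
  simp only [tL3, kG1, kG2, kH, kT]
  ring

theorem tL_eq_4 (s w : R) :
    tL4 s w (kG1 s w) (kG2 s w) = (27405 * kH s w ^ 2 * kT s w) := by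
  simp only [tL4, kG1, kG2, kH, kT]
  ring

theorem tL_eq_5 (s w : R) :
    tL5 s w (kG1 s w) (kG2 s w) = (95526 * kH s w ^ 4 + (-46980) * kH s w * kT s w ^ 2) := by
  simp only [tL5, kG1, kG2, kH, kT]
  ring

theorem tL_eq_6 (s w : R) :
    tL6 s w (kG1 s w) (kG2 s w) = ((-437175) * kH s w ^ 3 * kT s w + 156600 * kT s w ^ 3) := by
  simp only [tL6, kG1, kG2, kH, kT]
  ring

theorem tL_eq_7 (s w : R) :
    tL7 s w (kG1 s w) (kG2 s w) = (1879200 * kH s w ^ 5 + 3915000 * kH s w ^ 2 * kT s w ^ 2) := by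
  simp only [tL7, kG1, kG2, kH, kT]
  ring

theorem tL_eq_8 (s w : R) :
    tL8 s w (kG1 s w) (kG2 s w) = ((-8554275) * kH s w ^ 4 * kT s w + (-14407200) * kH s w * kT s w ^ 3) := by
  simp only [tL8, kG1, kG2, kH, kT]
  ring

theorem tL_eq_9 (s w : R) :
    tL9 s w (kG1 s w) (kG2 s w) = (24312150 * kH s w ^ 6 + 42021000 * kH s w ^ 3 * kT s w ^ 2 + 32016000 * kT s w ^ 4) := by
  simp only [tL9, kG1, kG2, kH, kT]
  ring

theorem tL_eq_10 (s w : R) :
    tL10 s w (kG1 s w) (kG2 s w) = ((-246633255) * kH s w ^ 5 * kT s w + (-216588240) * kH s w ^ 2 * kT s w ^ 3) := by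
  simp only [tL10, kG1, kG2, kH, kT]
  ring

theorem tL_eq_11 (s w : R) :
    tL11 s w (kG1 s w) (kG2 s w) = ((-162081000) * kH s w ^ 7 + 1352475900 * kH s w ^ 4 * kT s w ^ 2 + 1459929600 * kH s w * kT s w ^ 4) := by
  simp only [tL11, kG1, kG2, kH, kT]
  ring

theorem tL_eq_12 (s w : R) :
    tL12 s w (kG1 s w) (kG2 s w) = (4131714825 * kH s w ^ 6 * kT s w + 1612005600 * kH s w ^ 3 * kT s w ^ 3 + (-2433216000) * kT s w ^ 5) := by
  simp only [tL12, kG1, kG2, kH, kT]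
  ring

theorem tL_eq_13 (s w : R) :
    tL13 s w (kG1 s w) (kG2 s w) = (6928962750 * kH s w ^ 8 + (-5235216300) * kH s w ^ 5 * kT s w ^ 2 + (-12044419200) * kH s w ^ 2 * kT s w ^ 4) := by
  simp only [tL13, kG1, kG2, kH, kT]
  ring

theorem tL_eq_14 (s w : R) :
    tL14 s w (kG1 s w) (kG2 s w) = ((-43190534475) * kH s w ^ 7 * kT s w + (-43045111800) * kH s w ^ 4 * kT s w ^ 3) := by
  simp only [tL14, kG1, kG2, kH, kT]
  ring

theorem tL_eq_15 (s w : R) :
    tL15 s w (kG1 s w) (kG2 s w) = (79575287760 * kH s w ^ 6 * kT s w ^ 2 + 79420170240 * kH s w ^ 3 * kT s w ^ 4) := by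
  simp only [tL15, kG1, kG2, kH, kT]
  ring

end Fermat.Agent.S52x.Spec3
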