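/- S52: Klein family (helper3), coefficient identities `tL_eq_k`, k = 16..21. -/
import Mathlib
import Fermat.Agent.S52x.KleinFam3T1

set_option autoImplicit false
set_option maxHeartbeats 0
set_option maxRecDepth 100000
set_option linter.unusedSimpArgs false
set_option linter.unusedVariables false

namespace Fermat.Agent.S52x.Spec3

variable {R : Type*} [CommRing R]

theorem tL_eq_16 (s w : R) :
    tL16 s w (kG1 s w) (kG2 s w) = ((-176688550125) * kH s w ^ 8 * kT s w + (-474659611200) * kH s w ^ 5 * kT s w ^ 3 + (-297825638400) * kH s w ^ 2 * kT s w ^ 5) := by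
  simp only [tL16, kG1, kG2, kH, kT]
  ring

theorem tL_eq_17 (s w : R) :
    tL17 s w (kG1 s w) (kG2 s w) = ((-311803323750) * kH s w ^ 10 + (-77604382800) * kH s w ^ 7 * kT s w ^ 2 + 935084908800 * kH s w ^ 4 * kT s w ^ 4 + 700766208000 * kH s w * kT s w ^ 6) := by
  simp only [tL17, kG1, kG2, kH, kT]
  ring

theorem tL_eq_18 (s w : R) :
    tL18 s w (kG1 s w) (kG2 s w) = (1694131392375 * kH s w ^ 9 * kT s w + 2776512362400 * kH s w ^ 6 * kT s w ^ 3 + 303665356800 * kH s w ^ 3 * kT s w ^ 5 + (-778629120000) * kT s w ^ 7) := by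
  simp only [tL18, kG1, kG2, kH, kT]
  ring

theorem tL_eq_19 (s w : R) :
    tL19 s w (kG1 s w) (kG2 s w) = (328214025000 * kH s w ^ 11 + (-3481840250100) * kH s w ^ 8 * kT s w ^ 2 + (-8100765158400) * kH s w ^ 5 * kT s w ^ 4 + (-4290656256000) * kH s w ^ 2 * kT s w ^ 6) := by
  simp only [tL19, kG1, kG2, kH, kT]
  ring

theorem tL_eq_20 (s w : R) :
    tL20 s w (kG1 s w) (kG2 s w) = ((-2874607835625) * kH s w ^ 10 * kT s w + (-2424887357760) * kH s w ^ 7 * kT s w ^ 3 + 3892110842880 * kH s w ^ 4 * kT s w ^ 5 + 3442360320000 * kH s w * kT s w ^ 7) := by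
  simp only [tL20, kG1, kG2, kH, kT]
  ring

theorem tL_eq_21 (s w : R) :
    tL21 s w (kG1 s w) (kG2 s w) = ((-2215444668750) * kH s w ^ 12 + (-3077188825500) * kH s w ^ 9 * kT s w ^ 2 + (-2709129888000) * kH s w ^ 6 * kT s w ^ 4 + (-5125838438400) * kH s w ^ 3 * kT s w ^ 6 + (-3278438400000) * kT s w ^ 8) := by
  simp only [tL21, kG1, kG2, kH, kT]
  ring

end Fermat.Agent.S52x.Spec3
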