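/- S52: Klein family (helper3), coefficient identities `tL_eq_k`, k = 22..26. -/
import Mathlib
import Fermat.Agent.S52x.KleinFam3T2

set_option autoImplicit false
set_option maxHeartbeats 0
set_option maxRecDepth 100000
set_option linter.unusedSimpArgs false
set_option linter.unusedVariables false

namespace Fermat.Agent.S52x.Spec3

variable {R : Type*} [CommRing R]

theorem tL_eq_22 (s w : R) :
    tL22 s w (kG1 s w) (kG2 s w) = (1403114956875 * kH s w ^ 11 * kT s w + (-1724509423800) * kH s w ^ 8 * kT s w ^ 3 + (-7701051801600) * kH s w ^ 5 * kT s w ^ 5 + (-4573421568000) * kH s w ^ 2 * kT s w ^ 7) := by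
  simp only [tL22, kG1, kG2, kH, kT]
  ring

theorem tL_eq_23 (s w : R) :
    tL23 s w (kG1 s w) (kG2 s w) = ((-7705894500000) * kH s w ^ 13 + (-33414470973000) * kH s w ^ 10 * kT s w ^ 2 + (-49888700928000) * kH s w ^ 7 * kT s w ^ 4 + (-30337884979200) * kH s w ^ 4 * kT s w ^ 6 + (-6157762560000) * kH s w * kT s w ^ 8) := by
  simp only [tL23, kG1, kG2, kH, kT]
  ring

theorem tL_eq_24 (s w : R) :
    tL24 s w (kG1 s w) (kG2 s w) = (5089101159375 * kH s w ^ 12 * kT s w + 22687218914400 * kH s w ^ 9 * kT s w ^ 3 + 35246094796800 * kH s w ^ 6 * kT s w ^ 5 + 22779445248000 * kH s w ^ 3 * kT s w ^ 7 + 5131468800000 * kT s w ^ 9) := by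
  simp only [tL24, kG1, kG2, kH, kT]
  ring

theorem tL_eq_25 (s w : R) :
    tL25 s w (kG1 s w) (kG2 s w) = ((-17627233668750) * kH s w ^ 14 + (-70097953635000) * kH s w ^ 11 * kT s w ^ 2 + (-105528606261120) * kH s w ^ 8 * kT s w ^ 4 + (-71274600677376) * kH s w ^ 5 * kT s w ^ 6 + (-18216714240000) * kH s w ^ 2 * kT s w ^ 8) := by
  simp only [tL25, kG1, kG2, kH, kT]
  ring

theorem tL_eq_26 (s w : R) :
    tL26 s w (kG1 s w) (kG2 s w) = (40985726371875 * kH s w ^ 13 * kT s w + 163672057566000 * kH s w ^ 10 * kT s w ^ 3 + 245438120632320 * kH s w ^ 7 * kT s w ^ 5 + 163803539865600 * kH s w ^ 4 * kT s w ^ 7 + 41051750400000 * kH s w * kT s w ^ 9) := by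
  simp only [tL26, kG1, kG2, kH, kT]
  ring

end Fermat.Agent.S52x.Spec3
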