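/- S52: Klein family (helper3), coefficient identities `tL_eq_k`, k = 27..30. -/
import Mathlib
import Fermat.Agent.S52x.KleinFam3T3

set_option autoImplicit false
set_option maxHeartbeats 0
set_option maxRecDepth 100000
set_option linter.unusedSimpArgs false
set_option linter.unusedVariables false

namespace Fermat.Agent.S52x.Spec3

variable {R : Type*} [CommRing R]

theorem tL_eq_27 (s w : R) :
    tL27 s w (kG1 s w) (kG2 s w) = (9632368125000 * kH s w ^ 15 + 8104032382500 * kH s w ^ 12 * kT s w ^ 2 + (-63806176396800) * kH s w ^ 9 * kT s w ^ 4 + (-143803576074240) * kH s w ^ 6 * kT s w ^ 6 + (-111934439424000) * kH s w ^ 3 * kT s w ^ 8 + (-30408704000000) * kT s w ^ 10) := by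
  simp only [tL27, kG1, kG2, kH, kT]
  ring

theorem tL_eq_28 (s w : R) :
    tL28 s w (kG1 s w) (kG2 s w) = ((-21432019078125) * kH s w ^ 14 * kT s w + (-85719228804000) * kH s w ^ 11 * kT s w ^ 3 + (-128580522647040) * kH s w ^ 8 * kT s w ^ 5 + (-85731449241600) * kH s w ^ 5 * kT s w ^ 7 + (-21438136320000) * kH s w ^ 2 * kT s w ^ 9) := by
  simp only [tL28, kG1, kG2, kH, kT]
  ring

theorem tL_eq_29 (s w : R) :
    tL29 s w (kG1 s w) (kG2 s w) = ((-11210083593750) * kH s w ^ 16 + (-49873523512500) * kH s w ^ 13 * kT s w ^ 2 + (-87394892457600) * kH s w ^ 10 * kT s w ^ 4 + (-75042714746880) * kH s w ^ 7 * kT s w ^ 6 + (-31344427008000) * kH s w ^ 4 * kT s w ^ 8 + (-5033164800000) * kH s w * kT s w ^ 10) := by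
  simp only [tL29, kG1, kG2, kH, kT]
  ring

theorem tL_eq_30 (s w : R) :
    tL30 s w (kG1 s w) (kG2 s w) = (4110363984375 * kH s w ^ 15 * kT s w + 19796866155000 * kH s w ^ 12 * kT s w ^ 3 + 38083944628224 * kH s w ^ 9 * kT s w ^ 5 + 36574189977600 * kH s w ^ 6 * kT s w ^ 7 + 17532190720000 * kH s w ^ 3 * kT s w ^ 9 + 3355443200000 * kT s w ^ 11) := by
  simp only [tL30, kG1, kG2, kH, kT]
  ring

theorem kT_param (s w t : R) :
    kT (s * (1 + t * kG1 s w) ^ 5) (w * (1 - t * kG2 s w) ^ 5) = tser (kH s w) (kT s w) t := by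
  rw [t_expand, tL_eq_0, tL_eq_1, tL_eq_2, tL_eq_3, tL_eq_4, tL_eq_5, tL_eq_6, tL_eq_7, tL_eq_8, tL_eq_9, tL_eq_10, tL_eq_11, tL_eq_12, tL_eq_13, tL_eq_14, tL_eq_15, tL_eq_16, tL_eq_17, tL_eq_18, tL_eq_19, tL_eq_20, tL_eq_21, tL_eq_22, tL_eq_23, tL_eq_24, tL_eq_25, tL_eq_26, tL_eq_27, tL_eq_28, tL_eq_29, tL_eq_30]
  simp only [tser] <;> ring

end Fermat.Agent.S52x.Spec3
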