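/-
S52 (3–5 switch): **the Rubin–Silverberg family in Klein coordinates** (helper3), umbrella file.
`kH_param`, `kT_param`, `kg_param` (over any commutative ring).
-/
import Fermat.Agent.S52x.KleinFam3T4
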