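/-
S52 chunk B1b (helper7): Klein family, the `T` identity (affine form), deduced cheaply from the
`H` identity, the `g` identity, Klein's syzygy and `disc_poly`:
in the domain `ℤ[s, w, t]` one has `T(S, W)² = 1728 S W g(S, W)⁵ - H(S, W)³ = tPoly²`,
hence `T(S, W) = ± tPoly`, and the sign is `+` by specialising `t = 0`.
(A direct `ring` proof works but needs more than 15 GB of memory.)
-/
import Fermat.Agent.S52x.KleinFam7H
import Fermat.Agent.S52x.KleinFam7F
import Fermat.Agent.S52x.KleinFam7Disc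

set_option autoImplicit false

namespace Fermat.Agent.S52x.KleinFam7

variable {R : Type*} [CommRing R]

theorem tPoly_zero (h τ : R) : tPoly h τ 0 = τ := by
  unfold tPoly tc0; ring

/-- The squares agree, in any commutative ring. -/
theorem T_param_sw_sq (s w t : R) :
    Tsw (s * (1 + t * G1 s w) ^ 5) (w * (1 - t * G2 s w) ^ 5) ^ 2 =
      tPoly (Hsw s w) (Tsw s w) t ^ 2 := by
  have hsyz := syzygy_sw (s * (1 + t * G1 s w) ^ 5) (w * (1 - t * G2 s w) ^ 5)
  have hH := H_param_sw s w t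
  have hg := g_param_sw s w t
  have hd := disc_poly (Hsw s w) (Tsw s w) t
  have h0 := syzygy_sw s w
  rw [hH] at hsyz
  have e : (s * (1 + t * G1 s w) ^ 5) * (w * (1 - t * G2 s w) ^ 5) *
      gsw (s * (1 + t * G1 s w) ^ 5) (w * (1 - t * G2 s w) ^ 5) ^ 5 =
      s * w * (gsw s w * rhoPoly (Hsw s w) (Tsw s w) t) ^ 5 := by
    rw [← hg]; ring
  linear_combination hsyz + 1728 * e - hd - rhoPoly (Hsw s w) (Tsw s w) t ^ 5 * h0

/-- The generic ring `ℤ[s, w, t]`. -/
private abbrev Gen3 := MvPolynomial (Fin 3) ℤ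

private noncomputable def gen3Eval (s w t : R) : Gen3 →+* R :=
  (MvPolynomial.aeval (R := ℤ) (![s, w, t] : Fin 3 → R)).toRingHom

private theorem gen3Eval_X0 (s w t : R) : gen3Eval s w t (MvPolynomial.X 0) = s := by
  simp [gen3Eval]

private theorem gen3Eval_X1 (s w t : R) : gen3Eval s w t (MvPolynomial.X 1) = w := by
  simp [gen3Eval]

private theorem gen3Eval_X2 (s w t : R) : gen3Eval s w t (MvPolynomial.X 2) = t := by
  simp [gen3Eval]

theorem T_param_sw (s w t : R) :
    Tsw (s * (1 + t * G1 s w) ^ 5) (w * (1 - t * G2 s w) ^ 5) =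
      tPoly (Hsw s w) (Tsw s w) t := by
  have hgen : Tsw ((MvPolynomial.X 0 : Gen3) *
        (1 + MvPolynomial.X 2 * G1 (MvPolynomial.X 0) (MvPolynomial.X 1)) ^ 5)
        (MvPolynomial.X 1 *
        (1 - MvPolynomial.X 2 * G2 (MvPolynomial.X 0) (MvPolynomial.X 1)) ^ 5) =
      tPoly (Hsw (MvPolynomial.X 0) (MvPolynomial.X 1)) (Tsw (MvPolynomial.X 0) (MvPolynomial.X 1))
        (MvPolynomial.X 2) := by
    have hsq := T_param_sw_sq (MvPolynomial.X 0 : Gen3) (MvPolynomial.X 1) (MvPolynomial.X 2)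
    rcases sq_eq_sq_iff_eq_or_eq_neg.mp hsq with h | h
    · exact h
    · exfalso
      have h' := congrArg (gen3Eval (MvPolynomial.X 0 : Gen3) (MvPolynomial.X 1) 0) h
      simp only [map_Tsw, map_tPoly, map_Hsw, map_G1, map_G2, map_mul, map_add, map_sub, map_pow,
        map_neg, map_one, gen3Eval_X0, gen3Eval_X1, gen3Eval_X2, tPoly_zero, zero_mul, add_zero,
        sub_zero, one_pow, mul_one] at h'
      have h'' := congrArg (gen3Eval (1 : ℤ) 0 0) h'
      simp only [map_Tsw, map_neg, gen3Eval_X0, gen3Eval_X1] at h''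
      norm_num [Tsw] at h''
  have := congrArg (gen3Eval s w t) hgen
  simpa only [map_Tsw, map_tPoly, map_Hsw, map_G1, map_G2, map_mul, map_add, map_sub, map_pow,
    map_one, gen3Eval_X0, gen3Eval_X1, gen3Eval_X2] using this

end Fermat.Agent.S52x.KleinFam7
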