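import Mathlib

/-!
# S52 (B1a): Klein's icosahedral forms and the universal curve with full level-5 structure

Klein's forms `f` (degree 12), `H` (degree 20), `T` (degree 30) in `u, v`, written through
`s = u⁵`, `w = v⁵`:
* `Hs s w = -(s⁴+w⁴) + 228(s³w - sw³) - 494 s²w²`,
* `Ts s w = (s⁶+w⁶) + 522(s⁵w - sw⁵) - 10005(s⁴w²+s²w⁴)`,
* `gs s w = s² + 11sw - w²`, `f = u v g(u⁵,v⁵)`,
with the icosahedral syzygy `T² + H³ = 1728 f⁵`.

The universal curve is `E_p : y² = x³ + 27 H(p) x + 54 T(p)`, `Δ = -6¹² f(p)⁵`.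

This file contains only polynomial identities over an arbitrary commutative ring:
the syzygy, the factorisation `f = u v q A B`, and the identities exhibiting the *rational*
`5`-torsion point `(X₁, Y₁)` of `E_p` (attached to the vertex pair `{φ⁻¹, -φ}` of the
icosahedron), with `x(2Q) = X₂`.
-/

set_option autoImplicit false

namespace Fermat.Agent.S52x.Klein5

variable {R : Type*} [CommRing R]

/-- Klein's `H` as a quartic form in `s = u⁵`, `w = v⁵`. -/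
def Hs (s w : R) : R := -(s ^ 4 + w ^ 4) + 228 * (s ^ 3 * w - s * w ^ 3) - 494 * s ^ 2 * w ^ 2

/-- Klein's `T` as a sextic form in `s = u⁵`, `w = v⁵`. -/
def Ts (s w : R) : R :=
  (s ^ 6 + w ^ 6) + 522 * (s ^ 5 * w - s * w ^ 5) - 10005 * (s ^ 4 * w ^ 2 + s ^ 2 * w ^ 4)

/-- The quadratic form `g` with `f = u v g(u⁵, v⁵)`. -/
def gs (s w : R) : R := s ^ 2 + 11 * s * w - w ^ 2

/-- Klein's form `H` of degree `20`. -/
def kH (u v : R) : R := Hs (u ^ 5) (v ^ 5)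

/-- Klein's form `T` of degree `30`. -/
def kT (u v : R) : R := Ts (u ^ 5) (v ^ 5)

/-- Klein's form `f` of degree `12` (the vertices of the icosahedron). -/
def kf (u v : R) : R := u * v * gs (u ^ 5) (v ^ 5)

/-- The icosahedral syzygy in the variables `s, w`. -/
theorem syzygy_sw (s w : R) : Ts s w ^ 2 + Hs s w ^ 3 = 1728 * (s * w * gs s w ^ 5) := by
  simp only [Ts, Hs, gs]; ring

/-- The icosahedral syzygy `T² + H³ = 1728 f⁵`. -/
theorem syzygy (u v : R) : kT u v ^ 2 + kH u v ^ 3 = 1728 * kf u v ^ 5 := by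
  rw [kT, kH, syzygy_sw, kf]; ring

/-- `q = (u - φ⁻¹ v)(u + φ v)`. -/
def kq (u v : R) : R := u ^ 2 + u * v - v ^ 2

/-- One of the two rational quartic factors of `f`. -/
def kA (u v : R) : R := u ^ 4 - 3 * u ^ 3 * v + 4 * u ^ 2 * v ^ 2 - 2 * u * v ^ 3 + v ^ 4

/-- The other rational quartic factor of `f`. -/
def kB (u v : R) : R := u ^ 4 + 2 * u ^ 3 * v + 4 * u ^ 2 * v ^ 2 + 3 * u * v ^ 3 + v ^ 4

theorem gs_eq_mul (u v : R) : gs (u ^ 5) (v ^ 5) = kq u v * kA u v * kB u v := by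
  simp only [gs, kq, kA, kB]; ring

theorem kf_eq_mul (u v : R) : kf u v = u * v * kq u v * kA u v * kB u v := by
  rw [kf, gs_eq_mul]; ring

/-- `x`-coordinate of the rational `5`-torsion point `Q`. -/
def kX1 (u v : R) : R :=
  3 * u ^ 10 - 36 * u ^ 9 * v + 72 * u ^ 8 * v ^ 2 - 108 * u ^ 7 * v ^ 3 + 180 * u ^ 6 * v ^ 4
    - 90 * u ^ 5 * v ^ 5 + 72 * u ^ 4 * v ^ 6 + 36 * u ^ 3 * v ^ 7 + 36 * u ^ 2 * v ^ 8 + 3 * v ^ 10

/-- `x`-coordinate of `2Q`. -/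
def kX2 (u v : R) : R :=
  3 * u ^ 10 + 36 * u ^ 8 * v ^ 2 - 36 * u ^ 7 * v ^ 3 + 72 * u ^ 6 * v ^ 4 + 90 * u ^ 5 * v ^ 5
    + 180 * u ^ 4 * v ^ 6 + 108 * u ^ 3 * v ^ 7 + 72 * u ^ 2 * v ^ 8 + 36 * u * v ^ 9 + 3 * v ^ 10

/-- `y`-coordinate of the rational `5`-torsion point `Q`. -/
def kY1 (u v : R) : R := -108 * u ^ 2 * v * kA u v ^ 2 * kB u v

/-- `y`-coordinate of `±2Q`. -/
def kY2 (u v : R) : R := 108 * u * v ^ 2 * kA u v * kB u v ^ 2

/-- The cubic `x³ + a₄ x + a₆` of the universal curve. -/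
def kcub (u v x : R) : R := x ^ 3 + 27 * kH u v * x + 54 * kT u v

/-- Numerator of the duplication map on the `x`-line of the universal curve. -/
def kphi2 (u v x : R) : R :=
  x ^ 4 - 2 * (27 * kH u v) * x ^ 2 - 8 * (54 * kT u v) * x + (27 * kH u v) ^ 2

/-- `Q = (X₁, Y₁)` lies on `E_p`. -/
theorem kY1_sq (u v : R) : kY1 u v ^ 2 = kcub u v (kX1 u v) := by
  simp only [kY1, kcub, kX1, kA, kB, kH, kT, Hs, Ts]; ring

/-- `(X₂, Y₂)` lies on `E_p`. -/
theorem kY2_sq (u v : R) : kY2 u v ^ 2 = kcub u v (kX2 u v) := by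
  simp only [kY2, kcub, kX2, kA, kB, kH, kT, Hs, Ts]; ring

/-- `x(2Q) = X₂` (cleared of denominators). -/
theorem kphi2_X1 (u v : R) : kphi2 u v (kX1 u v) = kX2 u v * (4 * kcub u v (kX1 u v)) := by
  simp only [kphi2, kcub, kX1, kX2, kH, kT, Hs, Ts]; ring

/-- `x(2·2Q) = X₁` (cleared of denominators). -/
theorem kphi2_X2 (u v : R) : kphi2 u v (kX2 u v) = kX1 u v * (4 * kcub u v (kX2 u v)) := by
  simp only [kphi2, kcub, kX1, kX2, kH, kT, Hs, Ts]; ring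

theorem kX1_sub_kX2 (u v : R) : kX1 u v - kX2 u v = -36 * u * v * kA u v * kB u v := by
  simp only [kX1, kX2, kA, kB]; ring

end Fermat.Agent.S52x.Klein5
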