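/-
S52 (3–5 switch), chunk `hcop` (helper1), part 2: **the homogenisation `Hit4C.hom` of the family
polynomials `-hPoly (C (-c₄)) (C (-c₆)) X`, `-tPoly (C (-c₄)) (C (-c₆)) X` is `-hForm`, `-tForm`**,
and `hcop` in the shape of `Switch4.FamilyFacts`.
-/
import Mathlib
import Fermat.Agent.S52x.KleinFam7
import Fermat.Agent.S52x.KleinCop1
import Fermat.Agent.S52x.Hit4C

set_option autoImplicit false

namespace Fermat.Agent.S52x.KleinHom1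

open Polynomial Fermat.Agent.S52x.KleinFam7 Fermat.Agent.S52x.Hit4C

section Sum

variable {R : Type*} [CommRing R]

theorem hPolyX_eq_sum (h τ : R) :
    hPoly (C h) (C τ) (X : R[X]) = C (hc0 h τ) * X ^ 0 + C (hc1 h τ) * X ^ 1 + C (hc2 h τ) * X ^ 2 + C (hc3 h τ) * X ^ 3 + C (hc4 h τ) * X ^ 4 + C (hc5 h τ) * X ^ 5 + C (hc6 h τ) * X ^ 6 + C (hc7 h τ) * X ^ 7 + C (hc8 h τ) * X ^ 8 + C (hc9 h τ) * X ^ 9 + C (hc10 h τ) * X ^ 10 + C (hc11 h τ) * X ^ 11 + C (hc12 h τ) * X ^ 12 + C (hc13 h τ) * X ^ 13 + C (hc14 h τ) * X ^ 14 + C (hc15 h τ) * X ^ 15 + C (hc16 h τ) * X ^ 16 + C (hc17 h τ) * X ^ 17 + C (hc18 h τ) * X ^ 18 + C (hc19 h τ) * X ^ 19 + C (hc20 h τ) * X ^ 20 := by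
  unfold hPoly hc0 hc1 hc2 hc3 hc4 hc5 hc6 hc7 hc8 hc9 hc10 hc11 hc12 hc13 hc14 hc15 hc16 hc17 hc18 hc19 hc20
  simp only [map_add, map_mul, map_pow, map_neg, map_ofNat, map_one]
  ring

theorem tPolyX_eq_sum (h τ : R) :
    tPoly (C h) (C τ) (X : R[X]) = C (tc0 h τ) * X ^ 0 + C (tc1 h τ) * X ^ 1 + C (tc2 h τ) * X ^ 2 + C (tc3 h τ) * X ^ 3 + C (tc4 h τ) * X ^ 4 + C (tc5 h τ) * X ^ 5 + C (tc6 h τ) * X ^ 6 + C (tc7 h τ) * X ^ 7 + C (tc8 h τ) * X ^ 8 + C (tc9 h τ) * X ^ 9 + C (tc10 h τ) * X ^ 10 + C (tc11 h τ) * X ^ 11 + C (tc12 h τ) * X ^ 12 + C (tc13 h τ) * X ^ 13 + C (tc14 h τ) * X ^ 14 + C (tc15 h τ) * X ^ 15 + C (tc16 h τ) * X ^ 16 + C (tc17 h τ) * X ^ 17 + C (tc18 h τ) * X ^ 18 + C (tc19 h τ) * X ^ 19 + C (tc20 h τ) * X ^ 20 + C (tc21 h τ) * X ^ 21 + C (tc22 h τ) * X ^ 22 + C (tc23 h τ) * X ^ 23 + C (tc24 h τ) * X ^ 24 + C (tc25 h τ) * X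 ^ 25 + C (tc26 h τ) * X ^ 26 + C (tc27 h τ) * X ^ 27 + C (tc28 h τ) * X ^ 28 + C (tc29 h τ) * X ^ 29 + C (tc30 h τ) * X ^ 30 := by
  unfold tPoly tc0 tc1 tc2 tc3 tc4 tc5 tc6 tc7 tc8 tc9 tc10 tc11 tc12 tc13 tc14 tc15 tc16 tc17 tc18 tc19 tc20 tc21 tc22 tc23 tc24 tc25 tc26 tc27 tc28 tc29 tc30
  simp only [map_add, map_mul, map_pow, map_neg, map_ofNat, map_one]
  ring

end Sum

/-- homogenisation of the degree-20 family polynomial. -/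
theorem hom_hPolyX (h τ l m : ℤ) :
    hom (-hPoly (C h) (C τ) (X : ℤ[X])) 20 l m = -hForm h τ l m := by
  rw [hPolyX_eq_sum]
  unfold hom hForm
  simp only [Finset.sum_range_succ, Finset.sum_range_zero, coeff_neg, coeff_add,
    coeff_C_mul_X_pow]
  simp
  ring

/-- homogenisation of the degree-30 family polynomial. -/
theorem hom_tPolyX (h τ l m : ℤ) :
    hom (-tPoly (C h) (C τ) (X : ℤ[X])) 30 l m = -tForm h τ l m := by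
  rw [tPolyX_eq_sum]
  unfold hom tForm
  simp only [Finset.sum_range_succ, Finset.sum_range_zero, coeff_neg, coeff_add,
    coeff_C_mul_X_pow]
  simp
  ring

/-- **`hcop` in the shape of `Switch4.FamilyFacts`** (modulo the two line identities). -/
theorem hcop_hom (hH : KleinCop1.LineIdentH) (hT : KleinCop1.LineIdentT) (c4 c6 : ℤ) :
    ∀ l m : ℤ, IsCoprime l m → ∀ p : ℕ, p.Prime → ¬ (p : ℤ) ∣ 30 * (c4 ^ 3 - c6 ^ 2) →
      ¬ ((p : ℤ) ∣ hom (-hPoly (C (-c4)) (C (-c6)) (X : ℤ[X])) 20 l m ∧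
        (p : ℤ) ∣ hom (-tPoly (C (-c4)) (C (-c6)) (X : ℤ[X])) 30 l m) := by
  intro l m hlm p hp hpD
  rw [hom_hPolyX, hom_tPolyX, dvd_neg, dvd_neg]
  exact KleinCop1.not_dvd_forms hH hT c4 c6 l m hlm p hp hpD

end Fermat.Agent.S52x.KleinHom1
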