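import Fermat.Agent.S52x.KleinCyc5
import Fermat.Agent.S51.Torsion5

/-!
# S52 (B1a): the universal curve `E_p : y² = x³ + 27 H(p) x + 54 T(p)` has full `5`-torsion

For a field `K` of characteristic zero with `r² = 5`, `ι² = -(5+r)/2` and `p = (u, v) ∈ K²` with
`f(p) ≠ 0`, the curve `kW u v` has `Δ = -6¹² f(p)⁵ ≠ 0` and two independent points of order `5`:
* `P = (x₊, y₊)` (the subgroup attached to the vertex pair `{0, ∞}`, Galois module `μ₅`),
* `Q = (X₁, Y₁)` (the subgroup attached to `{φ⁻¹, -φ}`, rational).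
Hence `25 ≤ #E_p(K)[5]`.
-/

set_option autoImplicit false

open WeierstrassCurve WeierstrassCurve.Affine

namespace Fermat.Agent.S52x.Klein5

section Abstract

variable {A : Type*} [AddCommGroup A]

/-- reduce an integer multiple of a `5`-torsion element to one of `0, 1, 2, 3, 4`. -/
theorem zsmul_eq_nsmul_of_five {P : A} (hP : (5 : ℕ) • P = 0) (c : ℤ) :
    ∃ k : ℕ, k < 5 ∧ c • P = k • P := by
  refine ⟨(c % 5).toNat, by omega, ?_⟩
  have h5 : (5 : ℤ) • P = 0 := by exact_mod_cast hP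
  have hc : c = 5 * (c / 5) + (c % 5).toNat := by omega
  conv_lhs => rw [hc]
  rw [add_zsmul, mul_zsmul', h5, smul_zero, zero_add, natCast_zsmul]

theorem exists_bezout_five {c : ℤ} (hc : ¬ (5 : ℤ) ∣ c) : ∃ m n : ℤ, m * c + n * 5 = 1 := by
  have hcop : IsCoprime c 5 := by
    rw [Int.isCoprime_iff_gcd_eq_one]
    have h := Int.gcd_dvd_right c 5
    have h1 : Int.gcd c 5 ∣ 5 := by exact_mod_cast h
    rcases (Nat.dvd_prime (by norm_num : Nat.Prime 5)).mp h1 with h2 | h2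
    · exact h2
    · exfalso; apply hc
      have := Int.gcd_dvd_left c 5; rw [h2] at this; exact_mod_cast this
  exact hcop

theorem eq_zero_of_zsmul_of_not_dvd {R : A} (hR : (5 : ℕ) • R = 0) {c : ℤ} (hc : ¬ (5 : ℤ) ∣ c)
    (hcR : c • R = 0) : R = 0 := by
  have h5 : (5 : ℤ) • R = 0 := by exact_mod_cast hR
  obtain ⟨m, n, hmn⟩ := exists_bezout_five hc
  calc R = (m * c + n * 5) • R := by rw [hmn, one_zsmul]
    _ = 0 := by rw [add_zsmul, mul_zsmul, mul_zsmul, hcR, h5, smul_zero, smul_zero, add_zero]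

/-- Two elements of order `5`, the second not a multiple of the first, are independent. -/
theorem indep_of_not_mem {P Q : A} (hP : (5 : ℕ) • P = 0) (hQ : (5 : ℕ) • Q = 0) (hP0 : P ≠ 0)
    (hQP : ∀ k : ℕ, k < 5 → Q ≠ k • P) (a b : ℤ) (hab : a • P + b • Q = 0) :
    (5 : ℤ) ∣ a ∧ (5 : ℤ) ∣ b := by
  have h5Q : (5 : ℤ) • Q = 0 := by exact_mod_cast hQ
  have hb : (5 : ℤ) ∣ b := by
    by_contra hb
    obtain ⟨m, n, hmn⟩ := exists_bezout_five hb
    have hbQ : b • Q = (-a) • P := by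
      rw [neg_zsmul]; exact eq_neg_of_add_eq_zero_right hab
    have hQ' : Q = (m * -a) • P := by
      calc Q = (m * b + n * 5) • Q := by rw [hmn, one_zsmul]
        _ = (m * -a) • P := by
          rw [add_zsmul, mul_zsmul, mul_zsmul, h5Q, smul_zero, add_zero, hbQ, ← mul_zsmul]
    obtain ⟨k, hk, hk'⟩ := zsmul_eq_nsmul_of_five hP (m * -a)
    exact hQP k hk (hQ'.trans hk')
  have hbQ : b • Q = 0 := by
    obtain ⟨c, rfl⟩ := hb
    rw [mul_comm, mul_zsmul, h5Q, smul_zero]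
  rw [hbQ, add_zero] at hab
  refine ⟨?_, hb⟩
  by_contra ha
  exact hP0 (eq_zero_of_zsmul_of_not_dvd hP ha hab)

/-- Two independent elements of order `5` give `25` elements killed by `5`. -/
theorem card_ge_of_indep {P Q : A} (hP : (5 : ℕ) • P = 0) (hQ : (5 : ℕ) • Q = 0)
    (hind : ∀ a b : ℤ, a • P + b • Q = 0 → (5 : ℤ) ∣ a ∧ (5 : ℤ) ∣ b)
    [Finite {R : A // (5 : ℕ) • R = 0}] : 25 ≤ Nat.card {R : A // (5 : ℕ) • R = 0} := by
  let f : Fin 5 × Fin 5 → {R : A // (5 : ℕ) • R = 0} := fun ij =>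
    ⟨(ij.1 : ℕ) • P + (ij.2 : ℕ) • Q, by
      rw [smul_add, smul_comm, hP, smul_comm, hQ, smul_zero, smul_zero, add_zero]⟩
  have hf : Function.Injective f := by
    rintro ⟨i, j⟩ ⟨i', j'⟩ h
    have h1 : (i : ℕ) • P + (j : ℕ) • Q = (i' : ℕ) • P + (j' : ℕ) • Q := congrArg Subtype.val h
    have h2 : (((i : ℕ) : ℤ) - ((i' : ℕ) : ℤ)) • P + (((j : ℕ) : ℤ) - ((j' : ℕ) : ℤ)) • Q = 0 := by
      rw [sub_zsmul, sub_zsmul, natCast_zsmul, natCast_zsmul, natCast_zsmul, natCast_zsmul]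
      rw [← sub_eq_zero] at h1
      rw [← h1]; abel
    obtain ⟨ha, hb⟩ := hind _ _ h2
    have hi := i.isLt; have hi' := i'.isLt; have hj := j.isLt; have hj' := j'.isLt
    have e1 : (i : ℕ) = (i' : ℕ) := by omega
    have e2 : (j : ℕ) = (j' : ℕ) := by omega
    exact Prod.ext (Fin.ext e1) (Fin.ext e2)
  have := Nat.card_le_card_of_injective f hf
  simpa using this

end Abstract

section Short

variable {K : Type*} [Field K]

/-- The short Weierstrass curve `y² = x³ + a₄ x + a₆`. -/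
def shortW (a4 a6 : K) : Affine K := ⟨0, 0, 0, a4, a6⟩

lemma psi2_shortW (a4 a6 x : K) :
    S51.psi2 (shortW a4 a6) x = 4 * (x ^ 3 + a4 * x + a6) := by
  simp only [S51.psi2, shortW, WeierstrassCurve.b₂, WeierstrassCurve.b₄, WeierstrassCurve.b₆]
  ring

lemma phi2_shortW (a4 a6 x : K) :
    S51.phi2 (shortW a4 a6) x = x ^ 4 - 2 * a4 * x ^ 2 - 8 * a6 * x + a4 ^ 2 := by
  simp only [S51.phi2, shortW, WeierstrassCurve.b₄, WeierstrassCurve.b₆, WeierstrassCurve.b₈]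
  ring

lemma equation_shortW (a4 a6 x y : K) :
    (shortW a4 a6).Equation x y ↔ y ^ 2 = x ^ 3 + a4 * x + a6 := by
  rw [equation_iff]
  simp only [shortW]
  constructor <;> intro h <;> linear_combination h

lemma nonsingular_shortW (h2 : (2 : K) ≠ 0) {a4 a6 x y : K} (h : y ^ 2 = x ^ 3 + a4 * x + a6)
    (hy : y ≠ 0) : (shortW a4 a6).Nonsingular x y := by
  rw [nonsingular_iff']
  refine ⟨(equation_shortW ..).mpr h, Or.inr ?_⟩
  simp only [shortW]
  simpa using ⟨h2, hy⟩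

variable [DecidableEq K]

/-- A point `(x, y)` of a short Weierstrass curve with `x(2P) = x' ≠ x`, `x(2·(x',·)) = x`
is killed by `5`. -/
theorem five_nsmul_shortW (h2 : (2 : K) ≠ 0) {a4 a6 x x' y : K}
    (h : y ^ 2 = x ^ 3 + a4 * x + a6) (hy : y ≠ 0) (hc' : x' ^ 3 + a4 * x' + a6 ≠ 0)
    (hd : x ^ 4 - 2 * a4 * x ^ 2 - 8 * a6 * x + a4 ^ 2 = x' * (4 * (x ^ 3 + a4 * x + a6)))
    (hd' : x' ^ 4 - 2 * a4 * x' ^ 2 - 8 * a6 * x' + a4 ^ 2 = x * (4 * (x' ^ 3 + a4 * x' + a6)))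
    (hne : x' ≠ x) :
    S51.dblX (shortW a4 a6) x = x' ∧ S51.psi2 (shortW a4 a6) x ≠ 0 ∧
      (5 : ℕ) • Point.some x y (nonsingular_shortW h2 h hy) = 0 := by
  have h4 : (4 : K) ≠ 0 := by
    have : (4 : K) = 2 * 2 := by norm_num
    rw [this]; exact mul_ne_zero h2 h2
  have hf : S51.psi2 (shortW a4 a6) x ≠ 0 := by
    rw [psi2_shortW, ← h]; exact mul_ne_zero h4 (pow_ne_zero 2 hy)
  have hdx : S51.dblX (shortW a4 a6) x = x' := by
    rw [S51.dblX_eq_iff hf, phi2_shortW, psi2_shortW]; exact hd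
  have hf' : S51.psi2 (shortW a4 a6) x' ≠ 0 := by
    rw [psi2_shortW]; exact mul_ne_zero h4 hc'
  have hdx' : S51.dblX (shortW a4 a6) x' = x := by
    rw [S51.dblX_eq_iff hf', phi2_shortW, psi2_shortW]; exact hd'
  refine ⟨hdx, hf, S51.five_nsmul_eq_zero_of_data h2 _ hf (by rw [hdx]; exact hf')
    (by rw [hdx, hdx']) (by rw [hdx]; exact hne)⟩

/-- The nonzero multiples of a `5`-torsion point `P = (x, y)` have `x`-coordinate `x` or
`x(2P)`. -/
theorem xOf_nsmul_of_five {W : Affine K} {x y : K} (h : W.Nonsingular x y)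
    (hf : S51.psi2 W x ≠ 0) (h5 : (5 : ℕ) • Point.some x y h = 0) (k : ℕ) (hk : k < 5) :
    k • Point.some x y h = 0 ∨ S51.xOf (k • Point.some x y h) = x ∨
      S51.xOf (k • Point.some x y h) = S51.dblX W x := by
  set P := Point.some x y h with hP
  have hy : y ≠ W.negY x y := (S51.psi2_ne_zero_iff h.1).mp hf
  obtain ⟨y₂, h₂, hPP⟩ := S51.add_self_some h hy
  rw [← hP] at hPP
  have h2P : (2 : ℕ) • P = Point.some (S51.dblX W x) y₂ h₂ := by rw [two_nsmul, hPP]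
  have h3P : (3 : ℕ) • P = -((2 : ℕ) • P) := by
    rw [eq_neg_iff_add_eq_zero, ← add_nsmul]; exact h5
  have h4P : (4 : ℕ) • P = -P := by
    rw [eq_neg_iff_add_eq_zero]
    have : (4 : ℕ) • P + P = (5 : ℕ) • P := by rw [succ_nsmul (n := 4)]
    rw [this]; exact h5
  interval_cases k
  · left; exact zero_nsmul P
  · right; left; rw [one_nsmul, hP, S51.xOf_some]
  · right; right; rw [h2P, S51.xOf_some]
  · right; right; rw [h3P, S51.xOf_neg, h2P, S51.xOf_some]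
  · right; left; rw [h4P, S51.xOf_neg, hP, S51.xOf_some]

end Short

section Curve

variable {R : Type*} [CommRing R]

/-- The universal curve `E_p : y² = x³ + 27 H(p) x + 54 T(p)`, `p = (u, v)`. -/
def kW (u v : R) : WeierstrassCurve R := ⟨0, 0, 0, 27 * kH u v, 54 * kT u v⟩

/-- `Δ(E_p) = -6¹² f(p)⁵`. -/
theorem kW_Δ (u v : R) : (kW u v).Δ = -(6 ^ 12) * kf u v ^ 5 := by
  simp only [kW, WeierstrassCurve.Δ, WeierstrassCurve.b₂, WeierstrassCurve.b₄,
    WeierstrassCurve.b₆, WeierstrassCurve.b₈]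
  linear_combination (-1259712) * syzygy u v

theorem kW_c₄ (u v : R) : (kW u v).c₄ = -(6 ^ 4) * kH u v := by
  simp only [kW, WeierstrassCurve.c₄, WeierstrassCurve.b₂, WeierstrassCurve.b₄]
  ring

theorem kW_c₆ (u v : R) : (kW u v).c₆ = -(6 ^ 6) * kT u v := by
  simp only [kW, WeierstrassCurve.c₆, WeierstrassCurve.b₂, WeierstrassCurve.b₄,
    WeierstrassCurve.b₆]
  ring

end Curve

section Main

variable {K : Type*} [Field K] [CharZero K]

/-- The quadratic factor of `X₁ - x₊`. -/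
def mm (r u v : K) : K := (5 + r) * u ^ 2 + (r - 5) * u * v + (5 - r) * v ^ 2

/-- The cofactor of `mm` in `20 L₁(u⁵, v⁵)`. -/
def cp (r u v : K) : K :=
  (5 - r) * u ^ 3 + (10 - 4 * r) * u ^ 2 * v + (15 - 7 * r) * u * v ^ 2 + (15 - 7 * r) * v ^ 3

theorem kX1_sub_xP (r u v : K) :
    kX1 u v - xP r (u ^ 5) (v ^ 5) = 18 / 5 * kA u v * kB u v * mm r u v := by
  simp only [kX1, xP, kA, kB, mm]; ring

theorem mm_mul_cp {r : K} (hr : r ^ 2 = 5) (u v : K) :
    mm r u v * cp r u v = 20 * lin1 r (u ^ 5) (v ^ 5) := by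
  simp only [mm, cp, lin1]
  linear_combination
    (-u ^ 5 - 5 * u ^ 4 * v - 10 * u ^ 3 * v ^ 2 - 10 * u ^ 2 * v ^ 3 + 7 * v ^ 5) * hr

omit [CharZero K] in
theorem kW_eq_shortW (u v : K) : (kW u v).toAffine = shortW (27 * kH u v) (54 * kT u v) := rfl

variable [DecidableEq K]

/-- **B1a, basis form.**  Two independent points of order `5` on the universal curve. -/
theorem exists_basis {r ι : K} (hr : r ^ 2 = 5) (hι : ι ^ 2 = -(5 + r) / 2) {u v : K}
    (hf : kf u v ≠ 0) :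
    ∃ P Q : (kW u v).toAffine.Point, (5 : ℕ) • P = 0 ∧ (5 : ℕ) • Q = 0 ∧ P ≠ 0 ∧ Q ≠ 0 ∧
      ∀ a b : ℤ, a • P + b • Q = 0 → (5 : ℤ) ∣ a ∧ (5 : ℤ) ∣ b := by
  have h2 : (2 : K) ≠ 0 := two_ne_zero
  -- nonvanishing of the factors of `f`
  rw [kf_eq_mul] at hf
  have hB : kB u v ≠ 0 := right_ne_zero_of_mul hf
  have hf1 := left_ne_zero_of_mul hf
  have hA : kA u v ≠ 0 := right_ne_zero_of_mul hf1
  have hf2 := left_ne_zero_of_mul hf1
  have hq : kq u v ≠ 0 := right_ne_zero_of_mul hf2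
  have hf3 := left_ne_zero_of_mul hf2
  have hv : v ≠ 0 := right_ne_zero_of_mul hf3
  have hu : u ≠ 0 := left_ne_zero_of_mul hf3
  have hg : gs (u ^ 5) (v ^ 5) ≠ 0 := by
    rw [gs_eq_mul]; exact mul_ne_zero (mul_ne_zero hq hA) hB
  have hr' : (-r) ^ 2 = 5 := by rw [neg_sq]; exact hr
  have hL1 : lin1 r (u ^ 5) (v ^ 5) ≠ 0 := by
    have := lin1_mul hr (u ^ 5) (v ^ 5); rw [← this] at hg; exact left_ne_zero_of_mul hg
  have hL2 : lin1 (-r) (u ^ 5) (v ^ 5) ≠ 0 := by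
    have := lin1_mul hr (u ^ 5) (v ^ 5); rw [← this] at hg; exact right_ne_zero_of_mul hg
  have hr0 : r ≠ 0 := by
    rintro rfl; norm_num at hr
  have h3r : 3 + r ≠ 0 := by
    intro h; have : (3 + r) * (3 - r) = 4 := by linear_combination -hr
    rw [h, zero_mul] at this; norm_num at this
  have h3r' : 3 + -r ≠ 0 := by
    intro h; have : (3 + -r) * (3 + r) = 4 := by linear_combination -hr
    rw [h, zero_mul] at this; norm_num at this
  have h5r : 5 + r ≠ 0 := by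
    intro h; have : (5 + r) * (5 - r) = 20 := by linear_combination -hr
    rw [h, zero_mul] at this; norm_num at this
  have h5r' : 5 + -r ≠ 0 := by
    intro h; have : (5 + -r) * (5 + r) = 20 := by linear_combination -hr
    rw [h, zero_mul] at this; norm_num at this
  have hι0 : ι ≠ 0 := by
    rintro rfl
    have : -(5 + r) / 2 = 0 := by rw [← hι]; ring
    rw [div_eq_zero_iff] at this
    rcases this with h | h
    · exact h5r (neg_eq_zero.mp h)
    · exact h2 h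
  -- the point `P`
  have hyP : yP r ι (u ^ 5) (v ^ 5) ≠ 0 := by
    rw [yP]
    refine mul_ne_zero (mul_ne_zero (mul_ne_zero (mul_ne_zero ?_ h3r) hι0) (pow_ne_zero 2 hL1)) hL2
    norm_num
  have hcubm : (xP (-r) (u ^ 5) (v ^ 5)) ^ 3 + 27 * kH u v * xP (-r) (u ^ 5) (v ^ 5) + 54 * kT u v
      ≠ 0 := by
    have := cubS_xP hr' (u ^ 5) (v ^ 5)
    rw [neg_neg] at this
    have e : (xP (-r) (u ^ 5) (v ^ 5)) ^ 3 + 27 * kH u v * xP (-r) (u ^ 5) (v ^ 5) + 54 * kT u v =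
        cubS (u ^ 5) (v ^ 5) (xP (-r) (u ^ 5) (v ^ 5)) := rfl
    rw [e, this]
    refine mul_ne_zero (mul_ne_zero (mul_ne_zero (mul_ne_zero ?_ (pow_ne_zero 2 h3r')) ?_)
      (pow_ne_zero 4 hL2)) (pow_ne_zero 2 hL1)
    · norm_num
    · exact div_ne_zero (neg_ne_zero.mpr h5r') h2
  have hneP : xP (-r) (u ^ 5) (v ^ 5) ≠ xP r (u ^ 5) (v ^ 5) := by
    intro h
    have := xP_sub (r := r) (u ^ 5) (v ^ 5)
    rw [h, sub_self] at this
    have h' : -(36 / 5) * r * gs (u ^ 5) (v ^ 5) ≠ 0 :=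
      mul_ne_zero (mul_ne_zero (by norm_num) hr0) hg
    exact h' this.symm
  have hdP' := phi2S_xP hr' (u ^ 5) (v ^ 5)
  rw [neg_neg] at hdP'
  have hPeq : yP r ι (u ^ 5) (v ^ 5) ^ 2 = xP r (u ^ 5) (v ^ 5) ^ 3 +
      27 * kH u v * xP r (u ^ 5) (v ^ 5) + 54 * kT u v := yP_sq hr hι (u ^ 5) (v ^ 5)
  obtain ⟨hdblP, hpsiP, hP5⟩ := five_nsmul_shortW h2 (a4 := 27 * kH u v) (a6 := 54 * kT u v)
    (x := xP r (u ^ 5) (v ^ 5)) (x' := xP (-r) (u ^ 5) (v ^ 5)) (y := yP r ι (u ^ 5) (v ^ 5))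
    hPeq hyP hcubm (phi2S_xP hr (u ^ 5) (v ^ 5)) hdP' hneP
  -- the point `Q`
  have h108 : (108 : K) ≠ 0 := by norm_num
  have hyQ : kY1 u v ≠ 0 := by
    rw [kY1]
    exact mul_ne_zero (mul_ne_zero (mul_ne_zero (mul_ne_zero (neg_ne_zero.mpr h108)
      (pow_ne_zero 2 hu)) hv) (pow_ne_zero 2 hA)) hB
  have hyQ2 : kY2 u v ≠ 0 := by
    rw [kY2]
    exact mul_ne_zero (mul_ne_zero (mul_ne_zero (mul_ne_zero h108 hu) (pow_ne_zero 2 hv)) hA)
      (pow_ne_zero 2 hB)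
  have hcubQ : (kX2 u v) ^ 3 + 27 * kH u v * kX2 u v + 54 * kT u v ≠ 0 := by
    have := kY2_sq u v
    rw [kcub] at this
    rw [← this]; exact pow_ne_zero 2 hyQ2
  have hneQ : kX2 u v ≠ kX1 u v := by
    intro h
    have := kX1_sub_kX2 u v
    rw [h, sub_self] at this
    have h' : -36 * u * v * kA u v * kB u v ≠ 0 :=
      mul_ne_zero (mul_ne_zero (mul_ne_zero (mul_ne_zero (by norm_num) hu) hv) hA) hB
    exact h' this.symm
  have hQeq : kY1 u v ^ 2 = kX1 u v ^ 3 + 27 * kH u v * kX1 u v + 54 * kT u v := kY1_sq u v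
  obtain ⟨-, -, hQ5⟩ := five_nsmul_shortW h2 (a4 := 27 * kH u v) (a6 := 54 * kT u v)
    (x := kX1 u v) (x' := kX2 u v) (y := kY1 u v)
    hQeq hyQ hcubQ (kphi2_X1 u v) (kphi2_X2 u v) hneQ
  -- independence
  have hAB : 18 / 5 * kA u v * kB u v ≠ 0 := mul_ne_zero (mul_ne_zero (by norm_num) hA) hB
  have hmm : mm r u v ≠ 0 := by
    have := mm_mul_cp hr u v
    have h20 : 20 * lin1 r (u ^ 5) (v ^ 5) ≠ 0 := mul_ne_zero (by norm_num) hL1
    rw [← this] at h20; exact left_ne_zero_of_mul h20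
  have hmm' : mm (-r) u v ≠ 0 := by
    have := mm_mul_cp hr' u v
    have h20 : 20 * lin1 (-r) (u ^ 5) (v ^ 5) ≠ 0 := mul_ne_zero (by norm_num) hL2
    rw [← this] at h20; exact left_ne_zero_of_mul h20
  have hI1 : kX1 u v ≠ xP r (u ^ 5) (v ^ 5) := by
    intro h
    have := kX1_sub_xP r u v
    rw [h, sub_self] at this
    exact mul_ne_zero hAB hmm this.symm
  have hI2 : kX1 u v ≠ xP (-r) (u ^ 5) (v ^ 5) := by
    intro h
    have := kX1_sub_xP (-r) u v
    rw [h, sub_self] at this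
    exact mul_ne_zero hAB hmm' this.symm
  refine ⟨_, _, hP5, hQ5, Point.some_ne_zero _, Point.some_ne_zero _,
    indep_of_not_mem hP5 hQ5 (Point.some_ne_zero _) ?_⟩
  intro k hk heq
  have e : kX1 u v = S51.xOf (k • Point.some (xP r (u ^ 5) (v ^ 5)) (yP r ι (u ^ 5) (v ^ 5))
      (nonsingular_shortW h2 hPeq hyP)) := congrArg S51.xOf heq
  rcases xOf_nsmul_of_five _ hpsiP hP5 k hk with h0 | hx | hx
  · exact Point.some_ne_zero _ (heq.trans h0)
  · exact hI1 (e.trans hx)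
  · exact hI2 (e.trans (hx.trans hdblP))

omit [DecidableEq K] in
/-- `Δ(E_p) ≠ 0` as soon as `f(p) ≠ 0`. -/
theorem kW_Δ_ne_zero {u v : K} (hf : kf u v ≠ 0) : (kW u v).Δ ≠ 0 := by
  rw [kW_Δ]
  exact mul_ne_zero (neg_ne_zero.mpr (by norm_num)) (pow_ne_zero 5 hf)

/-- **B1a, counting form (subtype).**  `25 ≤ #E_p(K)[5]`. -/
theorem le_card_five_torsion {r ι : K} (hr : r ^ 2 = 5) (hι : ι ^ 2 = -(5 + r) / 2) {u v : K}
    (hf : kf u v ≠ 0) :
    25 ≤ Nat.card {P : (kW u v).toAffine.Point // (5 : ℕ) • P = 0} := by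
  obtain ⟨P, Q, hP, hQ, -, -, hind⟩ := exists_basis hr hι hf
  have hfin : Finite {P : (kW u v).toAffine.Point // (5 : ℕ) • P = 0} :=
    (S51.five_torsion_finite (W := (kW u v).toAffine) (by norm_num : (5 : K) ≠ 0)).1.to_subtype
  exact card_ge_of_indep hP hQ hind

/-- **B1a, counting form (`Submodule.torsionBy`).**  `25 ≤ #E_p(K)[5]`. -/
theorem le_card_torsionBy {r ι : K} (hr : r ^ 2 = 5) (hι : ι ^ 2 = -(5 + r) / 2) {u v : K}
    (hf : kf u v ≠ 0) :
    25 ≤ Nat.card (Submodule.torsionBy ℤ (kW u v).toAffine.Point ((5 : ℕ) : ℤ)) := by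
  have e : {P : (kW u v).toAffine.Point // (5 : ℕ) • P = 0} ≃
      Submodule.torsionBy ℤ (kW u v).toAffine.Point ((5 : ℕ) : ℤ) :=
    Equiv.subtypeEquivRight fun P => by
      rw [Submodule.mem_torsionBy_iff, natCast_zsmul]
  rw [← Nat.card_congr e]
  exact le_card_five_torsion hr hι hf

/-- **B1a, exact count.**  `#E_p(K)[5] = 25`. -/
theorem card_five_torsion {r ι : K} (hr : r ^ 2 = 5) (hι : ι ^ 2 = -(5 + r) / 2) {u v : K}
    (hf : kf u v ≠ 0) :
    Nat.card {P : (kW u v).toAffine.Point // (5 : ℕ) • P = 0} = 25 := by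
  refine le_antisymm ?_ (le_card_five_torsion hr hι hf)
  have h := S51.five_torsion_finite (W := (kW u v).toAffine) (by norm_num : (5 : K) ≠ 0)
  have : Nat.card {P : (kW u v).toAffine.Point // (5 : ℕ) • P = 0} =
      {P : (kW u v).toAffine.Point | (5 : ℕ) • P = 0}.ncard := rfl
  rw [this]; exact h.2

end Main

end Fermat.Agent.S52x.Klein5
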