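/-
S52 (3–5 switch), chunk B1c (helper9), file A: the local ring of the affine line at a point.

For a field `k` and `t₀ : k`:
* `At t₀ : ValuationSubring (RatFunc k)`: rational functions whose (reduced) denominator does not
  vanish at `t₀`;
* `evalAt t₀ : At t₀ →+* k`: evaluation at `t₀`, with kernel the maximal ideal;
* `coeffMap σ : RatFunc k →+* RatFunc k` for a ring endomorphism `σ` of `k` (action on coefficients),
  which preserves `At t₀` and commutes with `evalAt t₀` when `σ t₀ = t₀`.
-/
import Mathlib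

set_option autoImplicit false

open Polynomial

namespace Fermat.Agent.S52x.Spec9

variable {k : Type*} [Field k]

/-! ### the valuation subring -/

theorem denom_neg_one_eval9 (t₀ : k) : ((-1 : RatFunc k)).denom.eval t₀ ≠ 0 := by
  have h : (-1 : RatFunc k) = algebraMap k[X] (RatFunc k) (-1) := by simp
  rw [h, RatFunc.denom_algebraMap]
  simp

/-- the local ring of `𝔸¹_k` at `t₀`, as a valuation subring of `k(t)`. -/
def At (t₀ : k) : ValuationSubring (RatFunc k) where
  carrier := {f | f.denom.eval t₀ ≠ 0}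
  mul_mem' {f g} hf hg := by
    intro h
    have := Polynomial.eval_eq_zero_of_dvd_of_eval_eq_zero (RatFunc.denom_mul_dvd f g) h
    rw [Polynomial.eval_mul] at this
    rcases mul_eq_zero.mp this with h | h
    · exact hf h
    · exact hg h
  one_mem' := by simp [RatFunc.denom_one]
  add_mem' {f g} hf hg := by
    intro h
    have := Polynomial.eval_eq_zero_of_dvd_of_eval_eq_zero (RatFunc.denom_add_dvd f g) h
    rw [Polynomial.eval_mul] at this
    rcases mul_eq_zero.mp this with h | h
    · exact hf h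
    · exact hg h
  zero_mem' := by simp [RatFunc.denom_zero]
  neg_mem' {f} hf := by
    intro h
    have h1 : -f = (-1) * f := by ring
    rw [h1] at h
    have := Polynomial.eval_eq_zero_of_dvd_of_eval_eq_zero (RatFunc.denom_mul_dvd (-1) f) h
    rw [Polynomial.eval_mul] at this
    rcases mul_eq_zero.mp this with h | h
    · exact denom_neg_one_eval9 t₀ h
    · exact hf h
  mem_or_inv_mem' f := by
    by_cases hf : f = 0
    · left
      subst hf
      simp [RatFunc.denom_zero]
    by_cases hd : f.denom.eval t₀ = 0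
    · right
      intro h
      have hnum := Polynomial.eval_eq_zero_of_dvd_of_eval_eq_zero (RatFunc.denom_inv_dvd hf) h
      obtain ⟨u, v, huv⟩ := RatFunc.isCoprime_num_denom f
      have := congrArg (Polynomial.eval t₀) huv
      simp [hnum, hd] at this
    · left
      exact hd

theorem mem_At {t₀ : k} {f : RatFunc k} : f ∈ At t₀ ↔ f.denom.eval t₀ ≠ 0 := Iff.rfl

theorem algebraMap_mem_At (t₀ : k) (p : k[X]) : algebraMap k[X] (RatFunc k) p ∈ At t₀ := by
  rw [mem_At, RatFunc.denom_algebraMap]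
  simp

theorem div_mem_At {t₀ : k} (p : k[X]) {q : k[X]} (hq : q.eval t₀ ≠ 0) :
    algebraMap k[X] (RatFunc k) p / algebraMap k[X] (RatFunc k) q ∈ At t₀ := by
  rw [mem_At]
  intro h
  exact hq (Polynomial.eval_eq_zero_of_dvd_of_eval_eq_zero (RatFunc.denom_div_dvd p q) h)

/-! ### evaluation -/

/-- evaluation at `t₀`, a ring homomorphism on the local ring. -/
noncomputable def evalAt (t₀ : k) : At t₀ →+* k where
  toFun f := RatFunc.eval (RingHom.id k) t₀ (f : RatFunc k)
  map_one' := by simp
  map_mul' f g := by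
    have hf := f.2
    have hg := g.2
    rw [mem_At] at hf hg
    exact RatFunc.eval_mul _ _ (by simpa [Polynomial.eval₂_id] using hf)
      (by simpa [Polynomial.eval₂_id] using hg)
  map_zero' := by simp
  map_add' f g := by
    have hf := f.2
    have hg := g.2
    rw [mem_At] at hf hg
    exact RatFunc.eval_add _ _ (by simpa [Polynomial.eval₂_id] using hf)
      (by simpa [Polynomial.eval₂_id] using hg)

theorem evalAt_apply (t₀ : k) (f : At t₀) :
    evalAt t₀ f = (f : RatFunc k).num.eval t₀ / (f : RatFunc k).denom.eval t₀ := by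
  show RatFunc.eval (RingHom.id k) t₀ (f : RatFunc k) = _
  rw [RatFunc.eval, Polynomial.eval₂_id, Polynomial.eval₂_id]

theorem evalAt_algebraMap (t₀ : k) (p : k[X]) :
    evalAt t₀ ⟨algebraMap k[X] (RatFunc k) p, algebraMap_mem_At t₀ p⟩ = p.eval t₀ := by
  rw [evalAt_apply]
  simp [RatFunc.num_algebraMap, RatFunc.denom_algebraMap]

theorem evalAt_div (t₀ : k) (p : k[X]) {q : k[X]} (hq : q.eval t₀ ≠ 0) :
    evalAt t₀ ⟨algebraMap k[X] (RatFunc k) p / algebraMap k[X] (RatFunc k) q, div_mem_At p hq⟩ =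
      p.eval t₀ / q.eval t₀ := by
  have hq0 : q ≠ 0 := by
    rintro rfl
    simp at hq
  have hqK : algebraMap k[X] (RatFunc k) q ≠ 0 :=
    (map_ne_zero_iff _ (RatFunc.algebraMap_injective k)).mpr hq0
  have h : (⟨algebraMap k[X] (RatFunc k) p / algebraMap k[X] (RatFunc k) q, div_mem_At p hq⟩ :
      At t₀) * ⟨algebraMap k[X] (RatFunc k) q, algebraMap_mem_At t₀ q⟩ =
      ⟨algebraMap k[X] (RatFunc k) p, algebraMap_mem_At t₀ p⟩ := by
    apply Subtype.ext
    show algebraMap k[X] (RatFunc k) p / algebraMap k[X] (RatFunc k) q *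
      algebraMap k[X] (RatFunc k) q = _
    rw [div_mul_cancel₀ _ hqK]
  have h2 := congrArg (evalAt t₀) h
  rw [map_mul, evalAt_algebraMap, evalAt_algebraMap] at h2
  rw [eq_div_iff hq, h2]

/-- the kernel of evaluation is the maximal ideal. -/
theorem evalAt_eq_zero_iff (t₀ : k) (f : At t₀) :
    evalAt t₀ f = 0 ↔ f ∈ IsLocalRing.maximalIdeal (At t₀) := by
  rw [IsLocalRing.mem_maximalIdeal, mem_nonunits_iff]
  constructor
  · intro h hu
    have := hu.map (evalAt t₀)
    rw [h] at this
    exact not_isUnit_zero this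
  · intro hnu
    by_contra h
    apply hnu
    have hf0 : (f : RatFunc k) ≠ 0 := by
      intro h0
      apply h
      have : f = 0 := Subtype.ext h0
      rw [this, map_zero]
    have hnum : (f : RatFunc k).num.eval t₀ ≠ 0 := by
      intro hn
      apply h
      rw [evalAt_apply, hn, zero_div]
    have hinv : (f : RatFunc k)⁻¹ ∈ At t₀ := by
      rw [mem_At]
      intro h0
      exact hnum (Polynomial.eval_eq_zero_of_dvd_of_eval_eq_zero (RatFunc.denom_inv_dvd hf0) h0)
    refine isUnit_iff_exists_inv.mpr ⟨⟨_, hinv⟩, ?_⟩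
    apply Subtype.ext
    show (f : RatFunc k) * (f : RatFunc k)⁻¹ = 1
    exact mul_inv_cancel₀ hf0

/-- evaluation of any presentation `p / q` with `q(t₀) ≠ 0`. -/
theorem evalAt_of_eq_div (t₀ : k) (f : At t₀) (p : k[X]) {q : k[X]} (hq : q.eval t₀ ≠ 0)
    (hf : (f : RatFunc k) = algebraMap k[X] (RatFunc k) p / algebraMap k[X] (RatFunc k) q) :
    evalAt t₀ f = p.eval t₀ / q.eval t₀ := by
  rw [← evalAt_div t₀ p hq]
  congr 1
  exact Subtype.ext hf

/-! ### the action on coefficients -/

theorem coeffMap_aux9 (σ : k →+* k) :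
    nonZeroDivisors k[X] ≤ (nonZeroDivisors k[X]).comap (Polynomial.mapRingHom σ) :=
  nonZeroDivisors_le_comap_nonZeroDivisors_of_injective _
    (Polynomial.map_injective σ σ.injective)

/-- a ring endomorphism of `k` acting on the coefficients of rational functions. -/
noncomputable def coeffMap (σ : k →+* k) : RatFunc k →+* RatFunc k :=
  RatFunc.mapRingHom (Polynomial.mapRingHom σ) (coeffMap_aux9 σ)

theorem coeffMap_div (σ : k →+* k) (p q : k[X]) :
    coeffMap σ (algebraMap k[X] (RatFunc k) p / algebraMap k[X] (RatFunc k) q) =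
      algebraMap k[X] (RatFunc k) (p.map σ) / algebraMap k[X] (RatFunc k) (q.map σ) := by
  show RatFunc.map (Polynomial.mapRingHom σ) (coeffMap_aux9 σ) _ = _
  rw [RatFunc.map_apply_div]
  rfl

theorem coeffMap_algebraMap (σ : k →+* k) (p : k[X]) :
    coeffMap σ (algebraMap k[X] (RatFunc k) p) = algebraMap k[X] (RatFunc k) (p.map σ) := by
  have := coeffMap_div σ p 1
  simpa using this

theorem coeffMap_apply (σ : k →+* k) (f : RatFunc k) :
    coeffMap σ f = algebraMap k[X] (RatFunc k) (f.num.map σ) /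
      algebraMap k[X] (RatFunc k) (f.denom.map σ) := by
  conv_lhs => rw [← RatFunc.num_div_denom f]
  exact coeffMap_div σ _ _

theorem coeffMap_comp (σ τ : k →+* k) (f : RatFunc k) :
    coeffMap τ (coeffMap σ f) = coeffMap (τ.comp σ) f := by
  rw [coeffMap_apply σ f, coeffMap_div, coeffMap_apply (τ.comp σ) f, Polynomial.map_map,
    Polynomial.map_map]

theorem coeffMap_id (f : RatFunc k) : coeffMap (RingHom.id k) f = f := by
  rw [coeffMap_apply, Polynomial.map_id, Polynomial.map_id, RatFunc.num_div_denom]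

theorem eval_map_fixed9 (σ : k →+* k) {t₀ : k} (hσ : σ t₀ = t₀) (p : k[X]) :
    (p.map σ).eval t₀ = σ (p.eval t₀) := by
  conv_lhs => rw [← hσ]
  rw [Polynomial.eval_map, Polynomial.eval₂_at_apply]

theorem coeffMap_mem_At (σ : k →+* k) {t₀ : k} (hσ : σ t₀ = t₀) {f : RatFunc k}
    (hf : f ∈ At t₀) : coeffMap σ f ∈ At t₀ := by
  rw [coeffMap_apply]
  apply div_mem_At
  rw [eval_map_fixed9 σ hσ]
  exact (map_ne_zero σ).mpr hf

theorem evalAt_coeffMap (σ : k →+* k) {t₀ : k} (hσ : σ t₀ = t₀) (f : At t₀) :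
    evalAt t₀ ⟨coeffMap σ f, coeffMap_mem_At σ hσ f.2⟩ = σ (evalAt t₀ f) := by
  have hd : ((f : RatFunc k).denom.map σ).eval t₀ ≠ 0 := by
    rw [eval_map_fixed9 σ hσ]
    exact (map_ne_zero σ).mpr f.2
  rw [evalAt_of_eq_div t₀ _ ((f : RatFunc k).num.map σ) hd (coeffMap_apply σ f),
    eval_map_fixed9 σ hσ, eval_map_fixed9 σ hσ, evalAt_apply, map_div₀]

theorem coeffMap_mem_At_iff (σ : k ≃+* k) {t₀ : k} (hσ : σ t₀ = t₀) {f : RatFunc k} :
    coeffMap (σ : k →+* k) f ∈ At t₀ ↔ f ∈ At t₀ := by
  refine ⟨fun h => ?_, coeffMap_mem_At (σ : k →+* k) hσ⟩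
  have hσ' : (σ.symm : k →+* k) t₀ = t₀ := by
    show σ.symm t₀ = t₀
    rw [RingEquiv.symm_apply_eq, hσ]
  have := coeffMap_mem_At (σ.symm : k →+* k) hσ' h
  rw [coeffMap_comp] at this
  have hid : (σ.symm : k →+* k).comp (σ : k →+* k) = RingHom.id k := by
    ext x
    simp
  rwa [hid, coeffMap_id] at this

end Fermat.Agent.S52x.Spec9
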