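/-
S52 (3–5 switch), chunk B1c (helper9), file B: the specialisation homomorphism for an arbitrary
residue map.

`A` a valuation subring of a field `L`, `π : A →+* κ` a ring homomorphism to a field with kernel the
maximal ideal (`κ` need not be the canonical residue field, and `π` need not be surjective),
`WA` a Weierstrass curve over `A` whose fibre `WA.map π` is smooth.  Then there is a homomorphism
`(WA.map A.subtype).Point →+ (WA.map π).Point`, given by `π` on integral points, `0` on non-integral
points, with kernel `E₁`.  Obtained from `Red9.exists_redHom` by composing with `Point.map` along the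
embedding `IsLocalRing.ResidueField A → κ`.
-/
import Mathlib
import Fermat.Agent.ES.Q58.Red9Gal

set_option autoImplicit false

open WeierstrassCurve WeierstrassCurve.Affine
open Fermat.Agent.S05.Kernel Fermat.Agent.ES.Q58.Red9

namespace Fermat.Agent.S52x.Spec9

section SpHom

variable {L : Type*} [Field L] [DecidableEq L] (A : ValuationSubring L)
  {κ : Type*} [Field κ] [DecidableEq κ]

/-- **Specialisation homomorphism, presentation-free form, arbitrary residue map.** -/
theorem exists_spHom (π : A →+* κ) (hπ : ∀ a, π a = 0 ↔ a ∈ IsLocalRing.maximalIdeal A)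
    (W : Affine L) (W'' : Affine κ) (WA : WeierstrassCurve A)
    (hL : WA.map A.subtype = W) (hk : WA.map π = W'') (hΔ : W''.Δ ≠ 0) :
    ∃ f : W.Point →+ W''.Point,
      (∀ (x y : A) (h : W.Nonsingular (x : L) (y : L)),
        ∃ h', f (Point.some _ _ h) = Point.some (π x) (π y) h') ∧
      (∀ (x y : L) (h : W.Nonsingular x y), x ∉ A → f (Point.some _ _ h) = 0) ∧
      (∀ P, f P = 0 ↔ InE1 A.valuation P) ∧
      IntegralCoeffs A.valuation W := by
  classical
  subst hk
  have : IsLocalHom π := ⟨fun a ha => by
    by_contra hu
    have hm : a ∈ IsLocalRing.maximalIdeal A := (IsLocalRing.mem_maximalIdeal a).mpr hu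
    rw [← hπ] at hm
    rw [hm] at ha
    exact not_isUnit_zero ha⟩
  let _ : Algebra A κ := π.toAlgebra
  let ιA : kap A →ₐ[A] κ :=
    { IsLocalRing.ResidueField.lift π with
      commutes' := fun a => IsLocalRing.ResidueField.lift_residue_apply π a }
  have hΔ' : (Wk WA).Δ ≠ 0 := by
    intro h0
    apply hΔ
    rw [WeierstrassCurve.map_Δ] at h0 ⊢
    rw [hπ, ← IsLocalRing.residue_eq_zero_iff]
    exact h0
  obtain ⟨f, hf1, hf2, hf3, hint⟩ := exists_redHom A W (Wk WA) WA hL rfl hΔ'
  let g : (Wk WA).Point →+ (WA.map π).toAffine.Point := Point.map (W' := WA.toAffine) ιA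
  have hginj : Function.Injective g := Point.map_injective (W' := WA.toAffine) ιA
  refine ⟨g.comp f, ?_, ?_, ?_, hint⟩
  · intro x y h
    obtain ⟨h', hh'⟩ := hf1 x y h
    have hx : ιA (res A x) = π x := IsLocalRing.ResidueField.lift_residue_apply π x
    have hy : ιA (res A y) = π y := IsLocalRing.ResidueField.lift_residue_apply π y
    have h'' : (WA.map π).toAffine.Nonsingular (π x) (π y) := by
      have := (WeierstrassCurve.Affine.baseChange_nonsingular (W := WA.toAffine)
        (f := ιA) ιA.injective (res A x) (res A y)).mpr h'
      rw [hx, hy] at this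
      exact this
    refine ⟨h'', ?_⟩
    rw [AddMonoidHom.comp_apply, hh']
    refine (Point.map_some (W' := WA.toAffine) ιA h').trans ?_
    congr 1
  · intro x y h hx
    rw [AddMonoidHom.comp_apply, hf2 x y h hx, _root_.map_zero]
  · intro P
    rw [AddMonoidHom.comp_apply, ← hf3 P]
    constructor
    · intro h
      apply hginj
      rw [h, _root_.map_zero]
    · intro h
      rw [h, _root_.map_zero]

end SpHom

end Fermat.Agent.S52x.Spec9
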