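/-
S52 (3–5 switch), chunk B1c (helper9), file C: specialisation of torsion in a one-parameter family.

`Wp : WeierstrassCurve ℚ[X]` a family of Weierstrass curves over the `t`-line, `genHom : ℚ[X] →+* ℚ̄(t)`.
* `galPt Wp σ` : the action of `σ ∈ G_ℚ` (on coefficients of rational functions) on the points of the
  generic fibre `Wp.map genHom` over `ℚ̄(t)`;
* `exists_spec` : for rational `t` with `Δ(t) ≠ 0` the specialisation homomorphism
  `E_gen(ℚ̄(t)) →+ E_t(ℚ̄)`, injective on `n`-torsion (`n ≠ 0`) and `G_ℚ`-equivariant;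
* `exists_equiv_of_card` : if the generic fibre has (at least) `n²` points killed by the odd number `n`
  over `ℚ̄(t)`, then for any two rational `t₀, t₁` with `Δ ≠ 0` there is a `G_ℚ`-equivariant
  isomorphism `E_{t₀}[n](ℚ̄) ≃+ E_{t₁}[n](ℚ̄)`.
-/
import Mathlib
import Fermat.Prelude.Def_FLTPrelim_GaloisRep
import Fermat.Agent.S52x.Spec9A
import Fermat.Agent.S52x.Spec9B
import Fermat.Agent.DivPoly.CardEq29

set_option autoImplicit false

open WeierstrassCurve WeierstrassCurve.Affine Polynomial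
open Fermat.Agent.S05.Kernel Fermat.Agent.ES.Q58.Red9

namespace Fermat.Agent.S52x.Spec9

local notation "Qb" => AlgebraicClosure ℚ
local notation "GQ" => (AlgebraicClosure ℚ ≃ₐ[ℚ] AlgebraicClosure ℚ)
local notation "KK" => RatFunc (AlgebraicClosure ℚ)

/-- the embedding `ℚ[t] → ℚ̄(t)`. -/
noncomputable def genHom : ℚ[X] →+* KK :=
  (algebraMap Qb[X] KK).comp (Polynomial.mapRingHom (algebraMap ℚ Qb))

theorem genHom_apply (p : ℚ[X]) :
    genHom p = algebraMap Qb[X] KK (p.map (algebraMap ℚ Qb)) := rfl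

theorem genHom_mem_At (t : Qb) (p : ℚ[X]) : genHom p ∈ At t :=
  algebraMap_mem_At t _

/-- the embedding `ℚ[t] → ℚ̄[t]_{(t - t₀)}`. -/
noncomputable def genHomA (t : Qb) : ℚ[X] →+* At t :=
  genHom.codRestrict (At t).toSubring (genHom_mem_At t)

theorem subtype_comp_genHomA (t : Qb) : (At t).subtype.comp (genHomA t) = genHom := rfl

theorem evalAt_comp_genHomA (t : ℚ) :
    (evalAt (algebraMap ℚ Qb t)).comp (genHomA (algebraMap ℚ Qb t)) =
      (algebraMap ℚ Qb).comp (Polynomial.evalRingHom t) := by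
  ext p
  · show evalAt (algebraMap ℚ Qb t) ⟨algebraMap Qb[X] KK ((C p).map (algebraMap ℚ Qb)), _⟩ = _
    rw [evalAt_algebraMap]
    simp
  · show evalAt (algebraMap ℚ Qb t) ⟨algebraMap Qb[X] KK ((X : ℚ[X]).map (algebraMap ℚ Qb)), _⟩ = _
    rw [evalAt_algebraMap]
    simp

/-- the action of `G_ℚ` on `ℚ̄(t)` through the coefficients. -/
noncomputable def galK (σ : GQ) : KK →+* KK := coeffMap ((σ.toRingEquiv : Qb ≃+* Qb) : Qb →+* Qb)

theorem galK_genHom (σ : GQ) (p : ℚ[X]) : galK σ (genHom p) = genHom p := by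
  rw [genHom_apply, galK, coeffMap_algebraMap, Polynomial.map_map]
  congr 2
  ext q
  exact σ.commutes q

theorem galK_mem_At_iff (σ : GQ) (t : ℚ) {f : KK} :
    galK σ f ∈ At (algebraMap ℚ Qb t) ↔ f ∈ At (algebraMap ℚ Qb t) :=
  coeffMap_mem_At_iff σ.toRingEquiv (σ.commutes t)

theorem evalAt_galK (σ : GQ) (t : ℚ) (f : At (algebraMap ℚ Qb t)) :
    evalAt (algebraMap ℚ Qb t) ⟨galK σ f, (galK_mem_At_iff σ t).mpr f.2⟩ =
      σ (evalAt (algebraMap ℚ Qb t) f) :=
  evalAt_coeffMap ((σ.toRingEquiv : Qb ≃+* Qb) : Qb →+* Qb) (σ.commutes t) f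

section Points

variable [DecidableEq KK]

/-- `galK σ` as an algebra endomorphism over `ℚ[t]`. -/
noncomputable def galAlg9 (σ : GQ) :
    letI : Algebra ℚ[X] KK := genHom.toAlgebra
    KK →ₐ[ℚ[X]] KK :=
  letI : Algebra ℚ[X] KK := genHom.toAlgebra
  { galK σ with commutes' := fun p => galK_genHom σ p }

/-- the action of `G_ℚ` on the points of the generic fibre. -/
noncomputable def galPt (Wp : WeierstrassCurve ℚ[X]) (σ : GQ) :
    (Wp.map genHom).toAffine.Point →+ (Wp.map genHom).toAffine.Point :=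
  letI : Algebra ℚ[X] KK := genHom.toAlgebra
  Point.map (W' := Wp.toAffine) (galAlg9 σ)

theorem galPt_zero (Wp : WeierstrassCurve ℚ[X]) (σ : GQ) : galPt Wp σ 0 = 0 := rfl

theorem galPt_some (Wp : WeierstrassCurve ℚ[X]) (σ : GQ) {x y : KK}
    (h : (Wp.map genHom).toAffine.Nonsingular x y) :
    ∃ h', galPt Wp σ (Point.some x y h) = Point.some (galK σ x) (galK σ y) h' := by
  let _ : Algebra ℚ[X] KK := genHom.toAlgebra
  exact ⟨_, Point.map_some (W' := Wp.toAffine) (galAlg9 σ) h⟩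

/-- **Specialisation at a rational point of the `t`-line.** -/
theorem exists_spec (Wp : WeierstrassCurve ℚ[X]) (t : ℚ)
    (hΔ : (Wp.map (Polynomial.evalRingHom t)).Δ ≠ 0) :
    ∃ f : (Wp.map genHom).toAffine.Point →+ ((Wp.map (Polynomial.evalRingHom t))⁄Qb).Point,
      (∀ n : ℕ, n ≠ 0 → ∀ P, n • P = 0 → f P = 0 → P = 0) ∧
      (∀ (σ : GQ) P, f (galPt Wp σ P) = σ • f P) := by
  classical
  set t' : Qb := algebraMap ℚ Qb t with ht'
  set A : ValuationSubring KK := At t' with hA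
  set WA : WeierstrassCurve A := Wp.map (genHomA t') with hWA
  have hL : WA.map A.subtype = (Wp.map genHom).toAffine := by
    rw [hWA, WeierstrassCurve.map_map, subtype_comp_genHomA]
  have hk : WA.map (evalAt t') = (Wp.map (Polynomial.evalRingHom t))⁄Qb := by
    rw [hWA, WeierstrassCurve.map_map, evalAt_comp_genHomA, ← WeierstrassCurve.map_map]
    rfl
  have hΔ' : ((Wp.map (Polynomial.evalRingHom t))⁄Qb).Δ ≠ 0 := by
    show ((Wp.map (Polynomial.evalRingHom t)).map (algebraMap ℚ Qb)).Δ ≠ 0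
    rw [WeierstrassCurve.map_Δ]
    exact (_root_.map_ne_zero _).mpr hΔ
  obtain ⟨f, hf1, hf2, hf3, hint⟩ :=
    exists_spHom A (evalAt t') (evalAt_eq_zero_iff t') _ _ WA hL hk hΔ'
  refine ⟨f, ?_, ?_⟩
  · intro n hn P hnP hfP
    have hv : A.valuation ((n : ℕ) : KK) = 1 := by
      have hu : IsUnit ((n : ℕ) : A) := by
        by_contra hnu
        have hm : ((n : ℕ) : A) ∈ IsLocalRing.maximalIdeal A :=
          (IsLocalRing.mem_maximalIdeal _).mpr hnu
        rw [← evalAt_eq_zero_iff, map_natCast] at hm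
        exact hn (Nat.cast_eq_zero.mp hm)
      have := (A.valuation_eq_one_iff _).mp hu
      simpa using this
    exact eq_zero_of_nsmul_eq_zero hint ((hf3 P).mp hfP) hv hnP
  · intro σ P
    rcases P with _ | ⟨x, y, h⟩
    · show f (galPt Wp σ 0) = σ • f 0
      rw [galPt_zero, _root_.map_zero]
      rfl
    · obtain ⟨h', hh'⟩ := galPt_some Wp σ h
      show f (galPt Wp σ (Point.some x y h)) = σ • f (Point.some x y h)
      rw [hh']
      by_cases hx : x ∈ A
      · have hy : y ∈ A := y_mem_of_x_mem' hint h.1 hx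
        obtain ⟨h1, hh1⟩ := hf1 ⟨x, hx⟩ ⟨y, hy⟩ h
        have hx' : galK σ x ∈ A := (galK_mem_At_iff σ t).mpr hx
        have hy' : galK σ y ∈ A := (galK_mem_At_iff σ t).mpr hy
        obtain ⟨h2, hh2⟩ := hf1 ⟨galK σ x, hx'⟩ ⟨galK σ y, hy'⟩ h'
        rw [hh1, hh2]
        have e1 : evalAt t' ⟨galK σ x, hx'⟩ = σ (evalAt t' ⟨x, hx⟩) := evalAt_galK σ t ⟨x, hx⟩
        have e2 : evalAt t' ⟨galK σ y, hy'⟩ = σ (evalAt t' ⟨y, hy⟩) := evalAt_galK σ t ⟨y, hy⟩
        rw [WeierstrassCurve.Affine.Point.algEquiv_smul_def]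
        refine Eq.trans ?_ (Point.map_some (W' := (Wp.map (Polynomial.evalRingHom t)).toAffine)
          σ.toAlgHom h1).symm
        congr 1
      · have hx' : galK σ x ∉ A := fun hc => hx ((galK_mem_At_iff σ t).mp hc)
        rw [hf2 _ _ h' hx', hf2 _ _ h hx]
        rfl

/-- restriction of an additive homomorphism to the `n`-torsion. -/
noncomputable def torsRestrict9 {G H : Type*} [AddCommGroup G] [AddCommGroup H] (f : G →+ H)
    (n : ℤ) : Submodule.torsionBy ℤ G n →+ Submodule.torsionBy ℤ H n :=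
  AddMonoidHom.mk' (fun P => ⟨f P.1, by
    rw [Submodule.mem_torsionBy_iff, ← map_zsmul, (Submodule.mem_torsionBy_iff _ _).mp P.2,
      _root_.map_zero]⟩)
    (fun P Q => Subtype.ext (map_add f P.1 Q.1))

omit [DecidableEq (RatFunc (AlgebraicClosure ℚ))] in
theorem torsRestrict9_coe {G H : Type*} [AddCommGroup G] [AddCommGroup H] (f : G →+ H)
    (n : ℤ) (P : Submodule.torsionBy ℤ G n) : (torsRestrict9 f n P : H) = f P.1 := rfl

/-- **Specialisation of the `n`-torsion in a family**: if the generic fibre has `n²` points of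
`n`-torsion over `ℚ̄(t)`, any two smooth rational fibres have `G_ℚ`-isomorphic `n`-torsion. -/
theorem exists_equiv_of_card (Wp : WeierstrassCurve ℚ[X]) (t₀ t₁ : ℚ)
    (h0 : (Wp.map (Polynomial.evalRingHom t₀)).Δ ≠ 0)
    (h1 : (Wp.map (Polynomial.evalRingHom t₁)).Δ ≠ 0) {n : ℕ} (hn : Odd n)
    (hcard : n ^ 2 ≤
      Nat.card (Submodule.torsionBy ℤ (Wp.map genHom).toAffine.Point ((n : ℕ) : ℤ))) :
    ∃ φ : Submodule.torsionBy ℤ ((Wp.map (Polynomial.evalRingHom t₀))⁄Qb).Point ((n : ℕ) : ℤ) ≃+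
        Submodule.torsionBy ℤ ((Wp.map (Polynomial.evalRingHom t₁))⁄Qb).Point ((n : ℕ) : ℤ),
      ∀ (σ : GQ) (P : Submodule.torsionBy ℤ
        ((Wp.map (Polynomial.evalRingHom t₀))⁄Qb).Point ((n : ℕ) : ℤ)), φ (σ • P) = σ • φ P := by
  classical
  have hn0 : n ≠ 0 := by
    rintro rfl
    exact absurd hn (by decide)
  -- the key fact at each rational `t`
  have key : ∀ t : ℚ, (Wp.map (Polynomial.evalRingHom t)).Δ ≠ 0 →
      ∃ g : Submodule.torsionBy ℤ (Wp.map genHom).toAffine.Point ((n : ℕ) : ℤ) →+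
          Submodule.torsionBy ℤ ((Wp.map (Polynomial.evalRingHom t))⁄Qb).Point ((n : ℕ) : ℤ),
        Function.Bijective g ∧
        ∀ (σ : GQ) (P : Submodule.torsionBy ℤ (Wp.map genHom).toAffine.Point ((n : ℕ) : ℤ)),
          ∃ P' : Submodule.torsionBy ℤ (Wp.map genHom).toAffine.Point ((n : ℕ) : ℤ),
            (P' : (Wp.map genHom).toAffine.Point) = galPt Wp σ P.1 ∧ g P' = σ • g P := by
    intro t ht
    obtain ⟨f, hfinj, hfeq⟩ := exists_spec Wp t ht
    have hΔ' : ((Wp.map (Polynomial.evalRingHom t))⁄Qb).Δ ≠ 0 := by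
      show ((Wp.map (Polynomial.evalRingHom t)).map (algebraMap ℚ Qb)).Δ ≠ 0
      rw [WeierstrassCurve.map_Δ]
      exact (_root_.map_ne_zero _).mpr ht
    have hc : Nat.card (Submodule.torsionBy ℤ
        ((Wp.map (Polynomial.evalRingHom t))⁄Qb).Point ((n : ℕ) : ℤ)) = n ^ 2 :=
      Fermat.Agent.DivPoly.CardEq29.card_torsionBy_eq hΔ' hn
    have hfin : Finite (Submodule.torsionBy ℤ
        ((Wp.map (Polynomial.evalRingHom t))⁄Qb).Point ((n : ℕ) : ℤ)) :=
      Nat.finite_of_card_ne_zero (by rw [hc]; exact pow_ne_zero 2 hn0)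
    let g : Submodule.torsionBy ℤ (Wp.map genHom).toAffine.Point ((n : ℕ) : ℤ) →+
          Submodule.torsionBy ℤ ((Wp.map (Polynomial.evalRingHom t))⁄Qb).Point ((n : ℕ) : ℤ) :=
      torsRestrict9 (G := (Wp.map genHom).toAffine.Point)
        (H := ((Wp.map (Polynomial.evalRingHom t))⁄Qb).Point) f ((n : ℕ) : ℤ)
    have hginj : Function.Injective g := by
      rw [injective_iff_map_eq_zero]
      intro P hP
      have h1 : f P.1 = 0 := by
        have := congrArg Subtype.val hP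
        simpa [g, torsRestrict9_coe] using this
      have h2 : n • P.1 = 0 := by
        have := (Submodule.mem_torsionBy_iff _ _).mp P.2
        rwa [natCast_zsmul] at this
      exact Subtype.ext (hfinj n hn0 P.1 h2 h1)
    refine ⟨g, hginj.bijective_of_nat_card_le (by rw [hc]; exact hcard), ?_⟩
    intro σ P
    have hmem : galPt Wp σ P.1 ∈
        Submodule.torsionBy ℤ (Wp.map genHom).toAffine.Point ((n : ℕ) : ℤ) := by
      rw [Submodule.mem_torsionBy_iff]
      have h2 := (Submodule.mem_torsionBy_iff _ _).mp P.2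
      have h3 : galPt Wp σ (((n : ℕ) : ℤ) • P.1) = ((n : ℕ) : ℤ) • galPt Wp σ P.1 :=
        map_zsmul (galPt Wp σ) _ _
      rw [h2, _root_.map_zero] at h3
      exact h3.symm
    refine ⟨⟨_, hmem⟩, rfl, ?_⟩
    apply Subtype.ext
    show f (galPt Wp σ P.1) = σ • f P.1
    exact hfeq σ P.1
  obtain ⟨g0, hg0, hg0eq⟩ := key t₀ h0
  obtain ⟨g1, hg1, hg1eq⟩ := key t₁ h1
  let e0 := AddEquiv.ofBijective g0 hg0
  let e1 := AddEquiv.ofBijective g1 hg1
  refine ⟨e0.symm.trans e1, ?_⟩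
  intro σ P
  obtain ⟨Q, rfl⟩ := e0.surjective P
  obtain ⟨Q', hQ', hQ'0⟩ := hg0eq σ Q
  obtain ⟨Q'', hQ'', hQ''1⟩ := hg1eq σ Q
  have hQQ : Q'' = Q' := Subtype.ext (hQ''.trans hQ'.symm)
  subst hQQ
  have h0' : e0 Q'' = σ • e0 Q := hQ'0
  rw [← h0']
  show e1 (e0.symm (e0 Q'')) = σ • e1 (e0.symm (e0 Q))
  rw [AddEquiv.symm_apply_apply, AddEquiv.symm_apply_apply]
  exact hQ''1

/-! ### short Weierstrass families `y² = x³ + a₄(t) x + a₆(t)` -/

/-- the short Weierstrass family with coefficients `a₄(t), a₆(t)`. -/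
noncomputable def shortFam (a4 a6 : ℚ[X]) : WeierstrassCurve ℚ[X] := ⟨0, 0, 0, a4, a6⟩

/-- the fibre at `t` of the short family. -/
def shortAt (a4 a6 : ℚ[X]) (t : ℚ) : WeierstrassCurve ℚ := ⟨0, 0, 0, a4.eval t, a6.eval t⟩

/-- the generic fibre of the short family, over `ℚ̄(t)`. -/
noncomputable def shortGen (a4 a6 : ℚ[X]) : WeierstrassCurve KK :=
  ⟨0, 0, 0, genHom a4, genHom a6⟩

omit [DecidableEq (RatFunc (AlgebraicClosure ℚ))] in
theorem shortFam_map_eval (a4 a6 : ℚ[X]) (t : ℚ) :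
    (shortFam a4 a6).map (Polynomial.evalRingHom t) = shortAt a4 a6 t := by
  ext <;> simp [shortFam, shortAt]

omit [DecidableEq (RatFunc (AlgebraicClosure ℚ))] in
theorem shortFam_map_genHom (a4 a6 : ℚ[X]) :
    (shortFam a4 a6).map genHom = shortGen a4 a6 := by
  ext <;> simp [shortFam, shortGen]

/-- **Specialisation of `n`-torsion for short Weierstrass families.** -/
theorem exists_equiv_short (a4 a6 : ℚ[X]) (t₀ t₁ : ℚ)
    (h0 : (shortAt a4 a6 t₀).Δ ≠ 0) (h1 : (shortAt a4 a6 t₁).Δ ≠ 0) {n : ℕ} (hn : Odd n)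
    (hcard : n ^ 2 ≤
      Nat.card (Submodule.torsionBy ℤ (shortGen a4 a6).toAffine.Point ((n : ℕ) : ℤ))) :
    ∃ φ : Submodule.torsionBy ℤ ((shortAt a4 a6 t₀)⁄Qb).Point ((n : ℕ) : ℤ) ≃+
        Submodule.torsionBy ℤ ((shortAt a4 a6 t₁)⁄Qb).Point ((n : ℕ) : ℤ),
      ∀ (σ : GQ) (P : Submodule.torsionBy ℤ ((shortAt a4 a6 t₀)⁄Qb).Point ((n : ℕ) : ℤ)),
        φ (σ • P) = σ • φ P := by
  rw [← shortFam_map_eval] at h0 h1
  rw [← shortFam_map_genHom] at hcard
  have := exists_equiv_of_card (shortFam a4 a6) t₀ t₁ h0 h1 hn hcard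
  rw [shortFam_map_eval, shortFam_map_eval] at this
  exact this

end Points

end Fermat.Agent.S52x.Spec9
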