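/-
S52 (3–5 switch), chunk B1c (helper9), file D: from a family `y² = x³ - 27 C₄(t) x - 54 C₆(t)` over
`ℚ[t]` whose generic fibre has full `5`-torsion over `ℚ̄(t)` to `Top4.FiveHom W W'` for integral
models `W`, `W'` of two fibres (wiring of `Spec9C.exists_equiv_short`, `Twist4`, `Top4`).
-/
import Mathlib
import Fermat.Agent.S52x.Spec9C
import Fermat.Agent.S52x.Twist4

set_option autoImplicit false

open WeierstrassCurve WeierstrassCurve.Affine Polynomial

namespace Fermat.Agent.S52x.Spec9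

open Fermat.Agent.S52x.Twist4

local notation "Qb" => AlgebraicClosure ℚ
local notation "GQ" => (AlgebraicClosure ℚ ≃ₐ[ℚ] AlgebraicClosure ℚ)
local notation "KK" => RatFunc (AlgebraicClosure ℚ)

theorem shortAt_eq_short (C4 C6 : ℚ[X]) (t : ℚ) :
    shortAt (-27 * C4) (-54 * C6) t = short (C4.eval t) (C6.eval t) := by
  ext <;> simp [shortAt, short]

theorem short_Δ_ne_zero9 (E : WeierstrassCurve ℚ) (hΔ : E.Δ ≠ 0) : (short E.c₄ E.c₆).Δ ≠ 0 := by
  rw [short_eq_smul, WeierstrassCurve.variableChange_Δ]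
  exact mul_ne_zero (by simp [toShort]) hΔ

variable [DecidableEq KK]

/-- **`FiveHomQ` between two fibres of a family with full generic `5`-torsion.** -/
theorem fiveHomQ_of_family (C4 C6 : ℚ[X]) (t₀ t₁ : ℚ)
    (h0 : (short (C4.eval t₀) (C6.eval t₀)).Δ ≠ 0) (h1 : (short (C4.eval t₁) (C6.eval t₁)).Δ ≠ 0)
    (hcard : 25 ≤ Nat.card (Submodule.torsionBy ℤ
      (shortGen (-27 * C4) (-54 * C6)).toAffine.Point ((5 : ℕ) : ℤ))) :
    FiveHomQ (short (C4.eval t₀) (C6.eval t₀)) (short (C4.eval t₁) (C6.eval t₁)) := by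
  rw [← shortAt_eq_short] at h0 h1 ⊢
  rw [← shortAt_eq_short]
  obtain ⟨φ, hφ⟩ := exists_equiv_short (-27 * C4) (-54 * C6) t₀ t₁ h0 h1 (n := 5) (by decide)
    (by simpa using hcard)
  exact ⟨φ.toAddMonoidHom, φ.injective, hφ⟩

/-- **`FiveHom` between integral models of two fibres of a family with full generic
`5`-torsion.** -/
theorem fiveHom_of_family (W W' : WeierstrassCurve ℤ) (hΔ : W.Δ ≠ 0) (hΔ' : W'.Δ ≠ 0)
    (C4 C6 : ℚ[X]) (t₀ t₁ : ℚ)
    (h40 : C4.eval t₀ = W.c₄) (h60 : C6.eval t₀ = W.c₆)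
    (h41 : C4.eval t₁ = W'.c₄) (h61 : C6.eval t₁ = W'.c₆)
    (hcard : 25 ≤ Nat.card (Submodule.torsionBy ℤ
      (shortGen (-27 * C4) (-54 * C6)).toAffine.Point ((5 : ℕ) : ℤ))) :
    Top4.FiveHom W W' := by
  apply fiveHom_of_short
  rw [← h40, ← h60, ← h41, ← h61]
  apply fiveHomQ_of_family C4 C6 t₀ t₁ _ _ hcard
  · rw [h40, h60]
    have := short_Δ_ne_zero9 (W.map (Int.castRingHom ℚ))
      (by rw [WeierstrassCurve.map_Δ]; simpa using hΔ)
    simpa [WeierstrassCurve.map_c₄, WeierstrassCurve.map_c₆] using this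
  · rw [h41, h61]
    have := short_Δ_ne_zero9 (W'.map (Int.castRingHom ℚ))
      (by rw [WeierstrassCurve.map_Δ]; simpa using hΔ')
    simpa [WeierstrassCurve.map_c₄, WeierstrassCurve.map_c₆] using this

end Fermat.Agent.S52x.Spec9
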