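/-
S52 (3–5 switch), final assembly, Klein-link variant (helper8; the proof is helper4's
`Switch4.switch_of_family` with the last step changed): the hypothesis `hsw` of
`Spec3.s52_of_kleinSwitch` from

* `HasKleinFamily c₄ c₆`: the facts about the `X_E(5)`-family (B1), with the Klein parametrisation
  `C4 = -kH S T`, `C6 = -kT S T` over `ℚ̄[t]` in place of the `FiveHomQ` clause (so that only ONE
  polynomial `5`-torsion point is needed: `Spec3.five_dvd_of_kleinLink`), and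
* the Hilbert-irreducibility-lite output `Hit8E.exists_no_int_root` (B3),

using `Model4.exists_model` (B2), `NoRoot4.no_root` (H4).
-/
import Mathlib
import Fermat.Agent.S52x.Switch4
import Fermat.Agent.S52x.Hit8E
import Fermat.Agent.S52x.Spec3S52

set_option autoImplicit false

open WeierstrassCurve WeierstrassCurve.Affine WeierstrassCurve.Affine.Point

namespace Fermat.Agent.S52x.Switch8

open Fermat.Agent.S51 Fermat.Agent.S52x.Theta4 Fermat.Agent.S52x.Hit4C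
open Fermat.Agent.S52x.Switch4 Fermat.Agent.S52x.Spec3
open Polynomial

local notation "Qb" => AlgebraicClosure ℚ

/-- the facts about the family through `(c₄, c₆)` (B1), Klein-link variant. -/
def HasKleinFamily (c4 c6 : ℤ) : Prop :=
  ∃ C4 C6 F : ℤ[X], C4.natDegree ≤ 20 ∧ C6.natDegree ≤ 30 ∧ C4.eval 0 = c4 ∧ C6.eval 0 = c6 ∧
    C4 ^ 3 - C6 ^ 2 = C (c4 ^ 3 - c6 ^ 2) * F ^ 5 ∧
    Squarefree (F.map (Int.castRingHom ℚ)) ∧
    IsCoprime (C4.map (Int.castRingHom ℚ)) (F.map (Int.castRingHom ℚ)) ∧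
    7 ≤ (F.map (Int.castRingHom ℚ)).natDegree ∧
    (∀ l m : ℤ, IsCoprime l m → ∀ p : ℕ, p.Prime → ¬ (p : ℤ) ∣ 30 * (c4 ^ 3 - c6 ^ 2) →
      ¬ ((p : ℤ) ∣ hom C4 20 l m ∧ (p : ℤ) ∣ hom C6 30 l m)) ∧
    ∃ S T : Qb[X],
      (C4.map (Int.castRingHom ℚ)).map (algebraMap ℚ Qb) = -kH S T ∧
      (C6.map (Int.castRingHom ℚ)).map (algebraMap ℚ Qb) = -kT S T

/-- **the switch, Klein-link variant.** -/
theorem kleinSwitch_of_family
    (hfam : ∀ W : WeierstrassCurve ℤ, W.Δ ≠ 0 → W.IsSemistableModel →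
      HasKleinFamily W.c₄ W.c₆)
    (W : WeierstrassCurve ℤ) (hΔ : W.Δ ≠ 0) (hW : W.IsSemistableModel) :
    ∃ W' : WeierstrassCurve ℤ, W'.Δ ≠ 0 ∧ W'.IsSemistableModel ∧ W'.ModRepIsIrreducible 3 ∧
      KleinLink W W' := by
  obtain ⟨C4, C6, F, hd4, hd6, h40, h60, hdisc, hsq, hcopF, hdegF, hcop, S, T, hS, hT⟩ :=
    hfam W hΔ hW
  have hrel := W.c_relation
  have hD : W.c₄ ^ 3 ≠ W.c₆ ^ 2 := by
    intro h
    apply hΔ
    have : 1728 * W.Δ = 0 := by rw [hrel, h, sub_self]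
    exact (mul_eq_zero.mp this).resolve_left (by norm_num)
  -- the modulus
  set M : ℤ := |1728 * 30 * W.Δ| with hM
  have hMpos : 0 < M := abs_pos.mpr (mul_ne_zero (by norm_num) hΔ)
  have hMdvd : 1728 * 30 * W.Δ ∣ M := (dvd_abs _ _).mpr dvd_rfl
  -- (H4)
  have hDq : ((W.c₄ ^ 3 - W.c₆ ^ 2 : ℤ) : ℚ) ≠ 0 := by
    exact_mod_cast sub_ne_zero.mpr hD
  have hdiscq : (C4.map (Int.castRingHom ℚ)) ^ 3 - (C6.map (Int.castRingHom ℚ)) ^ 2 =
      C ((W.c₄ ^ 3 - W.c₆ ^ 2 : ℤ) : ℚ) * (F.map (Int.castRingHom ℚ)) ^ 5 := by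
    have := congrArg (Polynomial.map (Int.castRingHom ℚ)) hdisc
    simpa using this
  have H4 : ∀ ε : ℚ[X],
      theta (C4.map (Int.castRingHom ℚ)) (C6.map (Int.castRingHom ℚ)) ε ≠ 0 :=
    NoRoot4.no_root hDq hdiscq hsq hcopF hdegF (natDegree_map_le.trans hd4)
      (natDegree_map_le.trans hd6)
  -- the member of the family
  obtain ⟨n, -, hn⟩ :=
    Hit8E.exists_no_int_root W.c₄ W.c₆ hD C4 C6 h40 h60 hd4 hd6 M hMpos H4 0
  set N : ℤ := 1 + M * n with hN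
  set c4' : ℤ := hom C4 20 N M with hc4'
  set c6' : ℤ := hom C6 30 N M with hc6'
  have hNM : M ∣ N - 1 := ⟨n, by rw [hN]; ring⟩
  have hNpos : 0 < N := by
    have : 0 ≤ M * n := mul_nonneg hMpos.le (Int.natCast_nonneg n)
    omega
  have h4 : 1728 * 30 * W.Δ ∣ c4' - W.c₄ := by
    rw [← h40]
    exact hMdvd.trans (dvd_hom_sub C4 20 N M hNM)
  have h6 : 1728 * 30 * W.Δ ∣ c6' - W.c₆ := by
    rw [← h60]
    exact hMdvd.trans (dvd_hom_sub C6 30 N M hNM)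
  have hne : c4' ^ 3 ≠ c6' ^ 2 := by
    obtain ⟨k4, hk4⟩ := h4
    obtain ⟨k6, hk6⟩ := h6
    intro h
    have e4 : c4' = W.c₄ + 1728 * 30 * W.Δ * k4 := by linarith
    have e6 : c6' = W.c₆ + 1728 * 30 * W.Δ * k6 := by linarith
    have : 1728 * W.Δ * (1 + 30 * (k4 * (3 * W.c₄ ^ 2 + 3 * W.c₄ * (1728 * 30 * W.Δ * k4) +
        (1728 * 30 * W.Δ * k4) ^ 2) - k6 * (2 * W.c₆ + 1728 * 30 * W.Δ * k6))) = 0 := by
      have h' : c4' ^ 3 - c6' ^ 2 = 0 := by rw [h, sub_self]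
      rw [e4, e6] at h'
      linear_combination h' + hrel
    rcases mul_eq_zero.mp this with h0 | h0
    · exact hΔ ((mul_eq_zero.mp h0).resolve_left (by norm_num))
    · omega
  have hcop' : ∀ p : ℕ, p.Prime → ¬ (p : ℤ) ∣ 30 * W.Δ → ¬ ((p : ℤ) ∣ c4' ∧ (p : ℤ) ∣ c6') := by
    intro p hp hpΔ
    refine hcop N M ⟨1, -(n : ℤ), by rw [hN]; ring⟩ p hp ?_
    intro hdvd
    apply hpΔ
    rw [← hrel] at hdvd
    have hp' : Prime (p : ℤ) := Nat.prime_iff_prime_int.mp hp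
    rcases hp'.dvd_or_dvd hdvd with h30 | h1728
    · exact Dvd.dvd.mul_right h30 _
    · rcases hp'.dvd_or_dvd h1728 with h' | h'
      · have : (p : ℤ) ∣ 30 := by
          have h1728' : (1728 : ℤ) = 2 ^ 6 * 3 ^ 3 := by norm_num
          rw [h1728'] at h'
          rcases hp'.dvd_or_dvd h' with h2 | h3
          · exact (hp'.dvd_of_dvd_pow h2).trans (by norm_num)
          · exact (hp'.dvd_of_dvd_pow h3).trans (by norm_num)
        exact Dvd.dvd.mul_right this _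
      · exact Dvd.dvd.mul_left h' _
  obtain ⟨W', hW'4, hW'6, hΔ', hW'ss, -, -, -⟩ :=
    Model4.exists_model W hW c4' c6' h4 h6 hne hcop'
  refine ⟨W', hΔ', hW'ss, ?_, ?_⟩
  · -- `W'[3]` is irreducible
    by_contra hred
    obtain ⟨e, he⟩ := int_root_of_not_irreducible W' hΔ' hred
    rw [hW'4, hW'6] at he
    exact hn e he
  · -- `KleinLink W W'`
    have hNq : (N : ℚ) ≠ 0 := Int.cast_ne_zero.mpr hNpos.ne'
    refine ⟨C4.map (Int.castRingHom ℚ), C6.map (Int.castRingHom ℚ), S, T, 1, (M : ℚ) / N,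
      (N : ℚ) ^ 5, hS, hT, one_ne_zero, ?_, ?_, pow_ne_zero 5 hNq, ?_, ?_⟩
    · rw [one_pow, one_mul, eval_map, eval₂_at_zero, coeff_zero_eq_eval_zero, h40]
      rfl
    · rw [one_pow, one_mul, eval_map, eval₂_at_zero, coeff_zero_eq_eval_zero, h60]
      rfl
    · rw [hW'4, hc4', hom_cast_rat C4 20 hd4 N M hNpos.ne']
      ring
    · rw [hW'6, hc6', hom_cast_rat C6 30 hd6 N M hNpos.ne']
      ring

/-- **S52 from the Klein family facts.** -/
theorem s52_of_kleinFamily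
    (hfam : ∀ W : WeierstrassCurve ℤ, W.Δ ≠ 0 → W.IsSemistableModel →
      HasKleinFamily W.c₄ W.c₆)
    (W : WeierstrassCurve ℤ) (hΔ : W.Δ ≠ 0) (hW : W.IsSemistableModel)
    (h5 : W.ModRepIsIrreducible 5) :
    ∃ W' : WeierstrassCurve ℤ, W'.Δ ≠ 0 ∧ W'.IsSemistableModel ∧ W'.ModRepIsIrreducible 3 ∧
      ∀ ℓ : ℕ, ℓ.Prime → W.IsGoodPrimeFor ℓ → W'.IsGoodPrimeFor ℓ → ℓ ≠ 5 →
        (5 : ℤ) ∣ (W'.apOfModel ℓ - W.apOfModel ℓ) :=
  s52_of_kleinSwitch (fun W hΔ hW _ _ => kleinSwitch_of_family hfam W hΔ hW) W hΔ hW h5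

end Fermat.Agent.S52x.Switch8
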